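import Mathlib
import Fermat.Prelude.Def_EllipticCurve_FrobeniusTrace
import Fermat.Prelude.Def_FLTPrelim_Ramification
import Fermat.Agent.Lib.FrobeniusExists

/-!
# S37, package FROB: existence of a Frobenius element at EVERY valuation subring over a prime

The proof of the library lemma for some valuation subring works for every one of them; it is
repeated here for a given valuation subring, on top of the public lemmas of the library file.
-/

set_option autoImplicit false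

namespace Fermat.Agent.S37

open Polynomial
open scoped Pointwise
open Fermat.Agent.Lib.FrobeniusExists

local notation "Qbar" => AlgebraicClosure ℚ

attribute [local instance] instIsAlgebraicQbar instIsAlgClosureQbar instIsGaloisQbar
  zbarTopology zbarDiscrete

theorem s37_exists_frobenius (ℓ : ℕ) (hℓ : ℓ.Prime) (V : ValuationSubring (AlgebraicClosure ℚ))
    (hV : V.LiesOverPrime ℓ) :
    ∃ σ : AlgebraicClosure ℚ ≃ₐ[ℚ] AlgebraicClosure ℚ, V.IsFrobeniusAt σ ℓ := by
  have hV : (ℓ : Qbar) ∈ V.nonunits := hV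
  have : Fact ℓ.Prime := ⟨hℓ⟩
  have hℓQ : ((ℓ : ℕ) : Zbar ⧸ primeBelow V) = 0 := by
    have h1 : ((ℓ : ℕ) : Zbar ⧸ primeBelow V) = Ideal.Quotient.mk (primeBelow V) ((ℓ : ℕ) : Zbar) := by
      simp
    rw [h1, Ideal.Quotient.eq_zero_iff_mem, mem_primeBelow]
    simpa using (V.mem_nonunits_iff).mp hV
  have : CharP (Zbar ⧸ primeBelow V) ℓ := (CharP.charP_iff_prime_eq_zero hℓ).mpr hℓQ
  have hinj : Function.Injective (frobenius (Zbar ⧸ primeBelow V) ℓ) := frobenius_inj _ ℓ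
  have hsurj : Function.Surjective (frobenius (Zbar ⧸ primeBelow V) ℓ) := by
    intro y
    obtain ⟨b, rfl⟩ := Ideal.Quotient.mk_surjective y
    obtain ⟨c, hc⟩ := IsAlgClosed.exists_pow_nat_eq (b : Qbar) hℓ.pos
    have hcint : IsIntegral ℤ c := IsIntegral.of_pow hℓ.pos (hc ▸ b.2)
    refine ⟨Ideal.Quotient.mk (primeBelow V) ⟨c, hcint⟩, ?_⟩
    rw [frobenius_def, ← map_pow]
    congr 1
    exact Subtype.ext hc
  let frobE : (Zbar ⧸ primeBelow V) ≃ₐ[ℤ ⧸ (primeBelow V).under ℤ] (Zbar ⧸ primeBelow V) :=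
    { RingEquiv.ofBijective (frobenius (Zbar ⧸ primeBelow V) ℓ) ⟨hinj, hsurj⟩ with
      commutes' := by
        intro r
        obtain ⟨n, rfl⟩ := Ideal.Quotient.mk_surjective r
        rw [eq_intCast (Ideal.Quotient.mk _) n, map_intCast]
        exact map_intCast (frobenius _ ℓ) n }
  have := zbar_isInvariant
  have := zbar_continuousSMul
  obtain ⟨⟨σ, hσQ⟩, hσ⟩ := Ideal.Quotient.stabilizerHom_surjective_of_profinite
    (G := Qbar ≃ₐ[ℚ] Qbar) ((primeBelow V).under ℤ) (primeBelow V) frobE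
  have hfrob : ∀ b : Zbar, V.valuation (σ (b : Qbar) - (b : Qbar) ^ ℓ) < 1 := by
    intro b
    have h1 := congrArg (fun f => f (Ideal.Quotient.mk (primeBelow V) b)) hσ
    have h2 : Ideal.Quotient.mk (primeBelow V) (σ • b) = Ideal.Quotient.mk (primeBelow V) (b ^ ℓ) := by
      rw [map_pow]
      exact h1
    exact Ideal.Quotient.eq.mp h2
  have hσQ' : σ • primeBelow V = primeBelow V := hσQ
  have hstab : ∀ τ : Qbar ≃ₐ[ℚ] Qbar, τ • primeBelow V = primeBelow V →
      ∀ b : Zbar, b ∉ primeBelow V → τ • b ∉ primeBelow V := by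
    intro τ hτ b hb hmem
    have h1 : τ • b ∈ τ • primeBelow V := hτ.symm ▸ hmem
    exact hb (Ideal.smul_mem_pointwise_smul_iff.mp h1)
  have halg : ∀ x : Qbar, IsAlgebraic ℤ x := fun x =>
    (IsFractionRing.isAlgebraic_iff ℤ ℚ Qbar).mpr (Algebra.IsAlgebraic.isAlgebraic x)
  have hmapV : ∀ τ : Qbar ≃ₐ[ℚ] Qbar, τ • primeBelow V = primeBelow V → ∀ x ∈ V, τ x ∈ V := by
    intro τ hτ x hx
    obtain ⟨s, hs, hsV, hsx⟩ := exists_denominator V ℓ hℓ hV x hx (halg x)
    have hsb : (⟨s, hs⟩ : Zbar) ∉ primeBelow V := fun h => hsV ((V.mem_nonunits_iff).mpr h)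
    have h1 : V.valuation (τ s) = 1 := valuation_eq_one_of_not_mem V _ (hstab τ hτ _ hsb)
    have h2 : V.valuation (τ (s * x)) ≤ 1 :=
      (V.valuation_le_one_iff _).mpr (integral_mem V _ (map_isIntegral_int τ hsx))
    rw [map_mul, map_mul, h1, one_mul] at h2
    exact (V.valuation_le_one_iff _).mp h2
  have hσinv : σ⁻¹ • primeBelow V = primeBelow V := by
    rw [inv_smul_eq_iff]
    exact hσQ'.symm
  have hσD : σ ∈ V.decompositionSubgroup ℚ := by
    rw [MulAction.mem_stabilizer_iff]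
    apply SetLike.ext
    intro x
    rw [ValuationSubring.mem_pointwise_smul_iff_inv_smul_mem]
    constructor
    · intro hx
      have h1 := hmapV σ hσQ' _ hx
      rwa [AlgEquiv.smul_def, ← AlgEquiv.mul_apply, mul_inv_cancel, AlgEquiv.one_apply] at h1
    · intro hx
      exact hmapV σ⁻¹ hσinv x hx
  refine ⟨σ, hσD, ?_⟩
  intro y
  obtain ⟨x, rfl⟩ := IsLocalRing.residue_surjective y
  rw [← IsLocalRing.ResidueField.residue_smul, ← map_pow, ← sub_eq_zero, ← map_sub,
    IsLocalRing.residue_eq_zero_iff, ValuationSubring.valuation_lt_one_iff]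
  obtain ⟨s, hs, hsV, hsx⟩ := exists_denominator V ℓ hℓ hV x x.2 (halg x)
  have hsb : (⟨s, hs⟩ : Zbar) ∉ primeBelow V := fun h => hsV ((V.mem_nonunits_iff).mpr h)
  have hs1 : V.valuation s = 1 := valuation_eq_one_of_not_mem V _ hsb
  have hσs1 : V.valuation (σ s) = 1 := valuation_eq_one_of_not_mem V _ (hstab σ hσQ' _ hsb)
  have ht1 : V.valuation (s * x) ≤ 1 := (V.valuation_le_one_iff _).mpr (integral_mem V _ hsx)
  have hFs := hfrob ⟨s, hs⟩
  have hFt := hfrob ⟨s * x, hsx⟩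
  have hcoe : (((⟨σ, hσD⟩ : V.decompositionSubgroup ℚ) • x - x ^ ℓ : V) : Qbar)
      = σ (x : Qbar) - (x : Qbar) ^ ℓ := rfl
  rw [hcoe]
  have hid : (σ (x : Qbar) - (x : Qbar) ^ ℓ) * (σ s * s ^ ℓ) =
      (σ (s * x) - (s * x) ^ ℓ) * s ^ ℓ - (s * x) ^ ℓ * (σ s - s ^ ℓ) := by
    rw [map_mul]
    ring
  have hlhs : V.valuation ((σ (x : Qbar) - (x : Qbar) ^ ℓ) * (σ s * s ^ ℓ)) =
      V.valuation (σ (x : Qbar) - (x : Qbar) ^ ℓ) := by
    rw [map_mul, map_mul, map_pow, hσs1, hs1, one_pow, one_mul, mul_one]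
  rw [← hlhs, hid]
  apply Valuation.map_sub_lt
  · rw [map_mul, map_pow, hs1, one_pow, mul_one]
    exact hFt
  · rw [map_mul, map_pow]
    calc V.valuation (s * x) ^ ℓ * V.valuation (σ s - s ^ ℓ)
        ≤ 1 * V.valuation (σ s - s ^ ℓ) := mul_le_mul' (pow_le_one' ht1 ℓ) le_rfl
      _ < 1 := by rw [one_mul]; exact hFs


end Fermat.Agent.S37
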