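import Fermat.Agent.S37.ESTors
import Fermat.Agent.S37.Frob

/-!
# S37, by-product: the Hecke operators commute with the Galois action on torsion points

* `est_conj_isFrobeniusAt`: if `σ` is a Frobenius element of the valuation subring `A`, then
  `τ σ τ⁻¹` is a Frobenius element of the conjugate valuation subring `τ • A`;
* `est_hecke_galois`: for a prime `ℓ ∤ N m`, the Hecke operator `T_ℓ` commutes with the action
  of the absolute Galois group on the `m`-torsion of `J₀(N)`.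

The second statement follows from the Eichler–Shimura relation `T_ℓ ∘ σ = σ² + ℓ` of
`ESTors.lean`, valid for every Frobenius element at every place over `ℓ`.
-/

set_option autoImplicit false

open ModularCurve AlgebraicCurve
open scoped Pointwise

namespace Fermat.Agent.S37

local notation "Qb" => AlgebraicClosure ℚ

section Conj

variable {K L : Type*} [Field K] [Field L] [Algebra K L]

/-- The non-units of a valuation subring: `0`, and the elements whose inverse is not in it. -/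
theorem est_mem_nonunits_iff (A : ValuationSubring L) (x : L) :
    x ∈ A.nonunits ↔ x = 0 ∨ x⁻¹ ∉ A := by
  rw [ValuationSubring.mem_nonunits_iff, ← ValuationSubring.valuation_le_one_iff]
  rcases eq_or_ne x 0 with rfl | hx
  · simp
  · have hv : A.valuation x ≠ 0 := (Valuation.ne_zero_iff _).mpr hx
    rw [map_inv₀, not_le]
    constructor
    · intro h
      exact Or.inr ((one_lt_inv₀ (zero_lt_iff.mpr hv)).mpr h)
    · rintro (h | h)
      · exact absurd h hx
      · exact (one_lt_inv₀ (zero_lt_iff.mpr hv)).mp h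

/-- Membership in a conjugate valuation subring. -/
theorem est_mem_smul_iff (τ : L ≃ₐ[K] L) (A : ValuationSubring L) (x : L) :
    x ∈ τ • A ↔ τ⁻¹ x ∈ A :=
  ValuationSubring.mem_pointwise_smul_iff_inv_smul_mem

/-- The non-units of a conjugate valuation subring. -/
theorem est_mem_nonunits_smul_iff (τ : L ≃ₐ[K] L) (A : ValuationSubring L) (x : L) :
    x ∈ (τ • A).nonunits ↔ τ⁻¹ x ∈ A.nonunits := by
  rw [est_mem_nonunits_iff, est_mem_nonunits_iff, est_mem_smul_iff, map_inv₀,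
    EmbeddingLike.map_eq_zero_iff]

/-- A conjugate of a valuation subring over `q` lies over `q`. -/
theorem est_liesOverPrime_smul (τ : L ≃ₐ[K] L) {A : ValuationSubring L} {q : ℕ}
    (hA : A.LiesOverPrime q) : (τ • A).LiesOverPrime q := by
  show (q : L) ∈ (τ • A).nonunits
  rw [est_mem_nonunits_smul_iff, map_natCast]
  exact hA

/-- Two residues agree iff the difference is a non-unit. -/
theorem est_residue_eq_iff (A : ValuationSubring L) (a b : A) :
    IsLocalRing.residue A a = IsLocalRing.residue A b ↔ (a : L) - (b : L) ∈ A.nonunits := by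
  rw [ValuationSubring.mem_nonunits_iff_exists_mem_maximalIdeal]
  constructor
  · intro h
    refine ⟨A.sub_mem a.2 b.2, ?_⟩
    have h1 : a - b ∈ IsLocalRing.maximalIdeal A := Ideal.Quotient.eq.mp h
    exact h1
  · rintro ⟨h0, h1⟩
    exact Ideal.Quotient.eq.mpr h1

/-- **Conjugate Frobenius elements**: if `σ` is a Frobenius element at `A`, then `τ σ τ⁻¹` is a
Frobenius element at `τ • A`. -/
theorem est_conj_isFrobeniusAt (τ : L ≃ₐ[K] L) {A : ValuationSubring L} {q : ℕ}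
    {σ : L ≃ₐ[K] L} (hσ : A.IsFrobeniusAt σ q) :
    (τ • A).IsFrobeniusAt (τ * σ * τ⁻¹) q := by
  obtain ⟨hσD, hσ'⟩ := hσ
  have hσA : σ • A = A := hσD
  have hD : τ * σ * τ⁻¹ ∈ (τ • A).decompositionSubgroup K := by
    show (τ * σ * τ⁻¹) • (τ • A) = τ • A
    rw [mul_smul, inv_smul_smul, mul_smul, hσA]
  refine ⟨hD, fun x => ?_⟩
  obtain ⟨⟨b, hb⟩, rfl⟩ := IsLocalRing.residue_surjective x
  have ha : τ⁻¹ b ∈ A := (est_mem_smul_iff τ A b).mp hb
  have hb' : (τ * σ * τ⁻¹) b ∈ τ • A := by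
    rw [est_mem_smul_iff]
    have e : τ⁻¹ ((τ * σ * τ⁻¹) b) = σ (τ⁻¹ b) := by
      simp [AlgEquiv.mul_apply]
    rw [e]
    have h1 : σ (τ⁻¹ b) ∈ σ • A := by
      rw [est_mem_smul_iff]
      simpa [AlgEquiv.mul_apply] using ha
    rwa [hσA] at h1
  show IsLocalRing.residue ↥(τ • A) ⟨(τ * σ * τ⁻¹) b, hb'⟩
    = IsLocalRing.residue ↥(τ • A) (⟨b, hb⟩ ^ q)
  rw [est_residue_eq_iff, est_mem_nonunits_smul_iff]
  have hσa : σ (τ⁻¹ b) ∈ A := by
    have h1 : σ (τ⁻¹ b) ∈ σ • A := by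
      rw [est_mem_smul_iff]
      simpa [AlgEquiv.mul_apply] using ha
    rwa [hσA] at h1
  have h2 : IsLocalRing.residue A ⟨σ (τ⁻¹ b), hσa⟩
      = IsLocalRing.residue A (⟨τ⁻¹ b, ha⟩ ^ q) := hσ' (IsLocalRing.residue A ⟨τ⁻¹ b, ha⟩)
  have h3 := (est_residue_eq_iff A _ _).mp h2
  have e : τ⁻¹ ((τ * σ * τ⁻¹) b - b ^ q) = σ (τ⁻¹ b) - (τ⁻¹ b) ^ q := by
    simp [AlgEquiv.mul_apply]
  show τ⁻¹ ((τ * σ * τ⁻¹) b - b ^ q) ∈ A.nonunits
  rw [e]
  exact h3

end Conj

/-- The Hecke operators preserve torsion. -/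
theorem est_hecke_torsion (N m : ℕ) [NeZero N] (p : Nat.Primes) (x : JZero N) (hx : m • x = 0) :
    m • heckeOperatorBar N p x = 0 := by
  rw [← map_nsmul, hx, map_zero]

/-- The Galois action preserves torsion. -/
theorem est_galois_torsion (N m : ℕ) [NeZero N] (τ : Qb ≃ₐ[ℚ] Qb) (x : JZero N)
    (hx : m • x = 0) : m • (τ • x) = 0 := by
  have h0 := map_nsmul (DistribSMul.toAddMonoidHom (JZero N) τ) m x
  rw [hx, map_zero] at h0
  exact h0.symm

/-- **The Hecke operator `T_ℓ` commutes with the Galois action on torsion points** of order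
prime to `ℓ` (`ℓ ∤ N`). -/
theorem est_hecke_galois (N m ℓ : ℕ) [NeZero N] (hℓ : ℓ.Prime) (hℓm : ¬ ℓ ∣ N * m)
    (τ : Qb ≃ₐ[ℚ] Qb) (x : JZero N) (hx : m • x = 0) :
    heckeOperatorBar N ⟨ℓ, hℓ⟩ (τ • x) = τ • heckeOperatorBar N ⟨ℓ, hℓ⟩ x := by
  obtain ⟨A, σ, hA, hσ⟩ := Fermat.Agent.Lib.FrobeniusExists.exists_isFrobeniusAt ℓ hℓ
  have hym : m • (σ⁻¹ • x) = 0 := est_galois_torsion N m σ⁻¹ x hx
  have hxy : x = σ • σ⁻¹ • x := (smul_inv_smul σ x).symm
  generalize σ⁻¹ • x = y at hym hxy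
  subst hxy
  have h1 := est_frobenius N m ℓ hℓ hℓm A hA σ hσ y hym
  have h2 := est_frobenius N m ℓ hℓ hℓm (τ • A) (est_liesOverPrime_smul τ hA) (τ * σ * τ⁻¹)
    (est_conj_isFrobeniusAt τ hσ) (τ • y) (est_galois_torsion N m τ y hym)
  have e1 : (τ * σ * τ⁻¹) • τ • y = τ • σ • y := by
    rw [mul_smul, mul_smul, inv_smul_smul]
  have e2 : (τ * σ * τ⁻¹) • τ • σ • y = τ • σ • σ • y := by
    rw [mul_smul, mul_smul, inv_smul_smul]
  rw [e1, e2] at h2
  have h1' : heckeOperatorBar N ⟨ℓ, hℓ⟩ (σ • y) = σ • σ • y + ℓ • y := by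
    have h := h1
    rw [sub_add_eq_add_sub, sub_eq_zero] at h
    exact h.symm
  have h2' : heckeOperatorBar N ⟨ℓ, hℓ⟩ (τ • σ • y) = τ • σ • σ • y + ℓ • τ • y := by
    have h := h2
    rw [sub_add_eq_add_sub, sub_eq_zero] at h
    exact h.symm
  have h3 : τ • (ℓ • y) = ℓ • τ • y := map_nsmul (DistribSMul.toAddMonoidHom (JZero N) τ) ℓ y
  rw [h2', h1', smul_add, h3]

end Fermat.Agent.S37
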