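import Mathlib
import Fermat.Prelude.Def_AlgebraicCurve_Correspondence
import Fermat.Prelude.Def_ModularCurve_HeckeOperator
import Fermat.Agent.S24.SumFormula
import Fermat.Agent.S18.PlaceDict

/-!
# S37 (ES-E0): values of functions at places, the pairing with divisors, and the norm formula

* `e0HasVal P g c`: the function `g` has the value `c` at the place `P`.
* `e0Val P g : Kˣ`: the value as a unit (`1` when `g` has no nonzero value at `P`).
* `e0Pair g D = ∏_P g(P)^(D P)`: the pairing of a function with a divisor.
* `e0_norm_val`: the local norm formula for values, `(N h)(P) = ∏_{w ∣ P} h(w)^e(w ∣ P)`,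
  for an extension satisfying the fundamental identity, all places involved of degree one.
* `e0_pair_correspondence`: `g(ψ_* φ^* D) = (N_φ (ψ g))(D)` for the correspondence
  `Divisor.correspondence φ ψ`, when `g` is a unit at all points of `ψ_* φ^* P`, `P ∈ supp D`.
* `e0_pair_hecke`: the special case of the Hecke correspondence `T_ℓ = α_* β^*`.

Proof of the norm formula: the integral closure `S` of the valuation ring `R` of `P` in `F'` is a
finite free `R`-module; the norm is the determinant of the multiplication matrix, which we reduce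
modulo the maximal ideal of `R`.  The generalized eigenspace of the reduced matrix for an
eigenvalue `μ` consists of vectors whose lifts vanish to order `e(w ∣ P)` at all places `w` with
`h(w) ≠ μ`; a filtration argument bounds its dimension by `∑_{h(w) = μ} e(w ∣ P)`, and the
fundamental identity forces equality, which determines the characteristic polynomial.
-/

set_option autoImplicit false
set_option linter.style.haveILetI false
set_option linter.unusedSectionVars false

open AlgebraicCurve

namespace Fermat.Agent.S37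

open Fermat.Agent.S24 Fermat.Agent.S18 Module

open Classical in
/-- **Determinant from bounds on generalized eigenspaces.** -/
theorem e0_det_eq_prod {K V ι : Type*} [Field K] [IsAlgClosed K] [AddCommGroup V] [Module K V]
    [FiniteDimensional K V] (f : Module.End K V) (s : Finset ι) (c : ι → K) (e : ι → ℕ)
    (hsum : ∑ w ∈ s, e w = finrank K V)
    (hle : ∀ μ : K, finrank K (f.maxGenEigenspace μ) ≤ ∑ w ∈ s with c w = μ, e w) :
    LinearMap.det f = ∏ w ∈ s, c w ^ e w := by
  classical
  have hsplit : f.charpoly.Splits := IsAlgClosed.splits _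
  rw [Module.End.det_eq_prod_roots_charpoly_of_splits hsplit]
  set r := f.charpoly.roots with hr
  have hcard : Multiset.card r = finrank K V := by
    rw [hr, Polynomial.splits_iff_card_roots.mp hsplit, LinearMap.charpoly_natDegree]
  have hcount : ∀ μ, r.count μ ≤ ∑ w ∈ s with c w = μ, e w := by
    intro μ
    rw [hr, Polynomial.count_roots, ← LinearMap.finrank_maxGenEigenspace_eq]
    exact hle μ
  set T : Finset K := s.image c with hT
  have hsub : r.toFinset ⊆ T := by
    intro μ hμ
    by_contra hμT
    have h0 : ∑ w ∈ s with c w = μ, e w = 0 := by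
      apply Finset.sum_eq_zero
      intro w hw
      rw [Finset.mem_filter] at hw
      exact absurd (Finset.mem_image.mpr ⟨w, hw.1, hw.2⟩) hμT
    have := hcount μ
    rw [h0] at this
    have hpos : 0 < r.count μ := Multiset.count_pos.mpr (Multiset.mem_toFinset.mp hμ)
    omega
  have hfib : ∑ μ ∈ T, ∑ w ∈ s with c w = μ, e w = ∑ w ∈ s, e w :=
    Finset.sum_fiberwise_of_maps_to (fun w hw => Finset.mem_image_of_mem c hw) _
  have hcardT : ∑ μ ∈ T, r.count μ = Multiset.card r := by
    rw [← Multiset.toFinset_sum_count_eq r]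
    symm
    apply Finset.sum_subset hsub
    intro μ _ hμ
    exact Multiset.count_eq_zero.mpr (fun h => hμ (Multiset.mem_toFinset.mpr h))
  have heq : ∀ μ ∈ T, r.count μ = ∑ w ∈ s with c w = μ, e w := by
    have hle' : ∀ μ ∈ T, r.count μ ≤ ∑ w ∈ s with c w = μ, e w := fun μ _ => hcount μ
    have htot : ∑ μ ∈ T, r.count μ = ∑ μ ∈ T, ∑ w ∈ s with c w = μ, e w := by
      rw [hcardT, hcard, hfib, hsum]
    exact (Finset.sum_eq_sum_iff_of_le hle').mp htot
  calc r.prod = ∏ μ ∈ r.toFinset, μ ^ r.count μ := (Finset.prod_multiset_count r)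
    _ = ∏ μ ∈ T, μ ^ r.count μ := by
        apply Finset.prod_subset hsub
        intro μ _ hμ
        rw [Multiset.count_eq_zero.mpr (fun h => hμ (Multiset.mem_toFinset.mpr h)), pow_zero]
    _ = ∏ μ ∈ T, ∏ w ∈ s with c w = μ, c w ^ e w := by
        apply Finset.prod_congr rfl
        intro μ hμ
        rw [heq μ hμ, ← Finset.prod_pow_eq_pow_sum]
        apply Finset.prod_congr rfl
        intro w hw
        rw [(Finset.mem_filter.mp hw).2]
    _ = ∏ w ∈ s, c w ^ e w :=
        Finset.prod_fiberwise_of_maps_to (fun w hw => Finset.mem_image_of_mem c hw) _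


section Val

variable {K F : Type*} [Field K] [Field F] [Algebra K F]

/-- `c` is the value of the function `g` at the place `P`. -/
def e0HasVal (P : Place K F) (g : F) (c : K) : Prop :=
  g = algebraMap K F c ∨ 0 < P.ord (g - algebraMap K F c)

theorem e0HasVal_const (P : Place K F) (c : K) : e0HasVal P (algebraMap K F c) c := Or.inl rfl

theorem e0HasVal_iff_sub (P : Place K F) (g : F) (c : K) :
    e0HasVal P g c ↔ g - algebraMap K F c = 0 ∨ 0 < P.ord (g - algebraMap K F c) := by
  rw [e0HasVal, sub_eq_zero]

/-- an element is "small" at `P` if it vanishes there. -/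
theorem e0HasVal_zero_iff (P : Place K F) (g : F) : e0HasVal P g 0 ↔ g = 0 ∨ 0 < P.ord g := by
  rw [e0HasVal, map_zero, sub_zero]

theorem e0_small_add (P : Place K F) {x y : F} (n : ℤ) (hx : x = 0 ∨ n ≤ P.ord x)
    (hy : y = 0 ∨ n ≤ P.ord y) : x + y = 0 ∨ n ≤ P.ord (x + y) := by
  by_cases h : x + y = 0
  · exact Or.inl h
  · exact Or.inr (sf_ord_add_ge P h n hx hy)

theorem e0_small_mul (P : Place K F) {x y : F} (n : ℤ) (hx : x = 0 ∨ n ≤ P.ord x)
    (hy : y = 0 ∨ 0 ≤ P.ord y) : x * y = 0 ∨ n ≤ P.ord (x * y) := by
  rcases hx with rfl | hx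
  · left; simp
  rcases hy with rfl | hy
  · left; simp
  by_cases hx0 : x = 0
  · left; simp [hx0]
  by_cases hy0 : y = 0
  · left; simp [hy0]
  right
  rw [P.ord_mul hx0 hy0]; omega

theorem e0HasVal_mem (P : Place K F) {g : F} {c : K} (h : e0HasVal P g c) :
    g = 0 ∨ 0 ≤ P.ord g := by
  have h1 : g - algebraMap K F c = 0 ∨ 0 ≤ P.ord (g - algebraMap K F c) := by
    rcases (e0HasVal_iff_sub P g c).mp h with h | h
    · exact Or.inl h
    · exact Or.inr h.le
  have h2 : algebraMap K F c = 0 ∨ 0 ≤ P.ord (algebraMap K F c) :=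
    Or.inr (sf_ord_algebraMap P c).ge
  have := e0_small_add P 0 h1 h2
  rwa [sub_add_cancel] at this

theorem e0HasVal_add (P : Place K F) {g h : F} {c d : K} (hg : e0HasVal P g c)
    (hh : e0HasVal P h d) : e0HasVal P (g + h) (c + d) := by
  rw [e0HasVal_iff_sub] at *
  have : g + h - algebraMap K F (c + d) = (g - algebraMap K F c) + (h - algebraMap K F d) := by
    rw [map_add]; ring
  rw [this]
  exact e0_small_add P 1 hg hh

theorem e0HasVal_neg (P : Place K F) {g : F} {c : K} (hg : e0HasVal P g c) :
    e0HasVal P (-g) (-c) := by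
  rw [e0HasVal_iff_sub] at *
  have : -g - algebraMap K F (-c) = -(g - algebraMap K F c) := by
    rw [map_neg]; ring
  rw [this, neg_eq_zero, sf_ord_neg]
  exact hg

theorem e0HasVal_sub (P : Place K F) {g h : F} {c d : K} (hg : e0HasVal P g c)
    (hh : e0HasVal P h d) : e0HasVal P (g - h) (c - d) := by
  rw [sub_eq_add_neg, sub_eq_add_neg]
  exact e0HasVal_add P hg (e0HasVal_neg P hh)

theorem e0HasVal_mul (P : Place K F) {g h : F} {c d : K} (hg : e0HasVal P g c)
    (hh : e0HasVal P h d) : e0HasVal P (g * h) (c * d) := by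
  have hh' := e0HasVal_mem P hh
  rw [e0HasVal_iff_sub] at *
  have : g * h - algebraMap K F (c * d)
      = (g - algebraMap K F c) * h + (h - algebraMap K F d) * algebraMap K F c := by
    rw [map_mul]; ring
  rw [this]
  exact e0_small_add P 1 (e0_small_mul P 1 hg hh')
    (e0_small_mul P 1 hh (Or.inr (sf_ord_algebraMap P c).ge))

theorem e0HasVal_pow (P : Place K F) {g : F} {c : K} (hg : e0HasVal P g c) (n : ℕ) :
    e0HasVal P (g ^ n) (c ^ n) := by
  induction n with
  | zero => simpa using e0HasVal_const P (1 : K)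
  | succ n ih => rw [pow_succ, pow_succ]; exact e0HasVal_mul P ih hg

theorem e0HasVal_unique (P : Place K F) {g : F} {c d : K} (hc : e0HasVal P g c)
    (hd : e0HasVal P g d) : c = d := by
  have h := e0HasVal_sub P hc hd
  rw [sub_self] at h
  by_contra hne
  have hcd : c - d ≠ 0 := sub_ne_zero.mpr hne
  rcases h with h | h
  · have : algebraMap K F (c - d) = 0 := h.symm
    exact hcd ((map_eq_zero (algebraMap K F)).mp this)
  · rw [zero_sub, sf_ord_neg, sf_ord_algebraMap] at h
    exact lt_irrefl _ h

theorem e0HasVal_prod {ι : Type*} (P : Place K F) (s : Finset ι) (g : ι → F) (c : ι → K)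
    (h : ∀ i ∈ s, e0HasVal P (g i) (c i)) : e0HasVal P (∏ i ∈ s, g i) (∏ i ∈ s, c i) := by
  classical
  induction s using Finset.induction_on with
  | empty => simpa using e0HasVal_const P (1 : K)
  | insert a s ha ih =>
    rw [Finset.prod_insert ha, Finset.prod_insert ha]
    exact e0HasVal_mul P (h a (Finset.mem_insert_self a s))
      (ih fun i hi => h i (Finset.mem_insert_of_mem hi))

/-- a nonzero value means the function is a unit at the place -/
theorem e0HasVal_ord_eq_zero (P : Place K F) {g : F} {c : K} (hg : e0HasVal P g c) (hc : c ≠ 0) :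
    g ≠ 0 ∧ P.ord g = 0 := by
  have hc' : algebraMap K F c ≠ 0 := by simpa using hc
  rcases hg with rfl | h
  · exact ⟨hc', sf_ord_algebraMap P c⟩
  · have hg0 : g ≠ 0 := by
      rintro rfl
      rw [zero_sub, sf_ord_neg, sf_ord_algebraMap] at h
      exact lt_irrefl _ h
    refine ⟨hg0, ?_⟩
    have h1 := e0HasVal_mem P (Or.inr h : e0HasVal P g c)
    have h1' : 0 ≤ P.ord g := h1.resolve_left hg0
    by_contra hne
    have hpos : 0 < P.ord g := lt_of_le_of_ne h1' (Ne.symm hne)
    -- then c = g - (g - c) has positive order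
    have h2 : algebraMap K F c = g + -(g - algebraMap K F c) := by ring
    have h3 := sf_ord_add_ge P (f := g) (g := -(g - algebraMap K F c)) (by rw [← h2]; exact hc') 1
      (Or.inr hpos) (Or.inr (by rw [sf_ord_neg]; exact h))
    rw [← h2, sf_ord_algebraMap] at h3
    omega

theorem e0HasVal_zero_of_ord_pos (P : Place K F) {g : F} (h : 0 < P.ord g) : e0HasVal P g 0 :=
  (e0HasVal_zero_iff P g).mpr (Or.inr h)

theorem e0HasVal_ne_zero_of_ord (P : Place K F) {g : F} {c : K} (hg : e0HasVal P g c)
    (hg0 : g ≠ 0) (hord : P.ord g = 0) : c ≠ 0 := by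
  rintro rfl
  rcases (e0HasVal_zero_iff P g).mp hg with h | h
  · exact hg0 h
  · omega

theorem e0HasVal_inv (P : Place K F) {g : F} {c : K} (hg : e0HasVal P g c) (hc : c ≠ 0) :
    e0HasVal P g⁻¹ c⁻¹ := by
  obtain ⟨hg0, hord⟩ := e0HasVal_ord_eq_zero P hg hc
  have hc' : algebraMap K F c ≠ 0 := by simpa using hc
  rw [e0HasVal_iff_sub] at *
  have : g⁻¹ - algebraMap K F c⁻¹ = -(g - algebraMap K F c) * (g⁻¹ * algebraMap K F c⁻¹) := by
    rw [map_inv₀]; field_simp; ring
  rw [this]
  refine e0_small_mul P 1 ?_ (Or.inr ?_)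
  · rcases hg with h | h
    · left; rw [h, neg_zero]
    · right; rw [sf_ord_neg]; exact h
  · rw [P.ord_mul (inv_ne_zero hg0) (by simpa using hc), P.ord_inv, hord, sf_ord_algebraMap]
    simp

/-- at a place of degree one, every function regular at the place has a value. -/
theorem e0HasVal_exists (P : Place K F) (hdeg : P.deg = 1) {g : F} (hg : g = 0 ∨ 0 ≤ P.ord g) :
    ∃ c : K, e0HasVal P g c := by
  have hmem : g ∈ P.toValuationSubring := by
    rcases hg with rfl | h
    · exact zero_mem _
    · exact (sf_ord_nonneg_iff P g).mp h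
  have hbot : (⊥ : Subalgebra K P.ResidueField) = ⊤ :=
    Subalgebra.bot_eq_top_of_finrank_eq_one hdeg
  have hx : IsLocalRing.residue P.toValuationSubring ⟨g, hmem⟩ ∈ (⊥ : Subalgebra K P.ResidueField) := by
    rw [hbot]; exact Algebra.mem_top
  obtain ⟨c, hc⟩ := Algebra.mem_bot.mp hx
  refine ⟨c, ?_⟩
  have hc' : IsLocalRing.residue P.toValuationSubring
      (⟨g, hmem⟩ - algebraMap K P.toValuationSubring c) = 0 := by
    rw [map_sub, ← hc]
    exact sub_eq_zero.mpr rfl
  rw [IsLocalRing.residue_eq_zero_iff, sf_mem_maximalIdeal_iff_ord] at hc'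
  rw [e0HasVal_iff_sub]
  rcases hc' with h | h
  · left
    have := congrArg Subtype.val h
    simpa using this
  · right
    simpa using h

end Val

section H

variable {K F' V : Type*} [Field K] [Field F'] [Algebra K F'] [AddCommGroup V] [Module K V]

/-- the subspace of vectors whose image under `X` vanishes to order at least `d w` at each
place `w ∈ s`. -/
def e0H (X : V →ₗ[K] F') (s : Finset (Place K F')) (d : Place K F' → ℕ) : Submodule K V where
  carrier := {v | ∀ w ∈ s, X v = 0 ∨ (d w : ℤ) ≤ w.ord (X v)}
  zero_mem' := fun w _ => Or.inl (map_zero X)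
  add_mem' := by
    intro u v hu hv w hw
    rw [map_add]
    exact e0_small_add w _ (hu w hw) (hv w hw)
  smul_mem' := by
    intro a v hv w hw
    rw [map_smul, Algebra.smul_def, mul_comm]
    exact e0_small_mul w _ (hv w hw) (Or.inr (sf_ord_algebraMap w a).ge)

theorem e0H_mem (X : V →ₗ[K] F') (s : Finset (Place K F')) (d : Place K F' → ℕ) (v : V) :
    v ∈ e0H X s d ↔ ∀ w ∈ s, X v = 0 ∨ (d w : ℤ) ≤ w.ord (X v) := Iff.rfl

open Classical in
theorem e0H_step [FiniteDimensional K V] (X : V →ₗ[K] F') (s : Finset (Place K F'))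
    (hdeg : ∀ w ∈ s, w.deg = 1) (d : Place K F' → ℕ) (w0 : Place K F') (hw0 : w0 ∈ s) :
    finrank K (e0H X s d) ≤ finrank K (e0H X s (Function.update d w0 (d w0 + 1))) + 1 := by
  set d' := Function.update d w0 (d w0 + 1) with hd'
  have hd'0 : d' w0 = d w0 + 1 := by rw [hd', Function.update_self]
  have hd'ne : ∀ w, w ≠ w0 → d' w = d w := fun w hw => by rw [hd', Function.update_of_ne hw]
  by_cases hex : ∃ u0 ∈ e0H X s d, X u0 ≠ 0 ∧ w0.ord (X u0) = d w0
  · obtain ⟨u0, hu0, hXu0, hord0⟩ := hex
    have hle : e0H X s d ≤ e0H X s d' ⊔ Submodule.span K {u0} := by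
      intro u hu
      -- the value of `X u / X u0` at `w0`
      have ht : X u / X u0 = 0 ∨ 0 ≤ w0.ord (X u / X u0) := by
        rcases hu w0 hw0 with h | h
        · left; rw [h, zero_div]
        · by_cases hXu : X u = 0
          · left; rw [hXu, zero_div]
          · right
            rw [div_eq_mul_inv, w0.ord_mul hXu (inv_ne_zero hXu0), w0.ord_inv, hord0]
            omega
      obtain ⟨a, ha⟩ := e0HasVal_exists w0 (hdeg w0 hw0) ht
      have hmem : u - a • u0 ∈ e0H X s d' := by
        intro w hw
        have hXeq : X (u - a • u0) = X u - algebraMap K F' a * X u0 := by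
          rw [map_sub, map_smul, Algebra.smul_def]
        by_cases hww : w = w0
        · subst hww
          rw [hd'0]
          have hfac : X (u - a • u0) = (X u / X u0 - algebraMap K F' a) * X u0 := by
            rw [hXeq]; field_simp
          rw [hfac]
          rcases (e0HasVal_iff_sub w _ a).mp ha with h | h
          · left; rw [h, zero_mul]
          · right
            have hne : X u / X u0 - algebraMap K F' a ≠ 0 := by
              intro h0
              rw [h0] at h
              simp at h
            rw [w.ord_mul hne hXu0, hord0]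
            push_cast
            omega
        · rw [hd'ne w hww, hXeq, sub_eq_add_neg]
          refine e0_small_add w _ (hu w hw) ?_
          have h2 := e0_small_mul w (d w : ℤ) (hu0 w hw)
            (Or.inr (sf_ord_algebraMap w (-a)).ge : algebraMap K F' (-a) = 0 ∨ _)
          have h3 : -(algebraMap K F' a * X u0) = X u0 * algebraMap K F' (-a) := by
            rw [map_neg]; ring
          rw [h3]
          exact h2
      have : u = (u - a • u0) + a • u0 := by abel
      rw [this]
      exact Submodule.add_mem_sup hmem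
        (Submodule.smul_mem _ a (Submodule.mem_span_singleton_self u0))
    calc finrank K (e0H X s d) ≤ finrank K ↥(e0H X s d' ⊔ Submodule.span K {u0}) :=
          Submodule.finrank_mono hle
      _ ≤ finrank K (e0H X s d') + finrank K (Submodule.span K {u0}) :=
          Submodule.finrank_add_le_finrank_add_finrank _ _
      _ ≤ finrank K (e0H X s d') + 1 := by
          have hu0ne : u0 ≠ 0 := fun h => hXu0 (by rw [h, map_zero])
          rw [finrank_span_singleton hu0ne]
  · have hle : e0H X s d ≤ e0H X s d' := by
      intro u hu w hw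
      by_cases hww : w = w0
      · subst hww
        rw [hd'0]
        rcases hu w hw with h | h
        · exact Or.inl h
        · by_cases hXu : X u = 0
          · exact Or.inl hXu
          · right
            have hne : w.ord (X u) ≠ d w := fun h' => hex ⟨u, hu, hXu, h'⟩
            push_cast
            omega
      · rw [hd'ne w hww]; exact hu w hw
    exact (Submodule.finrank_mono hle).trans (Nat.le_succ _)

open Classical in
theorem e0H_finrank_le [FiniteDimensional K V] (X : V →ₗ[K] F') (s : Finset (Place K F'))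
    (hdeg : ∀ w ∈ s, w.deg = 1) (e : Place K F' → ℕ)
    (hbot : ∀ v, (∀ w ∈ s, X v = 0 ∨ (e w : ℤ) ≤ w.ord (X v)) → v = 0)
    (d : Place K F' → ℕ) :
    finrank K (e0H X s d) ≤ ∑ w ∈ s, (e w - d w) := by
  induction hm : ∑ w ∈ s, (e w - d w) using Nat.strong_induction_on generalizing d with
  | _ m ih =>
    by_cases hall : ∀ w ∈ s, e w ≤ d w
    · have hbot' : e0H X s d = ⊥ := by
        rw [eq_bot_iff]
        intro v hv
        rw [Submodule.mem_bot]
        apply hbot v
        intro w hw
        rcases hv w hw with h | h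
        · exact Or.inl h
        · right
          have := hall w hw
          have h2 : (e w : ℤ) ≤ (d w : ℤ) := by exact_mod_cast this
          omega
      rw [hbot', finrank_bot]
      exact Nat.zero_le _
    · push Not at hall
      obtain ⟨w0, hw0, hlt⟩ := hall
      set d' := Function.update d w0 (d w0 + 1) with hd'
      have hsum : ∑ w ∈ s, (e w - d' w) + 1 = ∑ w ∈ s, (e w - d w) := by
        rw [← Finset.add_sum_erase s _ hw0, ← Finset.add_sum_erase s (fun w => e w - d w) hw0]
        have h1 : ∑ w ∈ s.erase w0, (e w - d' w) = ∑ w ∈ s.erase w0, (e w - d w) := by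
          apply Finset.sum_congr rfl
          intro w hw
          rw [hd', Function.update_of_ne (Finset.ne_of_mem_erase hw)]
        rw [h1, hd', Function.update_self]
        omega
      have h1 : finrank K (e0H X s d) ≤ finrank K (e0H X s d') + 1 :=
        e0H_step X s hdeg d w0 hw0
      have h2 := ih (∑ w ∈ s, (e w - d' w)) (by omega) d' rfl
      omega

end H

section NormVal

variable {K F F' R : Type*} [Field K] [Field F] [Field F']
  [Algebra K F] [Algebra K F'] [Algebra F F'] [IsScalarTower K F F']

theorem e0_small_sum {ι : Type*} (P : Place K F) (n : ℤ) (s : Finset ι) (x : ι → F)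
    (h : ∀ i ∈ s, x i = 0 ∨ n ≤ P.ord (x i)) :
    ∑ i ∈ s, x i = 0 ∨ n ≤ P.ord (∑ i ∈ s, x i) := by
  refine Finset.sum_induction x (fun y => y = 0 ∨ n ≤ P.ord y) ?_ (Or.inl rfl) h
  intro a b ha hb
  exact e0_small_add P n ha hb

/-- the value of a function of `F` at the restriction of a place of `F'`. -/
theorem e0HasVal_restrict [Algebra.IsIntegral F F'] (w : Place K F') (f : F) (c : K) :
    e0HasVal (w.restrict F) f c ↔ e0HasVal w (algebraMap F F' f) c := by
  have hc : algebraMap K F' c = algebraMap F F' (algebraMap K F c) :=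
    IsScalarTower.algebraMap_apply K F F' c
  have hpos := w.ramificationIndex_pos (F := F)
  rw [e0HasVal_iff_sub, e0HasVal_iff_sub, hc, ← map_sub, w.ord_restrict, map_eq_zero]
  constructor
  · rintro (h | h)
    · exact Or.inl h
    · right; positivity
  · rintro (h | h)
    · exact Or.inl h
    · right
      by_contra hneg
      have h1 : (w.restrict F).ord (f - algebraMap K F c) ≤ 0 := not_lt.mp hneg
      have h2 : (0 : ℤ) ≤ (w.ramificationIndex F : ℤ) := by positivity
      nlinarith

variable [CommRing R] [IsDomain R] [IsDiscreteValuationRing R] [Algebra R F] [IsFractionRing R F]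
  [Algebra R F'] [IsScalarTower R F F'] [Algebra K R] [IsScalarTower K R F]

theorem e0_int_mem [Algebra.IsIntegral F F'] (P : Place K F)
    (hR : ∀ x : F, x ∈ P.toValuationSubring ↔ ∃ r : R, algebraMap R F r = x)
    {w : Place K F'} (hw : w.restrict F = P) {x : F'} (hx : IsIntegral R x) :
    x ∈ w.toValuationSubring := by
  have hR' : ∀ r : R, algebraMap R F' r ∈ w.toValuationSubring := by
    intro r
    rw [IsScalarTower.algebraMap_apply R F F']
    have : algebraMap R F r ∈ (w.restrict F).toValuationSubring := by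
      rw [hw]; exact (hR _).mpr ⟨r, rfl⟩
    exact (Place.mem_restrict_iff w).mp this
  let φ : R →+* w.toValuationSubring :=
    (algebraMap R F').codRestrict w.toValuationSubring.toSubring hR'
  have h2 : IsIntegral w.toValuationSubring x :=
    IsIntegral.map_of_comp_eq φ (RingHom.id F') (by ext; rfl) hx
  obtain ⟨y, hy⟩ := IsIntegrallyClosed.isIntegral_iff.mp h2
  rw [← hy]; exact y.2

theorem e0_mem_int [CharZero K] [FiniteDimensional F F'] (P : Place K F)
    (hR : ∀ x : F, x ∈ P.toValuationSubring ↔ ∃ r : R, algebraMap R F r = x)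
    {x : F'} (hx : ∀ w : Place K F', w.restrict F = P → x ∈ w.toValuationSubring) :
    IsIntegral R x := by
  haveI : CharZero F := charZero_of_injective_algebraMap (algebraMap K F).injective
  let S := integralClosure R F'
  haveI : IsDedekindDomain S := integralClosure.isDedekindDomain R F F'
  haveI : IsFractionRing S F' := IsIntegralClosure.isFractionRing_of_finite_extension R F F' S
  letI : Algebra K S := ((algebraMap R S).comp (algebraMap K R)).toAlgebra
  haveI : IsScalarTower K S F' := IsScalarTower.of_algebraMap_eq (fun c => by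
    show algebraMap K F' c = algebraMap S F' (algebraMap R S (algebraMap K R c))
    rw [← IsScalarTower.algebraMap_apply R S F', IsScalarTower.algebraMap_apply R F F',
      ← IsScalarTower.algebraMap_apply K R F, ← IsScalarTower.algebraMap_apply K F F'])
  have key : ∀ Q : IsDedekindDomain.HeightOneSpectrum S, Q.valuation F' x ≤ 1 := by
    intro Q
    let w := Place.ofHeightOneSpectrum (K := K) (F := F') Q
    have hw : w.restrict F = P := by
      symm
      apply pld_eq_of_le
      intro y hy
      obtain ⟨r, rfl⟩ := (hR y).mp hy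
      rw [Place.mem_restrict_iff, ← IsScalarTower.algebraMap_apply R F F',
        IsScalarTower.algebraMap_apply R S F']
      exact (sf_mem_ofHeightOneSpectrum_iff (K := K) Q _).mpr (Q.valuation_le_one _)
    exact (sf_mem_ofHeightOneSpectrum_iff (K := K) Q x).mp (hx w hw)
  obtain ⟨s, hs⟩ := IsDedekindDomain.HeightOneSpectrum.mem_integers_of_valuation_le_one F' x key
  rw [← hs]; exact s.2

end NormVal

section NormValMain

variable {K F F' R : Type*} [Field K] [IsAlgClosed K] [CharZero K] [Field F] [Field F']
  [Algebra K F] [Algebra K F'] [Algebra F F'] [IsScalarTower K F F'] [FiniteDimensional F F']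
  [CommRing R] [IsDomain R] [IsDiscreteValuationRing R] [Algebra R F] [IsFractionRing R F]
  [Algebra R F'] [IsScalarTower R F F'] [Algebra K R] [IsScalarTower K R F]

open Classical Matrix in
theorem e0_norm_val_aux [HasPrincipalDivisors K F'] [FundamentalIdentity K F F']
    (P : Place K F) (hP : P.deg = 1) (hF' : ∀ w ∈ P.fiber F', w.deg = 1)
    (hR : ∀ x : F, x ∈ P.toValuationSubring ↔ ∃ r : R, algebraMap R F r = x)
    (h : F') (c : Place K F' → K) (hc : ∀ w ∈ P.fiber F', e0HasVal w h (c w)) :
    e0HasVal P (Algebra.norm F h) (∏ w ∈ P.fiber F', c w ^ w.ramificationIndex F) := by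
  haveI : CharZero F := charZero_of_injective_algebraMap (algebraMap K F).injective
  -- the integral closure
  let S := integralClosure R F'
  haveI : IsDedekindDomain S := integralClosure.isDedekindDomain R F F'
  haveI : IsFractionRing S F' := IsIntegralClosure.isFractionRing_of_finite_extension R F F' S
  haveI : Module.Finite R S := IsIntegralClosure.finite R F F' S
  haveI : Module.IsTorsionFree R F' := Module.isTorsionFree_iff_algebraMap_injective.mpr (by
    rw [IsScalarTower.algebraMap_eq R F F']
    exact (algebraMap F F').injective.comp (IsFractionRing.injective R F))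
  haveI : Module.Free R S := IsIntegralClosure.module_free R F F' S
  have hrank : Module.finrank R S = Module.finrank F F' := IsIntegralClosure.rank R F F' S
  haveI : IsLocalization (Algebra.algebraMapSubmonoid S (nonZeroDivisors R)) F' :=
    IsIntegralClosure.isLocalization R F F' S
  have hfib : ∀ w ∈ P.fiber F', w.restrict F = P := fun w hw => Place.mem_fiber.mp hw
  have hSmem : ∀ (s : S) (w : Place K F'), w ∈ P.fiber F' →
      (s : F') = 0 ∨ 0 ≤ w.ord (s : F') := by
    intro s w hw
    right
    exact (sf_ord_nonneg_iff w _).mpr (e0_int_mem P hR (hfib w hw) s.2)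
  have hmemS : ∀ x : F', (∀ w ∈ P.fiber F', x = 0 ∨ 0 ≤ w.ord x) → ∃ s : S, (s : F') = x := by
    intro x hx
    have : IsIntegral R x := by
      apply e0_mem_int P hR
      intro w hw
      rcases hx w (Place.mem_fiber.mpr hw) with h0 | h0
      · rw [h0]; exact zero_mem _
      · exact (sf_ord_nonneg_iff w x).mp h0
    exact ⟨⟨x, this⟩, rfl⟩
  obtain ⟨b, hb⟩ := hmemS h (fun w hw => e0HasVal_mem w (hc w hw))
  -- the value map on `R`
  have hval : ∀ r : R, ∃ a : K, e0HasVal P (algebraMap R F r) a := fun r =>
    e0HasVal_exists P hP (Or.inr ((sf_ord_nonneg_iff P _).mpr ((hR _).mpr ⟨r, rfl⟩)))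
  let ρ : R →+* K :=
    { toFun := fun r => (hval r).choose
      map_one' := e0HasVal_unique P (hval 1).choose_spec (by
        rw [map_one]; simpa using e0HasVal_const P (1 : K))
      map_mul' := fun r s => e0HasVal_unique P (hval (r * s)).choose_spec (by
        rw [map_mul]; exact e0HasVal_mul P (hval r).choose_spec (hval s).choose_spec)
      map_zero' := e0HasVal_unique P (hval 0).choose_spec (by
        rw [map_zero]; simpa using e0HasVal_const P (0 : K))
      map_add' := fun r s => e0HasVal_unique P (hval (r + s)).choose_spec (by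
        rw [map_add]; exact e0HasVal_add P (hval r).choose_spec (hval s).choose_spec) }
  have hρ : ∀ r, e0HasVal P (algebraMap R F r) (ρ r) := fun r => (hval r).choose_spec
  have hρK : ∀ a : K, ρ (algebraMap K R a) = a := fun a =>
    e0HasVal_unique P (hρ _) (by
      rw [← IsScalarTower.algebraMap_apply K R F]; exact e0HasVal_const P a)
  have hKRF' : ∀ a : K, algebraMap R F' (algebraMap K R a) = algebraMap K F' a := fun a => by
    rw [IsScalarTower.algebraMap_apply R F F', ← IsScalarTower.algebraMap_apply K R F,
      ← IsScalarTower.algebraMap_apply K F F']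
  -- basis and matrix
  let n := Module.finrank R S
  let β : Module.Basis (Fin n) R S := Module.finBasis R S
  let M := Algebra.leftMulMatrix β b
  have hnorm : Algebra.norm F h = algebraMap R F M.det := by
    rw [← hb]
    have := Algebra.norm_localization R (nonZeroDivisors R) (Rₘ := F) (Sₘ := F') b
    rw [Algebra.norm_eq_matrix_det β b] at this
    exact this
  let Mbar : Matrix (Fin n) (Fin n) K := ρ.mapMatrix M
  have hdet : ρ M.det = Mbar.det := RingHom.map_det ρ M
  let f : Module.End K (Fin n → K) := Matrix.toLin' Mbar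
  have hfdet : LinearMap.det f = Mbar.det := LinearMap.det_toLin' Mbar
  -- the coordinate map
  let X : (Fin n → K) →ₗ[K] F' := Fintype.linearCombination K (fun i => ((β i : S) : F'))
  let xS : (Fin n → K) → S := fun v => ∑ i, algebraMap K R (v i) • β i
  have hX : ∀ v, X v = (xS v : F') := by
    intro v
    show Fintype.linearCombination K (fun i => ((β i : S) : F')) v = _
    rw [Fintype.linearCombination_apply]
    show _ = ((∑ i, algebraMap K R (v i) • β i : S) : F')
    rw [AddSubmonoidClass.coe_finsetSum]
    apply Finset.sum_congr rfl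
    intro i _
    rw [Subalgebra.coe_smul, Algebra.smul_def, Algebra.smul_def, hKRF']
  have hrepr : ∀ v i, β.repr (xS v) i = algebraMap K R (v i) := by
    intro v i
    show β.repr (∑ i, algebraMap K R (v i) • β i) i = _
    rw [Module.Basis.repr_sum_self]
  -- smallness
  have hSmallR : ∀ r : R, ρ r = 0 → ∀ s : S, ∀ w ∈ P.fiber F',
      algebraMap R F' r * (s : F') = 0 ∨
        (w.ramificationIndex F : ℤ) ≤ w.ord (algebraMap R F' r * (s : F')) := by
    intro r hr s w hw
    have h0 := hρ r
    rw [hr, e0HasVal_zero_iff] at h0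
    have h1 : algebraMap R F' r = 0 ∨ (w.ramificationIndex F : ℤ) ≤ w.ord (algebraMap R F' r) := by
      rcases h0 with h0 | h0
      · left; rw [IsScalarTower.algebraMap_apply R F F', h0, map_zero]
      · right
        rw [IsScalarTower.algebraMap_apply R F F', w.ord_restrict, hfib w hw]
        have h2 : (0 : ℤ) ≤ (w.ramificationIndex F : ℤ) := by positivity
        nlinarith
    exact e0_small_mul w _ h1 (hSmem s w hw)
  have hSmallS : ∀ s : S, (∀ i, ρ (β.repr s i) = 0) → ∀ w ∈ P.fiber F',
      (s : F') = 0 ∨ (w.ramificationIndex F : ℤ) ≤ w.ord (s : F') := by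
    intro s hs w hw
    have hsum : (s : F') = ∑ i, algebraMap R F' (β.repr s i) * ((β i : S) : F') := by
      conv_lhs => rw [← β.sum_repr s]
      rw [AddSubmonoidClass.coe_finsetSum]
      apply Finset.sum_congr rfl
      intro i _
      rw [Subalgebra.coe_smul, Algebra.smul_def]
    rw [hsum]
    exact e0_small_sum w _ _ _ (fun i _ => hSmallR _ (hs i) (β i) w hw)
  have hSmallConv : ∀ s : S, (∀ w ∈ P.fiber F',
      (s : F') = 0 ∨ (w.ramificationIndex F : ℤ) ≤ w.ord (s : F')) → ∀ i, ρ (β.repr s i) = 0 := by
    intro s hs i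
    obtain ⟨ϖ, hϖ⟩ := IsDiscreteValuationRing.exists_irreducible P.toValuationSubring
    have hϖord : P.ord (ϖ : F) = 1 := P.ord_coe_irreducible hϖ
    have hϖ0 : (ϖ : F) ≠ 0 := by
      intro h0; rw [h0, Place.ord_zero] at hϖord; exact zero_ne_one hϖord
    obtain ⟨π, hπ⟩ := (hR (ϖ : F)).mp ϖ.2
    have hπ' : algebraMap R F' π = algebraMap F F' (ϖ : F) := by
      rw [IsScalarTower.algebraMap_apply R F F', hπ]
    have hπ0 : algebraMap F F' (ϖ : F) ≠ 0 := by simpa using hϖ0
    have hy : ∀ w ∈ P.fiber F', (s : F') / algebraMap F F' (ϖ : F) = 0 ∨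
        0 ≤ w.ord ((s : F') / algebraMap F F' (ϖ : F)) := by
      intro w hw
      rcases hs w hw with h0 | h0
      · left; rw [h0, zero_div]
      · by_cases hs0 : (s : F') = 0
        · left; rw [hs0, zero_div]
        · right
          rw [div_eq_mul_inv, w.ord_mul hs0 (inv_ne_zero hπ0), w.ord_inv, w.ord_restrict,
            hfib w hw, hϖord]
          omega
    obtain ⟨s', hs'⟩ := hmemS _ hy
    have hss' : s = π • s' := by
      apply Subtype.ext
      rw [Subalgebra.coe_smul, Algebra.smul_def, hs', hπ']
      field_simp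
    have hρπ : ρ π = 0 := by
      apply e0HasVal_unique P (hρ π)
      rw [hπ]
      exact e0HasVal_zero_of_ord_pos P (by omega)
    rw [hss', map_smul, Finsupp.smul_apply, smul_eq_mul, map_mul, hρπ, zero_mul]
  -- multiplication by `b` versus the reduced matrix
  have hkey : ∀ v : Fin n → K, ∀ w ∈ P.fiber F',
      h * X v - X (Mbar *ᵥ v) = 0 ∨
        (w.ramificationIndex F : ℤ) ≤ w.ord (h * X v - X (Mbar *ᵥ v)) := by
    intro v
    have hd : h * X v - X (Mbar *ᵥ v) = ((b * xS v - xS (Mbar *ᵥ v) : S) : F') := by
      rw [hX, hX, ← hb]; rfl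
    rw [hd]
    apply hSmallS
    intro i
    rw [map_sub, Finsupp.sub_apply, ← Algebra.leftMulMatrix_mulVec_repr, hrepr, map_sub, hρK]
    show ρ ((M *ᵥ fun j => β.repr (xS v) j) i) - _ = 0
    simp only [hrepr]
    rw [Matrix.mulVec, dotProduct, map_sum]
    simp only [map_mul, hρK]
    rw [sub_eq_zero]
    rfl
  have hXinj : ∀ v : Fin n → K, (∀ w ∈ P.fiber F',
      X v = 0 ∨ (w.ramificationIndex F : ℤ) ≤ w.ord (X v)) → v = 0 := by
    intro v hv
    funext i
    have h1 := hSmallConv (xS v) (by simpa only [hX] using hv) i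
    rw [hrepr, hρK] at h1
    exact h1
  have hXmem : ∀ (v : Fin n → K) (w : Place K F'), w ∈ P.fiber F' →
      X v = 0 ∨ 0 ≤ w.ord (X v) := by
    intro v w hw
    rw [hX]; exact hSmem _ w hw
  rw [hnorm]
  have hmain : LinearMap.det f = ∏ w ∈ P.fiber F', c w ^ w.ramificationIndex F := by
    apply e0_det_eq_prod f (P.fiber F') c (fun w => w.ramificationIndex F)
    · -- the fundamental identity
      have hFI := FundamentalIdentity.sum_ramificationIndex_mul_deg (K := K) (F := F) (F' := F') P
      rw [hP] at hFI
      have h2 : ∑ w ∈ P.fiber F', (w.ramificationIndex F : ℤ) * (w.deg : ℤ)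
          = ∑ w ∈ P.fiber F', (w.ramificationIndex F : ℤ) :=
        Finset.sum_congr rfl (fun w hw => by rw [hF' w hw]; simp)
      rw [h2] at hFI
      simp only [Nat.cast_one, mul_one] at hFI
      rw [Module.finrank_fin_fun]
      show _ = Module.finrank R S
      rw [hrank]
      exact_mod_cast hFI
    · intro μ
      -- the generalized eigenspace is contained in `e0H`
      set dμ : Place K F' → ℕ := fun w => if c w = μ then 0 else w.ramificationIndex F with hdμ
      have hpowmem : ∀ (k : ℕ) (w : Place K F'), w ∈ P.fiber F' →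
          (h - algebraMap K F' μ) ^ k = 0 ∨ 0 ≤ w.ord ((h - algebraMap K F' μ) ^ k) := by
        intro k w hw
        exact e0HasVal_mem w (e0HasVal_pow w (e0HasVal_sub w (hc w hw) (e0HasVal_const w μ)) k)
      have hind : ∀ (k : ℕ) (v : Fin n → K), ∀ w ∈ P.fiber F',
          (h - algebraMap K F' μ) ^ k * X v - X (((f - μ • (1 : Module.End K (Fin n → K))) ^ k) v) = 0
          ∨ (w.ramificationIndex F : ℤ) ≤ w.ord ((h - algebraMap K F' μ) ^ k * X v
              - X (((f - μ • (1 : Module.End K (Fin n → K))) ^ k) v)) := by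
        intro k
        induction k with
        | zero =>
          intro v w hw
          left
          simp
        | succ k ih =>
          intro v w hw
          have hsplit : (h - algebraMap K F' μ) ^ (k + 1) * X v
              - X (((f - μ • (1 : Module.End K (Fin n → K))) ^ (k + 1)) v)
              = (h * X v - X (Mbar *ᵥ v)) * (h - algebraMap K F' μ) ^ k
                + ((h - algebraMap K F' μ) ^ k * X ((f - μ • (1 : Module.End K (Fin n → K))) v)
                  - X (((f - μ • (1 : Module.End K (Fin n → K))) ^ k)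
                      ((f - μ • (1 : Module.End K (Fin n → K))) v))) := by
            have h1 : ((f - μ • (1 : Module.End K (Fin n → K))) ^ (k + 1)) v
                = ((f - μ • (1 : Module.End K (Fin n → K))) ^ k)
                    ((f - μ • (1 : Module.End K (Fin n → K))) v) := by
              rw [pow_succ, Module.End.mul_apply]
            have h2 : X ((f - μ • (1 : Module.End K (Fin n → K))) v)
                = X (Mbar *ᵥ v) - algebraMap K F' μ * X v := by
              rw [LinearMap.sub_apply, LinearMap.smul_apply, Module.End.one_apply, map_sub,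
                map_smul, Algebra.smul_def]
              rfl
            rw [h1, h2]
            ring
          rw [hsplit]
          exact e0_small_add w _ (e0_small_mul w _ (hkey v w hw) (hpowmem k w hw)) (ih _ w hw)
      have hsub : f.maxGenEigenspace μ ≤ e0H X (P.fiber F') dμ := by
        intro v hv
        obtain ⟨k, hk⟩ := (Module.End.mem_maxGenEigenspace f μ v).mp hv
        intro w hw
        by_cases hcw : c w = μ
        · have : dμ w = 0 := by rw [hdμ]; simp [hcw]
          rw [this]
          exact_mod_cast hXmem v w hw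
        · have hdw : dμ w = w.ramificationIndex F := by rw [hdμ]; simp [hcw]
          rw [hdw]
          have h1 := hind k v w hw
          rw [hk, map_zero, sub_zero] at h1
          have hval' := e0HasVal_pow w (e0HasVal_sub w (hc w hw) (e0HasVal_const w μ)) k
          obtain ⟨hne, hord⟩ := e0HasVal_ord_eq_zero w hval' (pow_ne_zero k (sub_ne_zero.mpr hcw))
          by_cases hXv : X v = 0
          · exact Or.inl hXv
          · right
            rcases h1 with h1 | h1
            · exact absurd h1 (mul_ne_zero hne hXv)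
            · rw [w.ord_mul hne hXv, hord, zero_add] at h1
              exact h1
      calc Module.finrank K (f.maxGenEigenspace μ)
          ≤ Module.finrank K (e0H X (P.fiber F') dμ) := Submodule.finrank_mono hsub
        _ ≤ ∑ w ∈ P.fiber F', (w.ramificationIndex F - dμ w) :=
          e0H_finrank_le X (P.fiber F') hF' (fun w => w.ramificationIndex F)
            hXinj dμ
        _ = ∑ w ∈ P.fiber F' with c w = μ, w.ramificationIndex F := by
          rw [Finset.sum_filter]
          apply Finset.sum_congr rfl
          intro w _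
          show w.ramificationIndex F - (if c w = μ then 0 else w.ramificationIndex F)
            = if c w = μ then w.ramificationIndex F else 0
          split_ifs <;> simp
  rw [← hmain, hfdet, ← hdet]
  exact hρ _

/-- the local norm formula for a finite extension. -/
theorem e0_norm_val_finite [HasPrincipalDivisors K F'] [FundamentalIdentity K F F']
    (P : Place K F) (hP : P.deg = 1) (hF' : ∀ w ∈ P.fiber F', w.deg = 1)
    (h : F') (c : Place K F' → K) (hc : ∀ w ∈ P.fiber F', e0HasVal w h (c w)) :
    e0HasVal P (Algebra.norm F h) (∏ w ∈ P.fiber F', c w ^ w.ramificationIndex F) := by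
  letI : Algebra P.toValuationSubring F' :=
    ((algebraMap F F').comp (algebraMap P.toValuationSubring F)).toAlgebra
  haveI : IsScalarTower P.toValuationSubring F F' :=
    IsScalarTower.of_algebraMap_eq (fun _ => rfl)
  exact e0_norm_val_aux (R := P.toValuationSubring) P hP hF'
    (fun x => ⟨fun hx => ⟨⟨x, hx⟩, rfl⟩, fun ⟨r, hr⟩ => hr ▸ r.2⟩) h c hc

end NormValMain

section NormValGeneral

variable {K F F' : Type*} [Field K] [IsAlgClosed K] [CharZero K] [Field F] [Field F']
  [Algebra K F] [Algebra K F'] [Algebra F F'] [IsScalarTower K F F'] [Algebra.IsIntegral F F']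

/-- **Local norm formula for values**: `(N h)(P) = ∏_{w ∣ P} h(w)^e(w ∣ P)`, for a function `h`
regular at all places `w` above `P`.  (If `F'` is not finite over `F` both sides are `1`.) -/
theorem e0_norm_val [HasPrincipalDivisors K F'] [FundamentalIdentity K F F']
    (P : Place K F) (hP : P.deg = 1) (hF' : ∀ w ∈ P.fiber F', w.deg = 1)
    (h : F') (c : Place K F' → K) (hc : ∀ w ∈ P.fiber F', e0HasVal w h (c w)) :
    e0HasVal P (Algebra.norm F h) (∏ w ∈ P.fiber F', c w ^ w.ramificationIndex F) := by
  by_cases hfd : FiniteDimensional F F'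
  · exact e0_norm_val_finite P hP hF' h c hc
  · have hfr : Module.finrank F F' = 0 := Module.finrank_of_not_finite hfd
    have hFI := FundamentalIdentity.sum_ramificationIndex_mul_deg (K := K) (F := F) (F' := F') P
    rw [hfr, Nat.cast_zero, zero_mul] at hFI
    have hempty : P.fiber F' = ∅ := by
      rw [Finset.eq_empty_iff_forall_notMem]
      intro w hw
      have hnn : ∀ w' ∈ P.fiber F', (0 : ℤ) ≤ (w'.ramificationIndex F : ℤ) * (w'.deg : ℤ) :=
        fun w' _ => by positivity
      have h0 := (Finset.sum_eq_zero_iff_of_nonneg hnn).mp hFI w hw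
      rw [hF' w hw] at h0
      have hpos := w.ramificationIndex_pos (F := F)
      have : (w.ramificationIndex F : ℤ) = 0 := by simpa using h0
      omega
    rw [Algebra.norm_eq_one_of_not_module_finite hfd, hempty, Finset.prod_empty]
    simpa using e0HasVal_const P (1 : K)

end NormValGeneral

section Pairing

variable {K F : Type*} [Field K] [Field F] [Algebra K F]

open Classical in
/-- the value of `g` at `P` as a unit of `K` (`1` if `g` has no nonzero value at `P`). -/
noncomputable def e0Val (P : Place K F) (g : F) : Kˣ :=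
  if h : ∃ c : Kˣ, e0HasVal P g (c : K) then h.choose else 1

theorem e0Val_eq (P : Place K F) {g : F} {c : K} (h : e0HasVal P g c) (hc : c ≠ 0) :
    (e0Val P g : K) = c := by
  have hex : ∃ c' : Kˣ, e0HasVal P g (c' : K) := ⟨Units.mk0 c hc, h⟩
  rw [e0Val, dif_pos hex]
  exact e0HasVal_unique P hex.choose_spec h

/-- at a place of degree one, a unit has its `e0Val` as value. -/
theorem e0Val_spec (P : Place K F) (hdeg : P.deg = 1) {g : F} (hg0 : g ≠ 0)
    (hord : P.ord g = 0) : e0HasVal P g (e0Val P g : K) := by
  obtain ⟨c, hc⟩ := e0HasVal_exists P hdeg (Or.inr hord.ge : g = 0 ∨ 0 ≤ P.ord g)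
  have hc0 : c ≠ 0 := e0HasVal_ne_zero_of_ord P hc hg0 hord
  rw [e0Val_eq P hc hc0]
  exact hc

theorem e0Val_mul (P : Place K F) (hdeg : P.deg = 1) {g h : F} (hg0 : g ≠ 0)
    (hg : P.ord g = 0) (hh0 : h ≠ 0) (hh : P.ord h = 0) :
    e0Val P (g * h) = e0Val P g * e0Val P h := by
  apply Units.ext
  rw [Units.val_mul]
  exact e0Val_eq P (e0HasVal_mul P (e0Val_spec P hdeg hg0 hg) (e0Val_spec P hdeg hh0 hh))
    (mul_ne_zero (Units.ne_zero _) (Units.ne_zero _))

theorem e0Val_const (P : Place K F) (c : Kˣ) : e0Val P (algebraMap K F c) = c :=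
  Units.ext (e0Val_eq P (e0HasVal_const P (c : K)) c.ne_zero)

/-- the pairing `g(D) = ∏_P g(P)^(D P)` of a function with a divisor. -/
noncomputable def e0Pair (g : F) (D : Divisor K F) : Kˣ :=
  D.prod fun P n => e0Val P g ^ n

theorem e0Pair_def (g : F) (D : Divisor K F) :
    e0Pair g D = ∏ P ∈ D.support, e0Val P g ^ D P := rfl

theorem e0Pair_zero (g : F) : e0Pair g (0 : Divisor K F) = 1 := Finsupp.prod_zero_index

theorem e0Pair_add (g : F) (D E : Divisor K F) :
    e0Pair g (D + E) = e0Pair g D * e0Pair g E := by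
  classical
  exact Finsupp.prod_add_index' (fun _ => zpow_zero _) (fun _ _ _ => zpow_add _ _ _)

theorem e0Pair_single (g : F) (P : Place K F) (n : ℤ) :
    e0Pair g (Finsupp.single P n) = e0Val P g ^ n :=
  Finsupp.prod_single_index (zpow_zero _)

theorem e0Pair_sum {ι : Type*} (g : F) (s : Finset ι) (D : ι → Divisor K F) :
    e0Pair g (∑ i ∈ s, D i) = ∏ i ∈ s, e0Pair g (D i) := by
  classical
  induction s using Finset.induction_on with
  | empty => simp [e0Pair_zero]
  | insert a s ha ih => rw [Finset.sum_insert ha, Finset.prod_insert ha, e0Pair_add, ih]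

theorem e0Pair_neg (g : F) (D : Divisor K F) : e0Pair g (-D) = (e0Pair g D)⁻¹ := by
  have h := e0Pair_add g D (-D)
  rw [add_neg_cancel, e0Pair_zero] at h
  exact eq_inv_of_mul_eq_one_right h.symm

/-- the pairing is multiplicative in the function, for functions which are units on the
support of the divisor. -/
theorem e0Pair_mul (hdeg : ∀ P : Place K F, P.deg = 1) (g h : F) (D : Divisor K F)
    (hg : ∀ P : Place K F, D P ≠ 0 → g ≠ 0 ∧ P.ord g = 0)
    (hh : ∀ P : Place K F, D P ≠ 0 → h ≠ 0 ∧ P.ord h = 0) :
    e0Pair (g * h) D = e0Pair g D * e0Pair h D := by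
  rw [e0Pair_def, e0Pair_def, e0Pair_def, ← Finset.prod_mul_distrib]
  apply Finset.prod_congr rfl
  intro P hP
  have hP' : D P ≠ 0 := Finsupp.mem_support_iff.mp hP
  rw [e0Val_mul P (hdeg P) (hg P hP').1 (hg P hP').2 (hh P hP').1 (hh P hP').2, mul_zpow]

end Pairing

section Main

variable {K F F' : Type*} [Field K] [Field F] [Field F'] [Algebra K F] [Algebra K F']

/-- the norm of `F'` over `φ(F)`, as an element of `F`. -/
noncomputable def e0Norm (φ : F →ₐ[K] F') (x : F') : F :=
  letI := algebraAlong φ
  Algebra.norm F x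

/-- the value at the restriction of a place along `ψ`. -/
theorem e0HasVal_restrictAlong (ψ : F →ₐ[K] F') (hψ : ψ.toRingHom.IsIntegral) (W : Place K F')
    (g : F) (c : K) : e0HasVal (W.restrictAlong ψ hψ) g c ↔ e0HasVal W (ψ g) c := by
  letI := algebraAlong ψ
  haveI := isScalarTower_along ψ
  haveI := isIntegral_along ψ hψ
  exact e0HasVal_restrict W g c

theorem e0Val_restrictAlong (ψ : F →ₐ[K] F') (hψ : ψ.toRingHom.IsIntegral) (W : Place K F')
    (hdeg : (W.restrictAlong ψ hψ).deg = 1) {g : F} (hg0 : g ≠ 0)
    (hord : (W.restrictAlong ψ hψ).ord g = 0) :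
    e0Val (W.restrictAlong ψ hψ) g = e0Val W (ψ g) ∧ e0HasVal W (ψ g) (e0Val W (ψ g) : K) := by
  have h1 := e0Val_spec (W.restrictAlong ψ hψ) hdeg hg0 hord
  have h2 := (e0HasVal_restrictAlong ψ hψ W g _).mp h1
  have h3 : (e0Val W (ψ g) : K) = (e0Val (W.restrictAlong ψ hψ) g : K) :=
    e0Val_eq W h2 (Units.ne_zero _)
  refine ⟨Units.ext h3.symm, ?_⟩
  rw [h3]; exact h2

theorem e0_inertiaDegAlong_eq_one (ψ : F →ₐ[K] F') (hψ : ψ.toRingHom.IsIntegral)
    (W : Place K F') (hW : W.deg = 1) : W.inertiaDegAlong ψ hψ = 1 := by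
  letI := algebraAlong ψ
  haveI := isScalarTower_along ψ
  haveI := isIntegral_along ψ hψ
  have h := W.deg_restrict_mul_inertiaDeg (F := F)
  rw [hW] at h
  exact Nat.eq_one_of_mul_eq_one_left h

end Main


section Correspondence

variable {K F F' : Type*} [Field K] [IsAlgClosed K] [CharZero K] [Field F] [Field F']
  [Algebra K F] [Algebra K F'] [HasPrincipalDivisors K F']

/-- the value of the norm along `φ`, in terms of the values at the places above. -/
theorem e0Val_norm (φ : F →ₐ[K] F') (hφ : φ.toRingHom.IsIntegral)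
    (hFI : FundamentalIdentityAlong K φ hφ) (P : Place K F) (hP : P.deg = 1)
    (hF' : ∀ W : Place K F', W.restrictAlong φ hφ = P → W.deg = 1)
    (x : F') (hx : ∀ W : Place K F', W.restrictAlong φ hφ = P →
      e0HasVal W x (e0Val W x : K)) :
    e0Val P (e0Norm φ x)
      = ∏ W ∈ Place.fiberAlong φ hφ P, e0Val W x ^ W.ramificationIndexAlong φ := by
  letI := algebraAlong φ
  haveI := isScalarTower_along φ
  haveI := isIntegral_along φ hφ
  haveI : FundamentalIdentity K F F' := hFI
  have h1 := e0_norm_val (F' := F') P hP (fun W hW => hF' W (Place.mem_fiber.mp hW)) x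
    (fun W => (e0Val W x : K)) (fun W hW => hx W (Place.mem_fiber.mp hW))
  apply Units.ext
  have h2 : (((∏ W ∈ Place.fiberAlong φ hφ P, e0Val W x ^ W.ramificationIndexAlong φ : Kˣ)) : K)
      = ∏ W ∈ P.fiber F', (e0Val W x : K) ^ W.ramificationIndex F := by
    rw [Units.coe_prod]
    rfl
  rw [h2]
  refine e0Val_eq P h1 ?_
  exact Finset.prod_ne_zero_iff.mpr (fun W _ => pow_ne_zero _ (Units.ne_zero _))

/-- the pairing identity for a single place. -/
theorem e0_pair_correspondence_single (φ ψ : F →ₐ[K] F')
    (hφ : φ.toRingHom.IsIntegral) (hψ : ψ.toRingHom.IsIntegral)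
    (hFI : FundamentalIdentityAlong K φ hφ)
    (hF : ∀ P : Place K F, P.deg = 1) (hF' : ∀ W : Place K F', W.deg = 1)
    (g : F) (P : Place K F) (n : ℤ)
    (hg : ∀ W : Place K F', W.restrictAlong φ hφ = P →
      g ≠ 0 ∧ (W.restrictAlong ψ hψ).ord g = 0) :
    e0Pair g (Divisor.correspondence φ ψ hφ hψ (Finsupp.single P n))
      = e0Val P (e0Norm φ (ψ g)) ^ n := by
  rw [Divisor.correspondence_apply, Divisor.pullbackAlong_single, map_sum, e0Pair_sum]
  rw [e0Val_norm φ hφ hFI P (hF P) (fun W _ => hF' W) (ψ g)
    (fun W hW => (e0Val_restrictAlong ψ hψ W (hF _) (hg W hW).1 (hg W hW).2).2)]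
  rw [← Finset.prod_zpow]
  apply Finset.prod_congr rfl
  intro W hW
  have hW' : W.restrictAlong φ hφ = P := Place.mem_fiberAlong.mp hW
  rw [Divisor.pushforwardAlong_single, e0Pair_single, e0_inertiaDegAlong_eq_one ψ hψ W (hF' W),
    (e0Val_restrictAlong ψ hψ W (hF _) (hg W hW').1 (hg W hW').2).1]
  rw [Nat.cast_one, mul_one, mul_comm, zpow_mul, zpow_natCast]

/-- **The pairing identity** `g(ψ_* φ^* D) = (N_φ (ψ g))(D)`. -/
theorem e0_pair_correspondence (φ ψ : F →ₐ[K] F')
    (hφ : φ.toRingHom.IsIntegral) (hψ : ψ.toRingHom.IsIntegral)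
    (hFI : FundamentalIdentityAlong K φ hφ)
    (hF : ∀ P : Place K F, P.deg = 1) (hF' : ∀ W : Place K F', W.deg = 1)
    (g : F) (D : Divisor K F)
    (hg : ∀ W : Place K F', D (W.restrictAlong φ hφ) ≠ 0 →
      g ≠ 0 ∧ (W.restrictAlong ψ hψ).ord g = 0) :
    e0Pair g (Divisor.correspondence φ ψ hφ hψ D) = e0Pair (e0Norm φ (ψ g)) D := by
  conv_lhs => rw [← Finsupp.sum_single D]
  rw [Finsupp.sum, map_sum, e0Pair_sum, e0Pair_def]
  apply Finset.prod_congr rfl
  intro P hP
  have hP' : D P ≠ 0 := Finsupp.mem_support_iff.mp hP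
  exact e0_pair_correspondence_single φ ψ hφ hψ hFI hF hF' g P (D P)
    (fun W hW => hg W (by rw [hW]; exact hP'))

end Correspondence


section Hecke

open ModularCurve

variable {L : Type*} [Field L] [Algebra ℚ L] [IsAlgClosed L] (N ℓ : ℕ) [NeZero N] [NeZero ℓ]

/-- **The pairing identity for the Hecke correspondence** `T_ℓ = α_* β^*`:
`g(T_ℓ D) = (T^* g)(D)` with `T^* g = β⁻¹ (Norm_{F_{Nℓ} / β F_N} (α g))`, whenever `g` is a unit
at every point of `T_ℓ(P)`, `P` in the support of `D`. -/
theorem e0_pair_hecke (hα : HeckeAlphaBarIntegral L N ℓ) (hβ : HeckeBetaBarIntegral L N ℓ)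
    [HasPrincipalDivisors L (laurentBaseChange L (modularFunctionFieldFull (N * ℓ)))]
    (hFI : FundamentalIdentityAlong L (heckeBetaBar L N ℓ) hβ)
    (hF : ∀ P : Place L (laurentBaseChange L (modularFunctionFieldFull N)), P.deg = 1)
    (hF' : ∀ W : Place L (laurentBaseChange L (modularFunctionFieldFull (N * ℓ))), W.deg = 1)
    (g : laurentBaseChange L (modularFunctionFieldFull N))
    (D : Divisor L (laurentBaseChange L (modularFunctionFieldFull N)))
    (hg : ∀ W : Place L (laurentBaseChange L (modularFunctionFieldFull (N * ℓ))),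
      D (W.restrictAlong (heckeBetaBar L N ℓ) hβ) ≠ 0 →
      g ≠ 0 ∧ (W.restrictAlong (heckeAlphaBar L N ℓ) hα).ord g = 0) :
    e0Pair g (heckeDivBar hα hβ D)
      = e0Pair (e0Norm (heckeBetaBar L N ℓ) (heckeAlphaBar L N ℓ g)) D :=
  haveI : CharZero L := algebraRat.charZero L
  e0_pair_correspondence (heckeBetaBar L N ℓ) (heckeAlphaBar L N ℓ) hβ hα hFI hF hF' g D hg

end Hecke

end Fermat.Agent.S37
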