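import Fermat.Agent.S37.NormPlace
import Fermat.Agent.S24.Degree
import Fermat.Prelude.Def_ModularCurve_HeckeOperatorTotal

/-!
# S37, HECKEIN: the inputs of the Hecke correspondence on `X₀(N)` over `ℚ̄`

`hki_heckeInputsAlong : ModularCurve.HeckeInputsAlong (AlgebraicClosure ℚ) N ℓ` for all
`N`, `ℓ`: both degeneracy maps `F_N → F_{Nℓ}` are finite (hence integral), principal divisors of
`F_{Nℓ}` have finite support and degree zero, the fundamental identity holds along `β` and the
norm formula holds along `α` (in fact both hold along every `ℚ̄`-embedding).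
-/

set_option autoImplicit false
set_option linter.unusedSectionVars false
set_option linter.unusedVariables false
set_option linter.style.haveILetI false

open AlgebraicCurve ModularCurve IntermediateField

namespace Fermat.Agent.S37

section modular

variable (N : ℕ) [NeZero N]

/-- every place of the function field of `X₀(N)` over `ℚ̄` has residue field `ℚ̄`. -/
theorem hki_residue (v : Place (AlgebraicClosure ℚ) (modularFunctionFieldBar N)) :
    Function.Bijective (algebraMap (AlgebraicClosure ℚ) v.ResidueField) := by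
  haveI := Fermat.Agent.S24.finiteDimensional_jBar' N
  haveI : Algebra.IsAlgebraic (AlgebraicClosure ℚ)⟮Fermat.Agent.S24.jBar N⟯
      (modularFunctionFieldBar N) := Algebra.IsAlgebraic.of_finite _ _
  exact Fermat.Agent.S24.place_residue_bijective v (Fermat.Agent.S24.jBar N)

/-- principal divisors of the function field of `X₀(N)` over `ℚ̄`. -/
theorem hki_hasPrincipalDivisors :
    HasPrincipalDivisors (AlgebraicClosure ℚ) (modularFunctionFieldBar N) := by
  classical
  haveI := Fermat.Agent.S24.finiteDimensional_jBar' N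
  refine ⟨fun f hf => ?_⟩
  have hfin := Fermat.Agent.S24.ord_support_finite (Fermat.Agent.S24.jBar N)
    (Fermat.Agent.S24.transcendental_jBar' N) f hf
  refine ⟨Finsupp.ofSupportFinite (fun P => P.ord f) hfin, fun v => rfl, ?_⟩
  set W : Divisor (AlgebraicClosure ℚ) (modularFunctionFieldBar N) :=
    Finsupp.ofSupportFinite (fun P => P.ord f) hfin with hW
  have hdeg : Divisor.degree W = ∑ᶠ v, W v := by
    rw [finsum_eq_sum_of_support_subset (s := W.support) _ (by intro v hv; simpa using hv)]
    show (Finsupp.liftAddHom fun v : Place (AlgebraicClosure ℚ) (modularFunctionFieldBar N) =>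
      AddMonoidHom.mulRight ((v.deg : ℕ) : ℤ)) W = _
    rw [Finsupp.liftAddHom_apply, Finsupp.sum]
    refine Finset.sum_congr rfl fun v _ => ?_
    simp [hki_deg_eq_one v (hki_residue N v)]
  rw [hdeg]
  exact Fermat.Agent.S24.finsum_ord_eq_zero (Fermat.Agent.S24.jBar N)
    (Fermat.Agent.S24.transcendental_jBar' N) f hf

variable (M : ℕ) [NeZero M]

/-- every `ℚ̄`-embedding between the function fields of `X₀(N)` and `X₀(M)` is finite. -/
theorem hki_finiteAlong (φ : modularFunctionFieldBar N →ₐ[AlgebraicClosure ℚ]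
    modularFunctionFieldBar M) : FiniteAlong (AlgebraicClosure ℚ) φ := by
  letI := algebraAlong φ
  show Module.Finite (modularFunctionFieldBar N) (modularFunctionFieldBar M)
  haveI := Fermat.Agent.S24.finiteDimensional_jBar' M
  have ht : Transcendental (AlgebraicClosure ℚ) (φ (Fermat.Agent.S24.jBar N)) := by
    intro h
    exact Fermat.Agent.S24.transcendental_jBar' N
      ((isAlgebraic_algHom_iff φ φ.toRingHom.injective).mp h)
  haveI : FiniteDimensional (AlgebraicClosure ℚ)⟮φ (Fermat.Agent.S24.jBar N)⟯
      (modularFunctionFieldBar M) :=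
    Fermat.Agent.S24.a4_finiteDimensional (Fermat.Agent.S24.transcendental_jBar' M) ht
  refine Fermat.Agent.S24.sf_finite_of_le
    (A₁ := (AlgebraicClosure ℚ)⟮φ (Fermat.Agent.S24.jBar N)⟯) ?_
  intro a
  have hle : (AlgebraicClosure ℚ)⟮φ (Fermat.Agent.S24.jBar N)⟯ ≤ φ.fieldRange := by
    rw [adjoin_simple_le_iff]
    exact ⟨_, rfl⟩
  obtain ⟨b, hb⟩ := hle a.2
  exact ⟨b, hb⟩

theorem hki_isIntegral (φ : modularFunctionFieldBar N →ₐ[AlgebraicClosure ℚ]
    modularFunctionFieldBar M) : φ.toRingHom.IsIntegral := by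
  letI := algebraAlong φ
  haveI : Module.Finite (modularFunctionFieldBar N) (modularFunctionFieldBar M) :=
    hki_finiteAlong N M φ
  intro x
  exact Algebra.IsIntegral.isIntegral (R := modularFunctionFieldBar N) x

theorem hki_fundamentalIdentityAlong (φ : modularFunctionFieldBar N →ₐ[AlgebraicClosure ℚ]
    modularFunctionFieldBar M) (hφ : φ.toRingHom.IsIntegral)
    [HasPrincipalDivisors (AlgebraicClosure ℚ) (modularFunctionFieldBar M)] :
    FundamentalIdentityAlong (AlgebraicClosure ℚ) φ hφ := by
  letI := algebraAlong φ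
  haveI := isScalarTower_along φ
  haveI : Module.Finite (modularFunctionFieldBar N) (modularFunctionFieldBar M) :=
    hki_finiteAlong N M φ
  exact hki_fundamentalIdentity (hki_residue N) (hki_residue M)

theorem hki_normFormulaAlong (φ : modularFunctionFieldBar N →ₐ[AlgebraicClosure ℚ]
    modularFunctionFieldBar M) (hfin : FiniteAlong (AlgebraicClosure ℚ) φ) :
    NormFormulaAlong (AlgebraicClosure ℚ) φ hfin := by
  letI := algebraAlong φ
  haveI := isScalarTower_along φ
  haveI : Module.Finite (modularFunctionFieldBar N) (modularFunctionFieldBar M) := hfin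
  exact hki_normFormula (hki_residue N) (hki_residue M)

end modular

/-- **HECKEIN**: the inputs of the Hecke correspondence `T_ℓ` on `J₀(N)` over `ℚ̄`. -/
theorem hki_heckeInputsAlong (N ℓ : ℕ) [NeZero N] [NeZero ℓ] :
    HeckeInputsAlong (AlgebraicClosure ℚ) N ℓ := by
  haveI : NeZero (N * ℓ) := ⟨Nat.mul_ne_zero (NeZero.ne N) (NeZero.ne ℓ)⟩
  haveI hP : HasPrincipalDivisors (AlgebraicClosure ℚ)
      (laurentBaseChange (AlgebraicClosure ℚ) (modularFunctionFieldFull (N * ℓ))) :=
    hki_hasPrincipalDivisors (N * ℓ)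
  have hα : HeckeAlphaBarIntegral (AlgebraicClosure ℚ) N ℓ :=
    hki_isIntegral N (N * ℓ) (heckeAlphaBar (AlgebraicClosure ℚ) N ℓ)
  have hβ : HeckeBetaBarIntegral (AlgebraicClosure ℚ) N ℓ :=
    hki_isIntegral N (N * ℓ) (heckeBetaBar (AlgebraicClosure ℚ) N ℓ)
  have hfin : FiniteAlong (AlgebraicClosure ℚ) (heckeAlphaBar (AlgebraicClosure ℚ) N ℓ) :=
    hki_finiteAlong N (N * ℓ) _
  exact heckeInputsAlong_intro hα hβ
    (hki_fundamentalIdentityAlong N (N * ℓ) _ hβ) hfin (hki_normFormulaAlong N (N * ℓ) _ hfin)

end Fermat.Agent.S37
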