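import Mathlib
import Fermat.Prelude.Def_ModularCurve_X0ModL
import Fermat.Prelude.Thm_ModularCurve_coeffMap_qExpand
import Fermat.Prelude.Thm_ModularCurve_coeff_jqModC_neg_one

/-!
# S37, package ES-E1: Frobenius on Laurent series in characteristic `ℓ`

* `tvf_pow_char`: `x ^ ℓ = (s̄ x)(q^ℓ)` for `x ∈ k((q))`, `char k = ℓ` (`s̄` the coefficientwise
  Frobenius);
* `tvf_jq_pow`: `j ^ ℓ = j(q^ℓ)` (Kronecker);
* `tvf_indep_jq`: `1, j, …, j^(ℓ-1)` are linearly independent over `k((q^ℓ))`.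
-/

set_option autoImplicit false

open ModularCurve

namespace Fermat.Agent.S37

section General

/-- linear independence of the powers of an element whose `ℓ`-th power lies in the range of a
field endomorphism `φ` but which is itself not in the range (characteristic `ℓ`) -/
theorem tvf_indep {L : Type*} [Field L] (ℓ : ℕ) [Fact ℓ.Prime] [CharP L ℓ] (φ : L →+* L) (J : L)
    (hJℓ : ∃ a, φ a = J ^ ℓ) (hJ : ∀ c, φ c ≠ J) (c : Fin ℓ → L)
    (h : ∑ i, φ (c i) * J ^ (i : ℕ) = 0) : ∀ i, c i = 0 := by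
  have hℓ : ℓ.Prime := Fact.out
  set K₀ : Subfield L := φ.fieldRange with hK₀
  have haK : J ^ ℓ ∈ K₀ := by
    obtain ⟨a, ha⟩ := hJℓ
    exact ⟨a, ha⟩
  set a : K₀ := ⟨J ^ ℓ, haK⟩ with ha
  have hirr : Irreducible (Polynomial.X ^ ℓ - Polynomial.C a : Polynomial K₀) := by
    refine X_pow_sub_C_irreducible_of_prime hℓ (fun b hb => ?_)
    have h1 : ((b : L)) ^ ℓ = J ^ ℓ := by
      have := congrArg (Subtype.val) hb
      simpa using this
    have h2 : (b : L) = J := frobenius_inj L ℓ h1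
    obtain ⟨c', hc'⟩ := b.2
    exact hJ c' (hc'.trans h2)
  have hroot : Polynomial.aeval J (Polynomial.X ^ ℓ - Polynomial.C a : Polynomial K₀) = 0 := by
    simp only [map_sub, map_pow, Polynomial.aeval_X, Polynomial.aeval_C]
    exact sub_self _
  have hmin : minpoly K₀ J = Polynomial.X ^ ℓ - Polynomial.C a :=
    (minpoly.eq_of_irreducible_of_monic hirr hroot
      (Polynomial.monic_X_pow_sub_C a hℓ.ne_zero)).symm
  have hdeg : (minpoly K₀ J).natDegree = ℓ := by
    rw [hmin, Polynomial.natDegree_X_pow_sub_C]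
  have hli := linearIndependent_pow (K := K₀) J
  rw [Fintype.linearIndependent_iff] at hli
  have hg := hli (fun i => ⟨φ (c (Fin.cast hdeg i)), ⟨_, rfl⟩⟩) (by
    rw [← h]
    refine Fintype.sum_equiv (finCongr hdeg) _ _ (fun i => ?_)
    rw [Subfield.smul_def]
    rfl)
  intro i
  have h3 := hg (Fin.cast hdeg.symm i)
  have h4 : φ (c i) = 0 := by
    have := congrArg Subtype.val h3
    simpa using this
  exact (map_eq_zero φ).mp h4

end General

section Series

variable {k : Type*} [Field k] (ℓ : ℕ) [Fact ℓ.Prime] [CharP k ℓ]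

omit [Fact ℓ.Prime] in
theorem tvf_charP_ps : CharP (PowerSeries k) ℓ :=
  charP_of_injective_algebraMap (algebraMap k (PowerSeries k)).injective ℓ

omit [Fact ℓ.Prime] in
theorem tvf_charP : CharP (LaurentSeries k) ℓ :=
  charP_of_injective_algebraMap (algebraMap k (LaurentSeries k)).injective ℓ

/-- coefficients of the `ℓ`-th power of a power series in characteristic `ℓ` -/
theorem tvf_ps_coeff_pow (p : PowerSeries k) (m : ℕ) :
    PowerSeries.coeff m (p ^ ℓ) = if ℓ ∣ m then (PowerSeries.coeff (m / ℓ) p) ^ ℓ else 0 := by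
  have hℓ : ℓ.Prime := Fact.out
  have h1 : PowerSeries.coeff m (p ^ ℓ) = (PowerSeries.trunc (m + 1) (p ^ ℓ)).coeff m := by
    rw [PowerSeries.coeff_trunc, if_pos (Nat.lt_succ_self m)]
  rw [h1, ← PowerSeries.trunc_trunc_pow, PowerSeries.coeff_trunc, if_pos (Nat.lt_succ_self m),
    ← Polynomial.coe_pow, Polynomial.coeff_coe, ← Polynomial.map_frobenius_expand ℓ,
    Polynomial.coeff_map, Polynomial.coeff_expand hℓ.pos]
  split_ifs with hm
  · rw [PowerSeries.coeff_trunc,
      if_pos (lt_of_le_of_lt (Nat.div_le_self m ℓ) (Nat.lt_succ_self m)), frobenius_def]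
  · rw [map_zero]

omit [Fact ℓ.Prime] [CharP k ℓ] in
theorem tvf_ofPowerSeries_coeff_neg (p : PowerSeries k) {n : ℤ} (hn : n < 0) :
    (HahnSeries.ofPowerSeries ℤ k p).coeff n = 0 := by
  rw [HahnSeries.ofPowerSeries_apply]
  apply HahnSeries.embDomain_of_notMem_range
  rintro ⟨m, hm⟩
  have : (0 : ℤ) ≤ n := by
    rw [← hm]
    exact Int.natCast_nonneg m
  omega

theorem tvf_ofPowerSeries_pow (p : PowerSeries k) :
    (HahnSeries.ofPowerSeries ℤ k p) ^ ℓ
      = qExpand k ℓ (coeffMap (frobenius k ℓ) (HahnSeries.ofPowerSeries ℤ k p)) := by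
  have hℓ : ℓ.Prime := Fact.out
  rw [← map_pow]
  ext n
  by_cases hn : (ℓ : ℤ) ∣ n
  · obtain ⟨m, rfl⟩ := hn
    rw [qExpand_coeff_mul, coeffMap_coeff]
    rcases lt_or_ge m 0 with hm | hm
    · rw [tvf_ofPowerSeries_coeff_neg p hm, map_zero]
      exact tvf_ofPowerSeries_coeff_neg _ (mul_neg_of_pos_of_neg (by exact_mod_cast hℓ.pos) hm)
    · lift m to ℕ using hm
      rw [show ((ℓ : ℤ) * (m : ℤ)) = ((ℓ * m : ℕ) : ℤ) by push_cast; rfl,
        HahnSeries.ofPowerSeries_apply_coeff, HahnSeries.ofPowerSeries_apply_coeff,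
        tvf_ps_coeff_pow, if_pos (dvd_mul_right ℓ m), Nat.mul_div_cancel_left m hℓ.pos,
        frobenius_def]
  · rw [qExpand_coeff_of_not_dvd ℓ _ hn]
    rcases lt_or_ge n 0 with hn0 | hn0
    · exact tvf_ofPowerSeries_coeff_neg _ hn0
    · lift n to ℕ using hn0
      rw [HahnSeries.ofPowerSeries_apply_coeff, tvf_ps_coeff_pow, if_neg]
      intro hdvd
      exact hn (by exact_mod_cast hdvd)

/-- **Frobenius on Laurent series**: `x ^ ℓ = (s̄ x)(q^ℓ)` -/
theorem tvf_pow_char (x : LaurentSeries k) :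
    x ^ ℓ = qExpand k ℓ (coeffMap (frobenius k ℓ) x) := by
  conv_lhs => rw [← LaurentSeries.single_order_mul_powerSeriesPart x]
  conv_rhs => rw [← LaurentSeries.single_order_mul_powerSeriesPart x]
  rw [mul_pow, map_mul, map_mul, ← tvf_ofPowerSeries_pow, HahnSeries.single_pow, coeffMap_single,
    qExpand_single, map_one, one_pow, nsmul_eq_mul]

/-- Kronecker: `j ^ ℓ = j(q^ℓ)` in characteristic `ℓ` -/
theorem tvf_jq_pow : jqModC k ^ ℓ = qExpand k ℓ (jqModC k) := by
  rw [tvf_pow_char, coeffMap_jqModC]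

omit [CharP k ℓ] in
theorem tvf_jq_not_range (c : LaurentSeries k) : qExpand k ℓ c ≠ jqModC k := by
  have hℓ : ℓ.Prime := Fact.out
  intro h
  have h1 : (qExpand k ℓ c).coeff (-1 : ℤ) = (jqModC k).coeff (-1 : ℤ) := by rw [h]
  rw [coeff_jqModC_neg_one, qExpand_coeff_of_not_dvd] at h1
  · exact zero_ne_one h1
  · intro hdvd
    have h2 : (ℓ : ℤ) ∣ 1 := by
      obtain ⟨t, ht⟩ := hdvd
      exact ⟨-t, by linarith⟩
    have h3 : ℓ ∣ 1 := by exact_mod_cast h2
    exact hℓ.one_lt.ne' (Nat.dvd_one.mp h3)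

/-- `1, j, …, j^(ℓ-1)` are linearly independent over `k((q^ℓ))` -/
theorem tvf_indep_jq (c : Fin ℓ → LaurentSeries k)
    (h : ∑ i, qExpand k ℓ (c i) * jqModC k ^ (i : ℕ) = 0) : ∀ i, c i = 0 := by
  have := tvf_charP (k := k) ℓ
  exact tvf_indep ℓ (qExpand k ℓ) (jqModC k) ⟨jqModC k, (tvf_jq_pow ℓ).symm⟩
    (tvf_jq_not_range ℓ) c h

end Series

end Fermat.Agent.S37
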