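import Mathlib

/-!
# S37, package ES-E1, part (b): abstract norm-residue formula

`E ⊆ F` a finite field extension, `VE` a valuation subring of `E`, `V₁, V₂` subrings of `F`
containing `VE`, with "residue maps" `ρE, ρ₁, ρ₂` into fields, compatible through `ι₁, ι₂`.
If `b : ι → V₁ ∩ V₂`, `card ι = [F : E]`, has residues `(ρ₁ b_i, ρ₂ b_i)` independent over the
residue field of `VE`, then `b` is an `E`-basis of `F`, the matrix of the multiplication by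
`u ∈ V₁ ∩ V₂` has entries in `VE` and reduces to a matrix of the multiplication by `(ρ₁ u, ρ₂ u)`
on the span of the residues; so the residue of the norm of `u` is the determinant of the latter
(`tva_main`).  `tva_block` and `tva_frob` compute such determinants.
-/

set_option autoImplicit false

namespace Fermat.Agent.S37

section Abs

variable {E F κE κ₁ κ₂ : Type*} [Field E] [Field F] [Algebra E F] [Field κE] [Field κ₁] [Field κ₂]
  (VE : ValuationSubring E) (V₁ V₂ : Subring F)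
  (hV₁ : ∀ a ∈ VE, algebraMap E F a ∈ V₁) (hV₂ : ∀ a ∈ VE, algebraMap E F a ∈ V₂)
  (ρE : VE →+* κE) (ρ₁ : V₁ →+* κ₁) (ρ₂ : V₂ →+* κ₂) (ι₁ : κE →+* κ₁) (ι₂ : κE →+* κ₂)
  (hρ₁ : ∀ (a : E) (ha : a ∈ VE), ρ₁ ⟨algebraMap E F a, hV₁ a ha⟩ = ι₁ (ρE ⟨a, ha⟩))
  (hρ₂ : ∀ (a : E) (ha : a ∈ VE), ρ₂ ⟨algebraMap E F a, hV₂ a ha⟩ = ι₂ (ρE ⟨a, ha⟩))
  (hkerE : ∀ a : VE, (a : E)⁻¹ ∉ VE → ρE a = 0)
  {ι : Type*} [Fintype ι] (b : ι → F) (hb₁ : ∀ i, b i ∈ V₁) (hb₂ : ∀ i, b i ∈ V₂)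
  (hind : ∀ c : ι → κE, ∑ i, ι₁ (c i) * ρ₁ ⟨b i, hb₁ i⟩ = 0 →
    ∑ i, ι₂ (c i) * ρ₂ ⟨b i, hb₂ i⟩ = 0 → ∀ i, c i = 0)

omit [Algebra E F] in
/-- scaling by a coefficient of maximal valuation -/
theorem tva_scale (a : ι → E) (i₁ : ι) (h : a i₁ ≠ 0) :
    ∃ i₀, a i₀ ≠ 0 ∧ ∀ i, a i / a i₀ ∈ VE := by
  obtain ⟨i₀, -, hmax⟩ := Finset.exists_max_image Finset.univ (fun i => VE.valuation (a i))
    ⟨i₁, Finset.mem_univ _⟩
  have h0 : a i₀ ≠ 0 := by
    intro h0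
    have h1 := hmax i₁ (Finset.mem_univ _)
    rw [h0, map_zero] at h1
    exact h ((map_eq_zero _).mp (le_antisymm h1 zero_le))
  refine ⟨i₀, h0, fun i => ?_⟩
  rw [← ValuationSubring.valuation_le_one_iff, map_div₀]
  have hpos : 0 < VE.valuation (a i₀) := zero_lt_iff.mpr ((map_ne_zero _).mpr h0)
  exact (div_le_one₀ hpos).mpr (hmax i (Finset.mem_univ _))

include hρ₁ hρ₂ hind in
/-- the key step: a `VE`-combination of the `b i` with residue zero on both sides has all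
coefficients of residue zero -/
theorem tva_key (c : ι → E) (hc : ∀ i, c i ∈ VE) (z : F) (hz₁ : z ∈ V₁) (hz₂ : z ∈ V₂)
    (hz : ∑ i, c i • b i = z) (h₁ : ρ₁ ⟨z, hz₁⟩ = 0) (h₂ : ρ₂ ⟨z, hz₂⟩ = 0) :
    ∀ i, ρE ⟨c i, hc i⟩ = 0 := by
  refine hind (fun i => ρE ⟨c i, hc i⟩) ?_ ?_
  · have e : (⟨z, hz₁⟩ : V₁) = ∑ i, ⟨algebraMap E F (c i), hV₁ _ (hc i)⟩ * ⟨b i, hb₁ i⟩ := by
      apply Subtype.ext
      rw [AddSubmonoidClass.coe_finsetSum]
      simp only [Subring.coe_mul]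
      rw [← hz]
      exact Finset.sum_congr rfl (fun i _ => Algebra.smul_def _ _)
    rw [e, map_sum] at h₁
    rw [← h₁]
    exact Finset.sum_congr rfl (fun i _ => by rw [map_mul, hρ₁])
  · have e : (⟨z, hz₂⟩ : V₂) = ∑ i, ⟨algebraMap E F (c i), hV₂ _ (hc i)⟩ * ⟨b i, hb₂ i⟩ := by
      apply Subtype.ext
      rw [AddSubmonoidClass.coe_finsetSum]
      simp only [Subring.coe_mul]
      rw [← hz]
      exact Finset.sum_congr rfl (fun i _ => Algebra.smul_def _ _)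
    rw [e, map_sum] at h₂
    rw [← h₂]
    exact Finset.sum_congr rfl (fun i _ => by rw [map_mul, hρ₂])

include hρ₁ hρ₂ hind in
/-- the family `b` is linearly independent over `E` -/
theorem tva_linearIndependent : LinearIndependent E b := by
  rw [Fintype.linearIndependent_iff]
  intro g hg
  by_contra hne
  push Not at hne
  obtain ⟨i₁, hi₁⟩ := hne
  obtain ⟨i₀, h0, hmem⟩ := tva_scale VE g i₁ hi₁
  have hz : ∑ i, (g i / g i₀) • b i = 0 := by
    have : ∑ i, (g i / g i₀) • b i = (g i₀)⁻¹ • ∑ i, g i • b i := by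
      rw [Finset.smul_sum]
      exact Finset.sum_congr rfl (fun i _ => by rw [smul_smul, div_eq_inv_mul])
    rw [this, hg, smul_zero]
  have key := tva_key VE V₁ V₂ hV₁ hV₂ ρE ρ₁ ρ₂ ι₁ ι₂ hρ₁ hρ₂ b hb₁ hb₂ hind
    (fun i => g i / g i₀) hmem 0 (zero_mem _) (zero_mem _) hz (map_zero ρ₁) (map_zero ρ₂) i₀
  have h1 : (⟨g i₀ / g i₀, hmem i₀⟩ : VE) = 1 := Subtype.ext (div_self h0)
  rw [h1, map_one] at key
  exact one_ne_zero key

include hρ₁ hρ₂ hkerE hind in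
/-- the coordinates of `u * b j` in a basis extending `b` lie in `VE` -/
theorem tva_repr_mem (B : Module.Basis ι E F) (hB : ∀ i, B i = b i) (u : F) (hu₁ : u ∈ V₁)
    (hu₂ : u ∈ V₂) (j i : ι) : B.repr (u * b j) i ∈ VE := by
  by_contra hni
  set a : ι → E := fun i => B.repr (u * b j) i with ha
  have hi0 : a i ≠ 0 := fun h => hni (by rw [show B.repr (u * b j) i = a i from rfl, h]; exact zero_mem _)
  obtain ⟨i₀, h0, hmem⟩ := tva_scale VE a i hi0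
  have hni₀ : a i₀ ∉ VE := by
    intro hmem₀
    apply hni
    have : a i = a i / a i₀ * a i₀ := by field_simp
    rw [show B.repr (u * b j) i = a i from rfl, this]
    exact mul_mem (hmem i) hmem₀
  have ht : (a i₀)⁻¹ ∈ VE := (VE.mem_or_inv_mem (a i₀)).resolve_left hni₀
  have hρt : ρE ⟨(a i₀)⁻¹, ht⟩ = 0 := hkerE ⟨(a i₀)⁻¹, ht⟩ (by rw [inv_inv]; exact hni₀)
  have hsum : ∑ i, a i • b i = u * b j := by
    have := B.sum_repr (u * b j)
    rw [← this]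
    exact Finset.sum_congr rfl (fun i _ => by rw [hB])
  have hz : ∑ i, (a i / a i₀) • b i = algebraMap E F (a i₀)⁻¹ * (u * b j) := by
    have : ∑ i, (a i / a i₀) • b i = (a i₀)⁻¹ • ∑ i, a i • b i := by
      rw [Finset.smul_sum]
      exact Finset.sum_congr rfl (fun i _ => by rw [smul_smul, div_eq_inv_mul])
    rw [this, hsum, Algebra.smul_def]
  have hz₁ : algebraMap E F (a i₀)⁻¹ * (u * b j) ∈ V₁ :=
    mul_mem (hV₁ _ ht) (mul_mem hu₁ (hb₁ j))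
  have hz₂ : algebraMap E F (a i₀)⁻¹ * (u * b j) ∈ V₂ :=
    mul_mem (hV₂ _ ht) (mul_mem hu₂ (hb₂ j))
  have h₁ : ρ₁ ⟨_, hz₁⟩ = 0 := by
    have e : (⟨_, hz₁⟩ : V₁) = ⟨algebraMap E F (a i₀)⁻¹, hV₁ _ ht⟩ * ⟨u * b j, mul_mem hu₁ (hb₁ j)⟩ :=
      rfl
    rw [e, map_mul, hρ₁ _ ht, hρt, map_zero, zero_mul]
  have h₂ : ρ₂ ⟨_, hz₂⟩ = 0 := by
    have e : (⟨_, hz₂⟩ : V₂) = ⟨algebraMap E F (a i₀)⁻¹, hV₂ _ ht⟩ * ⟨u * b j, mul_mem hu₂ (hb₂ j)⟩ :=
      rfl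
    rw [e, map_mul, hρ₂ _ ht, hρt, map_zero, zero_mul]
  have key := tva_key VE V₁ V₂ hV₁ hV₂ ρE ρ₁ ρ₂ ι₁ ι₂ hρ₁ hρ₂ b hb₁ hb₂ hind
    (fun i => a i / a i₀) hmem _ hz₁ hz₂ hz h₁ h₂ i₀
  have h1 : (⟨a i₀ / a i₀, hmem i₀⟩ : VE) = 1 := Subtype.ext (div_self h0)
  rw [h1, map_one] at key
  exact one_ne_zero key

include hρ₁ hρ₂ hkerE hind in
/-- **Norm-residue formula, abstract form.** -/
theorem tva_main [DecidableEq ι] [Nonempty ι] (hcard : Fintype.card ι = Module.finrank E F)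
    (u : F) (hu₁ : u ∈ V₁) (hu₂ : u ∈ V₂) :
    ∃ m : Matrix ι ι VE,
      Algebra.norm E u = ((m.det : VE) : E) ∧
      (∀ j, ρ₁ ⟨u, hu₁⟩ * ρ₁ ⟨b j, hb₁ j⟩ = ∑ i, ι₁ (ρE (m i j)) * ρ₁ ⟨b i, hb₁ i⟩) ∧
      (∀ j, ρ₂ ⟨u, hu₂⟩ * ρ₂ ⟨b j, hb₂ j⟩ = ∑ i, ι₂ (ρE (m i j)) * ρ₂ ⟨b i, hb₂ i⟩) := by
  have hli := tva_linearIndependent VE V₁ V₂ hV₁ hV₂ ρE ρ₁ ρ₂ ι₁ ι₂ hρ₁ hρ₂ b hb₁ hb₂ hind
  set B : Module.Basis ι E F := basisOfLinearIndependentOfCardEqFinrank hli hcard with hBdef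
  have hB : ∀ i, B i = b i := fun i => by
    rw [hBdef, coe_basisOfLinearIndependentOfCardEqFinrank]
  have hmem := tva_repr_mem VE V₁ V₂ hV₁ hV₂ ρE ρ₁ ρ₂ ι₁ ι₂ hρ₁ hρ₂ hkerE b hb₁ hb₂ hind B hB
    u hu₁ hu₂
  set m : Matrix ι ι VE := Matrix.of fun i j => ⟨B.repr (u * b j) i, hmem j i⟩ with hm
  have hmap : VE.subtype.mapMatrix m = Algebra.leftMulMatrix B u := by
    ext i j
    rw [Algebra.leftMulMatrix_eq_repr_mul, hB]
    rfl
  have hsum : ∀ j, ∑ i, ((m i j : VE) : E) • b i = u * b j := by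
    intro j
    have := B.sum_repr (u * b j)
    rw [← this]
    exact Finset.sum_congr rfl (fun i _ => by rw [hB]; rfl)
  refine ⟨m, ?_, fun j => ?_, fun j => ?_⟩
  · rw [Algebra.norm_eq_matrix_det B, ← hmap, ← RingHom.map_det]
    rfl
  · have e : (⟨u, hu₁⟩ * ⟨b j, hb₁ j⟩ : V₁)
        = ∑ i, ⟨algebraMap E F (m i j : VE), hV₁ _ (m i j).2⟩ * ⟨b i, hb₁ i⟩ := by
      apply Subtype.ext
      rw [AddSubmonoidClass.coe_finsetSum]
      simp only [Subring.coe_mul]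
      rw [← hsum j]
      exact Finset.sum_congr rfl (fun i _ => Algebra.smul_def _ _)
    rw [← map_mul, e, map_sum]
    exact Finset.sum_congr rfl (fun i _ => by rw [map_mul, hρ₁])
  · have e : (⟨u, hu₂⟩ * ⟨b j, hb₂ j⟩ : V₂)
        = ∑ i, ⟨algebraMap E F (m i j : VE), hV₂ _ (m i j).2⟩ * ⟨b i, hb₂ i⟩ := by
      apply Subtype.ext
      rw [AddSubmonoidClass.coe_finsetSum]
      simp only [Subring.coe_mul]
      rw [← hsum j]
      exact Finset.sum_congr rfl (fun i _ => Algebra.smul_def _ _)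
    rw [← map_mul, e, map_sum]
    exact Finset.sum_congr rfl (fun i _ => by rw [map_mul, hρ₂])

end Abs

/-! ### Block structure -/

section Block

variable {κE κ₁ κ₂ : Type*} [Field κE] [Field κ₁] [Field κ₂] (ι₁ : κE →+* κ₁) (ι₂ : κE →+* κ₂)
  {I₁ I₂ : Type*} [Fintype I₁] [Fintype I₂] [DecidableEq I₁] [DecidableEq I₂]
  (v₁ : I₁ → κ₁) (v₂ : I₂ → κ₂)

/-- if the residues are in block form, the reduced multiplication matrix is block triangular -/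
theorem tva_block
    (hv₂ : ∀ c : I₂ → κE, ∑ i, ι₂ (c i) * v₂ i = 0 → ∀ i, c i = 0)
    (m : Matrix (I₁ ⊕ I₂) (I₁ ⊕ I₂) κE) (y₁ : κ₁) (y₂ : κ₂)
    (h₁ : ∀ j, y₁ * (Sum.elim v₁ (fun _ => 0) j) = ∑ i, ι₁ (m i j) * Sum.elim v₁ (fun _ => 0) i)
    (h₂ : ∀ j, y₂ * (Sum.elim (fun _ => 0) v₂ j) = ∑ i, ι₂ (m i j) * Sum.elim (fun _ => 0) v₂ i) :
    m.det = m.toBlocks₁₁.det * m.toBlocks₂₂.det ∧
      (∀ j, y₁ * v₁ j = ∑ i, ι₁ (m.toBlocks₁₁ i j) * v₁ i) ∧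
      (∀ j, y₂ * v₂ j = ∑ i, ι₂ (m.toBlocks₂₂ i j) * v₂ i) := by
  have h21 : m.toBlocks₂₁ = 0 := by
    ext i j
    have h := h₂ (Sum.inl j)
    rw [Fintype.sum_sum_type] at h
    simp only [Sum.elim_inl, Sum.elim_inr, mul_zero, Finset.sum_const_zero, zero_add] at h
    exact hv₂ (fun i => m (Sum.inr i) (Sum.inl j)) h.symm i
  refine ⟨?_, fun j => ?_, fun j => ?_⟩
  · conv_lhs => rw [← Matrix.fromBlocks_toBlocks m, h21]
    exact Matrix.det_fromBlocks_zero₂₁ _ _ _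
  · have h := h₁ (Sum.inl j)
    rw [Fintype.sum_sum_type] at h
    simp only [Sum.elim_inl, Sum.elim_inr, mul_zero, Finset.sum_const_zero, add_zero] at h
    exact h
  · have h := h₂ (Sum.inr j)
    rw [Fintype.sum_sum_type] at h
    simp only [Sum.elim_inl, Sum.elim_inr, mul_zero, Finset.sum_const_zero, zero_add] at h
    exact h

end Block

/-! ### Purely inseparable blocks -/

section Frob

variable {L : Type*} [Field L] (p : ℕ) [Fact p.Prime] [CharP L p] (φ : L →+* L)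
  {I : Type*} [Fintype I] [DecidableEq I] (v : I → L)

/-- powers of a multiplication matrix -/
theorem tva_pow_mul (A : Matrix I I L) (y : L)
    (h : ∀ j, y * v j = ∑ i, φ (A i j) * v i) (n : ℕ) :
    ∀ j, y ^ n * v j = ∑ i, φ ((A ^ n) i j) * v i := by
  induction n with
  | zero =>
    intro j
    rw [pow_zero, one_mul, pow_zero]
    simp [Matrix.one_apply]
  | succ n ih =>
    intro j
    rw [pow_succ, mul_assoc, h j, Finset.mul_sum]
    have : ∀ i ∈ Finset.univ, y ^ n * (φ (A i j) * v i) = ∑ k, φ ((A ^ n) k i * A i j) * v k := by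
      intro i _
      rw [mul_left_comm, ih i, Finset.mul_sum]
      exact Finset.sum_congr rfl (fun k _ => by rw [map_mul]; ring)
    rw [Finset.sum_congr rfl this, Finset.sum_comm]
    refine Finset.sum_congr rfl (fun k _ => ?_)
    rw [← Finset.sum_mul, ← map_sum, pow_succ, Matrix.mul_apply]

/-- if `y ^ p = φ z` then the `p`-th power of the multiplication matrix of `y` is `z` -/
theorem tva_frob (hv : ∀ c : I → L, ∑ i, φ (c i) * v i = 0 → ∀ i, c i = 0)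
    (A : Matrix I I L) (y z : L) (h : ∀ j, y * v j = ∑ i, φ (A i j) * v i) (hz : y ^ p = φ z)
    (hcard : Fintype.card I = p) : A.det = z := by
  have hA : A ^ p = z • (1 : Matrix I I L) := by
    ext i j
    have h1 := tva_pow_mul φ v A y h p j
    have h2 : ∑ i, φ ((A ^ p) i j - (z • (1 : Matrix I I L)) i j) * v i = 0 := by
      simp only [map_sub, sub_mul, Finset.sum_sub_distrib]
      rw [← h1, hz, sub_eq_zero, Finset.sum_eq_single j]
      · simp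
      · intro x _ hx
        simp [hx]
      · intro hj
        exact absurd (Finset.mem_univ j) hj
    have h3 := hv _ h2 i
    exact sub_eq_zero.mp h3
  have hdet : A.det ^ p = z ^ p := by
    rw [← Matrix.det_pow, hA, Matrix.det_smul, Matrix.det_one, mul_one, hcard]
  exact frobenius_inj L p hdet

end Frob

end Fermat.Agent.S37
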