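import Fermat.Agent.S24.Real
import Fermat.Prelude.Def_ModularCurve_HeckeOperator

/-!
# S37, package ES-E1, part (a): the swap automorphism

For coprime `M` and a prime `ℓ`, the function field `F = ℚ̄(j(q^e), e ∣ M ℓ)` of `X₀(M ℓ)` has
an automorphism `w` (the Atkin-Lehner involution at `ℓ`) exchanging the two degeneracy maps
`α : x(q) ↦ x(q)` and `β : x(q) ↦ x(q^ℓ)` from the function field of `X₀(M)`.

Analytically `w` is `g ↦ g ∘ W` with `W τ = γ₀ • (ℓ τ)`, `γ₀ = [[x, y], [M, ℓ]] ∈ SL₂(ℤ)`: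
`j(d · Wτ) = j(ℓ d τ)` and `j(ℓ d · Wτ) = j(d τ)` for `d ∣ M`.  The analytic ring
`anaRing (M ℓ)` is stable under `g ↦ g ∘ W`, and the function field is its fraction field
(S24, module Rz), so `liftAna` transports the map.
-/

set_option autoImplicit false

open AlgebraicCurve IntermediateField UpperHalfPlane ModularForm
open scoped MatrixGroups

namespace Fermat.Agent.S37

open Fermat.Agent.S24 ModularCurve

/-! ### Möbius computations -/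

theorem swp_smul_coe (γ : SL(2, ℤ)) (z : ℂ) (hz : 0 < z.im) :
    ((γ • ofComplex z : ℍ) : ℂ)
      = ((γ 0 0 : ℂ) * z + (γ 0 1 : ℂ)) / ((γ 1 0 : ℂ) * z + (γ 1 1 : ℂ)) := by
  rw [coe_specialLinearGroup_apply, ofComplex_apply_of_im_pos hz]
  simp only [algebraMap_int_eq, eq_intCast, Complex.ofReal_intCast]

theorem swp_denom_ne (γ : SL(2, ℤ)) (z : ℂ) (hz : 0 < z.im) :
    (γ 1 0 : ℂ) * z + (γ 1 1 : ℂ) ≠ 0 := by
  have h := UpperHalfPlane.denom_ne_zero (γ : GL (Fin 2) ℝ) ⟨z, hz⟩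
  rw [ModularGroup.denom_apply] at h
  exact h

theorem swp_jC_smul (γ : SL(2, ℤ)) (z : ℂ) :
    jC ((γ • ofComplex z : ℍ) : ℂ) = jC z := by
  rw [jc_jC_coe, jc_jFun_smul]
  rfl

/-- the integer matrix `[[p, q], [r, s]]` of determinant one -/
def swpMat (p q r s : ℤ) (hdet : p * s - q * r = 1) : SL(2, ℤ) :=
  ⟨!![p, q; r, s], by rw [Matrix.det_fin_two_of]; linarith⟩

theorem swp_key (p q r s p' q' r' s' : ℤ) (hdet : p * s - q * r = 1)
    (hdet' : p' * s' - q' * r' = 1) (c z z' : ℂ) (hz : 0 < z.im) (hz' : 0 < z'.im)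
    (h : c * ((p : ℂ) * z + q) * ((r' : ℂ) * z' + s')
      = ((p' : ℂ) * z' + q') * ((r : ℂ) * z + s)) :
    jC (c * ((swpMat p q r s hdet • ofComplex z : ℍ) : ℂ)) = jC z' := by
  rw [← swp_jC_smul (swpMat p' q' r' s' hdet') z', swp_smul_coe _ z hz, swp_smul_coe _ z' hz']
  have h1 := swp_denom_ne (swpMat p q r s hdet) z hz
  have h2 := swp_denom_ne (swpMat p' q' r' s' hdet') z' hz'
  have e00 : swpMat p q r s hdet 0 0 = p := rfl
  have e01 : swpMat p q r s hdet 0 1 = q := rfl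
  have e10 : swpMat p q r s hdet 1 0 = r := rfl
  have e11 : swpMat p q r s hdet 1 1 = s := rfl
  have f00 : swpMat p' q' r' s' hdet' 0 0 = p' := rfl
  have f01 : swpMat p' q' r' s' hdet' 0 1 = q' := rfl
  have f10 : swpMat p' q' r' s' hdet' 1 0 = r' := rfl
  have f11 : swpMat p' q' r' s' hdet' 1 1 = s' := rfl
  simp only [e00, e01, e10, e11, f00, f01, f10, f11] at h1 h2 ⊢
  congr 1
  rw [mul_div_assoc', div_eq_div_iff h1 h2]
  exact h

/-! ### The map `W` -/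

section W

variable (M ℓ : ℕ) (x y : ℤ) (hxy : x * ℓ - y * M = 1)

/-- `W τ = γ₀ • (ℓ τ)` with `γ₀ = [[x, y], [M, ℓ]]` -/
noncomputable def swpW (τ : ℍ) : ℍ :=
  swpMat x y M ℓ hxy • ofComplex ((ℓ : ℂ) * (τ : ℂ))

theorem swp_im_pos {k : ℕ} (hk : 0 < k) (τ : ℍ) : 0 < ((k : ℂ) * (τ : ℂ)).im := by
  have h1 : ((k : ℂ) * (τ : ℂ)).im = k * τ.im := by simp [Complex.mul_im]
  rw [h1]
  have : (0 : ℝ) < k := by exact_mod_cast hk
  have := τ.im_pos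
  positivity

theorem swp_jd_W1 (hℓ : 0 < ℓ) (d m : ℕ) (hd : 0 < d) (hM : M = d * m) (τ : ℍ) :
    jd d (swpW M ℓ x y hxy τ) = jd (ℓ * d) τ := by
  have hdet' : x * (ℓ : ℤ) - (d * y) * m = 1 := by
    have : (M : ℤ) = d * m := by exact_mod_cast hM
    rw [this] at hxy
    linarith
  show jC ((d : ℂ) * ((swpMat x y M ℓ hxy • ofComplex ((ℓ : ℂ) * (τ : ℂ)) : ℍ) : ℂ))
    = jC (((ℓ * d : ℕ) : ℂ) * (τ : ℂ))
  refine swp_key x y M ℓ x (d * y) m ℓ hxy hdet' (d : ℂ) _ _ (swp_im_pos hℓ τ)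
    (swp_im_pos (Nat.mul_pos hℓ hd) τ) ?_
  rw [hM]
  push_cast
  ring

theorem swp_jd_W2 (hℓ : 0 < ℓ) (d m : ℕ) (hd : 0 < d) (hM : M = d * m) (τ : ℍ) :
    jd (ℓ * d) (swpW M ℓ x y hxy τ) = jd d τ := by
  have hdet' : ((ℓ : ℤ) * x) * 1 - (d * y) * m = 1 := by
    have : (M : ℤ) = d * m := by exact_mod_cast hM
    rw [this] at hxy
    linarith
  show jC (((ℓ * d : ℕ) : ℂ) * ((swpMat x y M ℓ hxy • ofComplex ((ℓ : ℂ) * (τ : ℂ)) : ℍ) : ℂ))
    = jC ((d : ℂ) * (τ : ℂ))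
  refine swp_key x y M ℓ ((ℓ : ℤ) * x) (d * y) m 1 hxy hdet' ((ℓ * d : ℕ) : ℂ) _ _
    (swp_im_pos hℓ τ) (swp_im_pos hd τ) ?_
  rw [hM]
  push_cast
  ring

theorem swpW_surjective (hℓ : 0 < ℓ) : Function.Surjective (swpW M ℓ x y hxy) := by
  intro σ
  have hℓ' : (0 : ℝ) < ℓ := by exact_mod_cast hℓ
  have hℓc : (ℓ : ℂ) ≠ 0 := by exact_mod_cast hℓ.ne'
  set ρ : ℍ := (swpMat x y M ℓ hxy)⁻¹ • σ with hρ
  have him : 0 < ((ρ : ℂ) / (ℓ : ℂ)).im := by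
    rw [Complex.div_natCast_im]
    have := ρ.im_pos
    exact div_pos this hℓ'
  refine ⟨⟨_, him⟩, ?_⟩
  show swpMat x y M ℓ hxy • ofComplex ((ℓ : ℂ) * ((ρ : ℂ) / (ℓ : ℂ))) = σ
  rw [mul_div_cancel₀ _ hℓc, ofComplex_apply, hρ, smul_inv_smul]

end W

/-! ### The analytic ring -/

/-- precomposition with a self-map of the upper half plane -/
def swpComp (φ : ℍ → ℍ) : (ℍ → ℂ) →+* (ℍ → ℂ) where
  toFun g := fun τ => g (φ τ)
  map_one' := rfl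
  map_mul' _ _ := rfl
  map_zero' := rfl
  map_add' _ _ := rfl

theorem swpComp_apply (φ : ℍ → ℍ) (g : ℍ → ℂ) (τ : ℍ) : swpComp φ g τ = g (φ τ) := rfl

section Ana

variable (M ℓ : ℕ) [NeZero M] [NeZero ℓ] (x y : ℤ) (hxy : x * ℓ - y * M = 1)

theorem swp_comp_jd1 (d : ℕ) (hd : d ∣ M) :
    swpComp (swpW M ℓ x y hxy) (jd d) = jd (ℓ * d) := by
  obtain ⟨m, hm⟩ := hd
  have hd0 : 0 < d := Nat.pos_of_ne_zero (fun h => NeZero.ne M (by rw [hm, h, zero_mul]))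
  funext τ
  exact swp_jd_W1 M ℓ x y hxy (NeZero.pos ℓ) d m hd0 hm τ

theorem swp_comp_jd2 (d : ℕ) (hd : d ∣ M) :
    swpComp (swpW M ℓ x y hxy) (jd (ℓ * d)) = jd d := by
  obtain ⟨m, hm⟩ := hd
  have hd0 : 0 < d := Nat.pos_of_ne_zero (fun h => NeZero.ne M (by rw [hm, h, zero_mul]))
  funext τ
  exact swp_jd_W2 M ℓ x y hxy (NeZero.pos ℓ) d m hd0 hm τ

omit [NeZero M] [NeZero ℓ] in
theorem swp_dvd_cases (hℓ : ℓ.Prime) {e : ℕ} (he : e ∣ M * ℓ) :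
    (e ∣ M) ∨ ∃ d, d ∣ M ∧ e = ℓ * d := by
  by_cases hle : ℓ ∣ e
  · obtain ⟨d, rfl⟩ := hle
    refine Or.inr ⟨d, ?_, rfl⟩
    rw [mul_comm M ℓ] at he
    exact Nat.dvd_of_mul_dvd_mul_left hℓ.pos he
  · left
    have hc : Nat.Coprime e ℓ := ((Nat.Prime.coprime_iff_not_dvd hℓ).mpr hle).symm
    exact hc.dvd_of_dvd_mul_right he

theorem swp_comp_mem (hℓ : ℓ.Prime) {g : ℍ → ℂ} (hg : g ∈ anaRing (M * ℓ)) :
    swpComp (swpW M ℓ x y hxy) g ∈ anaRing (M * ℓ) := by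
  induction hg using Subring.closure_induction with
  | mem g hg =>
    rcases hg with ⟨c, rfl⟩ | ⟨e, he, rfl⟩
    · exact const_mem_anaRing _ c
    · rcases swp_dvd_cases M ℓ hℓ he with h | ⟨d, hd, rfl⟩
      · rw [swp_comp_jd1 M ℓ x y hxy e h]
        exact jd_mem_anaRing (by rw [mul_comm M ℓ]; exact Nat.mul_dvd_mul_left ℓ h)
      · rw [swp_comp_jd2 M ℓ x y hxy d hd]
        exact jd_mem_anaRing (hd.mul_right ℓ)
  | zero => rw [map_zero]; exact zero_mem _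
  | one => rw [map_one]; exact one_mem _
  | add a b _ _ ha hb => rw [map_add]; exact add_mem ha hb
  | neg a _ ha => rw [map_neg]; exact neg_mem ha
  | mul a b _ _ ha hb => rw [map_mul]; exact mul_mem ha hb

/-- `g ↦ g ∘ W` on the analytic ring -/
noncomputable def swpAna (hℓ : ℓ.Prime) : anaRing (M * ℓ) →+* anaRing (M * ℓ) :=
  (swpComp (swpW M ℓ x y hxy)).restrict (anaRing (M * ℓ)) (anaRing (M * ℓ))
    (fun _ hg => swp_comp_mem M ℓ x y hxy hℓ hg)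

theorem swpAna_coe (hℓ : ℓ.Prime) (g : anaRing (M * ℓ)) :
    ((swpAna M ℓ x y hxy hℓ g : anaRing (M * ℓ)) : ℍ → ℂ)
      = swpComp (swpW M ℓ x y hxy) (g : ℍ → ℂ) := rfl

theorem swpAna_injective (hℓ : ℓ.Prime) : Function.Injective (swpAna M ℓ x y hxy hℓ) := by
  rw [injective_iff_map_eq_zero]
  intro g hg
  apply Subtype.ext
  funext σ
  obtain ⟨τ, rfl⟩ := swpW_surjective M ℓ x y hxy (NeZero.pos ℓ) σ
  have h := congrFun (congrArg Subtype.val hg) τ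
  exact h

end Ana

/-! ### From the analytic ring back to the function field -/

section Psi

variable (N : ℕ) [NeZero N]

/-- the inverse of the analytic realization, on the analytic ring -/
noncomputable def swpPsi : anaRing N →+* ↥(modularFunctionFieldBar N) :=
  (rzEvA N).liftOfSurjective (rz_evA_surjective N)
    ⟨(rzEvF N : MvPolynomial (rzIdx N) (AlgebraicClosure ℚ) →+* ↥(modularFunctionFieldBar N)),
      fun P hP => by
        rw [RingHom.mem_ker] at hP ⊢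
        exact (rz_evF_eq_zero_iff N P).mpr hP⟩

theorem swpPsi_evA (P : MvPolynomial (rzIdx N) (AlgebraicClosure ℚ)) :
    swpPsi N (rzEvA N P) = rzEvF N P :=
  RingHom.liftOfRightInverse_comp_apply _ _ _ _ _

theorem swpPsi_injective : Function.Injective (swpPsi N) := by
  rw [injective_iff_map_eq_zero]
  intro g hg
  obtain ⟨P, rfl⟩ := rz_evA_surjective N g
  rw [swpPsi_evA] at hg
  exact (rz_evF_eq_zero_iff N P).mp hg

theorem swpPsi_const (c : AlgebraicClosure ℚ) :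
    swpPsi N ⟨_, const_mem_anaRing N c⟩ = algebraMap _ _ c := by
  have h : (⟨_, const_mem_anaRing N c⟩ : anaRing N) = rzEvA N (MvPolynomial.C c) := by
    rw [rzEvA_C]
    rfl
  rw [h, swpPsi_evA, rzEvF_C]

theorem swpPsi_jd (d : ℕ) [NeZero d] (hd : d ∣ N) :
    swpPsi N ⟨_, jd_mem_anaRing hd⟩ = jdBar N d hd := by
  have h : (⟨_, jd_mem_anaRing hd⟩ : anaRing N) = rzEvA N (MvPolynomial.X ⟨d, hd⟩) := by
    rw [rzEvA_X]
    rfl
  rw [h, swpPsi_evA, rzEvF_X, rzGenF_eq]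

end Psi

/-! ### The swap -/

section Swap

variable (M ℓ : ℕ) [NeZero M] [NeZero ℓ]

/-- the injective ring hom from the analytic ring to the function field inducing the swap -/
noncomputable def swpTheta (x y : ℤ) (hxy : x * ℓ - y * M = 1) (hℓ : ℓ.Prime) :
    anaRing (M * ℓ) →+* ↥(modularFunctionFieldBar (M * ℓ)) :=
  (swpPsi (M * ℓ)).comp (swpAna M ℓ x y hxy hℓ)

theorem swpTheta_apply (x y : ℤ) (hxy : x * ℓ - y * M = 1) (hℓ : ℓ.Prime)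
    (g : anaRing (M * ℓ)) :
    swpTheta M ℓ x y hxy hℓ g = swpPsi (M * ℓ) (swpAna M ℓ x y hxy hℓ g) := rfl

theorem swpTheta_injective (x y : ℤ) (hxy : x * ℓ - y * M = 1) (hℓ : ℓ.Prime) :
    Function.Injective (swpTheta M ℓ x y hxy hℓ) := by
  intro a b hab
  rw [swpTheta_apply, swpTheta_apply] at hab
  exact swpAna_injective M ℓ x y hxy hℓ (swpPsi_injective (M * ℓ) hab)

/-- the swap automorphism, as a ring hom, for a chosen Bezout pair -/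
noncomputable def swpAux (x y : ℤ) (hxy : x * ℓ - y * M = 1) (hℓ : ℓ.Prime) :
    ↥(modularFunctionFieldBar (M * ℓ)) →+* ↥(modularFunctionFieldBar (M * ℓ)) :=
  liftAna (M * ℓ) (swpTheta M ℓ x y hxy hℓ) (swpTheta_injective M ℓ x y hxy hℓ)

theorem swpAux_const (x y : ℤ) (hxy : x * ℓ - y * M = 1) (hℓ : ℓ.Prime)
    (c : AlgebraicClosure ℚ) :
    swpAux M ℓ x y hxy hℓ (algebraMap _ _ c) = algebraMap _ _ c := by
  rw [swpAux, liftAna_const, swpTheta_apply]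
  exact swpPsi_const (M * ℓ) c

theorem swpAux_jd1 (x y : ℤ) (hxy : x * ℓ - y * M = 1) (hℓ : ℓ.Prime)
    (d : ℕ) [NeZero d] (hd : d ∣ M) :
    swpAux M ℓ x y hxy hℓ (jdBar (M * ℓ) d (hd.mul_right ℓ))
      = jdBar (M * ℓ) (ℓ * d) (by rw [mul_comm M ℓ]; exact Nat.mul_dvd_mul_left ℓ hd) := by
  rw [swpAux, liftAna_jdBar, swpTheta_apply]
  have h : swpAna M ℓ x y hxy hℓ ⟨_, jd_mem_anaRing (hd.mul_right ℓ)⟩
      = ⟨_, jd_mem_anaRing (N := M * ℓ) (d := ℓ * d)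
          (by rw [mul_comm M ℓ]; exact Nat.mul_dvd_mul_left ℓ hd)⟩ :=
    Subtype.ext (swp_comp_jd1 M ℓ x y hxy d hd)
  rw [h]
  exact swpPsi_jd (M * ℓ) (ℓ * d) _

theorem swpAux_jd2 (x y : ℤ) (hxy : x * ℓ - y * M = 1) (hℓ : ℓ.Prime)
    (d : ℕ) [NeZero d] (hd : d ∣ M) :
    swpAux M ℓ x y hxy hℓ
        (jdBar (M * ℓ) (ℓ * d) (by rw [mul_comm M ℓ]; exact Nat.mul_dvd_mul_left ℓ hd))
      = jdBar (M * ℓ) d (hd.mul_right ℓ) := by
  rw [swpAux, liftAna_jdBar, swpTheta_apply]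
  have h : swpAna M ℓ x y hxy hℓ ⟨_, jd_mem_anaRing (N := M * ℓ) (d := ℓ * d)
          (by rw [mul_comm M ℓ]; exact Nat.mul_dvd_mul_left ℓ hd)⟩
      = ⟨_, jd_mem_anaRing (hd.mul_right ℓ)⟩ :=
    Subtype.ext (swp_comp_jd2 M ℓ x y hxy d hd)
  rw [h]
  exact swpPsi_jd (M * ℓ) d _

omit [NeZero M] [NeZero ℓ] in
theorem swp_bezout (hM : Nat.Coprime ℓ M) :
    Int.gcdA ℓ M * (ℓ : ℤ) - (-Int.gcdB ℓ M) * (M : ℤ) = 1 := by
  have h := Int.gcd_eq_gcd_ab (ℓ : ℤ) (M : ℤ)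
  rw [Int.gcd_natCast_natCast, hM] at h
  push_cast at h
  linarith

/-- **The swap** `w`: the ring automorphism of the function field of `X₀(M ℓ)` over `ℚ̄`
exchanging `x(q)` and `x(q^ℓ)` for `x` in the function field of `X₀(M)`. -/
noncomputable def swp (hℓ : ℓ.Prime) (hM : ¬ ℓ ∣ M) :
    ↥(modularFunctionFieldBar (M * ℓ)) →+* ↥(modularFunctionFieldBar (M * ℓ)) :=
  swpAux M ℓ _ _ (swp_bezout M ℓ ((Nat.Prime.coprime_iff_not_dvd hℓ).mpr hM)) hℓ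

variable (hℓ : ℓ.Prime) (hM : ¬ ℓ ∣ M)

theorem swp_const (c : AlgebraicClosure ℚ) :
    swp M ℓ hℓ hM (algebraMap _ _ c) = algebraMap _ _ c :=
  swpAux_const M ℓ _ _ _ hℓ c

theorem swp_jd1 (d : ℕ) [NeZero d] (hd : d ∣ M) :
    swp M ℓ hℓ hM (jdBar (M * ℓ) d (hd.mul_right ℓ))
      = jdBar (M * ℓ) (ℓ * d) (by rw [mul_comm M ℓ]; exact Nat.mul_dvd_mul_left ℓ hd) :=
  swpAux_jd1 M ℓ _ _ _ hℓ d hd

theorem swp_jd2 (d : ℕ) [NeZero d] (hd : d ∣ M) :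
    swp M ℓ hℓ hM
        (jdBar (M * ℓ) (ℓ * d) (by rw [mul_comm M ℓ]; exact Nat.mul_dvd_mul_left ℓ hd))
      = jdBar (M * ℓ) d (hd.mul_right ℓ) :=
  swpAux_jd2 M ℓ _ _ _ hℓ d hd

omit [NeZero ℓ] in
theorem swp_alpha_jd [NeZero ℓ] (d : ℕ) [NeZero d] (hd : d ∣ M) :
    heckeAlphaBar (AlgebraicClosure ℚ) M ℓ (jdBar M d hd) = jdBar (M * ℓ) d (hd.mul_right ℓ) :=
  Subtype.ext rfl

theorem swp_beta_jd (d : ℕ) [NeZero d] (hd : d ∣ M) :
    heckeBetaBar (AlgebraicClosure ℚ) M ℓ (jdBar M d hd)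
      = jdBar (M * ℓ) (ℓ * d) (by rw [mul_comm M ℓ]; exact Nat.mul_dvd_mul_left ℓ hd) := by
  apply Subtype.ext
  show qExpand (AlgebraicClosure ℚ) ℓ (coeffEmb (AlgebraicClosure ℚ) (qExpand ℚ d jq))
    = coeffEmb (AlgebraicClosure ℚ) (qExpand ℚ (ℓ * d) jq)
  rw [← qExpand_qExpand d ℓ, coeffEmb, coeffMap_qExpand, coeffMap_qExpand, coeffMap_qExpand]

/-- `w ∘ α = β` -/
theorem swp_alpha (x : ↥(modularFunctionFieldBar M)) :
    swp M ℓ hℓ hM (heckeAlphaBar (AlgebraicClosure ℚ) M ℓ x)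
      = heckeBetaBar (AlgebraicClosure ℚ) M ℓ x := by
  have h := ringHom_ext_Fb M
    ((swp M ℓ hℓ hM).comp (heckeAlphaBar (AlgebraicClosure ℚ) M ℓ).toRingHom)
    (heckeBetaBar (AlgebraicClosure ℚ) M ℓ).toRingHom ?_ ?_
  · exact congrArg (fun φ => φ x) h
  · intro c
    show swp M ℓ hℓ hM (heckeAlphaBar (AlgebraicClosure ℚ) M ℓ (algebraMap _ _ c))
      = heckeBetaBar (AlgebraicClosure ℚ) M ℓ (algebraMap _ _ c)
    rw [AlgHom.commutes, AlgHom.commutes, swp_const]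
  · intro d _ hd
    show swp M ℓ hℓ hM (heckeAlphaBar (AlgebraicClosure ℚ) M ℓ (jdBar M d hd))
      = heckeBetaBar (AlgebraicClosure ℚ) M ℓ (jdBar M d hd)
    rw [swp_alpha_jd M ℓ d hd, swp_beta_jd M ℓ d hd, swp_jd1 M ℓ hℓ hM d hd]

/-- `w ∘ β = α` -/
theorem swp_beta (x : ↥(modularFunctionFieldBar M)) :
    swp M ℓ hℓ hM (heckeBetaBar (AlgebraicClosure ℚ) M ℓ x)
      = heckeAlphaBar (AlgebraicClosure ℚ) M ℓ x := by
  have h := ringHom_ext_Fb M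
    ((swp M ℓ hℓ hM).comp (heckeBetaBar (AlgebraicClosure ℚ) M ℓ).toRingHom)
    (heckeAlphaBar (AlgebraicClosure ℚ) M ℓ).toRingHom ?_ ?_
  · exact congrArg (fun φ => φ x) h
  · intro c
    show swp M ℓ hℓ hM (heckeBetaBar (AlgebraicClosure ℚ) M ℓ (algebraMap _ _ c))
      = heckeAlphaBar (AlgebraicClosure ℚ) M ℓ (algebraMap _ _ c)
    rw [AlgHom.commutes, AlgHom.commutes, swp_const]
  · intro d _ hd
    show swp M ℓ hℓ hM (heckeBetaBar (AlgebraicClosure ℚ) M ℓ (jdBar M d hd))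
      = heckeAlphaBar (AlgebraicClosure ℚ) M ℓ (jdBar M d hd)
    rw [swp_alpha_jd M ℓ d hd, swp_beta_jd M ℓ d hd, swp_jd2 M ℓ hℓ hM d hd]

/-- `w ∘ w = id` -/
theorem swp_swp (x : ↥(modularFunctionFieldBar (M * ℓ))) :
    swp M ℓ hℓ hM (swp M ℓ hℓ hM x) = x := by
  have h := ringHom_ext_Fb (M * ℓ)
    ((swp M ℓ hℓ hM).comp (swp M ℓ hℓ hM)) (RingHom.id _) ?_ ?_
  · exact congrArg (fun φ => φ x) h
  · intro c
    show swp M ℓ hℓ hM (swp M ℓ hℓ hM (algebraMap _ _ c)) = algebraMap _ _ c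
    rw [swp_const, swp_const]
  · intro e _ he
    show swp M ℓ hℓ hM (swp M ℓ hℓ hM (jdBar (M * ℓ) e he)) = jdBar (M * ℓ) e he
    rcases swp_dvd_cases M ℓ hℓ he with h | ⟨d, hd, rfl⟩
    · exact (congrArg (swp M ℓ hℓ hM) (swp_jd1 M ℓ hℓ hM e h)).trans (swp_jd2 M ℓ hℓ hM e h)
    · have : NeZero d := ⟨ne_zero_of_dvd_ne_zero (NeZero.ne M) hd⟩
      exact (congrArg (swp M ℓ hℓ hM) (swp_jd2 M ℓ hℓ hM d hd)).trans (swp_jd1 M ℓ hℓ hM d hd)

theorem swp_bijective : Function.Bijective (swp M ℓ hℓ hM) :=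
  Function.Involutive.bijective (swp_swp M ℓ hℓ hM)

/-- the swap as an algebra automorphism over `ℚ̄` -/
noncomputable def swpEquiv :
    ↥(modularFunctionFieldBar (M * ℓ)) ≃ₐ[AlgebraicClosure ℚ]
      ↥(modularFunctionFieldBar (M * ℓ)) :=
  AlgEquiv.ofRingEquiv (f := RingEquiv.ofBijective (swp M ℓ hℓ hM) (swp_bijective M ℓ hℓ hM))
    (fun c => swp_const M ℓ hℓ hM c)

theorem swpEquiv_apply (x : ↥(modularFunctionFieldBar (M * ℓ))) :
    swpEquiv M ℓ hℓ hM x = swp M ℓ hℓ hM x := rfl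

end Swap

end Fermat.Agent.S37
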