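import Fermat.Agent.S18.GaussMain
import Fermat.Agent.S37.Swap
import Fermat.Agent.S37.TwoValCore

/-!
# S37, package ES-E1, part (c): the norm-residue formula for the Hecke correspondence

`E = F_M`, `F' = F_{M ℓ}` (function fields of `X₀(M)`, `X₀(M ℓ)` over `ℚ̄`, `ℓ ∤ M`), `F'` an
`E`-algebra through `β : x(q) ↦ x(q^ℓ)`.  For a Gauss-integral `g ∈ E` the norm
`N_{F'/βE}(α g)`, read in `E`, is Gauss-integral with residue `s̄(ḡ) · ḡ(q^ℓ)`, where `s̄` is the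
coefficientwise Frobenius (`tv_norm`, `tv_norm_frob`).

The two "residue maps" of `F'` above the Gauss valuation of `β E` are `ρ₁ = ` Gauss residue and
`ρ₂ = ρ₁ ∘ w`, `w` the swap (`Swap.lean`); the basis is `(1 - e) j^i` (`i < ℓ`), `e`, with
`e = (x^ℓ - y) / ((x^ℓ - y) + (x - y^ℓ))`, `x = j(q)`, `y = j(q^ℓ)`.
-/

set_option autoImplicit false

open AlgebraicCurve ModularCurve Fermat.Agent.S18

namespace Fermat.Agent.S37

/-! ### The Gauss ring and `q ↦ q^n` -/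

section GaussQ

variable {K : Type*} [Field K] (A : ValuationSubring K) (n : ℕ) [NeZero n]

theorem tv_red_qExpand_ne {b : LaurentSeries A}
    (hb : coeffMap (IsLocalRing.residue A) b ≠ 0) :
    coeffMap (IsLocalRing.residue A) (qExpand A n b) ≠ 0 := by
  rw [coeffMap_qExpand]
  intro h0
  exact hb (qExpand_injective n (h0.trans (map_zero _).symm))

theorem tv_qExpand_mem {x : LaurentSeries K} (hx : x ∈ grV A) : qExpand K n x ∈ grV A := by
  obtain ⟨a, b, hb, hab⟩ := hx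
  refine ⟨qExpand A n a, qExpand A n b, tv_red_qExpand_ne A n hb, ?_⟩
  rw [coeffMap_qExpand, coeffMap_qExpand, ← map_mul, hab]

theorem tv_grRho_qExpand {x : LaurentSeries K} (hx : x ∈ grV A) :
    grRho A ⟨qExpand K n x, tv_qExpand_mem A n hx⟩
      = qExpand (IsLocalRing.ResidueField A) n (grRho A ⟨x, hx⟩) := by
  obtain ⟨a, b, hb, hab⟩ := hx
  have h1 := grRho_spec A ⟨x, ⟨a, b, hb, hab⟩⟩ a b hb hab
  have hab' : qExpand K n x * coeffMap A.subtype (qExpand A n b)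
      = coeffMap A.subtype (qExpand A n a) := by
    rw [coeffMap_qExpand, coeffMap_qExpand, ← map_mul, hab]
  have h2 := grRho_spec A ⟨qExpand K n x, tv_qExpand_mem A n ⟨a, b, hb, hab⟩⟩ _ _
    (tv_red_qExpand_ne A n hb) hab'
  rw [coeffMap_qExpand, coeffMap_qExpand, ← h1, map_mul] at h2
  have hb' : qExpand (IsLocalRing.ResidueField A) n (coeffMap (IsLocalRing.residue A) b) ≠ 0 := by
    rw [← coeffMap_qExpand]
    exact tv_red_qExpand_ne A n hb
  exact mul_right_cancel₀ hb' h2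

end GaussQ

/-! ### The two residue maps -/

section Main

variable (M ℓ : ℕ) [NeZero M] [hℓ : Fact ℓ.Prime] (A : ValuationSubring (AlgebraicClosure ℚ))
  (hA : A.LiesOverPrime ℓ) (hM : ¬ ℓ ∣ M)

/-- the Gauss-integral elements of the level-`M ℓ` function field -/
noncomputable def tvV1 : Subring ↥(modularFunctionFieldBar (M * ℓ)) :=
  (grV A).comap (modularFunctionFieldBar (M * ℓ)).val.toRingHom

omit [NeZero M] hℓ in
theorem mem_tvV1 (x : ↥(modularFunctionFieldBar (M * ℓ))) :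
    x ∈ tvV1 M ℓ A ↔ (x : LaurentSeries (AlgebraicClosure ℚ)) ∈ grV A := Iff.rfl

/-- the Gauss residue map on `tvV1` -/
noncomputable def tvRho1 : ↥(tvV1 M ℓ A) →+* LaurentSeries (IsLocalRing.ResidueField A) :=
  (grRho A).comp ((modularFunctionFieldBar (M * ℓ)).val.toRingHom.restrict (tvV1 M ℓ A) (grV A)
    (fun _ hx => hx))

omit [NeZero M] hℓ in
theorem tvRho1_apply (x : ↥(modularFunctionFieldBar (M * ℓ))) (hx : x ∈ tvV1 M ℓ A) :
    tvRho1 M ℓ A ⟨x, hx⟩ = grRho A ⟨(x : LaurentSeries (AlgebraicClosure ℚ)), hx⟩ := rfl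

omit [NeZero M] hℓ in
theorem tvRho1_congr {x x' : ↥(modularFunctionFieldBar (M * ℓ))} (h : x = x')
    (hx : x ∈ tvV1 M ℓ A) (hx' : x' ∈ tvV1 M ℓ A) :
    tvRho1 M ℓ A ⟨x, hx⟩ = tvRho1 M ℓ A ⟨x', hx'⟩ := by
  subst h
  rfl

/-- the pull-back of `tvV1` under the swap -/
noncomputable def tvV2 : Subring ↥(modularFunctionFieldBar (M * ℓ)) :=
  (tvV1 M ℓ A).comap (swp M ℓ hℓ.out hM)

theorem mem_tvV2 (x : ↥(modularFunctionFieldBar (M * ℓ))) :
    x ∈ tvV2 M ℓ A hM ↔ swp M ℓ hℓ.out hM x ∈ tvV1 M ℓ A := Iff.rfl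

/-- the second residue map: Gauss residue after the swap -/
noncomputable def tvRho2 : ↥(tvV2 M ℓ A hM) →+* LaurentSeries (IsLocalRing.ResidueField A) :=
  (tvRho1 M ℓ A).comp ((swp M ℓ hℓ.out hM).restrict (tvV2 M ℓ A hM) (tvV1 M ℓ A) (fun _ hx => hx))

theorem tvRho2_apply (x : ↥(modularFunctionFieldBar (M * ℓ))) (hx : x ∈ tvV2 M ℓ A hM) :
    tvRho2 M ℓ A hM ⟨x, hx⟩ = tvRho1 M ℓ A ⟨swp M ℓ hℓ.out hM x, hx⟩ := rfl

/-! ### `α` and `β` -/

theorem tv_alpha_mem1 (g : ↥(modularFunctionFieldBar M)) (hg : g ∈ grO A hA M hM) :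
    heckeAlphaBar (AlgebraicClosure ℚ) M ℓ g ∈ tvV1 M ℓ A := by
  rw [mem_tvV1, coe_heckeAlphaBar]
  exact hg

theorem tv_rho1_alpha (g : ↥(modularFunctionFieldBar M)) (hg : g ∈ grO A hA M hM) :
    tvRho1 M ℓ A ⟨_, tv_alpha_mem1 M ℓ A hA hM g hg⟩ = grRes A hA M hM ⟨g, hg⟩ :=
  (tvRho1_apply M ℓ A _ _).trans
    ((congrArg (grRho A) (Subtype.ext (coe_heckeAlphaBar M ℓ g))).trans
      (grRes_apply A hA M hM ⟨g, hg⟩).symm)

theorem tv_beta_mem1 (g : ↥(modularFunctionFieldBar M)) (hg : g ∈ grO A hA M hM) :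
    heckeBetaBar (AlgebraicClosure ℚ) M ℓ g ∈ tvV1 M ℓ A := by
  rw [mem_tvV1, coe_heckeBetaBar]
  exact tv_qExpand_mem A ℓ hg

theorem tv_rho1_beta (g : ↥(modularFunctionFieldBar M)) (hg : g ∈ grO A hA M hM) :
    tvRho1 M ℓ A ⟨_, tv_beta_mem1 M ℓ A hA hM g hg⟩
      = qExpand (IsLocalRing.ResidueField A) ℓ (grRes A hA M hM ⟨g, hg⟩) := by
  rw [tvRho1_apply, grRes_apply]
  exact tv_grRho_qExpand A ℓ hg

theorem tv_alpha_mem2 (g : ↥(modularFunctionFieldBar M)) (hg : g ∈ grO A hA M hM) :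
    heckeAlphaBar (AlgebraicClosure ℚ) M ℓ g ∈ tvV2 M ℓ A hM := by
  rw [mem_tvV2, swp_alpha]
  exact tv_beta_mem1 M ℓ A hA hM g hg

theorem tv_rho2_alpha (g : ↥(modularFunctionFieldBar M)) (hg : g ∈ grO A hA M hM) :
    tvRho2 M ℓ A hM ⟨_, tv_alpha_mem2 M ℓ A hA hM g hg⟩
      = qExpand (IsLocalRing.ResidueField A) ℓ (grRes A hA M hM ⟨g, hg⟩) := by
  rw [tvRho2_apply, ← tv_rho1_beta M ℓ A hA hM g hg]
  exact tvRho1_congr M ℓ A (swp_alpha M ℓ hℓ.out hM g) _ _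

theorem tv_beta_mem2 (g : ↥(modularFunctionFieldBar M)) (hg : g ∈ grO A hA M hM) :
    heckeBetaBar (AlgebraicClosure ℚ) M ℓ g ∈ tvV2 M ℓ A hM := by
  rw [mem_tvV2, swp_beta]
  exact tv_alpha_mem1 M ℓ A hA hM g hg

theorem tv_rho2_beta (g : ↥(modularFunctionFieldBar M)) (hg : g ∈ grO A hA M hM) :
    tvRho2 M ℓ A hM ⟨_, tv_beta_mem2 M ℓ A hA hM g hg⟩ = grRes A hA M hM ⟨g, hg⟩ := by
  rw [tvRho2_apply, ← tv_rho1_alpha M ℓ A hA hM g hg]
  exact tvRho1_congr M ℓ A (swp_beta M ℓ hℓ.out hM g) _ _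

/-! ### The norm-residue formula -/

local notation "kA" => IsLocalRing.ResidueField A
set_option quotPrecheck false in
local notation "FM" => ↥(modularFunctionFieldBar M)
set_option quotPrecheck false in
local notation "FMl" => ↥(modularFunctionFieldBar (M * ℓ))
local notation "Qb" => AlgebraicClosure ℚ

/-- **Norm-residue formula** (degree as a hypothesis): for a Gauss-integral `g` of the level-`M`
field, the norm of `α g` along `β` is Gauss-integral with residue `s̄(ḡ) · ḡ(q^ℓ)`. -/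
theorem tv_norm_frob_of_finrank [CharP kA ℓ]
    (hdeg : finrankAlong Qb (heckeBetaBar Qb M ℓ) = ℓ + 1)
    (g : FM) (hg : g ∈ grO A hA M hM) :
    ∃ hN : @Algebra.norm FM FMl _ _ (algebraAlong (heckeBetaBar Qb M ℓ))
        (heckeAlphaBar Qb M ℓ g) ∈ grO A hA M hM,
      grRes A hA M hM ⟨_, hN⟩
        = coeffMap (frobenius kA ℓ) (grRes A hA M hM ⟨g, hg⟩)
          * qExpand kA ℓ (grRes A hA M hM ⟨g, hg⟩) := by
  let _ : Algebra FM FMl := algebraAlong (heckeBetaBar Qb M ℓ)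
  have hℓp : ℓ.Prime := hℓ.out
  have hchar := tvf_charP (k := kA) ℓ
  have hJmem : grJ Qb M ∈ grO A hA M hM := gr_jqModC_mem A
  have hJres : grRes A hA M hM ⟨_, hJmem⟩ = jqModC kA := grRho_jqModC A _
  exact tvc_main ℓ (heckeAlphaBar Qb M ℓ).toRingHom (heckeBetaBar Qb M ℓ).toRingHom
    (fun _ => rfl) (swp M ℓ hℓp hM) (swp_alpha M ℓ hℓp hM) (swp_beta M ℓ hℓp hM)
    (grO A hA M hM) (grRes A hA M hM)
    (fun a ha => by
      by_contra hne
      exact ha (gr_inv_mem A ⟨_, a.2⟩ hne))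
    (tvV1 M ℓ A) (tvRho1 M ℓ A)
    (fun z hz => gr_inv_mem A ⟨_, z.2⟩ hz)
    (qExpand kA ℓ)
    (fun a ha => ⟨tv_alpha_mem1 M ℓ A hA hM a ha, tv_rho1_alpha M ℓ A hA hM a ha⟩)
    (fun a ha => ⟨tv_beta_mem1 M ℓ A hA hM a ha, tv_rho1_beta M ℓ A hA hM a ha⟩)
    (grJ Qb M) hJmem (by rw [hJres]; exact tvf_jq_pow ℓ) (by rw [hJres]; exact tvf_jq_not_range ℓ)
    hdeg g hg _ (tvf_pow_char ℓ _)

end Main

end Fermat.Agent.S37
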