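import Mathlib
import Fermat.Prelude.Def_AlgebraicCurve_DivisorClassGroup

/-!
# S37, package REDMAP: definitions of the abstract chart setting

`K` a field, `A : ValuationSubring K` with residue field `k`, `F / K` a function field,
`V : ValuationSubring F` (the Gauss valuation ring) with residue map `ρ : V →+* κ`.

* `RdmVal P g c` : the function `g` has the value `c` at the place `P`;
* `RdmGauss A V ρ` : the hypotheses on `(V, ρ)`;
* `RdmChart A V ρ t O B` : the chart `O` (the elements of `V` integral over `A[t]`), with
  image `B` in `κ`;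
* `RdmTo A V ρ t O P Q` : the place `P` of `F / K` specializes to the place `Q` of `κ / k`
  in the chart `(t, O)`.
-/

set_option autoImplicit false

noncomputable section

open AlgebraicCurve

namespace Fermat.Agent.S37

/-- `g` has the value `c` at the place `P`. -/
def RdmVal {K F : Type*} [Field K] [Field F] [Algebra K F] (P : Place K F) (g : F) (c : K) : Prop :=
  g = algebraMap K F c ∨ 0 < P.ord (g - algebraMap K F c)

section Setting

variable {K : Type*} [Field K] (A : ValuationSubring K)
variable {F : Type*} [Field F] [Algebra K F]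
variable {κ : Type*} [Field κ] [Algebra (IsLocalRing.ResidueField A) κ]

/-- Gauss data: a valuation subring `V` of `F` containing `A`, with a residue map `ρ` whose
kernel is the set of non-units, such that every nonzero element of `F` is a constant times a
unit of `V`. -/
structure RdmGauss (V : ValuationSubring F) (ρ : V →+* κ) : Prop where
  mem : ∀ c : A, algebraMap K F (c : K) ∈ V
  rho : ∀ c : A, ρ ⟨algebraMap K F (c : K), mem c⟩ =
    algebraMap (IsLocalRing.ResidueField A) κ (IsLocalRing.residue A c)
  ker : ∀ x : V, ρ x = 0 ↔ (x : F) ∈ V.nonunits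
  unit : ∀ x : F, x ≠ 0 → ∃ (c : K) (u : V), c ≠ 0 ∧ ρ u ≠ 0 ∧ x = algebraMap K F c * (u : F)

/-- A chart with coordinate `t`: a subring `O` of `V` (in the application: the elements of `V`
which are integral over `A[t]`, equivalently regular at all places where `t` is regular) whose
image under `ρ` is the subalgebra `B` of `κ`. -/
structure RdmChart (V : ValuationSubring F) (ρ : V →+* κ) (t : F) (O : Subring F)
    (B : Subalgebra (IsLocalRing.ResidueField A) κ) : Prop where
  le : ∀ x ∈ O, x ∈ V
  const : ∀ c : A, algebraMap K F (c : K) ∈ O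
  t_mem : t ∈ O
  reg : ∀ x ∈ O, ∀ P : Place K F, 0 ≤ P.ord t → 0 ≤ P.ord x
  val : ∀ x ∈ O, ∀ P : Place K F, (∃ c : A, RdmVal P t (c : K)) → ∃ c : A, RdmVal P x (c : K)
  sat : ∀ z ∈ V, (∀ P : Place K F, 0 ≤ P.ord t → 0 ≤ P.ord z) → z ∈ O
  image : ∀ b : κ, b ∈ B ↔ ∃ x : V, (x : F) ∈ O ∧ ρ x = b

/-- The place `P` of `F / K` specializes to the place `Q` of `κ / k` in the chart `(t, O)`:
`t` has a value in `A` at `P`, and for every `x ∈ O` with value `c ∈ A` at `P` the residue
`ρ x` has the value `c mod 𝔪` at `Q`. -/
def RdmTo (V : ValuationSubring F) (ρ : V →+* κ) (t : F) (O : Subring F)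
    (P : Place K F) (Q : Place (IsLocalRing.ResidueField A) κ) : Prop :=
  (∃ c : A, RdmVal P t (c : K)) ∧
    ∀ x : V, (x : F) ∈ O → ∀ c : A, RdmVal P (x : F) (c : K) →
      RdmVal Q (ρ x) (IsLocalRing.residue A c)

end Setting

end Fermat.Agent.S37
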