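import Mathlib
import Fermat.Agent.S37.RedMapDefs
import Fermat.Agent.S37.Pairing

/-!
# S37, J-rings (finding 136), package JR-DEF: the definitions

`K` a field, `A : ValuationSubring K` with residue field `k`, `F / K` a function field,
`j : F` (in the application `K = ℚ̄`, `F` the function field of `X₀(N)` and `j = jBar N`).

* `jrEval A y : A[X] →+* F`, `X ↦ y`;  `jrPoly A y = A[y]`;
  `jrLam A y` = the subring generated by `A[y]` and the inverses of the `s(y)`, `s(0) ∈ Aˣ`
  (the localisation of `A[y]` at `(𝔪_A, y)`);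
* `jrIC R` : the integral closure of the subring `R` in `F`, as a subring;
* `jrOY A j = jrIC (A[j])`,  `jrOZ A j = jrIC (Λ(j⁻¹))` : the two J-rings;
* `jrRegY A j P` : the place `P` lies in the region `Y` (`j(P) ∈ A`); the region `Z` is the
  complement (it is characterised by `j⁻¹(P) ∈ 𝔪_A`, see `JRingInst`);
* `jrRing A j P` : the J-ring of the region of `P`;
* `jrCls A j P` : the class of `P` = (its region, the graph of `x ↦ res (x(P))` on its J-ring);
* `jrRed A j = Finsupp.mapDomain (jrCls A j)` : the reduction map on divisors.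

Formal facts proved here (only uniqueness of values is used):
* `jrCls_eq_clsOf_Y`, `jrCls_eq_clsOf_Z` : `jrCls A j P = jrClsOf A b O χ` for ANY function `χ` on
  the J-ring computing the residues of the values at `P`;
* `jrCls_eq_iff` : the unfolding of `jrCls A j P = jrCls A j P'`.
-/

set_option autoImplicit false

noncomputable section

open AlgebraicCurve

namespace Fermat.Agent.S37

section Defs

variable {K : Type*} [Field K] (A : ValuationSubring K) {F : Type*} [Field F] [Algebra K F]

/-- The ring homomorphism `A[X] → F`, `X ↦ y`. -/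
def jrEval (y : F) : Polynomial A →+* F :=
  Polynomial.eval₂RingHom ((algebraMap K F).comp A.subtype) y

/-- `A[y]`: the subring of `F` generated by `A` and `y`. -/
def jrPoly (y : F) : Subring F := (jrEval A y).range

/-- `Λ(y)`: the subring of `F` generated by `A[y]` and the inverses of the `s(y)`,
`s ∈ A[X]` with `s(0) ∈ Aˣ`. -/
def jrLam (y : F) : Subring F :=
  Subring.closure ((jrPoly A y : Set F) ∪
    {x | ∃ s : Polynomial A, IsUnit (s.coeff 0) ∧ x = (jrEval A y s)⁻¹})

/-- The integral closure of a subring of `F`, as a subring of `F`. -/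
def jrIC (R : Subring F) : Subring F := (integralClosure R F).toSubring

/-- The J-ring of the region `Y`: the integral closure of `A[j]`. -/
def jrOY (j : F) : Subring F := jrIC (jrPoly A j)

/-- The J-ring of the region `Z`: the integral closure of `Λ(j⁻¹)`. -/
def jrOZ (j : F) : Subring F := jrIC (jrLam A j⁻¹)

/-- The place `P` lies in the region `Y`: `j` has a value in `A` at `P`. -/
def jrRegY (j : F) (P : Place K F) : Prop := ∃ b : A, RdmVal P j (b : K)

open Classical in
/-- The J-ring of the region of `P`. -/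
def jrRing (j : F) (P : Place K F) : Subring F := if jrRegY A j P then jrOY A j else jrOZ A j

/-- The class attached to a region flag `b`, a ring `O` and a function `χ` on it. -/
def jrClsOf (b : Prop) (O : Subring F) (χ : O → IsLocalRing.ResidueField A) :
    Prop × Set (F × IsLocalRing.ResidueField A) :=
  (b, {p | ∃ h : p.1 ∈ O, χ ⟨p.1, h⟩ = p.2})

/-- The class of the place `P`: its region and the graph of `x ↦ res (x(P))` on the J-ring of
its region. -/
def jrCls (j : F) (P : Place K F) : Prop × Set (F × IsLocalRing.ResidueField A) :=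
  (jrRegY A j P, {p | p.1 ∈ jrRing A j P ∧
    ∃ a : A, RdmVal P p.1 (a : K) ∧ IsLocalRing.residue A a = p.2})

/-- The reduction map on divisors. -/
def jrRed (j : F) : Divisor K F →+ (Prop × Set (F × IsLocalRing.ResidueField A) →₀ ℤ) :=
  Finsupp.mapDomain.addMonoidHom (jrCls A j)

variable {A}

theorem jrRed_apply (j : F) (D : Divisor K F) : jrRed A j D = Finsupp.mapDomain (jrCls A j) D :=
  rfl

theorem jrRed_single (j : F) (P : Place K F) (n : ℤ) :
    jrRed A j (Finsupp.single P n) = Finsupp.single (jrCls A j P) n := by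
  rw [jrRed_apply, Finsupp.mapDomain_single]

theorem mem_jrPoly {y x : F} : x ∈ jrPoly A y ↔ ∃ p : Polynomial A, jrEval A y p = x :=
  RingHom.mem_range

theorem jrEval_C (y : F) (a : A) : jrEval A y (Polynomial.C a) = algebraMap K F (a : K) := by
  simp [jrEval]

theorem jrEval_X (y : F) : jrEval A y Polynomial.X = y := by
  simp [jrEval]

theorem jr_const_mem_jrPoly (y : F) (a : A) : algebraMap K F (a : K) ∈ jrPoly A y :=
  mem_jrPoly.mpr ⟨Polynomial.C a, jrEval_C y a⟩

theorem jr_self_mem_jrPoly (y : F) : y ∈ jrPoly A y := mem_jrPoly.mpr ⟨Polynomial.X, jrEval_X y⟩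

theorem jrPoly_le_jrLam (y : F) : jrPoly A y ≤ jrLam A y := fun _ hx =>
  Subring.subset_closure (Or.inl hx)

theorem jr_inv_mem_jrLam (y : F) (s : Polynomial A) (hs : IsUnit (s.coeff 0)) :
    (jrEval A y s)⁻¹ ∈ jrLam A y :=
  Subring.subset_closure (Or.inr ⟨s, hs, rfl⟩)

theorem mem_jrIC {R : Subring F} {x : F} : x ∈ jrIC R ↔ IsIntegral R x := Iff.rfl

theorem le_jrIC (R : Subring F) : R ≤ jrIC R := fun x hx =>
  mem_jrIC.mpr (isIntegral_algebraMap (R := R) (A := F) (x := ⟨x, hx⟩))

theorem mem_jrOY {j x : F} : x ∈ jrOY A j ↔ IsIntegral (jrPoly A j) x := Iff.rfl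

theorem mem_jrOZ {j x : F} : x ∈ jrOZ A j ↔ IsIntegral (jrLam A j⁻¹) x := Iff.rfl

theorem jr_const_mem_jrOY (j : F) (a : A) : algebraMap K F (a : K) ∈ jrOY A j :=
  le_jrIC _ (jr_const_mem_jrPoly j a)

theorem jr_const_mem_jrOZ (j : F) (a : A) : algebraMap K F (a : K) ∈ jrOZ A j :=
  le_jrIC _ (jrPoly_le_jrLam _ (jr_const_mem_jrPoly _ a))

theorem jr_self_mem_jrOY (j : F) : j ∈ jrOY A j := le_jrIC _ (jr_self_mem_jrPoly j)

theorem jr_inv_mem_jrOZ (j : F) : j⁻¹ ∈ jrOZ A j :=
  le_jrIC _ (jrPoly_le_jrLam _ (jr_self_mem_jrPoly _))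

theorem jrRing_of_regY {j : F} {P : Place K F} (h : jrRegY A j P) : jrRing A j P = jrOY A j :=
  if_pos h

theorem jrRing_of_not_regY {j : F} {P : Place K F} (h : ¬ jrRegY A j P) :
    jrRing A j P = jrOZ A j :=
  if_neg h

theorem jr_const_mem_jrRing (j : F) (P : Place K F) (a : A) :
    algebraMap K F (a : K) ∈ jrRing A j P := by
  by_cases h : jrRegY A j P
  · rw [jrRing_of_regY h]
    exact jr_const_mem_jrOY j a
  · rw [jrRing_of_not_regY h]
    exact jr_const_mem_jrOZ j a

/-- Uniqueness of values. -/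
theorem jr_val_unique (P : Place K F) {g : F} {c d : K} (hc : RdmVal P g c)
    (hd : RdmVal P g d) : c = d :=
  e0HasVal_unique P hc hd

theorem mem_jrCls_snd {j : F} {P : Place K F} {x : F} {r : IsLocalRing.ResidueField A} :
    (x, r) ∈ (jrCls A j P).2 ↔
      x ∈ jrRing A j P ∧ ∃ a : A, RdmVal P x (a : K) ∧ IsLocalRing.residue A a = r :=
  Iff.rfl

/-- The class of `P` is the class of ANY function on the J-ring of its region which computes the
residues of the values at `P`. -/
theorem jrCls_eq_clsOf {j : F} {P : Place K F} (b : Prop) (O : Subring F) (hb : jrRegY A j P = b)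
    (hO : jrRing A j P = O) (χ : O → IsLocalRing.ResidueField A)
    (hχ : ∀ x : O, ∃ c : A, RdmVal P (x : F) (c : K) ∧ χ x = IsLocalRing.residue A c) :
    jrCls A j P = jrClsOf A b O χ := by
  refine Prod.ext hb ?_
  ext ⟨x, r⟩
  show (x ∈ jrRing A j P ∧ ∃ a : A, RdmVal P x (a : K) ∧ IsLocalRing.residue A a = r) ↔
    ∃ h : x ∈ O, χ ⟨x, h⟩ = r
  rw [hO]
  constructor
  · rintro ⟨hx, a, ha, rfl⟩
    obtain ⟨c, hc, hχc⟩ := hχ ⟨x, hx⟩
    have hca : (c : K) = (a : K) := jr_val_unique P hc ha
    have : c = a := Subtype.ext hca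
    exact ⟨hx, by rw [hχc, this]⟩
  · rintro ⟨hx, rfl⟩
    obtain ⟨c, hc, hχc⟩ := hχ ⟨x, hx⟩
    exact ⟨hx, c, hc, hχc.symm⟩

theorem jrCls_eq_clsOf_Y {j : F} {P : Place K F} (hP : jrRegY A j P)
    (χ : jrOY A j → IsLocalRing.ResidueField A)
    (hχ : ∀ x : jrOY A j, ∃ c : A, RdmVal P (x : F) (c : K) ∧ χ x = IsLocalRing.residue A c) :
    jrCls A j P = jrClsOf A True (jrOY A j) χ :=
  jrCls_eq_clsOf True _ (eq_true hP) (jrRing_of_regY hP) χ hχ

theorem jrCls_eq_clsOf_Z {j : F} {P : Place K F} (hP : ¬ jrRegY A j P)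
    (χ : jrOZ A j → IsLocalRing.ResidueField A)
    (hχ : ∀ x : jrOZ A j, ∃ c : A, RdmVal P (x : F) (c : K) ∧ χ x = IsLocalRing.residue A c) :
    jrCls A j P = jrClsOf A False (jrOZ A j) χ :=
  jrCls_eq_clsOf False _ (eq_false hP) (jrRing_of_not_regY hP) χ hχ

/-- Two places have the same class iff they lie in the same region and every element of the
J-ring of that region has the same residue of value at both (given that elements of the J-ring
have `A`-values, which is a theorem of `JRingInst`). -/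
theorem jrCls_eq_of_forall {j : F} {P P' : Place K F} (hreg : jrRegY A j P ↔ jrRegY A j P')
    (hex : ∀ x ∈ jrRing A j P, ∃ a : A, RdmVal P x (a : K))
    (hex' : ∀ x ∈ jrRing A j P', ∃ a : A, RdmVal P' x (a : K))
    (h : ∀ x ∈ jrRing A j P, ∀ a a' : A, RdmVal P x (a : K) → RdmVal P' x (a' : K) →
      IsLocalRing.residue A a = IsLocalRing.residue A a') :
    jrCls A j P = jrCls A j P' := by
  have hring : jrRing A j P = jrRing A j P' := by
    by_cases hY : jrRegY A j P
    · rw [jrRing_of_regY hY, jrRing_of_regY (hreg.mp hY)]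
    · rw [jrRing_of_not_regY hY, jrRing_of_not_regY (fun h' => hY (hreg.mpr h'))]
  refine Prod.ext (propext hreg) ?_
  ext ⟨x, r⟩
  rw [mem_jrCls_snd, mem_jrCls_snd, ← hring]
  constructor
  · rintro ⟨hx, a, ha, rfl⟩
    obtain ⟨a', ha'⟩ := hex' x (hring ▸ hx)
    exact ⟨hx, a', ha', (h x hx a a' ha ha').symm⟩
  · rintro ⟨hx, a', ha', rfl⟩
    obtain ⟨a, ha⟩ := hex x hx
    exact ⟨hx, a, ha, h x hx a a' ha ha'⟩

/-- Unfolding of an equality of classes: same region, same ring, same residues of values. -/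
theorem jrCls_eq_imp {j : F} {P P' : Place K F} (h : jrCls A j P = jrCls A j P') :
    (jrRegY A j P ↔ jrRegY A j P') ∧ jrRing A j P = jrRing A j P' ∧
      ∀ x ∈ jrRing A j P, ∀ a a' : A, RdmVal P x (a : K) → RdmVal P' x (a' : K) →
        IsLocalRing.residue A a = IsLocalRing.residue A a' := by
  have hreg : jrRegY A j P ↔ jrRegY A j P' := by
    have := congrArg Prod.fst h
    exact Eq.to_iff this
  have hring : jrRing A j P = jrRing A j P' := by
    by_cases hY : jrRegY A j P
    · rw [jrRing_of_regY hY, jrRing_of_regY (hreg.mp hY)]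
    · rw [jrRing_of_not_regY hY, jrRing_of_not_regY (fun h' => hY (hreg.mpr h'))]
  refine ⟨hreg, hring, fun x hx a a' ha ha' => ?_⟩
  have h2 : (x, IsLocalRing.residue A a) ∈ (jrCls A j P').2 := by
    rw [← h]
    exact ⟨hx, a, ha, rfl⟩
  obtain ⟨-, a'', ha'', hres⟩ := h2
  have : (a'' : K) = (a' : K) := jr_val_unique P' ha'' ha'
  have e : a'' = a' := Subtype.ext this
  have hres' : IsLocalRing.residue A a'' = IsLocalRing.residue A a := hres
  rw [← hres', e]

end Defs

end Fermat.Agent.S37
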