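import Mathlib
import Fermat.Agent.S18.ValExt

/-!
# S37, J-rings (finding 136), package JR-ABS, part 2: points, values, characters

`K ⊆ F` fields, `A : ValuationSubring K` with residue field `k`.

* `JrPt K F`: a `K`-rational point of `F`: a valuation subring `W ⊇ K` of `F` with an evaluation
  `ev : W →+* K` such that `x - ev x ∈ 𝔪_W`.
* `P.Val A x`: `x ∈ W` and `x(P) ∈ A`;  `P.Reg A O`: every element of the subring `O` has an
  `A`-value at `P`.
* `jr_val_of_isIntegral`: elements integral over a subring with `A`-values have `A`-values.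
* `P.chi A O h : O →+* k`, `x ↦ red (x(P))`.
* `JrInt A VG O`: the integrality property of `O` with respect to the Gauss ring `VG`
  (`x ∈ O ∩ 𝔪_VG ⟹ x = c x'`, `c ∈ 𝔪_A`, `x' ∈ O`);  `jr_chi_eq_zero`: then `χ_P` kills `O ∩ 𝔪_VG`.
-/

set_option autoImplicit false

namespace Fermat.Agent.S37

open Fermat.Agent.S18

section Nonunits

variable {F : Type*} [Field F]

theorem jr_mem_nonunits_iff (W : ValuationSubring F) (x : F) :
    x ∈ W.nonunits ↔ x = 0 ∨ x⁻¹ ∉ W := by
  rw [ValuationSubring.mem_nonunits_iff]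
  constructor
  · intro h
    by_cases hx : x = 0
    · exact Or.inl hx
    · right
      intro hinv
      have h1 := (W.valuation_le_one_iff x⁻¹).mpr hinv
      rw [map_inv₀] at h1
      have h0 : W.valuation x ≠ 0 := (Valuation.ne_zero_iff _).mpr hx
      have h2 : 1 ≤ W.valuation x := by
        rwa [inv_le_one₀ (zero_lt_iff.mpr h0)] at h1
      exact absurd h (not_lt.mpr h2)
  · rintro (rfl | h)
    · rw [map_zero]
      exact zero_lt_one
    · by_contra hlt
      rw [not_lt] at hlt
      apply h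
      rw [← W.valuation_le_one_iff, map_inv₀]
      have hx0 : W.valuation x ≠ 0 := fun h0 => by
        rw [h0] at hlt
        exact absurd hlt (not_le.mpr zero_lt_one)
      rwa [inv_le_one₀ (zero_lt_iff.mpr hx0)]

theorem jr_nonunits_sub (W : ValuationSubring F) {x y : F} (hx : x ∈ W.nonunits)
    (hy : y ∈ W.nonunits) : x - y ∈ W.nonunits := by
  rw [ValuationSubring.mem_nonunits_iff] at hx hy ⊢
  exact lt_of_le_of_lt (Valuation.map_sub _ _ _) (max_lt hx hy)

theorem jr_nonunits_mul_mem (W : ValuationSubring F) {x y : F} (hx : x ∈ W)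
    (hy : y ∈ W.nonunits) : x * y ∈ W.nonunits := by
  rw [ValuationSubring.mem_nonunits_iff] at hy ⊢
  rw [map_mul]
  have h1 := (W.valuation_le_one_iff x).mpr hx
  calc W.valuation x * W.valuation y ≤ 1 * W.valuation y := mul_le_mul_left h1 _
    _ = W.valuation y := one_mul _
    _ < 1 := hy

theorem jr_nonunits_mem (W : ValuationSubring F) {x : F} (hx : x ∈ W.nonunits) : x ∈ W := by
  rw [ValuationSubring.mem_nonunits_iff] at hx
  exact (W.valuation_le_one_iff x).mp hx.le

end Nonunits

variable {K F : Type*} [Field K] [Field F] [Algebra K F]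

/-- A `K`-rational point of `F`. -/
structure JrPt (K F : Type*) [Field K] [Field F] [Algebra K F] where
  /-- the valuation ring -/
  W : ValuationSubring F
  /-- the evaluation -/
  ev : W →+* K
  mem : ∀ c : K, algebraMap K F c ∈ W
  spec : ∀ x : W, (x : F) - algebraMap K F (ev x) ∈ W.nonunits

namespace JrPt

variable (P : JrPt K F)

theorem const_notMem_nonunits {c : K} (hc : c ≠ 0) : algebraMap K F c ∉ P.W.nonunits := by
  rw [jr_mem_nonunits_iff]
  push Not
  refine ⟨fun h => hc ((map_eq_zero _).mp h), ?_⟩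
  rw [← map_inv₀]
  exact P.mem _

theorem ev_eq_iff (x : P.W) (c : K) :
    P.ev x = c ↔ (x : F) - algebraMap K F c ∈ P.W.nonunits := by
  constructor
  · rintro rfl
    exact P.spec x
  · intro h
    by_contra hne
    have h1 := jr_nonunits_sub P.W h (P.spec x)
    have h2 : (x : F) - algebraMap K F c - ((x : F) - algebraMap K F (P.ev x))
        = algebraMap K F (P.ev x - c) := by
      rw [map_sub]
      ring
    rw [h2] at h1
    exact P.const_notMem_nonunits (sub_ne_zero.mpr hne) h1

theorem ev_algebraMap (c : K) : P.ev ⟨algebraMap K F c, P.mem c⟩ = c := by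
  rw [ev_eq_iff]
  simp only [sub_self]
  rw [ValuationSubring.mem_nonunits_iff, map_zero]
  exact zero_lt_one

theorem ev_eq_zero_iff (x : P.W) : P.ev x = 0 ↔ (x : F) ∈ P.W.nonunits := by
  rw [ev_eq_iff, map_zero, sub_zero]

/-- `x` is regular at `P` with value in `A`. -/
def Val (A : ValuationSubring K) (x : F) : Prop := ∃ h : x ∈ P.W, P.ev ⟨x, h⟩ ∈ A

/-- every element of `O` has an `A`-value at `P`. -/
def Reg (A : ValuationSubring K) (O : Subring F) : Prop := ∀ x ∈ O, P.Val A x

theorem Reg.le {A : ValuationSubring K} {O : Subring F} (h : P.Reg A O) : O ≤ P.W.toSubring :=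
  fun x hx => (h x hx).1

/-- The subring of the functions with an `A`-value at `P`. -/
def valRing (A : ValuationSubring K) : Subring F := (A.toSubring.comap P.ev).map P.W.subtype

theorem mem_valRing {A : ValuationSubring K} {x : F} : x ∈ P.valRing A ↔ P.Val A x := by
  constructor
  · rintro ⟨y, hy, rfl⟩
    exact ⟨y.2, hy⟩
  · rintro ⟨h, hx⟩
    exact ⟨⟨x, h⟩, hx, rfl⟩

theorem reg_iff_le {A : ValuationSubring K} {O : Subring F} : P.Reg A O ↔ O ≤ P.valRing A :=
  ⟨fun h x hx => P.mem_valRing.mpr (h x hx), fun h _ hx => P.mem_valRing.mp (h hx)⟩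

theorem val_const (A : ValuationSubring K) (a : A) : P.Val A (algebraMap K F (a : K)) :=
  ⟨P.mem a, by rw [P.ev_algebraMap]; exact a.2⟩

/-- A function whose value is a unit of `A` has an inverse with a value in `A`. -/
theorem val_inv {A : ValuationSubring K} {x : F} (hx : P.Val A x)
    (h0 : P.ev ⟨x, hx.1⟩ ≠ 0) (hu : (P.ev ⟨x, hx.1⟩)⁻¹ ∈ A) : P.Val A x⁻¹ := by
  have hxW : x ∈ P.W := hx.1
  have hnn : x ∉ P.W.nonunits := fun h => h0 ((P.ev_eq_zero_iff ⟨x, hxW⟩).mpr h)
  rw [jr_mem_nonunits_iff] at hnn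
  push Not at hnn
  obtain ⟨hx0, hinv⟩ := hnn
  refine ⟨hinv, ?_⟩
  have h1 : P.ev ⟨x⁻¹, hinv⟩ * P.ev ⟨x, hxW⟩ = 1 := by
    rw [← map_mul]
    have h2 : (⟨x⁻¹, hinv⟩ * ⟨x, hxW⟩ : P.W) = 1 := Subtype.ext (inv_mul_cancel₀ hx0)
    rw [h2, map_one]
  rw [eq_inv_of_mul_eq_one_left h1]
  exact hu

end JrPt

/-- Elements integral over a subring with `A`-values at `P` have `A`-values at `P`. -/
theorem jr_val_of_isIntegral (P : JrPt K F) (A : ValuationSubring K) (S : Subring F)
    (hS : P.Reg A S) {x : F} (hx : IsIntegral S x) : P.Val A x := by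
  have hxW : x ∈ P.W := valext_mem_of_isIntegral P.W (S := S) (fun s => (hS s s.2).1) x hx
  refine ⟨hxW, ?_⟩
  obtain ⟨p, hp, hpx⟩ := hx
  -- the ring hom `S → A`, `s ↦ s(P)`
  let f0 : S →+* K := P.ev.comp (Subring.inclusion (JrPt.Reg.le P hS))
  let f : S →+* A := f0.codRestrict A.toSubring (fun s => (hS s s.2).2)
  have hint : IsIntegral A (P.ev ⟨x, hxW⟩) := by
    refine ⟨p.map f, hp.map f, ?_⟩
    rw [Polynomial.eval₂_map]
    have hcomp : (algebraMap A K).comp f = f0 := by
      ext s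
      rfl
    rw [hcomp]
    -- `eval₂ f0 (ev x) p = ev (eval₂ incl x p)`
    have h1 : Polynomial.eval₂ f0 (P.ev ⟨x, hxW⟩) p
        = P.ev (Polynomial.eval₂ (Subring.inclusion (JrPt.Reg.le P hS)) ⟨x, hxW⟩ p) := by
      rw [Polynomial.hom_eval₂]
    rw [h1]
    have h2 : Polynomial.eval₂ (Subring.inclusion (JrPt.Reg.le P hS)) (⟨x, hxW⟩ : P.W) p = 0 := by
      apply Subtype.ext
      have h3 : ((Polynomial.eval₂ (Subring.inclusion (JrPt.Reg.le P hS)) (⟨x, hxW⟩ : P.W) p : P.W) : F)
          = Polynomial.eval₂ (algebraMap S F) x p := by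
        exact Polynomial.hom_eval₂ p (Subring.inclusion (JrPt.Reg.le P hS)) P.W.subtype
          (⟨x, hxW⟩ : P.W)
      rw [h3, hpx]
      rfl
    rw [h2, map_zero]
  obtain ⟨y, hy⟩ := (IsIntegrallyClosed.isIntegral_iff (R := A) (K := K)).mp hint
  rw [← hy]
  exact y.2

theorem jr_reg_integralClosure (P : JrPt K F) (A : ValuationSubring K) (S : Subring F)
    (hS : P.Reg A S) : P.Reg A (integralClosure S F).toSubring :=
  fun _ hx => jr_val_of_isIntegral P A S hS hx

namespace JrPt

variable (P : JrPt K F) (A : ValuationSubring K) (O : Subring F) (h : P.Reg A O)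

/-- The character `x ↦ red (x(P))` of a ring of functions with `A`-values at `P`. -/
noncomputable def chi : O →+* IsLocalRing.ResidueField A :=
  (IsLocalRing.residue A).comp
    ((P.ev.comp (Subring.inclusion (Reg.le P h))).codRestrict A.toSubring
      (fun x => (h x x.2).2))

theorem chi_apply (x : O) :
    P.chi A O h x = IsLocalRing.residue A ⟨P.ev ⟨x, (h x x.2).1⟩, (h x x.2).2⟩ := rfl

theorem chi_const (a : A) (ha : algebraMap K F a ∈ O) :
    P.chi A O h ⟨algebraMap K F a, ha⟩ = IsLocalRing.residue A a := by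
  rw [chi_apply]
  congr 1
  apply Subtype.ext
  exact P.ev_algebraMap a

end JrPt

/-- The integrality property of a ring of functions `O` with respect to the Gauss ring `VG`. -/
def JrInt (A : ValuationSubring K) (VG : ValuationSubring F) (O : Subring F) : Prop :=
  ∀ x ∈ O, x ∈ VG.nonunits → ∃ c : K, c ∈ A.nonunits ∧ ∃ x' ∈ O, x = algebraMap K F c * x'

/-- Under the integrality property, the characters kill the Gauss non-units. -/
theorem jr_chi_eq_zero (P : JrPt K F) (A : ValuationSubring K) (O : Subring F)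
    (h : P.Reg A O) (VG : ValuationSubring F) (hint : JrInt A VG O) (x : O)
    (hx : (x : F) ∈ VG.nonunits) : P.chi A O h x = 0 := by
  obtain ⟨c, hc, x', hx', hxc⟩ := hint x x.2 hx
  rw [JrPt.chi_apply, IsLocalRing.residue_eq_zero_iff, IsLocalRing.mem_maximalIdeal,
    mem_nonunits_iff]
  have hcA : c ∈ A := jr_nonunits_mem A hc
  obtain ⟨hx'W, hx'A⟩ := h x' hx'
  have hev : P.ev ⟨x, (h x x.2).1⟩ = c * P.ev ⟨x', hx'W⟩ := by
    have h1 : (⟨(x : F), (h x x.2).1⟩ : P.W) = ⟨algebraMap K F c, P.mem c⟩ * ⟨x', hx'W⟩ :=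
      Subtype.ext hxc
    rw [h1, map_mul, P.ev_algebraMap]
  intro hu
  have h2 : (c * P.ev ⟨x', hx'W⟩) ∈ A.nonunits := by
    rw [mul_comm]
    exact jr_nonunits_mul_mem A hx'A hc
  rw [ValuationSubring.mem_nonunits_iff] at h2
  have h3 : A.valuation (P.ev ⟨x, (h x x.2).1⟩) = 1 := by
    have := (A.valuation_eq_one_iff ⟨P.ev ⟨x, (h x x.2).1⟩, (h x x.2).2⟩).mp hu
    exact this
  rw [hev] at h3
  exact absurd h3 (ne_of_lt h2)

end Fermat.Agent.S37
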