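import Mathlib
import Fermat.Agent.S24.Differential
import Fermat.Agent.S37.JRingDefs
import Fermat.Agent.S37.JRingAbs

/-!
# S37, J-rings (finding 136), package JR-INST (generic part): values and characters

`K` a field, `A : ValuationSubring K` with residue field `k`, `F / K` a function field, `j : F`,
`P : Place K F` with residue field `K` (`hbij`).

* `jrPt P hbij : JrPt K F` : the point of the place `P`; `jrPt_val_iff` : `RdmVal` in terms of it;
* `jr_regZ` : outside the region `Y` the function `j⁻¹` has a value in `𝔪_A`;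
* `jr_exists_val_Y`, `jr_exists_val_Z`, `jr_exists_val` : the elements of the J-ring of the region
  of `P` have values in `A` at `P`;
* `jrChiY`, `jrChiZ`, `jrChi` : the characters `x ↦ res (x(P))` of the J-rings, with
  `jrChiY_spec` etc.; `jrCls_eq_Y`, `jrCls_eq_Z` : the class of `P` is the class of its character;
* `jr_int_Y`, `jr_int_Z` : under the integrality property `JrInt A VG O` of the J-ring with
  respect to a Gauss ring `VG`, the residue of the value at `P` of a Gauss non-unit is zero.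
-/

set_option autoImplicit false

noncomputable section

open AlgebraicCurve

namespace Fermat.Agent.S37

open Fermat.Agent.S24

section Bridge

variable {K : Type*} [Field K] {F : Type*} [Field F] [Algebra K F]

/-- `RdmVal` in terms of the maximal ideal of the valuation ring of the place. -/
theorem jr_val_iff_nonunits (P : Place K F) (x : F) (c : K) :
    RdmVal P x c ↔ x - algebraMap K F c ∈ P.toValuationSubring.nonunits := by
  rw [jr_mem_nonunits_iff, ← sf_ord_nonneg_iff, P.ord_inv, RdmVal, sub_eq_zero]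
  constructor
  · rintro (h | h)
    · exact Or.inl h
    · exact Or.inr (by omega)
  · rintro (h | h)
    · exact Or.inl h
    · exact Or.inr (by omega)

/-- A place of degree one has residue field `K`. -/
theorem jr_bij_of_deg (P : Place K F) (hdeg : P.deg = 1) :
    Function.Bijective (algebraMap K P.ResidueField) := by
  refine ⟨(algebraMap K P.ResidueField).injective, fun r => ?_⟩
  have hbot : (⊥ : Subalgebra K P.ResidueField) = ⊤ :=
    Subalgebra.bot_eq_top_of_finrank_eq_one hdeg
  have hr : r ∈ (⊥ : Subalgebra K P.ResidueField) := by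
    rw [hbot]
    exact Algebra.mem_top
  exact Algebra.mem_bot.mp hr

/-- The point of a place with residue field `K`. -/
def jrPt (P : Place K F) (hbij : Function.Bijective (algebraMap K P.ResidueField)) :
    JrPt K F where
  W := P.toValuationSubring
  ev := (placeRes P hbij).toRingHom
  mem := P.algebraMap_mem'
  spec := by
    intro x
    have h0 : placeRes P hbij (x - algebraMap K P.toValuationSubring (placeRes P hbij x)) = 0 := by
      rw [map_sub, AlgHom.commutes]
      simp
    rw [placeRes_eq_zero_iff] at h0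
    have h1 : ((x - algebraMap K P.toValuationSubring (placeRes P hbij x) :
        P.toValuationSubring) : F) ∈ P.toValuationSubring.nonunits := by
      rw [ValuationSubring.coe_mem_nonunits_iff, IsLocalRing.mem_maximalIdeal, mem_nonunits_iff]
      exact h0
    exact h1

theorem jrPt_W (P : Place K F) (hbij : Function.Bijective (algebraMap K P.ResidueField)) :
    (jrPt P hbij).W = P.toValuationSubring := rfl

theorem jrPt_val_iff (P : Place K F) (hbij : Function.Bijective (algebraMap K P.ResidueField))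
    (x : F) (c : K) :
    RdmVal P x c ↔ ∃ h : x ∈ (jrPt P hbij).W, (jrPt P hbij).ev ⟨x, h⟩ = c := by
  rw [jr_val_iff_nonunits]
  constructor
  · intro h
    have hx : x ∈ P.toValuationSubring := by
      have := add_mem (jr_nonunits_mem _ h) (P.algebraMap_mem' c)
      simpa using this
    exact ⟨hx, ((jrPt P hbij).ev_eq_iff ⟨x, hx⟩ c).mpr h⟩
  · rintro ⟨hx, h⟩
    exact ((jrPt P hbij).ev_eq_iff ⟨x, hx⟩ c).mp h

theorem jrPt_Val_iff (P : Place K F) (hbij : Function.Bijective (algebraMap K P.ResidueField))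
    (A : ValuationSubring K) (x : F) :
    (jrPt P hbij).Val A x ↔ ∃ a : A, RdmVal P x (a : K) := by
  constructor
  · rintro ⟨h, ha⟩
    exact ⟨⟨_, ha⟩, (jrPt_val_iff P hbij x _).mpr ⟨h, rfl⟩⟩
  · rintro ⟨a, ha⟩
    obtain ⟨h, he⟩ := (jrPt_val_iff P hbij x _).mp ha
    exact ⟨h, by rw [he]; exact a.2⟩

end Bridge

section Reg

variable {K : Type*} [Field K] (A : ValuationSubring K) {F : Type*} [Field F] [Algebra K F]

/-- If `y` has an `A`-value at `Q`, so has every element of `A[y]`. -/
theorem jr_reg_poly (Q : JrPt K F) (y : F) (hy : Q.Val A y) : Q.Reg A (jrPoly A y) := by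
  rw [JrPt.reg_iff_le]
  rintro x ⟨p, rfl⟩
  induction p using Polynomial.induction_on' with
  | add p q hp hq =>
    rw [map_add]
    exact add_mem hp hq
  | monomial n a =>
    have h1 : jrEval A y (Polynomial.monomial n a) = algebraMap K F (a : K) * y ^ n := by
      simp [jrEval, Polynomial.eval₂_monomial]
    rw [h1]
    exact mul_mem (Q.mem_valRing.mpr (Q.val_const A a)) (pow_mem (Q.mem_valRing.mpr hy) n)

/-- If `y` has a value in `𝔪_A` at `Q`, then every element of `Λ(y)` has an `A`-value at `Q`. -/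
theorem jr_reg_lam (Q : JrPt K F) (y : F) (hy : Q.Val A y)
    (hy0 : Q.ev ⟨y, hy.1⟩ ∈ A.nonunits) : Q.Reg A (jrLam A y) := by
  have hpoly := jr_reg_poly A Q y hy
  rw [JrPt.reg_iff_le] at hpoly ⊢
  refine (Subring.closure_le).mpr ?_
  rintro x (hx | ⟨s, hs, rfl⟩)
  · exact hpoly hx
  · rw [SetLike.mem_coe, Q.mem_valRing]
    -- `s(y) = t(y) * y + s(0)`
    have hdec : jrEval A y s = jrEval A y s.divX * y + algebraMap K F ((s.coeff 0 : A) : K) := by
      conv_lhs => rw [← Polynomial.divX_mul_X_add s]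
      rw [map_add, map_mul, jrEval_X, jrEval_C]
    have ht : Q.Val A (jrEval A y s.divX) :=
      Q.mem_valRing.mp (hpoly (mem_jrPoly.mpr ⟨s.divX, rfl⟩))
    have hs' : Q.Val A (jrEval A y s) := Q.mem_valRing.mp (hpoly (mem_jrPoly.mpr ⟨s, rfl⟩))
    -- the value of `s(y)`
    have hval : Q.ev ⟨jrEval A y s, hs'.1⟩
        = Q.ev ⟨jrEval A y s.divX, ht.1⟩ * Q.ev ⟨y, hy.1⟩ + ((s.coeff 0 : A) : K) := by
      have h1 : (⟨jrEval A y s, hs'.1⟩ : Q.W)
          = ⟨jrEval A y s.divX, ht.1⟩ * ⟨y, hy.1⟩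
            + ⟨algebraMap K F ((s.coeff 0 : A) : K), Q.mem _⟩ := Subtype.ext hdec
      rw [h1, map_add, map_mul, Q.ev_algebraMap]
    have hm : Q.ev ⟨jrEval A y s.divX, ht.1⟩ * Q.ev ⟨y, hy.1⟩ ∈ A.nonunits :=
      jr_nonunits_mul_mem A ht.2 hy0
    have hv1 : A.valuation ((s.coeff 0 : A) : K) = 1 := (A.valuation_eq_one_iff _).mp hs
    have hv : A.valuation (Q.ev ⟨jrEval A y s, hs'.1⟩) = 1 := by
      rw [hval, ← hv1]
      refine Valuation.map_add_eq_of_lt_right _ ?_
      rw [hv1]
      exact (ValuationSubring.mem_nonunits_iff A).mp hm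
    refine Q.val_inv hs' ?_ ?_
    · intro h0
      rw [h0, map_zero] at hv
      exact zero_ne_one hv
    · rw [← A.valuation_le_one_iff, map_inv₀, hv, inv_one]

end Reg

section Main

variable {K : Type*} [Field K] (A : ValuationSubring K) {F : Type*} [Field F] [Algebra K F]
  (j : F) (P : Place K F) (hbij : Function.Bijective (algebraMap K P.ResidueField))

include hbij in
/-- Outside the region `Y`, the function `j⁻¹` has a value in `𝔪_A`. -/
theorem jr_regZ (hP : ¬ jrRegY A j P) :
    ∃ b : A, (b : K) ∈ A.nonunits ∧ RdmVal P j⁻¹ (b : K) := by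
  by_cases hj : j ∈ P.toValuationSubring
  · -- `j` is regular at `P` with value `c ∉ A`
    set c : K := (jrPt P hbij).ev ⟨j, hj⟩ with hc
    have hjc : RdmVal P j c := (jrPt_val_iff P hbij j c).mpr ⟨hj, rfl⟩
    have hcA : c ∉ A := fun h => hP ⟨⟨c, h⟩, hjc⟩
    have hc0 : c ≠ 0 := fun h => hcA (h ▸ A.zero_mem)
    have hinv : c⁻¹ ∈ A := (A.mem_or_inv_mem c).resolve_left hcA
    refine ⟨⟨c⁻¹, hinv⟩, ?_, e0HasVal_inv P hjc hc0⟩
    rw [jr_mem_nonunits_iff]
    right
    rw [inv_inv]
    exact hcA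
  · -- `j` has a pole at `P`
    refine ⟨0, ?_, ?_⟩
    · rw [ValuationSubring.mem_nonunits_iff]
      simp
    · have h1 : j⁻¹ ∈ P.toValuationSubring.nonunits := by
        rw [jr_mem_nonunits_iff]
        right
        rw [inv_inv]
        exact hj
      rw [jr_val_iff_nonunits]
      simpa using h1

/-- Conversely (for `j ≠ 0`): if `j⁻¹` has a value in `𝔪_A` at `P`, then `P` is not in the
region `Y`. -/
theorem jr_not_regY (hj : j ≠ 0) (b : A) (hb : (b : K) ∈ A.nonunits)
    (hP : RdmVal P j⁻¹ (b : K)) : ¬ jrRegY A j P := by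
  rintro ⟨a, ha⟩
  have h1 : RdmVal P (j * j⁻¹) ((a : K) * (b : K)) := e0HasVal_mul P ha hP
  rw [mul_inv_cancel₀ hj] at h1
  have h2 : RdmVal P (1 : F) (1 : K) := by
    have := e0HasVal_const (F := F) P (1 : K)
    rwa [map_one] at this
  have h3 : (a : K) * (b : K) = 1 := jr_val_unique P h1 h2
  have h4 : (a : K) * (b : K) ∈ A.nonunits := jr_nonunits_mul_mem A a.2 hb
  rw [h3, ValuationSubring.mem_nonunits_iff, map_one] at h4
  exact lt_irrefl _ h4

include hbij in
theorem jr_regZ_iff (hj : j ≠ 0) :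
    ¬ jrRegY A j P ↔ ∃ b : A, (b : K) ∈ A.nonunits ∧ RdmVal P j⁻¹ (b : K) :=
  ⟨jr_regZ A j P hbij, fun ⟨b, hb, h⟩ => jr_not_regY A j P hj b hb h⟩

/-- In the region `Y`, the elements of `jrOY` have `A`-values. -/
theorem jr_reg_Y (hP : jrRegY A j P) : (jrPt P hbij).Reg A (jrOY A j) :=
  jr_reg_integralClosure (jrPt P hbij) A (jrPoly A j)
    (jr_reg_poly A (jrPt P hbij) j ((jrPt_Val_iff P hbij A j).mpr hP))

/-- In the region `Z`, the elements of `jrOZ` have `A`-values. -/
theorem jr_reg_Z (hP : ¬ jrRegY A j P) : (jrPt P hbij).Reg A (jrOZ A j) := by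
  obtain ⟨b, hb, hval⟩ := jr_regZ A j P hbij hP
  obtain ⟨h, he⟩ := (jrPt_val_iff P hbij j⁻¹ _).mp hval
  have hy : (jrPt P hbij).Val A j⁻¹ := ⟨h, by rw [he]; exact b.2⟩
  exact jr_reg_integralClosure (jrPt P hbij) A (jrLam A j⁻¹)
    (jr_reg_lam A (jrPt P hbij) j⁻¹ hy (by rw [he]; exact hb))

/-- The elements of the J-ring of the region of `P` have `A`-values at `P`. -/
theorem jr_reg : (jrPt P hbij).Reg A (jrRing A j P) := by
  by_cases hP : jrRegY A j P
  · rw [jrRing_of_regY hP]
    exact jr_reg_Y A j P hbij hP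
  · rw [jrRing_of_not_regY hP]
    exact jr_reg_Z A j P hbij hP

include hbij in
theorem jr_exists_val_Y (hP : jrRegY A j P) {x : F} (hx : x ∈ jrOY A j) :
    ∃ a : A, RdmVal P x (a : K) :=
  (jrPt_Val_iff P hbij A x).mp (jr_reg_Y A j P hbij hP x hx)

include hbij in
theorem jr_exists_val_Z (hP : ¬ jrRegY A j P) {x : F} (hx : x ∈ jrOZ A j) :
    ∃ a : A, RdmVal P x (a : K) :=
  (jrPt_Val_iff P hbij A x).mp (jr_reg_Z A j P hbij hP x hx)

include hbij in
theorem jr_exists_val {x : F} (hx : x ∈ jrRing A j P) : ∃ a : A, RdmVal P x (a : K) :=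
  (jrPt_Val_iff P hbij A x).mp (jr_reg A j P hbij x hx)

/-- The character `x ↦ res (x(P))` of `jrOY`, for `P` in the region `Y`. -/
def jrChiY (hP : jrRegY A j P) : jrOY A j →+* IsLocalRing.ResidueField A :=
  (jrPt P hbij).chi A (jrOY A j) (jr_reg_Y A j P hbij hP)

/-- The character `x ↦ res (x(P))` of `jrOZ`, for `P` in the region `Z`. -/
def jrChiZ (hP : ¬ jrRegY A j P) : jrOZ A j →+* IsLocalRing.ResidueField A :=
  (jrPt P hbij).chi A (jrOZ A j) (jr_reg_Z A j P hbij hP)

/-- The character `x ↦ res (x(P))` of the J-ring of the region of `P`. -/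
def jrChi : jrRing A j P →+* IsLocalRing.ResidueField A :=
  (jrPt P hbij).chi A (jrRing A j P) (jr_reg A j P hbij)

theorem jr_chi_spec (O : Subring F) (h : (jrPt P hbij).Reg A O) (x : O) :
    ∃ c : A, RdmVal P (x : F) (c : K) ∧
      (jrPt P hbij).chi A O h x = IsLocalRing.residue A c :=
  ⟨⟨_, (h x x.2).2⟩, (jrPt_val_iff P hbij x _).mpr ⟨(h x x.2).1, rfl⟩, rfl⟩

theorem jrChiY_spec (hP : jrRegY A j P) (x : jrOY A j) :
    ∃ c : A, RdmVal P (x : F) (c : K) ∧ jrChiY A j P hbij hP x = IsLocalRing.residue A c :=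
  jr_chi_spec A P hbij _ _ x

theorem jrChiZ_spec (hP : ¬ jrRegY A j P) (x : jrOZ A j) :
    ∃ c : A, RdmVal P (x : F) (c : K) ∧ jrChiZ A j P hbij hP x = IsLocalRing.residue A c :=
  jr_chi_spec A P hbij _ _ x

theorem jrChi_spec (x : jrRing A j P) :
    ∃ c : A, RdmVal P (x : F) (c : K) ∧ jrChi A j P hbij x = IsLocalRing.residue A c :=
  jr_chi_spec A P hbij _ _ x

theorem jrChiY_eq (hP : jrRegY A j P) (x : jrOY A j) (c : A) (hc : RdmVal P (x : F) (c : K)) :
    jrChiY A j P hbij hP x = IsLocalRing.residue A c := by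
  obtain ⟨c', hc', h⟩ := jrChiY_spec A j P hbij hP x
  rw [h]
  congr 1
  exact Subtype.ext (jr_val_unique P hc' hc)

theorem jrChiZ_eq (hP : ¬ jrRegY A j P) (x : jrOZ A j) (c : A)
    (hc : RdmVal P (x : F) (c : K)) :
    jrChiZ A j P hbij hP x = IsLocalRing.residue A c := by
  obtain ⟨c', hc', h⟩ := jrChiZ_spec A j P hbij hP x
  rw [h]
  congr 1
  exact Subtype.ext (jr_val_unique P hc' hc)

theorem jrChi_eq (x : jrRing A j P) (c : A) (hc : RdmVal P (x : F) (c : K)) :
    jrChi A j P hbij x = IsLocalRing.residue A c := by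
  obtain ⟨c', hc', h⟩ := jrChi_spec A j P hbij x
  rw [h]
  congr 1
  exact Subtype.ext (jr_val_unique P hc' hc)

theorem jrChiY_const (hP : jrRegY A j P) (a : A) :
    jrChiY A j P hbij hP ⟨algebraMap K F (a : K), jr_const_mem_jrOY j a⟩
      = IsLocalRing.residue A a :=
  jrChiY_eq A j P hbij hP _ a (e0HasVal_const P _)

theorem jrChiZ_const (hP : ¬ jrRegY A j P) (a : A) :
    jrChiZ A j P hbij hP ⟨algebraMap K F (a : K), jr_const_mem_jrOZ j a⟩
      = IsLocalRing.residue A a :=
  jrChiZ_eq A j P hbij hP _ a (e0HasVal_const P _)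

theorem jrChi_const (a : A) :
    jrChi A j P hbij ⟨algebraMap K F (a : K), jr_const_mem_jrRing j P a⟩
      = IsLocalRing.residue A a :=
  jrChi_eq A j P hbij _ a (e0HasVal_const P _)

theorem jrChiY_surjective (hP : jrRegY A j P) :
    Function.Surjective (jrChiY A j P hbij hP) := fun r => by
  obtain ⟨a, rfl⟩ := IsLocalRing.residue_surjective r
  exact ⟨_, jrChiY_const A j P hbij hP a⟩

theorem jrChiZ_surjective (hP : ¬ jrRegY A j P) :
    Function.Surjective (jrChiZ A j P hbij hP) := fun r => by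
  obtain ⟨a, rfl⟩ := IsLocalRing.residue_surjective r
  exact ⟨_, jrChiZ_const A j P hbij hP a⟩

/-- The class of a place of the region `Y` is the class of its character. -/
theorem jrCls_eq_Y (hP : jrRegY A j P) :
    jrCls A j P = jrClsOf A True (jrOY A j) (jrChiY A j P hbij hP) :=
  jrCls_eq_clsOf_Y hP _ (jrChiY_spec A j P hbij hP)

/-- The class of a place of the region `Z` is the class of its character. -/
theorem jrCls_eq_Z (hP : ¬ jrRegY A j P) :
    jrCls A j P = jrClsOf A False (jrOZ A j) (jrChiZ A j P hbij hP) :=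
  jrCls_eq_clsOf_Z hP _ (jrChiZ_spec A j P hbij hP)

/-- Two places of the region `Y` with the same character have the same class. -/
theorem jrCls_eq_of_chiY {P' : Place K F}
    (hbij' : Function.Bijective (algebraMap K P'.ResidueField))
    (hP : jrRegY A j P) (hP' : jrRegY A j P')
    (h : jrChiY A j P hbij hP = jrChiY A j P' hbij' hP') : jrCls A j P = jrCls A j P' := by
  rw [jrCls_eq_Y A j P hbij hP, jrCls_eq_Y A j P' hbij' hP', h]

/-- Two places of the region `Z` with the same character have the same class. -/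
theorem jrCls_eq_of_chiZ {P' : Place K F}
    (hbij' : Function.Bijective (algebraMap K P'.ResidueField))
    (hP : ¬ jrRegY A j P) (hP' : ¬ jrRegY A j P')
    (h : jrChiZ A j P hbij hP = jrChiZ A j P' hbij' hP') : jrCls A j P = jrCls A j P' := by
  rw [jrCls_eq_Z A j P hbij hP, jrCls_eq_Z A j P' hbij' hP', h]

/-- **(INT), pointwise form.** Under the integrality property of a ring of functions `O` with
`A`-values at `P` with respect to the Gauss ring `VG`: the value at `P` of an element of
`O ∩ 𝔪_VG` lies in `𝔪_A`. -/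
theorem jr_int_of_reg (O : Subring F) (h : (jrPt P hbij).Reg A O) (VG : ValuationSubring F)
    (hint : JrInt A VG O) {x : F} (hx : x ∈ O) (hx0 : x ∈ VG.nonunits) (a : A)
    (ha : RdmVal P x (a : K)) : IsLocalRing.residue A a = 0 := by
  have h0 := jr_chi_eq_zero (jrPt P hbij) A O h VG hint ⟨x, hx⟩ hx0
  obtain ⟨c, hc, hχ⟩ := jr_chi_spec A P hbij O h ⟨x, hx⟩
  have hca : c = a := Subtype.ext (jr_val_unique P hc ha)
  rw [← hca, ← hχ, h0]

include hbij in
theorem jr_int_Y (hP : jrRegY A j P) (VG : ValuationSubring F) (hint : JrInt A VG (jrOY A j))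
    {x : F} (hx : x ∈ jrOY A j) (hx0 : x ∈ VG.nonunits) (a : A) (ha : RdmVal P x (a : K)) :
    IsLocalRing.residue A a = 0 :=
  jr_int_of_reg A P hbij _ (jr_reg_Y A j P hbij hP) VG hint hx hx0 a ha

include hbij in
theorem jr_int_Z (hP : ¬ jrRegY A j P) (VG : ValuationSubring F)
    (hint : JrInt A VG (jrOZ A j))
    {x : F} (hx : x ∈ jrOZ A j) (hx0 : x ∈ VG.nonunits) (a : A) (ha : RdmVal P x (a : K)) :
    IsLocalRing.residue A a = 0 :=
  jr_int_of_reg A P hbij _ (jr_reg_Z A j P hbij hP) VG hint hx hx0 a ha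

include hbij in
/-- **(INT)** for the J-ring of the region of `P`. -/
theorem jr_int (VG : ValuationSubring F) (hintY : JrInt A VG (jrOY A j))
    (hintZ : JrInt A VG (jrOZ A j)) {x : F} (hx : x ∈ jrRing A j P) (hx0 : x ∈ VG.nonunits)
    (a : A) (ha : RdmVal P x (a : K)) : IsLocalRing.residue A a = 0 := by
  by_cases hP : jrRegY A j P
  · rw [jrRing_of_regY hP] at hx
    exact jr_int_Y A j P hbij hP VG hintY hx hx0 a ha
  · rw [jrRing_of_not_regY hP] at hx
    exact jr_int_Z A j P hbij hP VG hintZ hx hx0 a ha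

end Main

end Fermat.Agent.S37
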