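import Mathlib
import Fermat.Agent.S37.JRingInst
import Fermat.Agent.S37.HeckeIn

/-!
# S37, J-rings (finding 136), package JR-INST: the level-`N` instances

`K = ℚ̄`, `F = modularFunctionFieldBar N`, `j = jBar N`; every place has residue field `ℚ̄`
(`hki_residue`), so the generic statements of `JRingInst` hold for all places.
-/

set_option autoImplicit false

noncomputable section

open AlgebraicCurve ModularCurve

namespace Fermat.Agent.S37

open Fermat.Agent.S24

variable (N : ℕ) [NeZero N] (A : ValuationSubring (AlgebraicClosure ℚ))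

theorem jrn_jBar_ne_zero : jBar N ≠ 0 := fun h =>
  (transcendental_jBar' N) (h ▸ isAlgebraic_zero)

/-- **(VAL)**: the elements of the J-ring of the region of `P` have values in `A` at `P`. -/
theorem jrn_exists_val (P : Place (AlgebraicClosure ℚ) (modularFunctionFieldBar N))
    {x : ↥(modularFunctionFieldBar N)} (hx : x ∈ jrRing A (jBar N) P) :
    ∃ a : A, RdmVal P x (a : AlgebraicClosure ℚ) :=
  jr_exists_val A (jBar N) P (hki_residue N P) hx

theorem jrn_exists_val_Y (P : Place (AlgebraicClosure ℚ) (modularFunctionFieldBar N))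
    (hP : jrRegY A (jBar N) P) {x : ↥(modularFunctionFieldBar N)} (hx : x ∈ jrOY A (jBar N)) :
    ∃ a : A, RdmVal P x (a : AlgebraicClosure ℚ) :=
  jr_exists_val_Y A (jBar N) P (hki_residue N P) hP hx

theorem jrn_exists_val_Z (P : Place (AlgebraicClosure ℚ) (modularFunctionFieldBar N))
    (hP : ¬ jrRegY A (jBar N) P) {x : ↥(modularFunctionFieldBar N)}
    (hx : x ∈ jrOZ A (jBar N)) :
    ∃ a : A, RdmVal P x (a : AlgebraicClosure ℚ) :=
  jr_exists_val_Z A (jBar N) P (hki_residue N P) hP hx

/-- The region `Z` (the complement of the region `Y`): `j⁻¹` has a value in `𝔪_A`. -/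
theorem jrn_regZ_iff (P : Place (AlgebraicClosure ℚ) (modularFunctionFieldBar N)) :
    ¬ jrRegY A (jBar N) P ↔
      ∃ b : A, (b : AlgebraicClosure ℚ) ∈ A.nonunits ∧
        RdmVal P (jBar N)⁻¹ (b : AlgebraicClosure ℚ) :=
  jr_regZ_iff A (jBar N) P (hki_residue N P) (jrn_jBar_ne_zero N)

/-- How to prove an equality of classes at level `N`. -/
theorem jrn_cls_eq_of_forall (P P' : Place (AlgebraicClosure ℚ) (modularFunctionFieldBar N))
    (hreg : jrRegY A (jBar N) P ↔ jrRegY A (jBar N) P')
    (h : ∀ x ∈ jrRing A (jBar N) P, ∀ a a' : A, RdmVal P x (a : AlgebraicClosure ℚ) →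
      RdmVal P' x (a' : AlgebraicClosure ℚ) →
        IsLocalRing.residue A a = IsLocalRing.residue A a') :
    jrCls A (jBar N) P = jrCls A (jBar N) P' :=
  jrCls_eq_of_forall hreg (fun _ hx => jrn_exists_val N A P hx)
    (fun _ hx => jrn_exists_val N A P' hx) h

/-- The character of `jrOY` at a place of the region `Y`. -/
def jrnChiY (P : Place (AlgebraicClosure ℚ) (modularFunctionFieldBar N))
    (hP : jrRegY A (jBar N) P) : jrOY A (jBar N) →+* IsLocalRing.ResidueField A :=
  jrChiY A (jBar N) P (hki_residue N P) hP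

/-- The character of `jrOZ` at a place of the region `Z`. -/
def jrnChiZ (P : Place (AlgebraicClosure ℚ) (modularFunctionFieldBar N))
    (hP : ¬ jrRegY A (jBar N) P) : jrOZ A (jBar N) →+* IsLocalRing.ResidueField A :=
  jrChiZ A (jBar N) P (hki_residue N P) hP

theorem jrnChiY_spec (P : Place (AlgebraicClosure ℚ) (modularFunctionFieldBar N))
    (hP : jrRegY A (jBar N) P) (x : jrOY A (jBar N)) :
    ∃ c : A, RdmVal P (x : ↥(modularFunctionFieldBar N)) (c : AlgebraicClosure ℚ) ∧
      jrnChiY N A P hP x = IsLocalRing.residue A c :=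
  jrChiY_spec A (jBar N) P (hki_residue N P) hP x

theorem jrnChiZ_spec (P : Place (AlgebraicClosure ℚ) (modularFunctionFieldBar N))
    (hP : ¬ jrRegY A (jBar N) P) (x : jrOZ A (jBar N)) :
    ∃ c : A, RdmVal P (x : ↥(modularFunctionFieldBar N)) (c : AlgebraicClosure ℚ) ∧
      jrnChiZ N A P hP x = IsLocalRing.residue A c :=
  jrChiZ_spec A (jBar N) P (hki_residue N P) hP x

theorem jrn_cls_eq_Y (P : Place (AlgebraicClosure ℚ) (modularFunctionFieldBar N))
    (hP : jrRegY A (jBar N) P) :
    jrCls A (jBar N) P = jrClsOf A True (jrOY A (jBar N)) (jrnChiY N A P hP) :=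
  jrCls_eq_Y A (jBar N) P (hki_residue N P) hP

theorem jrn_cls_eq_Z (P : Place (AlgebraicClosure ℚ) (modularFunctionFieldBar N))
    (hP : ¬ jrRegY A (jBar N) P) :
    jrCls A (jBar N) P = jrClsOf A False (jrOZ A (jBar N)) (jrnChiZ N A P hP) :=
  jrCls_eq_Z A (jBar N) P (hki_residue N P) hP

/-- **(INT)** at level `N`, pointwise: given the integrality property of the two J-rings with
respect to a Gauss ring `VG`, the value at `P` of a Gauss non-unit of the J-ring of the region
of `P` has residue zero. -/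
theorem jrn_int (VG : ValuationSubring ↥(modularFunctionFieldBar N))
    (hintY : JrInt A VG (jrOY A (jBar N))) (hintZ : JrInt A VG (jrOZ A (jBar N)))
    (P : Place (AlgebraicClosure ℚ) (modularFunctionFieldBar N))
    {x : ↥(modularFunctionFieldBar N)} (hx : x ∈ jrRing A (jBar N) P) (hx0 : x ∈ VG.nonunits)
    (a : A) (ha : RdmVal P x (a : AlgebraicClosure ℚ)) : IsLocalRing.residue A a = 0 :=
  jr_int A (jBar N) P (hki_residue N P) VG hintY hintZ hx hx0 a ha

end Fermat.Agent.S37
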