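import Mathlib
import Fermat.Prelude.Def_ModularCurve_ArithmeticGalois
import Fermat.Prelude.Def_EllipticCurve_FrobeniusTrace
import Fermat.Agent.S18.GaussMain
import Fermat.Agent.S37.RedMapDefs
import Fermat.Agent.S37.Pairing
import Fermat.Agent.S37.JRingDefs
import Fermat.Agent.S37.JRingN

/-!
# S37, package JR-K1 (JR-GAL): the Galois dictionary for the J-ring route

* Part A (`jrg_val_*`): transport of values under semilinear automorphisms,
  `(g x)(g P) = g (x(P))` in the `RdmVal` form.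
* Part B (`jrg_galois_*`): the Prelude Galois action on `Pic0`, divisors and rational functions.
* Part C (`jrg_grV_*`, `jrg_grRho_*`): the Gauss ring is stable under the decomposition group and
  its residue map is equivariant; inertia acts trivially on residues, a Frobenius element acts
  through the coefficientwise Frobenius.
* Part D (`jrg_int_*`, `jrg_closure_*`, `jrg_chi_*`): stability of integral closures, transport of
  characters `χ_P (x) = res (x(P))`, and invariance of the characters under inertia.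
-/

set_option autoImplicit false

noncomputable section

open AlgebraicCurve ModularCurve

namespace Fermat.Agent.S37

open Fermat.Agent.S18

/-! ### A. Values under semilinear automorphisms -/

section Semilinear

variable {K F : Type*} [Field K] [Field F] [Algebra K F]

/-- `(g x)(g P) = g (x(P))`. -/
theorem jrg_val_smul (g : SemilinearAut K F) (P : Place K F) (x : F) (c : K)
    (h : RdmVal P x c) : RdmVal (g • P) (g • x) (SemilinearAut.baseAut g c) := by
  rcases h with h | h
  · left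
    rw [h, SemilinearAut.smul_algebraMap]
  · right
    rw [← SemilinearAut.smul_algebraMap, ← smul_sub, SemilinearAut.ord_smul]
    exact h

theorem jrg_val_smul_iff (g : SemilinearAut K F) (P : Place K F) (x : F) (c : K) :
    RdmVal (g • P) (g • x) (SemilinearAut.baseAut g c) ↔ RdmVal P x c := by
  refine ⟨fun h => ?_, jrg_val_smul g P x c⟩
  have h' := jrg_val_smul g⁻¹ (g • P) (g • x) _ h
  rwa [inv_smul_smul, inv_smul_smul, SemilinearAut.baseAut_inv, RingEquiv.symm_apply_apply] at h'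

/-- `x(g P) = g ((g⁻¹ x)(P))`. -/
theorem jrg_val_smul_place (g : SemilinearAut K F) (P : Place K F) (x : F) (c : K) :
    RdmVal (g • P) x c ↔ RdmVal P (g⁻¹ • x) ((SemilinearAut.baseAut g).symm c) := by
  rw [← jrg_val_smul_iff g P (g⁻¹ • x) ((SemilinearAut.baseAut g).symm c), smul_inv_smul,
    RingEquiv.apply_symm_apply]

theorem jrg_val_sub (P : Place K F) {x y : F} {c d : K} (hx : RdmVal P x c) (hy : RdmVal P y d) :
    RdmVal P (x - y) (c - d) :=
  e0HasVal_sub P hx hy

theorem jrg_val_unique (P : Place K F) {x : F} {c d : K} (hc : RdmVal P x c) (hd : RdmVal P x d) :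
    c = d :=
  e0HasVal_unique P hc hd

end Semilinear

/-! ### B. The Prelude Galois action -/

section Galois

variable {L : Type*} [Field L] [Algebra ℚ L] (F₀ : IntermediateField ℚ (LaurentSeries ℚ))

/-- `σ • [D] = [σ D]`. -/
theorem jrg_galois_smul_mk (σ : L ≃ₐ[ℚ] L)
    (D : Divisor.degZero (K := L) (F := laurentBaseChange L F₀)) :
    σ • (Pic0.mk D : Pic0 L (laurentBaseChange L F₀))
      = Pic0.mk (SemilinearAut.degZeroSMulHom (arithmeticGalois F₀ σ) D) :=
  rfl

theorem jrg_galois_coe_smul (σ : L ≃ₐ[ℚ] L) (x : laurentBaseChange L F₀) :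
    ((arithmeticGalois F₀ σ • x : laurentBaseChange L F₀) : LaurentSeries L)
      = coeffMap (σ : L →+* L) (x : LaurentSeries L) :=
  rfl

theorem jrg_galois_coe_inv_smul (σ : L ≃ₐ[ℚ] L) (x : laurentBaseChange L F₀) :
    (((arithmeticGalois F₀ σ)⁻¹ • x : laurentBaseChange L F₀) : LaurentSeries L)
      = coeffMap (σ.symm : L →+* L) (x : LaurentSeries L) := by
  rw [← map_inv]
  rfl

theorem jrg_galois_baseAut (σ : L ≃ₐ[ℚ] L) (c : L) :
    SemilinearAut.baseAut (arithmeticGalois F₀ σ) c = σ c :=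
  rfl

theorem jrg_galois_baseAut_symm (σ : L ≃ₐ[ℚ] L) (c : L) :
    (SemilinearAut.baseAut (arithmeticGalois F₀ σ)).symm c = σ.symm c :=
  rfl

/-- functions with rational coefficients are fixed by the Galois action -/
theorem jrg_galois_smul_coeffEmb (σ : L ≃ₐ[ℚ] L) (x₀ : LaurentSeries ℚ)
    (h : coeffEmb L x₀ ∈ laurentBaseChange L F₀) :
    arithmeticGalois F₀ σ • (⟨coeffEmb L x₀, h⟩ : laurentBaseChange L F₀) = ⟨coeffEmb L x₀, h⟩ :=
  Subtype.ext (coeffMap_coeffEmb σ x₀)

/-- `(σ x)(σ P) = σ (x(P))` for the Prelude Galois action. -/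
theorem jrg_galois_val (σ : L ≃ₐ[ℚ] L) (P : Place L (laurentBaseChange L F₀))
    (x : laurentBaseChange L F₀) (c : L) (h : RdmVal P x c) :
    RdmVal (arithmeticGalois F₀ σ • P) (arithmeticGalois F₀ σ • x) (σ c) :=
  jrg_val_smul (arithmeticGalois F₀ σ) P x c h

/-- `x(σ P) = σ ((σ⁻¹ x)(P))` for the Prelude Galois action. -/
theorem jrg_galois_val_place (σ : L ≃ₐ[ℚ] L) (P : Place L (laurentBaseChange L F₀))
    (x : laurentBaseChange L F₀) (c : L) :
    RdmVal (arithmeticGalois F₀ σ • P) x c ↔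
      RdmVal P ((arithmeticGalois F₀ σ)⁻¹ • x) (σ.symm c) :=
  jrg_val_smul_place (arithmeticGalois F₀ σ) P x c

/-- the divisor `σ D` pushed forward along a map `c` -/
theorem jrg_mapDomain_smul {C : Type*} (g : SemilinearAut L (laurentBaseChange L F₀))
    (c : Place L (laurentBaseChange L F₀) → C) (D : Divisor L (laurentBaseChange L F₀)) :
    Finsupp.mapDomain c (g • D) = Finsupp.mapDomain (fun P => c (g • P)) D := by
  rw [SemilinearAut.divisor_smul_def, ← Finsupp.mapDomain_comp]
  rfl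

end Galois

/-! ### C. The Gauss ring and the decomposition group -/

section Gauss

theorem jrg_coeffMap_injective {R S : Type*} [CommRing R] [CommRing S] (f : R →+* S)
    (hf : Function.Injective f) : Function.Injective (coeffMap f) := by
  intro x y h
  ext n
  apply hf
  have := congrArg (fun z => HahnSeries.coeff z n) h
  simpa using this

variable (K : Type*) {L : Type*} [Field K] [Field L] [Algebra K L] (A : ValuationSubring L)

/-- the automorphism of `A` induced by an element of the decomposition group -/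
def jrgAutA (s : A.decompositionSubgroup K) : A →+* A :=
  MulSemiringAction.toRingHom (A.decompositionSubgroup K) A s

/-- the automorphism of the residue field induced by an element of the decomposition group -/
def jrgAutRes (s : A.decompositionSubgroup K) :
    IsLocalRing.ResidueField A →+* IsLocalRing.ResidueField A :=
  MulSemiringAction.toRingHom (A.decompositionSubgroup K) (IsLocalRing.ResidueField A) s

theorem jrgAutA_coe (s : A.decompositionSubgroup K) (a : A) :
    ((jrgAutA K A s a : A) : L) = (s : L ≃ₐ[K] L) (a : L) :=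
  rfl

theorem jrgAutRes_apply (s : A.decompositionSubgroup K) (x : IsLocalRing.ResidueField A) :
    jrgAutRes K A s x = s • x :=
  rfl

theorem jrgAutRes_residue (s : A.decompositionSubgroup K) (a : A) :
    jrgAutRes K A s (IsLocalRing.residue A a) = IsLocalRing.residue A (jrgAutA K A s a) :=
  rfl

theorem jrg_mem_of_mem_decomp (s : A.decompositionSubgroup K) {a : L} (ha : a ∈ A) :
    (s : L ≃ₐ[K] L) a ∈ A :=
  (jrgAutA K A s ⟨a, ha⟩).2

theorem jrg_coeffMap_subtype (s : A.decompositionSubgroup K) (a : LaurentSeries A) :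
    coeffMap ((s : L ≃ₐ[K] L) : L →+* L) (coeffMap A.subtype a)
      = coeffMap A.subtype (coeffMap (jrgAutA K A s) a) := by
  rw [coeffMap_coeffMap, coeffMap_coeffMap]
  exact coeffMap_congr (RingHom.ext fun _ => rfl) a

theorem jrg_coeffMap_residue (s : A.decompositionSubgroup K) (a : LaurentSeries A) :
    coeffMap (IsLocalRing.residue A) (coeffMap (jrgAutA K A s) a)
      = coeffMap (jrgAutRes K A s) (coeffMap (IsLocalRing.residue A) a) := by
  rw [coeffMap_coeffMap, coeffMap_coeffMap]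
  exact coeffMap_congr (RingHom.ext fun _ => rfl) a

/-- The Gauss ring is stable under the decomposition group. -/
theorem jrg_grV_coeffMap (s : A.decompositionSubgroup K) {x : LaurentSeries L}
    (hx : x ∈ grV A) :
    coeffMap ((s : L ≃ₐ[K] L) : L →+* L) x ∈ grV A := by
  obtain ⟨a, b, hb, h⟩ := hx
  refine ⟨coeffMap (jrgAutA K A s) a, coeffMap (jrgAutA K A s) b, ?_, ?_⟩
  · rw [jrg_coeffMap_residue]
    intro h0
    exact hb (jrg_coeffMap_injective _ (jrgAutRes K A s).injective (by rw [h0, map_zero]))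
  · rw [← jrg_coeffMap_subtype, ← jrg_coeffMap_subtype, ← h, map_mul]

/-- **Equivariance of the Gauss residue map** under the decomposition group. -/
theorem jrg_grRho_coeffMap (s : A.decompositionSubgroup K) (x : grV A) :
    grRho A ⟨coeffMap ((s : L ≃ₐ[K] L) : L →+* L) (x : LaurentSeries L),
        jrg_grV_coeffMap K A s x.2⟩
      = coeffMap (jrgAutRes K A s) (grRho A x) := by
  obtain ⟨a, b, hb, h⟩ := x.2
  have hb' : coeffMap (IsLocalRing.residue A) (coeffMap (jrgAutA K A s) b) ≠ 0 := by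
    rw [jrg_coeffMap_residue]
    intro h0
    exact hb (jrg_coeffMap_injective _ (jrgAutRes K A s).injective (by rw [h0, map_zero]))
  have h' : coeffMap ((s : L ≃ₐ[K] L) : L →+* L) (x : LaurentSeries L)
      * coeffMap A.subtype (coeffMap (jrgAutA K A s) b)
      = coeffMap A.subtype (coeffMap (jrgAutA K A s) a) := by
    rw [← jrg_coeffMap_subtype, ← jrg_coeffMap_subtype, ← h, map_mul]
  have h1 := grRho_spec A ⟨_, jrg_grV_coeffMap K A s x.2⟩ _ _ hb' h'
  have h2 := congrArg (coeffMap (jrgAutRes K A s)) (grRho_spec A x a b hb h)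
  rw [map_mul, ← jrg_coeffMap_residue, ← jrg_coeffMap_residue] at h2
  exact mul_right_cancel₀ hb' (h1.trans h2.symm)

/-- elements of the inertia group come from the decomposition group and act trivially on the
residue field -/
theorem jrg_inertia_exists {σ : L ≃ₐ[K] L} (hσ : σ ∈ A.inertiaSubgroupIn K) :
    ∃ s : A.decompositionSubgroup K, (s : L ≃ₐ[K] L) = σ ∧
      ∀ x : IsLocalRing.ResidueField A, s • x = x := by
  obtain ⟨s, hs, rfl⟩ := hσ
  refine ⟨s, rfl, fun x => ?_⟩
  have h1 : MulSemiringAction.toRingAut (A.decompositionSubgroup K)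
      (IsLocalRing.ResidueField A) s = 1 := hs
  exact congrArg (fun f : RingAut (IsLocalRing.ResidueField A) => f x) h1

theorem jrg_inertia_mem_decomp {σ : L ≃ₐ[K] L} (hσ : σ ∈ A.inertiaSubgroupIn K) :
    σ ∈ A.decompositionSubgroup K := by
  obtain ⟨s, rfl, -⟩ := jrg_inertia_exists K A hσ
  exact s.2

/-- inertia acts trivially on residues of elements of `A` -/
theorem jrg_inertia_residue {σ : L ≃ₐ[K] L} (hσ : σ ∈ A.inertiaSubgroupIn K) (a : A) :
    ∃ h : σ (a : L) ∈ A, IsLocalRing.residue A ⟨σ (a : L), h⟩ = IsLocalRing.residue A a := by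
  obtain ⟨s, rfl, hs⟩ := jrg_inertia_exists K A hσ
  exact ⟨jrg_mem_of_mem_decomp K A s a.2, hs (IsLocalRing.residue A a)⟩

/-- a Frobenius element acts as the `ℓ`-th power on residues of elements of `A` -/
theorem jrg_frobenius_residue {σ : L ≃ₐ[K] L} {ℓ : ℕ} (hσ : A.IsFrobeniusAt σ ℓ) (a : A) :
    ∃ h : σ (a : L) ∈ A,
      IsLocalRing.residue A ⟨σ (a : L), h⟩ = IsLocalRing.residue A a ^ ℓ :=
  ⟨jrg_mem_of_mem_decomp K A ⟨σ, hσ.mem_decompositionSubgroup⟩ a.2,
    hσ.smul_residue_eq (IsLocalRing.residue A a)⟩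

/-- **Inertia acts trivially on Gauss residues.** -/
theorem jrg_grRho_inertia {σ : L ≃ₐ[K] L} (hσ : σ ∈ A.inertiaSubgroupIn K) (x : grV A) :
    ∃ h : coeffMap (σ : L →+* L) (x : LaurentSeries L) ∈ grV A,
      grRho A ⟨_, h⟩ = grRho A x := by
  obtain ⟨s, rfl, hs⟩ := jrg_inertia_exists K A hσ
  refine ⟨jrg_grV_coeffMap K A s x.2, ?_⟩
  rw [jrg_grRho_coeffMap]
  have h1 : jrgAutRes K A s = RingHom.id _ := RingHom.ext fun y => hs y
  rw [h1, coeffMap_id]

/-- **A Frobenius element acts on Gauss residues through the coefficientwise `ℓ`-th power.** -/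
theorem jrg_grRho_frobenius_coeff {σ : L ≃ₐ[K] L} {ℓ : ℕ} (hσ : A.IsFrobeniusAt σ ℓ)
    (x : grV A) :
    ∃ h : coeffMap (σ : L →+* L) (x : LaurentSeries L) ∈ grV A,
      ∀ n : ℤ, (grRho A ⟨_, h⟩).coeff n = (grRho A x).coeff n ^ ℓ := by
  refine ⟨jrg_grV_coeffMap K A ⟨σ, hσ.mem_decompositionSubgroup⟩ x.2, fun n => ?_⟩
  have h1 := jrg_grRho_coeffMap K A ⟨σ, hσ.mem_decompositionSubgroup⟩ x
  have h2 := congrArg (fun z => HahnSeries.coeff z n) h1
  simp only [coeffMap_coeff] at h2
  exact h2.trans (hσ.smul_residue_eq _)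

theorem jrg_grRho_frobenius {σ : L ≃ₐ[K] L} (ℓ : ℕ) [Fact ℓ.Prime]
    [CharP (IsLocalRing.ResidueField A) ℓ] (hσ : A.IsFrobeniusAt σ ℓ) (x : grV A) :
    ∃ h : coeffMap (σ : L →+* L) (x : LaurentSeries L) ∈ grV A,
      grRho A ⟨_, h⟩ = coeffMap (frobenius (IsLocalRing.ResidueField A) ℓ) (grRho A x) := by
  obtain ⟨h, hc⟩ := jrg_grRho_frobenius_coeff K A hσ x
  refine ⟨h, ?_⟩
  ext n
  rw [hc n, coeffMap_coeff, frobenius_def]

end Gauss

/-! ### C'. The Gauss valuation ring of the function field -/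

section FieldLevel

variable {L : Type*} [Field L] [Algebra ℚ L] (A : ValuationSubring L) {ℓ : ℕ} [Fact ℓ.Prime]
  (hA : A.LiesOverPrime ℓ) (M : ℕ) [NeZero M] (hℓM : ¬ ℓ ∣ M)

/-- the Gauss valuation ring of the function field is stable under the decomposition group -/
theorem jrg_grO_smul (s : A.decompositionSubgroup ℚ)
    {x : ↥(laurentBaseChange L (modularFunctionFieldFull M))} (hx : x ∈ grO A hA M hℓM) :
    arithmeticGalois (modularFunctionFieldFull M) (s : L ≃ₐ[ℚ] L) • x ∈ grO A hA M hℓM :=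
  jrg_grV_coeffMap ℚ A s hx

/-- equivariance of the residue map of the Gauss valuation ring -/
theorem jrg_grRes_smul (s : A.decompositionSubgroup ℚ) (x : ↥(grO A hA M hℓM)) :
    grRes A hA M hℓM ⟨arithmeticGalois (modularFunctionFieldFull M) (s : L ≃ₐ[ℚ] L) •
        (x : ↥(laurentBaseChange L (modularFunctionFieldFull M))),
        jrg_grO_smul A hA M hℓM s x.2⟩
      = coeffMap (jrgAutRes ℚ A s) (grRes A hA M hℓM x) :=
  jrg_grRho_coeffMap ℚ A s ⟨_, x.2⟩

theorem jrg_grO_smul_of_mem {σ : L ≃ₐ[ℚ] L} (hσ : σ ∈ A.decompositionSubgroup ℚ)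
    {x : ↥(laurentBaseChange L (modularFunctionFieldFull M))} (hx : x ∈ grO A hA M hℓM) :
    arithmeticGalois (modularFunctionFieldFull M) σ • x ∈ grO A hA M hℓM :=
  jrg_grO_smul A hA M hℓM ⟨σ, hσ⟩ hx

theorem jrg_grO_inv_smul_of_mem {σ : L ≃ₐ[ℚ] L} (hσ : σ ∈ A.decompositionSubgroup ℚ)
    {x : ↥(laurentBaseChange L (modularFunctionFieldFull M))} (hx : x ∈ grO A hA M hℓM) :
    (arithmeticGalois (modularFunctionFieldFull M) σ)⁻¹ • x ∈ grO A hA M hℓM := by
  rw [← map_inv]
  exact jrg_grO_smul A hA M hℓM ⟨σ⁻¹, (A.decompositionSubgroup ℚ).inv_mem hσ⟩ hx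

/-- the non-units of the Gauss valuation ring are stable under the decomposition group -/
theorem jrg_grO_nonunits_smul {σ : L ≃ₐ[ℚ] L} (hσ : σ ∈ A.decompositionSubgroup ℚ)
    {x : ↥(laurentBaseChange L (modularFunctionFieldFull M))}
    (hx : x ∈ (grO A hA M hℓM).nonunits) :
    arithmeticGalois (modularFunctionFieldFull M) σ • x ∈ (grO A hA M hℓM).nonunits := by
  obtain ⟨h, hρ⟩ := (gr_mem_nonunits_iff A hA M hℓM x).mp hx
  refine (gr_mem_nonunits_iff A hA M hℓM _).mpr ⟨jrg_grV_coeffMap ℚ A ⟨σ, hσ⟩ h, ?_⟩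
  have h1 := jrg_grRho_coeffMap ℚ A ⟨σ, hσ⟩ ⟨_, h⟩
  rw [hρ, map_zero] at h1
  exact h1

/-- **inertia moves elements of the Gauss valuation ring by non-units**: `σ x - x` has residue
zero for `σ` in the inertia group -/
theorem jrg_grO_inertia_sub {σ : L ≃ₐ[ℚ] L} (hσ : σ ∈ A.inertiaSubgroupIn ℚ)
    {x : ↥(laurentBaseChange L (modularFunctionFieldFull M))} (hx : x ∈ grO A hA M hℓM) :
    arithmeticGalois (modularFunctionFieldFull M) σ • x - x ∈ (grO A hA M hℓM).nonunits := by
  obtain ⟨h, hρ⟩ := jrg_grRho_inertia ℚ A hσ ⟨_, hx⟩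
  refine (gr_mem_nonunits_iff A hA M hℓM _).mpr ⟨(grV A).sub_mem h hx, ?_⟩
  have h1 : (⟨((arithmeticGalois (modularFunctionFieldFull M) σ • x - x :
      ↥(laurentBaseChange L (modularFunctionFieldFull M))) : LaurentSeries L),
      (grV A).sub_mem h hx⟩ : grV A)
      = ⟨_, h⟩ - ⟨(x : LaurentSeries L), hx⟩ := rfl
  rw [h1, map_sub, hρ, sub_self]

/-- the same for the inverse: `σ⁻¹ x - x` has residue zero for `σ` in the inertia group -/
theorem jrg_grO_inertia_inv_sub {σ : L ≃ₐ[ℚ] L} (hσ : σ ∈ A.inertiaSubgroupIn ℚ)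
    {x : ↥(laurentBaseChange L (modularFunctionFieldFull M))} (hx : x ∈ grO A hA M hℓM) :
    (arithmeticGalois (modularFunctionFieldFull M) σ)⁻¹ • x - x ∈ (grO A hA M hℓM).nonunits := by
  rw [← map_inv]
  exact jrg_grO_inertia_sub A hA M hℓM ((A.inertiaSubgroupIn ℚ).inv_mem hσ) hx

end FieldLevel

/-! ### D. Integral closures, characters -/

section Integral

/-- integrality is transported by a compatible pair of ring homomorphisms -/
theorem jrg_isIntegralElem_map {R F : Type*} [CommRing R] [CommRing F] (f : R →+* F)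
    (φ : F →+* F) (ψ : R →+* R) (h : ∀ r, φ (f r) = f (ψ r)) {x : F}
    (hx : f.IsIntegralElem x) : f.IsIntegralElem (φ x) := by
  obtain ⟨p, hp, hpx⟩ := hx
  refine ⟨p.map ψ, hp.map ψ, ?_⟩
  have h1 : f.comp ψ = φ.comp f := RingHom.ext fun r => (h r).symm
  rw [Polynomial.eval₂_map, h1, ← Polynomial.hom_eval₂, hpx, map_zero]

/-- the integral closure of a `φ`-stable subring is `φ`-stable -/
theorem jrg_isIntegral_subring_map {F : Type*} [CommRing F] (R : Subring F) (φ : F →+* F)
    (h : ∀ r ∈ R, φ r ∈ R) {x : F} (hx : IsIntegral R x) : IsIntegral R (φ x) :=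
  jrg_isIntegralElem_map (algebraMap R F) φ
    ((φ.comp R.subtype).codRestrict R fun r => h r r.2) (fun _ => rfl) hx

/-- a subring generated by a set which `φ` maps into the subring is `φ`-stable -/
theorem jrg_closure_map {F : Type*} [Ring F] (S : Set F) (φ : F →+* F)
    (h : ∀ s ∈ S, φ s ∈ Subring.closure S) {x : F} (hx : x ∈ Subring.closure S) :
    φ x ∈ Subring.closure S := by
  have h1 : Subring.closure S ≤ (Subring.closure S).comap φ :=
    (Subring.closure_le).mpr fun s hs => h s hs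
  exact h1 hx

end Integral

section Characters

variable {K F : Type*} [Field K] [Field F] [Algebra K F] (A : ValuationSubring K)

/-- **Invariance of characters under inertia** (abstract form).  `g` a semilinear automorphism
whose base automorphism preserves `A` and acts trivially on residues; `O` a `g⁻¹`-stable subring
of functions; `Nn` a set ("Gauss non-units") containing `g⁻¹ x - x` for `x ∈ O`, on which the
values at `P` have residue zero ((INT)).  Then `x(g P)` and `x(P)` have the same residue. -/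
theorem jrg_chi_inertia (g : SemilinearAut K F)
    (hA : ∀ a : K, a ∈ A → (SemilinearAut.baseAut g).symm a ∈ A)
    (hres : ∀ (a : A) (h : (SemilinearAut.baseAut g).symm (a : K) ∈ A),
      IsLocalRing.residue A ⟨_, h⟩ = IsLocalRing.residue A a)
    (O : Subring F) (hO : ∀ x ∈ O, g⁻¹ • x ∈ O) (Nn : Set F)
    (hN : ∀ x ∈ O, g⁻¹ • x - x ∈ Nn) (P : Place K F)
    (hINT : ∀ y ∈ O, y ∈ Nn → ∀ c : A, RdmVal P y (c : K) → IsLocalRing.residue A c = 0)
    (x : F) (hx : x ∈ O) (c c' : A) (hc : RdmVal P x (c : K))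
    (hc' : RdmVal (g • P) x (c' : K)) :
    IsLocalRing.residue A c' = IsLocalRing.residue A c := by
  have h1 := (jrg_val_smul_place g P x (c' : K)).mp hc'
  have hd := hA _ c'.2
  have h2 : RdmVal P (g⁻¹ • x - x) (((⟨_, hd⟩ : A) - c : A) : K) := jrg_val_sub P h1 hc
  have h3 := hINT _ (O.sub_mem (hO x hx) hx) (hN x hx) _ h2
  rw [map_sub, sub_eq_zero] at h3
  rw [← h3, hres c' hd]

end Characters

/-! ### E. J-rings, regions and classes under a semilinear automorphism preserving `A` -/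

section JRing

variable {K : Type*} [Field K] (A : ValuationSubring K) {F : Type*} [Field F] [Algebra K F]

/-- the restriction to `A` of the base automorphism of a semilinear automorphism preserving
`A` -/
def jrgBase (g : SemilinearAut K F) (hg : ∀ a : K, a ∈ A → SemilinearAut.baseAut g a ∈ A) :
    A →+* A :=
  (((SemilinearAut.baseAut g : K ≃+* K) : K →+* K).comp A.subtype).codRestrict A
    (fun a => hg a a.2)

theorem jrgBase_coe (g : SemilinearAut K F)
    (hg : ∀ a : K, a ∈ A → SemilinearAut.baseAut g a ∈ A) (a : A) :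
    ((jrgBase A g hg a : A) : K) = SemilinearAut.baseAut g (a : K) :=
  rfl

theorem jrg_stab_inv (g : SemilinearAut K F)
    (hg : ∀ a : K, a ∈ A ↔ SemilinearAut.baseAut g a ∈ A) (a : K) :
    a ∈ A ↔ SemilinearAut.baseAut g⁻¹ a ∈ A := by
  rw [SemilinearAut.baseAut_inv, hg ((SemilinearAut.baseAut g).symm a),
    RingEquiv.apply_symm_apply]

/-- a semilinear automorphism preserving `A` preserves the units of `A` -/
theorem jrgBase_isUnit (g : SemilinearAut K F)
    (hg : ∀ a : K, a ∈ A ↔ SemilinearAut.baseAut g a ∈ A) (a : A) :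
    IsUnit (jrgBase A g (fun a => (hg a).mp) a) ↔ IsUnit a := by
  constructor
  · intro h
    have h1 := h.map (jrgBase A g⁻¹ (fun a => (jrg_stab_inv A g hg a).mp))
    have h2 : jrgBase A g⁻¹ (fun a => (jrg_stab_inv A g hg a).mp)
        (jrgBase A g (fun a => (hg a).mp) a) = a :=
      Subtype.ext ((SemilinearAut.baseAut g).symm_apply_apply (a : K))
    rwa [h2] at h1
  · intro h
    exact h.map _

/-- a semilinear automorphism preserving `A` preserves equality of residues -/
theorem jrgBase_residue_congr (g : SemilinearAut K F)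
    (hg : ∀ a : K, a ∈ A ↔ SemilinearAut.baseAut g a ∈ A) {a a' : A}
    (h : IsLocalRing.residue A a = IsLocalRing.residue A a') :
    IsLocalRing.residue A (jrgBase A g (fun a => (hg a).mp) a)
      = IsLocalRing.residue A (jrgBase A g (fun a => (hg a).mp) a') := by
  rw [← sub_eq_zero, ← map_sub, IsLocalRing.residue_eq_zero_iff] at h ⊢
  rw [← map_sub]
  rw [IsLocalRing.mem_maximalIdeal, mem_nonunits_iff] at h ⊢
  rwa [jrgBase_isUnit A g hg]

variable {A}

theorem jrg_jrEval_smul (g : SemilinearAut K F)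
    (hg : ∀ a : K, a ∈ A → SemilinearAut.baseAut g a ∈ A) (y : F) (s : Polynomial A) :
    g • jrEval A y s = jrEval A (g • y) (s.map (jrgBase A g hg)) := by
  show (SemilinearAut.toRingAut g : F →+* F) (jrEval A y s) = _
  unfold jrEval
  rw [Polynomial.coe_eval₂RingHom, Polynomial.coe_eval₂RingHom, Polynomial.eval₂_map,
    Polynomial.hom_eval₂]
  congr 1
  ext a
  exact SemilinearAut.commutes g (a : K)

theorem jrg_jrPoly_smul (g : SemilinearAut K F)
    (hg : ∀ a : K, a ∈ A → SemilinearAut.baseAut g a ∈ A) (y : F) {x : F}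
    (hx : x ∈ jrPoly A y) : g • x ∈ jrPoly A (g • y) := by
  obtain ⟨s, rfl⟩ := mem_jrPoly.mp hx
  exact mem_jrPoly.mpr ⟨_, (jrg_jrEval_smul g hg y s).symm⟩

theorem jrg_jrLam_smul (g : SemilinearAut K F)
    (hg : ∀ a : K, a ∈ A ↔ SemilinearAut.baseAut g a ∈ A) (y : F) {x : F}
    (hx : x ∈ jrLam A y) : g • x ∈ jrLam A (g • y) := by
  have h1 : jrLam A y ≤ (jrLam A (g • y)).comap (SemilinearAut.toRingAut g : F →+* F) := by
    refine (Subring.closure_le).mpr ?_
    rintro z (hz | ⟨s, hs, rfl⟩)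
    · exact jrPoly_le_jrLam _ (jrg_jrPoly_smul g (fun a => (hg a).mp) y hz)
    · show (SemilinearAut.toRingAut g) (jrEval A y s)⁻¹ ∈ jrLam A (g • y)
      rw [map_inv₀]
      have h2 : (SemilinearAut.toRingAut g) (jrEval A y s) = g • jrEval A y s := rfl
      rw [h2, jrg_jrEval_smul g (fun a => (hg a).mp) y s]
      refine jr_inv_mem_jrLam _ _ ?_
      rw [Polynomial.coeff_map]
      exact (jrgBase_isUnit A g hg _).mpr hs
  exact h1 hx

/-- integrality over subrings is transported by a ring homomorphism mapping the first subring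
into the second -/
theorem jrg_isIntegral_subring_map₂ {F : Type*} [CommRing F] (R R' : Subring F) (φ : F →+* F)
    (h : ∀ r ∈ R, φ r ∈ R') {x : F} (hx : IsIntegral R x) : IsIntegral R' (φ x) := by
  obtain ⟨p, hp, hpx⟩ := hx
  refine ⟨p.map ((φ.comp R.subtype).codRestrict R' fun r => h r r.2), hp.map _, ?_⟩
  have h1 : (algebraMap R' F).comp ((φ.comp R.subtype).codRestrict R' fun r => h r r.2)
      = φ.comp (algebraMap R F) := RingHom.ext fun r => rfl
  rw [Polynomial.eval₂_map, h1, ← Polynomial.hom_eval₂, hpx, map_zero]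

theorem jrg_jrIC_smul (g : SemilinearAut K F) (R R' : Subring F)
    (h : ∀ r ∈ R, g • r ∈ R') {x : F} (hx : x ∈ jrIC R) : g • x ∈ jrIC R' :=
  jrg_isIntegral_subring_map₂ R R' (SemilinearAut.toRingAut g : F →+* F) h hx

/-- the J-ring of the region `Y` is stable -/
theorem jrg_jrOY_smul (g : SemilinearAut K F)
    (hg : ∀ a : K, a ∈ A ↔ SemilinearAut.baseAut g a ∈ A) (j : F) (hj : g • j = j) {x : F}
    (hx : x ∈ jrOY A j) : g • x ∈ jrOY A j := by
  refine jrg_jrIC_smul g (jrPoly A j) (jrPoly A j) (fun r hr => ?_) hx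
  have := jrg_jrPoly_smul g (fun a => (hg a).mp) j hr
  rwa [hj] at this

/-- the J-ring of the region `Z` is stable -/
theorem jrg_jrOZ_smul (g : SemilinearAut K F)
    (hg : ∀ a : K, a ∈ A ↔ SemilinearAut.baseAut g a ∈ A) (j : F) (hj : g • j = j) {x : F}
    (hx : x ∈ jrOZ A j) : g • x ∈ jrOZ A j := by
  have hj' : g • j⁻¹ = j⁻¹ := by rw [smul_inv'', hj]
  refine jrg_jrIC_smul g (jrLam A j⁻¹) (jrLam A j⁻¹) (fun r hr => ?_) hx
  have := jrg_jrLam_smul g hg j⁻¹ hr
  rwa [hj'] at this

/-- the regions are stable -/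
theorem jrg_regY_smul (g : SemilinearAut K F)
    (hg : ∀ a : K, a ∈ A ↔ SemilinearAut.baseAut g a ∈ A) (j : F) (hj : g • j = j)
    (P : Place K F) : jrRegY A j (g • P) ↔ jrRegY A j P := by
  constructor
  · rintro ⟨b, hb⟩
    have h1 := (jrg_val_smul_place g P j (b : K)).mp hb
    have hj' : g⁻¹ • j = j := by rw [inv_smul_eq_iff, hj]
    rw [hj'] at h1
    exact ⟨⟨_, (jrg_stab_inv A g hg _).mp b.2⟩, h1⟩
  · rintro ⟨b, hb⟩
    have h1 := jrg_val_smul g P j (b : K) hb
    rw [hj] at h1
    exact ⟨⟨_, (hg _).mp b.2⟩, h1⟩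

theorem jrg_jrRing_smul_eq (g : SemilinearAut K F)
    (hg : ∀ a : K, a ∈ A ↔ SemilinearAut.baseAut g a ∈ A) (j : F) (hj : g • j = j)
    (P : Place K F) : jrRing A j (g • P) = jrRing A j P := by
  by_cases hY : jrRegY A j P
  · rw [jrRing_of_regY hY, jrRing_of_regY ((jrg_regY_smul g hg j hj P).mpr hY)]
  · rw [jrRing_of_not_regY hY,
      jrRing_of_not_regY (fun h => hY ((jrg_regY_smul g hg j hj P).mp h))]

theorem jrg_jrRing_smul_mem (g : SemilinearAut K F)
    (hg : ∀ a : K, a ∈ A ↔ SemilinearAut.baseAut g a ∈ A) (j : F) (hj : g • j = j)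
    (P : Place K F) {x : F} (hx : x ∈ jrRing A j P) : g • x ∈ jrRing A j P := by
  by_cases hY : jrRegY A j P
  · rw [jrRing_of_regY hY] at hx ⊢
    exact jrg_jrOY_smul g hg j hj hx
  · rw [jrRing_of_not_regY hY] at hx ⊢
    exact jrg_jrOZ_smul g hg j hj hx

theorem jrg_jrRing_inv_smul_mem (g : SemilinearAut K F)
    (hg : ∀ a : K, a ∈ A ↔ SemilinearAut.baseAut g a ∈ A) (j : F) (hj : g • j = j)
    (P : Place K F) {x : F} (hx : x ∈ jrRing A j P) : g⁻¹ • x ∈ jrRing A j P :=
  jrg_jrRing_smul_mem g⁻¹ (jrg_stab_inv A g hg) j (by rw [inv_smul_eq_iff, hj]) P hx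

/-- existence of values on the J-ring is transported -/
theorem jrg_exists_val_smul (g : SemilinearAut K F)
    (hg : ∀ a : K, a ∈ A ↔ SemilinearAut.baseAut g a ∈ A) (j : F) (hj : g • j = j)
    (P : Place K F) (hex : ∀ x ∈ jrRing A j P, ∃ a : A, RdmVal P x (a : K)) :
    ∀ x ∈ jrRing A j (g • P), ∃ a : A, RdmVal (g • P) x (a : K) := by
  intro x hx
  rw [jrg_jrRing_smul_eq g hg j hj P] at hx
  obtain ⟨a, ha⟩ := hex _ (jrg_jrRing_inv_smul_mem g hg j hj P hx)
  have h1 := jrg_val_smul g P _ _ ha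
  rw [smul_inv_smul] at h1
  exact ⟨⟨_, (hg _).mp a.2⟩, h1⟩

/-- **Transport of classes**: a semilinear automorphism preserving `A` and fixing `j` maps
places with the same class to places with the same class. -/
theorem jrg_cls_smul_congr (g : SemilinearAut K F)
    (hg : ∀ a : K, a ∈ A ↔ SemilinearAut.baseAut g a ∈ A) (j : F) (hj : g • j = j)
    (P P' : Place K F) (hex : ∀ x ∈ jrRing A j P, ∃ a : A, RdmVal P x (a : K))
    (hex' : ∀ x ∈ jrRing A j P', ∃ a : A, RdmVal P' x (a : K))
    (h : jrCls A j P = jrCls A j P') : jrCls A j (g • P) = jrCls A j (g • P') := by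
  obtain ⟨hreg, hring, hval⟩ := jrCls_eq_imp h
  refine jrCls_eq_of_forall ?_ (jrg_exists_val_smul g hg j hj P hex)
    (jrg_exists_val_smul g hg j hj P' hex') ?_
  · rw [jrg_regY_smul g hg j hj P, jrg_regY_smul g hg j hj P']
    exact hreg
  · intro x hx a a' ha ha'
    rw [jrg_jrRing_smul_eq g hg j hj P] at hx
    have h1 := (jrg_val_smul_place g P x (a : K)).mp ha
    have h2 := (jrg_val_smul_place g P' x (a' : K)).mp ha'
    have hb := (jrg_stab_inv A g hg _).mp a.2
    have hb' := (jrg_stab_inv A g hg _).mp a'.2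
    have h3 := hval _ (jrg_jrRing_inv_smul_mem g hg j hj P hx) ⟨_, hb⟩ ⟨_, hb'⟩ h1 h2
    have h4 := jrgBase_residue_congr A g hg h3
    have e1 : jrgBase A g (fun a => (hg a).mp) ⟨_, hb⟩ = a :=
      Subtype.ext ((SemilinearAut.baseAut g).apply_symm_apply (a : K))
    have e2 : jrgBase A g (fun a => (hg a).mp) ⟨_, hb'⟩ = a' :=
      Subtype.ext ((SemilinearAut.baseAut g).apply_symm_apply (a' : K))
    rwa [e1, e2] at h4

/-- **Invariance of classes under inertia** (abstract form): `g` preserves `A`, fixes `j`, acts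
trivially on the residue field, moves the elements of the J-ring of `P` by elements of a set
`Nn` on which the values at `P` have residue zero. Then `g P` and `P` have the same class. -/
theorem jrg_cls_inertia (g : SemilinearAut K F)
    (hg : ∀ a : K, a ∈ A ↔ SemilinearAut.baseAut g a ∈ A)
    (hres : ∀ (a : A) (h : (SemilinearAut.baseAut g).symm (a : K) ∈ A),
      IsLocalRing.residue A ⟨_, h⟩ = IsLocalRing.residue A a)
    (j : F) (hj : g • j = j) (P : Place K F)
    (hex : ∀ x ∈ jrRing A j P, ∃ a : A, RdmVal P x (a : K)) (Nn : Set F)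
    (hN : ∀ x ∈ jrRing A j P, g⁻¹ • x - x ∈ Nn)
    (hINT : ∀ y ∈ jrRing A j P, y ∈ Nn → ∀ c : A, RdmVal P y (c : K) →
      IsLocalRing.residue A c = 0) :
    jrCls A j (g • P) = jrCls A j P := by
  refine jrCls_eq_of_forall (jrg_regY_smul g hg j hj P) (jrg_exists_val_smul g hg j hj P hex)
    hex ?_
  intro x hx a a' ha ha'
  rw [jrg_jrRing_smul_eq g hg j hj P] at hx
  exact jrg_chi_inertia A g (fun a ha => (jrg_stab_inv A g hg a).mp ha) hres (jrRing A j P)
    (fun x hx => jrg_jrRing_inv_smul_mem g hg j hj P hx) Nn hN P hINT x hx a' a ha' ha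

end JRing

/-! ### F. The level-`N` statements -/

section Decomp

variable (K : Type*) {L : Type*} [Field K] [Field L] [Algebra K L] (A : ValuationSubring L)

theorem jrg_decomp_mem_iff (s : A.decompositionSubgroup K) (a : L) :
    a ∈ A ↔ (s : L ≃ₐ[K] L) a ∈ A := by
  refine ⟨fun ha => jrg_mem_of_mem_decomp K A s ha, fun ha => ?_⟩
  have h := jrg_mem_of_mem_decomp K A s⁻¹ ha
  have e : ((s⁻¹ : A.decompositionSubgroup K) : L ≃ₐ[K] L) ((s : L ≃ₐ[K] L) a) = a :=
    (s : L ≃ₐ[K] L).symm_apply_apply a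
  rwa [e] at h

end Decomp

section Frobenius

variable {L : Type*} [Field L] [Algebra ℚ L] (F₀ : IntermediateField ℚ (LaurentSeries ℚ))
  (A : ValuationSubring L)

/-- `χ_{σP}(σ x) = χ_P(x)^ℓ` for a Frobenius element `σ`, in relational form. -/
theorem jrg_frob_val {σ : L ≃ₐ[ℚ] L} {ℓ : ℕ} (hσ : A.IsFrobeniusAt σ ℓ)
    (P : Place L (laurentBaseChange L F₀)) (x : laurentBaseChange L F₀) (c : A)
    (h : RdmVal P x (c : L)) :
    ∃ c' : A, RdmVal (arithmeticGalois F₀ σ • P) (arithmeticGalois F₀ σ • x) (c' : L) ∧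
      IsLocalRing.residue A c' = IsLocalRing.residue A c ^ ℓ := by
  obtain ⟨hc, hr⟩ := jrg_frobenius_residue ℚ A hσ c
  exact ⟨⟨_, hc⟩, jrg_galois_val F₀ σ P x (c : L) h, hr⟩

/-- `χ_P(σ⁻¹ x)^ℓ = χ_{σP}(x)` for a Frobenius element `σ`, in relational form. -/
theorem jrg_frob_val_place {σ : L ≃ₐ[ℚ] L} {ℓ : ℕ} (hσ : A.IsFrobeniusAt σ ℓ)
    (P : Place L (laurentBaseChange L F₀)) (x : laurentBaseChange L F₀) (c : A)
    (h : RdmVal (arithmeticGalois F₀ σ • P) x (c : L)) :
    ∃ c' : A, RdmVal P ((arithmeticGalois F₀ σ)⁻¹ • x) (c' : L) ∧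
      IsLocalRing.residue A c' ^ ℓ = IsLocalRing.residue A c := by
  have h1 := (jrg_galois_val_place F₀ σ P x (c : L)).mp h
  have hσD := hσ.mem_decompositionSubgroup
  have hc' : σ.symm (c : L) ∈ A :=
    (jrg_decomp_mem_iff ℚ A ⟨σ, hσD⟩ _).mpr (by
      show σ (σ.symm (c : L)) ∈ A
      rw [AlgEquiv.apply_symm_apply]
      exact c.2)
  obtain ⟨hc, hr⟩ := jrg_frobenius_residue ℚ A hσ ⟨_, hc'⟩
  refine ⟨⟨_, hc'⟩, h1, ?_⟩
  rw [← hr]
  congr 1
  exact Subtype.ext (σ.apply_symm_apply (c : L))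

end Frobenius

section LevelN

open Fermat.Agent.S24

variable (N : ℕ) [NeZero N] {ℓ : ℕ} [Fact ℓ.Prime] (hℓN : ¬ ℓ ∣ N)
  (A : ValuationSubring (AlgebraicClosure ℚ)) (hA : A.LiesOverPrime ℓ)

/-- `j` is fixed by the Galois action -/
theorem jrg_galois_smul_jBar (σ : AlgebraicClosure ℚ ≃ₐ[ℚ] AlgebraicClosure ℚ) :
    arithmeticGalois (modularFunctionFieldFull N) σ • jBar N = jBar N :=
  jrg_galois_smul_coeffEmb (modularFunctionFieldFull N) σ _ _

/-- the regions are stable under the decomposition group -/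
theorem jrg_regY_galois {σ : AlgebraicClosure ℚ ≃ₐ[ℚ] AlgebraicClosure ℚ}
    (hσ : σ ∈ A.decompositionSubgroup ℚ)
    (P : Place (AlgebraicClosure ℚ) (modularFunctionFieldBar N)) :
    jrRegY A (jBar N) (arithmeticGalois (modularFunctionFieldFull N) σ • P) ↔
      jrRegY A (jBar N) P :=
  jrg_regY_smul (arithmeticGalois (modularFunctionFieldFull N) σ)
    (fun a => jrg_decomp_mem_iff ℚ A ⟨σ, hσ⟩ a) (jBar N) (jrg_galois_smul_jBar N σ) P

/-- the J-ring of the region `Y` is stable under the decomposition group -/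
theorem jrg_jrOY_galois {σ : AlgebraicClosure ℚ ≃ₐ[ℚ] AlgebraicClosure ℚ}
    (hσ : σ ∈ A.decompositionSubgroup ℚ) {x : ↥(modularFunctionFieldBar N)}
    (hx : x ∈ jrOY A (jBar N)) :
    arithmeticGalois (modularFunctionFieldFull N) σ • x ∈ jrOY A (jBar N) :=
  jrg_jrOY_smul (arithmeticGalois (modularFunctionFieldFull N) σ)
    (fun a => jrg_decomp_mem_iff ℚ A ⟨σ, hσ⟩ a) (jBar N) (jrg_galois_smul_jBar N σ) hx

/-- the J-ring of the region `Z` is stable under the decomposition group -/
theorem jrg_jrOZ_galois {σ : AlgebraicClosure ℚ ≃ₐ[ℚ] AlgebraicClosure ℚ}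
    (hσ : σ ∈ A.decompositionSubgroup ℚ) {x : ↥(modularFunctionFieldBar N)}
    (hx : x ∈ jrOZ A (jBar N)) :
    arithmeticGalois (modularFunctionFieldFull N) σ • x ∈ jrOZ A (jBar N) :=
  jrg_jrOZ_smul (arithmeticGalois (modularFunctionFieldFull N) σ)
    (fun a => jrg_decomp_mem_iff ℚ A ⟨σ, hσ⟩ a) (jBar N) (jrg_galois_smul_jBar N σ) hx

/-- the decomposition group maps places with the same class to places with the same class -/
theorem jrg_cls_galois_congr {σ : AlgebraicClosure ℚ ≃ₐ[ℚ] AlgebraicClosure ℚ}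
    (hσ : σ ∈ A.decompositionSubgroup ℚ)
    (P P' : Place (AlgebraicClosure ℚ) (modularFunctionFieldBar N))
    (h : jrCls A (jBar N) P = jrCls A (jBar N) P') :
    jrCls A (jBar N) (arithmeticGalois (modularFunctionFieldFull N) σ • P) =
      jrCls A (jBar N) (arithmeticGalois (modularFunctionFieldFull N) σ • P') :=
  jrg_cls_smul_congr (arithmeticGalois (modularFunctionFieldFull N) σ)
    (fun a => jrg_decomp_mem_iff ℚ A ⟨σ, hσ⟩ a) (jBar N) (jrg_galois_smul_jBar N σ) P P'
    (fun _ hx => jrn_exists_val N A P hx) (fun _ hx => jrn_exists_val N A P' hx) h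

/-- **(K1)**, given the Gauss-ring inputs (the J-rings lie in the Gauss valuation ring and have
the integrality property (INT)): the class of a place is invariant under inertia. -/
theorem jrg_k1_of
    (hleY : jrOY A (jBar N) ≤ (grO A hA N hℓN).toSubring)
    (hleZ : jrOZ A (jBar N) ≤ (grO A hA N hℓN).toSubring)
    (hintY : JrInt A (grO A hA N hℓN) (jrOY A (jBar N)))
    (hintZ : JrInt A (grO A hA N hℓN) (jrOZ A (jBar N)))
    (σ : AlgebraicClosure ℚ ≃ₐ[ℚ] AlgebraicClosure ℚ) (hσ : σ ∈ A.inertiaSubgroupIn ℚ)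
    (P : Place (AlgebraicClosure ℚ) (modularFunctionFieldBar N)) :
    jrCls A (jBar N) (arithmeticGalois (modularFunctionFieldFull N) σ • P) =
      jrCls A (jBar N) P := by
  have hσD := jrg_inertia_mem_decomp ℚ A hσ
  refine jrg_cls_inertia (arithmeticGalois (modularFunctionFieldFull N) σ)
    (fun a => jrg_decomp_mem_iff ℚ A ⟨σ, hσD⟩ a) ?_ (jBar N) (jrg_galois_smul_jBar N σ) P
    (fun x hx => jrn_exists_val N A P hx) (grO A hA N hℓN).nonunits ?_ ?_
  · intro a h
    obtain ⟨_, hr⟩ := jrg_inertia_residue ℚ A ((A.inertiaSubgroupIn ℚ).inv_mem hσ) a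
    exact hr
  · intro x hx
    have hxV : x ∈ grO A hA N hℓN := by
      by_cases hY : jrRegY A (jBar N) P
      · rw [jrRing_of_regY hY] at hx
        exact hleY hx
      · rw [jrRing_of_not_regY hY] at hx
        exact hleZ hx
    exact jrg_grO_inertia_inv_sub A hA N hℓN hσ hxV
  · intro y hy hyN c hc
    exact jrn_int N A _ hintY hintZ P hy hyN c hc

/-- **(I1)**, given the Gauss-ring inputs: the reduction map on divisors is invariant under
inertia. -/
theorem jrg_red_inertia_of
    (hleY : jrOY A (jBar N) ≤ (grO A hA N hℓN).toSubring)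
    (hleZ : jrOZ A (jBar N) ≤ (grO A hA N hℓN).toSubring)
    (hintY : JrInt A (grO A hA N hℓN) (jrOY A (jBar N)))
    (hintZ : JrInt A (grO A hA N hℓN) (jrOZ A (jBar N)))
    (σ : AlgebraicClosure ℚ ≃ₐ[ℚ] AlgebraicClosure ℚ) (hσ : σ ∈ A.inertiaSubgroupIn ℚ)
    (D : Divisor (AlgebraicClosure ℚ) (modularFunctionFieldBar N)) :
    jrRed A (jBar N) (arithmeticGalois (modularFunctionFieldFull N) σ • D) =
      jrRed A (jBar N) D := by
  rw [jrRed_apply, jrRed_apply, jrg_mapDomain_smul]
  congr 1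
  funext P
  exact jrg_k1_of N hℓN A hA hleY hleZ hintY hintZ σ hσ P

end LevelN

end Fermat.Agent.S37
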