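import Fermat.Agent.S37.LevelUpAbs
import Fermat.Agent.S37.HeckeIn
import Fermat.Agent.S24.SysCusp
import Fermat.Agent.S24.CosetsIndex
import Fermat.Agent.S24.CosetsCusps
import Fermat.Agent.S24.Classify
import Fermat.Prelude.Def_ModularCurve_HeckeModule

/-!
# S37, LEVELUP: the pull-back `J₀(N) → J₀(N')` for `N ∣ N'`

* `lvlIncl N N' h` : the inclusion of function fields `F_N → F_{N'}` over `ℚ̄`;
* `lvlPullback N N' h : JZero N →+ JZero N'` : the induced pull-back of divisor classes;
* `lvl_smul` : it commutes with the action of `Gal(ℚ̄/ℚ)`;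
* `lvl_injective_torsion` : it is injective on torsion classes as soon as
  `ψ(N') * N < 2 * N' * ψ(N)` (the cusp `0` of `X₀(N')` has ramification index `N'/N` over
  `X₀(N)`, more than half the degree);
* `lvl_num` : the numerical condition holds for `N' = a ^ k * N`, `a` prime.
-/

set_option autoImplicit false
set_option linter.unusedSectionVars false
set_option linter.style.haveILetI false

open AlgebraicCurve ModularCurve IntermediateField

namespace Fermat.Agent.S37

local notation "Qb" => AlgebraicClosure ℚ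

theorem lvl_base_mono {F₀ F₁ : IntermediateField ℚ (LaurentSeries ℚ)} (h : F₀ ≤ F₁) :
    laurentBaseChange Qb F₀ ≤ laurentBaseChange Qb F₁ := by
  rw [laurentBaseChange, IntermediateField.adjoin_le_iff]
  rintro _ ⟨y, hy, rfl⟩
  exact coeffEmb_mem_laurentBaseChange Qb (h hy)

/-- degrees over `K(x)` in a tower `K(x) ⊆ F ⊆ F'`. -/
theorem lvl_finrank_tower_le {K F F' : Type*} [Field K] [Field F] [Field F'] [Algebra K F]
    [Algebra K F'] [Algebra F F'] [IsScalarTower K F F'] (x : F) (x' : F')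
    (hx : algebraMap F F' x = x') [FiniteDimensional K⟮x'⟯ F'] :
    Module.finrank K⟮x⟯ F * Module.finrank F F' ≤ Module.finrank K⟮x'⟯ F' := by
  subst hx
  have h3 : Module.finrank K⟮x⟯ F * Module.finrank F F' = Module.finrank K⟮x⟯ F' :=
    Module.finrank_mul_finrank _ _ _
  have hle : K⟮algebraMap F F' x⟯ ≤ (K⟮x⟯).map (IsScalarTower.toAlgHom K F F') := by
    rw [adjoin_simple_le_iff]
    exact (IntermediateField.mem_map _).mpr ⟨_, mem_adjoin_simple_self K _, rfl⟩
  obtain ⟨b, hb⟩ : ∃ b : Module.Basis (Fin (Module.finrank K⟮algebraMap F F' x⟯ F'))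
      K⟮algebraMap F F' x⟯ F', b = Module.finBasis _ _ := ⟨_, rfl⟩
  have hspan : Submodule.span K⟮x⟯ (Set.range b) = ⊤ := by
    rw [eq_top_iff]
    rintro y -
    have hy := b.mem_span y
    refine Submodule.span_induction ?_ ?_ ?_ ?_ hy
    · intro z hz
      exact Submodule.subset_span hz
    · exact zero_mem _
    · intro _ _ _ _ hx hy
      exact add_mem hx hy
    · intro c z _ hz
      obtain ⟨c₀, hc₀, hc₀'⟩ := (IntermediateField.mem_map _).mp (hle c.2)
      have hcz : c • z = (⟨c₀, hc₀⟩ : K⟮x⟯) • z := by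
        rw [Algebra.smul_def, Algebra.smul_def]
        congr 1
        exact hc₀'.symm
      rw [hcz]
      exact Submodule.smul_mem _ _ hz
  rw [h3]
  calc Module.finrank K⟮x⟯ F'
      = Module.finrank K⟮x⟯ (⊤ : Submodule K⟮x⟯ F') := (finrank_top K⟮x⟯ F').symm
    _ = Module.finrank K⟮x⟯ (Submodule.span K⟮x⟯ (Set.range b)) := by rw [hspan]
    _ ≤ Fintype.card (Fin (Module.finrank K⟮algebraMap F F' x⟯ F')) := finrank_range_le_card b
    _ = _ := Fintype.card_fin _


section defs

variable (N N' : ℕ) [NeZero N] [NeZero N'] (h : N ∣ N')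

/-- the inclusion `F_N → F_{N'}` of the function fields of `X₀(N)` and `X₀(N')` over `ℚ̄`. -/
noncomputable def lvlIncl :
    ↥(modularFunctionFieldBar N) →ₐ[Qb] ↥(modularFunctionFieldBar N') :=
  IntermediateField.inclusion (lvl_base_mono (full_degeneracy_le h))

@[simp]
theorem coe_lvlIncl (x : ↥(modularFunctionFieldBar N)) :
    (lvlIncl N N' h x : LaurentSeries Qb) = (x : LaurentSeries Qb) :=
  IntermediateField.coe_inclusion _ x

theorem lvlIncl_isIntegral : (lvlIncl N N' h).toRingHom.IsIntegral :=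
  hki_isIntegral N N' _

theorem lvlIncl_fundamentalIdentity :
    haveI := hki_hasPrincipalDivisors N'
    FundamentalIdentityAlong Qb (lvlIncl N N' h) (lvlIncl_isIntegral N N' h) :=
  haveI := hki_hasPrincipalDivisors N'
  hki_fundamentalIdentityAlong N N' _ _

theorem lvlIncl_FI :
    letI := algebraAlong (lvlIncl N N' h)
    haveI := isScalarTower_along (lvlIncl N N' h)
    haveI := isIntegral_along (lvlIncl N N' h) (lvlIncl_isIntegral N N' h)
    haveI := hki_hasPrincipalDivisors N'
    FundamentalIdentity Qb ↥(modularFunctionFieldBar N) ↥(modularFunctionFieldBar N') :=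
  lvlIncl_fundamentalIdentity N N' h

/-- the pull-back `J₀(N) → J₀(N')`. -/
noncomputable def lvlPullback : JZero N →+ JZero N' :=
  letI := algebraAlong (lvlIncl N N' h)
  haveI := isScalarTower_along (lvlIncl N N' h)
  haveI := isIntegral_along (lvlIncl N N' h) (lvlIncl_isIntegral N N' h)
  haveI := hki_hasPrincipalDivisors N'
  haveI : FundamentalIdentity Qb ↥(modularFunctionFieldBar N) ↥(modularFunctionFieldBar N') :=
    lvlIncl_FI N N' h
  Pic0.pullbackHom ↥(modularFunctionFieldBar N')

theorem lvl_intertwines (σ : Qb ≃ₐ[ℚ] Qb) :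
    SemilinearAut.IntertwinesAlong (lvlIncl N N' h).toRingHom
      (arithmeticGalois (modularFunctionFieldFull N) σ)
      (arithmeticGalois (modularFunctionFieldFull N') σ) := by
  intro y
  apply Subtype.ext
  rw [coe_arithmeticGalois_smul]
  show _ = ((lvlIncl N N' h) (arithmeticGalois (modularFunctionFieldFull N) σ • y) :
    LaurentSeries Qb)
  rw [coe_lvlIncl, coe_arithmeticGalois_smul]
  show ModularCurve.coeffMap (σ : Qb →+* Qb) ((lvlIncl N N' h y : ↥(modularFunctionFieldBar N')) :
    LaurentSeries Qb) = _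
  rw [coe_lvlIncl]

/-- **LEVELUP (a)**: the pull-back commutes with the Galois action. -/
theorem lvl_smul (σ : Qb ≃ₐ[ℚ] Qb) (x : JZero N) :
    lvlPullback N N' h (σ • x) = σ • lvlPullback N N' h x := by
  letI := algebraAlong (lvlIncl N N' h)
  haveI := isScalarTower_along (lvlIncl N N' h)
  haveI := isIntegral_along (lvlIncl N N' h) (lvlIncl_isIntegral N N' h)
  haveI := hki_hasPrincipalDivisors N'
  haveI : FundamentalIdentity Qb ↥(modularFunctionFieldBar N) ↥(modularFunctionFieldBar N') :=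
    lvlIncl_FI N N' h
  rw [galois_smul_pic0_def, galois_smul_pic0_def]
  exact lvl_pullbackHom_smul (arithmeticGalois (modularFunctionFieldFull N) σ)
    (arithmeticGalois (modularFunctionFieldFull N') σ) (lvl_intertwines N N' h σ) x

end defs

open Fermat.Agent.S24

open scoped MatrixGroups

/-- the cusp `0` of `X₀(M)`: a place at which `1/j` has a zero of order `M`. -/
theorem lvl_exists_cusp (M : ℕ) [NeZero M] :
    ∃ w : Place Qb ↥(modularFunctionFieldBar M), w.ord (jBar M)⁻¹ = M := by
  classical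
  obtain ⟨S, he, hπ⟩ := exists_laurentSystem_infty M
  have hx : Transcendental Qb (jBar M)⁻¹ := sf_transcendental_inv (transcendental_jBar' M)
  haveI := finiteDimensional_jBar' M
  haveI : FiniteDimensional Qb⟮(jBar M)⁻¹⟯ ↥(modularFunctionFieldBar M) :=
    sf_finiteDimensional_inv (jBar M)
  haveI : Fintype (SL(2, ℤ) ⧸ CongruenceSubgroup.Gamma0 M) := Fintype.ofFinite _
  have hM0 : (M : ℤ) ≠ 0 := by exact_mod_cast NeZero.ne M
  have hMpos : (0 : ℤ) < M := by exact_mod_cast NeZero.pos M
  obtain ⟨q₀, hq₀⟩ : ∃ q₀ : SL(2, ℤ) ⧸ CongruenceSubgroup.Gamma0 M,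
      q₀ = ((ModularGroup.S : SL(2, ℤ)) : SL(2, ℤ) ⧸ CongruenceSubgroup.Gamma0 M) := ⟨_, rfl⟩
  obtain ⟨P, hPdef⟩ : ∃ P, P = S.place q₀ := ⟨_, rfl⟩
  have hP : P ∈ zeroPlaces Qb (jBar M)⁻¹ := by rw [hPdef]; exact S.place_mem_zeroPlaces q₀
  have hPpos : 0 < P.ord (jBar M)⁻¹ := hP
  have hx0 : (jBar M)⁻¹ ≠ 0 := by
    intro h0
    rw [h0, Place.ord_zero] at hPpos
    exact lt_irrefl _ hPpos
  choose m hm0 hm using fun i => (S.isPlaceOf_place i).exists_order_eq
  have hsum := S.sum_mult_eq hx m hm P hP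
  have hmj : ∀ j, S.place j = P → m j * P.ord (jBar M)⁻¹ = M := by
    intro j hj
    have h1 := hm j _ hx0
    rw [S.order_x, hj, he] at h1
    exact h1.symm
  have h1 : (∑ j with S.place j = P, m j) * P.ord (jBar M)⁻¹ = (M : ℤ) * P.ord (jBar M)⁻¹ := by
    rw [hsum, he]
  rw [Finset.sum_mul, Finset.sum_congr rfl (fun j hj => hmj j (Finset.mem_filter.mp hj).2),
    Finset.sum_const, nsmul_eq_mul, mul_comm] at h1
  have hcard : ((Finset.univ.filter (fun j => S.place j = P)).card : ℤ) = P.ord (jBar M)⁻¹ :=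
    mul_left_cancel₀ hM0 h1
  -- the orbit of `q₀` under `T` has `M` elements, all with the same place
  have hplace : ∀ k : ℕ, S.place ((ModularGroup.T ^ k) • q₀) = P := by
    intro k
    induction k with
    | zero => rw [pow_zero, one_smul, hPdef]
    | succ n ih =>
      rw [pow_succ', mul_smul]
      have h2 := S.place_π ((ModularGroup.T ^ n) • q₀)
      rw [hπ] at h2
      exact h2.trans ih
  have hinj : ∀ a b : ℕ, a < M → b < M →
      (ModularGroup.T ^ a) • q₀ = (ModularGroup.T ^ b) • q₀ → a = b := by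
    intro a b ha hb hab
    have h2 : (ModularGroup.T ^ (-(b : ℤ) + a)) • q₀ = q₀ := by
      rw [zpow_add, mul_smul, zpow_natCast, hab, zpow_neg, zpow_natCast, inv_smul_smul]
    rw [hq₀, T_zpow_smul_mk_eq_iff] at h2
    have hS00 : (ModularGroup.S : SL(2, ℤ)) 0 0 = 0 := by simp [ModularGroup.S]
    have hS10 : (ModularGroup.S : SL(2, ℤ)) 1 0 = 1 := by simp [ModularGroup.S]
    rw [hS00, hS10] at h2
    have h3 : (M : ℤ) ∣ (a : ℤ) - b := by
      have h4 : (0 + (-(b : ℤ) + a) * 1) * 1 - 1 * 0 = (a : ℤ) - b := by ring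
      rw [h4] at h2
      exact h2
    obtain ⟨c, hc⟩ := h3
    have hc0 : c = 0 := by
      by_contra hne
      have : (M : ℤ) ≤ |(a : ℤ) - b| := by
        rw [hc, abs_mul, abs_of_pos hMpos]
        exact le_mul_of_one_le_right hMpos.le (Int.one_le_abs hne)
      have h4 : |(a : ℤ) - b| < M := by
        rw [abs_lt]
        constructor <;> omega
      omega
    rw [hc0, mul_zero] at hc
    omega
  have horbit : M ≤ (Finset.univ.filter (fun j => S.place j = P)).card := by
    have hsub : Finset.image (fun k : Fin M => (ModularGroup.T ^ (k : ℕ)) • q₀) Finset.univ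
        ⊆ Finset.univ.filter (fun j => S.place j = P) := by
      intro j hj
      obtain ⟨k, -, rfl⟩ := Finset.mem_image.mp hj
      exact Finset.mem_filter.mpr ⟨Finset.mem_univ _, hplace k⟩
    have hcard' : (Finset.image (fun k : Fin M => (ModularGroup.T ^ (k : ℕ)) • q₀)
        Finset.univ).card = M := by
      rw [Finset.card_image_of_injective, Finset.card_univ, Fintype.card_fin]
      intro a b hab
      exact Fin.ext (hinj a b a.2 b.2 hab)
    calc M = _ := hcard'.symm
      _ ≤ _ := Finset.card_le_card hsub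
  -- upper bound
  have hle : P.ord (jBar M)⁻¹ ≤ M := by
    have h2 := hmj q₀ hPdef.symm
    have h3 := hm0 q₀
    nlinarith
  refine ⟨P, le_antisymm hle ?_⟩
  rw [← hcard]
  exact_mod_cast horbit


/-- at a zero of `1/j` on `X₀(N)` the order is at most `N`. -/
theorem lvl_ord_le (N : ℕ) [NeZero N] (v : Place Qb ↥(modularFunctionFieldBar N))
    (hv : 0 < v.ord (jBar N)⁻¹) : v.ord (jBar N)⁻¹ ≤ N := by
  obtain ⟨S, he, -⟩ := exists_laurentSystem_infty N
  have hx : Transcendental Qb (jBar N)⁻¹ := sf_transcendental_inv (transcendental_jBar' N)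
  haveI := finiteDimensional_jBar' N
  haveI : FiniteDimensional Qb⟮(jBar N)⁻¹⟯ ↥(modularFunctionFieldBar N) :=
    sf_finiteDimensional_inv (jBar N)
  obtain ⟨m, hm0, hm⟩ := S.exists_mul_ord_eq hx v hv
  rw [he] at hm
  nlinarith

/-- a function without zeros and poles on `X₀(M)` is constant. -/
theorem lvl_const (M : ℕ) [NeZero M] (f : ↥(modularFunctionFieldBar M)) (_hf : f ≠ 0)
    (h : ∀ w : Place Qb ↥(modularFunctionFieldBar M), w.ord f = 0) :
    f ∈ Set.range (algebraMap Qb ↥(modularFunctionFieldBar M)) := by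
  rcases a4_const_or_transcendental (K := Qb) f with ⟨c, hc⟩ | htr
  · exact ⟨c, hc.symm⟩
  · exfalso
    haveI := finiteDimensional_jBar' M
    haveI : FiniteDimensional Qb⟮f⟯ ↥(modularFunctionFieldBar M) :=
      a4_finiteDimensional (transcendental_jBar' M) htr
    have h1 := finsum_ord_zeroPlaces f htr
    have h2 : ∑ᶠ P ∈ zeroPlaces Qb f, P.ord f = 0 :=
      finsum_mem_eq_zero_of_forall_eq_zero fun P _ => h P
    rw [h2] at h1
    have h3 := Module.finrank_pos (R := Qb⟮f⟯) (M := ↥(modularFunctionFieldBar M))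
    omega

theorem lvlIncl_jBar_inv (N N' : ℕ) [NeZero N] [NeZero N'] (h : N ∣ N') :
    lvlIncl N N' h (jBar N)⁻¹ = (jBar N')⁻¹ := by
  rw [map_inv₀]
  congr 1

/-- the degree of `F_{N'}` over `F_N` is at most `ψ(N') / ψ(N)`. -/
theorem lvl_finrank_mul_le (N N' : ℕ) [NeZero N] [NeZero N'] (h : N ∣ N') :
    letI := algebraAlong (lvlIncl N N' h)
    Module.finrank ↥(modularFunctionFieldBar N) ↥(modularFunctionFieldBar N') * dedekindPsi N
      ≤ dedekindPsi N' := by
  letI := algebraAlong (lvlIncl N N' h)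
  haveI := isScalarTower_along (lvlIncl N N' h)
  haveI := finiteDimensional_jBar' N'
  haveI hfdN' : FiniteDimensional Qb⟮(jBar N')⁻¹⟯ ↥(modularFunctionFieldBar N') :=
    sf_finiteDimensional_inv (jBar N')
  have h0 := lvl_finrank_tower_le (K := Qb) (jBar N)⁻¹ (jBar N')⁻¹ (lvlIncl_jBar_inv N N' h)
  have h1 : Module.finrank Qb⟮(jBar N)⁻¹⟯ ↥(modularFunctionFieldBar N) = dedekindPsi N := by
    rw [← sc_card_eq N, card_cosets]
  have h2 : Module.finrank Qb⟮(jBar N')⁻¹⟯ ↥(modularFunctionFieldBar N') = dedekindPsi N' := by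
    rw [← sc_card_eq N', card_cosets]
  rw [h1, h2, mul_comm] at h0
  exact h0

theorem lvl_psi_pow_le (N a k : ℕ) (hN : 0 < N) (ha : a.Prime) :
    dedekindPsi (a ^ (k + 1) * N) ≤ (a + 1) * a ^ k * dedekindPsi N := by
  induction k with
  | zero =>
    rw [zero_add, pow_one, pow_zero, mul_one]
    by_cases hd : a ∣ N
    · rw [dedekindPsi_mul_of_dvd ha hN hd]
      exact Nat.mul_le_mul_right _ (Nat.le_succ a)
    · rw [dedekindPsi_mul_of_not_dvd ha hN hd]
  | succ k ih =>
    have h1 : a ^ (k + 1 + 1) * N = a * (a ^ (k + 1) * N) := by ring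
    have h2 : 0 < a ^ (k + 1) * N := Nat.mul_pos (pow_pos ha.pos _) hN
    have h3 : a ∣ a ^ (k + 1) * N := Dvd.dvd.mul_right (dvd_pow_self a (Nat.succ_ne_zero k)) N
    rw [h1, dedekindPsi_mul_of_dvd ha h2 h3]
    calc a * dedekindPsi (a ^ (k + 1) * N) ≤ a * ((a + 1) * a ^ k * dedekindPsi N) :=
          Nat.mul_le_mul_left _ ih
      _ = (a + 1) * a ^ (k + 1) * dedekindPsi N := by ring

/-- the numerical condition of `lvl_injective_torsion` for `N' = a ^ k * N`, `a` prime. -/
theorem lvl_num (N a k : ℕ) (hN : 0 < N) (ha : a.Prime) :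
    dedekindPsi (a ^ k * N) * N < 2 * (a ^ k * N) * dedekindPsi N := by
  have hψ : 0 < dedekindPsi N := dedekindPsi_pos N hN.ne'
  rcases k with _ | k
  · rw [pow_zero, one_mul]
    nlinarith [Nat.mul_pos hψ hN]
  · have h1 := lvl_psi_pow_le N a k hN ha
    have ha2 := ha.two_le
    have hak : 0 < a ^ k := pow_pos ha.pos k
    have h2 : (a + 1) * a ^ k < 2 * a ^ (k + 1) := by
      rw [pow_succ]
      nlinarith
    have hpos : 0 < dedekindPsi N * N := Nat.mul_pos hψ hN
    calc dedekindPsi (a ^ (k + 1) * N) * N ≤ (a + 1) * a ^ k * dedekindPsi N * N :=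
          Nat.mul_le_mul_right _ h1
      _ = (a + 1) * a ^ k * (dedekindPsi N * N) := by ring
      _ < 2 * a ^ (k + 1) * (dedekindPsi N * N) := Nat.mul_lt_mul_of_pos_right h2 hpos
      _ = 2 * (a ^ (k + 1) * N) * dedekindPsi N := by ring

/-- **LEVELUP (c)**: the pull-back `J₀(N) → J₀(N')` is injective on torsion classes. -/
theorem lvl_injective_torsion (N N' : ℕ) [NeZero N] [NeZero N'] (h : N ∣ N')
    (hnum : dedekindPsi N' * N < 2 * N' * dedekindPsi N) (x : JZero N) (m : ℕ) (hm : m ≠ 0)
    (hmx : m • x = 0) (hx : lvlPullback N N' h x = 0) : x = 0 := by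
  letI := algebraAlong (lvlIncl N N' h)
  haveI := isScalarTower_along (lvlIncl N N' h)
  haveI := isIntegral_along (lvlIncl N N' h) (lvlIncl_isIntegral N N' h)
  haveI := hki_hasPrincipalDivisors N'
  haveI : FundamentalIdentity Qb ↥(modularFunctionFieldBar N) ↥(modularFunctionFieldBar N') :=
    lvlIncl_FI N N' h
  haveI : FiniteDimensional ↥(modularFunctionFieldBar N) ↥(modularFunctionFieldBar N') :=
    hki_finiteAlong N N' (lvlIncl N N' h)
  have hN : Divisor.PushforwardNormFormula Qb ↥(modularFunctionFieldBar N)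
      ↥(modularFunctionFieldBar N') :=
    hki_normFormulaAlong N N' (lvlIncl N N' h) (hki_finiteAlong N N' (lvlIncl N N' h))
  obtain ⟨w₀, hw₀⟩ := lvl_exists_cusp N'
  have hdeg : w₀.deg = 1 := hki_deg_eq_one w₀ (hki_residue N' w₀)
  have h1 := w₀.ord_restrict (F := ↥(modularFunctionFieldBar N)) (jBar N)⁻¹
  have hjj : algebraMap ↥(modularFunctionFieldBar N) ↥(modularFunctionFieldBar N') (jBar N)⁻¹
      = (jBar N')⁻¹ := lvlIncl_jBar_inv N N' h
  rw [hjj, hw₀] at h1
  have he0 := w₀.ramificationIndex_pos (F := ↥(modularFunctionFieldBar N))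
  have he0' : (0 : ℤ) < (w₀.ramificationIndex ↥(modularFunctionFieldBar N) : ℤ) := by
    exact_mod_cast he0
  have hN'pos : (0 : ℤ) < (N' : ℤ) := by exact_mod_cast NeZero.pos N'
  have hv₀pos : 0 < (w₀.restrict ↥(modularFunctionFieldBar N)).ord (jBar N)⁻¹ := by
    rw [h1] at hN'pos
    exact (mul_pos_iff_of_pos_left he0').mp hN'pos
  have hle := lvl_ord_le N _ hv₀pos
  have hdegle := lvl_finrank_mul_le N N' h
  have hψ : 0 < dedekindPsi N := dedekindPsi_pos N (NeZero.ne N)
  have hNpos : 0 < N := NeZero.pos N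
  have he : Module.finrank ↥(modularFunctionFieldBar N) ↥(modularFunctionFieldBar N')
      < 2 * w₀.ramificationIndex ↥(modularFunctionFieldBar N) := by
    have hN'le : N' ≤ w₀.ramificationIndex ↥(modularFunctionFieldBar N) * N := by
      have : (N' : ℤ) ≤ (w₀.ramificationIndex ↥(modularFunctionFieldBar N) : ℤ) * N := by
        rw [h1]
        exact mul_le_mul_of_nonneg_left hle he0'.le
      exact_mod_cast this
    have hpos : 0 < dedekindPsi N * N := Nat.mul_pos hψ hNpos
    have key : Module.finrank ↥(modularFunctionFieldBar N) ↥(modularFunctionFieldBar N')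
          * (dedekindPsi N * N)
        < 2 * w₀.ramificationIndex ↥(modularFunctionFieldBar N) * (dedekindPsi N * N) := by
      calc Module.finrank ↥(modularFunctionFieldBar N) ↥(modularFunctionFieldBar N')
            * (dedekindPsi N * N)
          = Module.finrank ↥(modularFunctionFieldBar N) ↥(modularFunctionFieldBar N')
            * dedekindPsi N * N := by ring
        _ ≤ dedekindPsi N' * N := Nat.mul_le_mul_right _ hdegle
        _ < 2 * N' * dedekindPsi N := hnum
        _ ≤ 2 * (w₀.ramificationIndex ↥(modularFunctionFieldBar N) * N) * dedekindPsi N :=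
          Nat.mul_le_mul_right _ (Nat.mul_le_mul_left _ hN'le)
        _ = 2 * w₀.ramificationIndex ↥(modularFunctionFieldBar N) * (dedekindPsi N * N) := by
          ring
    exact lt_of_mul_lt_mul_right key (Nat.zero_le _)
  exact lvl_pullbackHom_injective_torsion hN (lvl_const N')
    (fun v => by rw [hki_deg_eq_one v (hki_residue N v)]; exact one_ne_zero) w₀ hdeg he x m hm
    hmx hx


end Fermat.Agent.S37
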