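import Fermat.Agent.S37.HeckeIn
import Fermat.Agent.S37.Swap
import Fermat.Agent.S24.SysCusp
import Fermat.Agent.S24.CosetsIndex
import Fermat.Prelude.Def_ModularCurve_HeckeModule

/-!
# S37, HECKEDEG: degree, positivity and principal divisors for the Hecke correspondence

`T = α_* β^*` on the divisors of the function field `F_M` of `X₀(M)` over `ℚ̄`
(`hkdT M ℓ`, the Prelude's `heckeDivBar` with the integrality proofs of HECKEIN):

* `hkd_finrank_jBar` : `[F_N : ℚ̄(j)] = ψ(N)`;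
* `hkd_finrankAlong_alpha`, `hkd_finrankAlong_beta` : both degeneracy maps have degree `ℓ + 1`
  (`ℓ` prime, `ℓ ∤ M`);
* `hkdT_degree` : `deg (T D) = (ℓ + 1) deg D`;
* `hkdT_nonneg` : `T` maps effective divisors to effective divisors;
* `hkdT_principal` : `T (div g) = div (N_α (β g))`;
* `hkdT_single` : `T (P) = ∑_{w ∣_β P} e_β(w) · (w ∣_α)`;
* `hkd_heckeOperatorBar_mk` : the Prelude Hecke operator on `Pic⁰` is induced by `T`.
-/

set_option autoImplicit false
set_option linter.unusedSectionVars false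
set_option linter.unusedVariables false
set_option linter.style.haveILetI false

open AlgebraicCurve ModularCurve IntermediateField

namespace Fermat.Agent.S37

open Fermat.Agent.S24

/-! ### the exact degree over `ℚ̄(j)` -/

theorem hkd_finrank_jBar (N : ℕ) [NeZero N] :
    Module.finrank (AlgebraicClosure ℚ)⟮jBar N⟯ ↥(modularFunctionFieldBar N) = dedekindPsi N := by
  rw [← sf_finrank_inv (jBar N), ← sc_card_eq N, card_cosets]

/-! ### the rank only depends on the image of the scalars -/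

theorem hkd_finrank_fieldRange {A F : Type*} [Field A] [Field F] [Algebra A F] :
    Module.finrank A F = Module.finrank (algebraMap A F).fieldRange F :=
  Algebra.finrank_eq_of_equiv_equiv
    (RingEquiv.ofBijective (algebraMap A F).rangeRestrictField
      (algebraMap A F).rangeRestrictField_bijective) (RingEquiv.refl F) (by ext; rfl)

theorem hkd_finrank_eq_of_range {A₁ A₂ F : Type*} [Field A₁] [Field A₂] [Field F]
    [Algebra A₁ F] [Algebra A₂ F]
    (h : ∀ x : F, x ∈ Set.range (algebraMap A₁ F) ↔ x ∈ Set.range (algebraMap A₂ F)) :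
    Module.finrank A₁ F = Module.finrank A₂ F := by
  have h' : (algebraMap A₁ F).fieldRange = (algebraMap A₂ F).fieldRange := by
    ext x
    exact h x
  rw [hkd_finrank_fieldRange (A := A₁), hkd_finrank_fieldRange (A := A₂), h']

/-! ### the degrees of the two degeneracy maps -/

section degree

variable (M ℓ : ℕ) [NeZero M] [NeZero ℓ]

theorem hkd_alpha_jBar :
    heckeAlphaBar (AlgebraicClosure ℚ) M ℓ (jBar M) = jBar (M * ℓ) :=
  Subtype.ext rfl

/-- `[F_{Mℓ} : α F_M] · ψ(M) = ψ(Mℓ)`. -/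
theorem hkd_finrankAlong_alpha_mul :
    dedekindPsi M * finrankAlong (AlgebraicClosure ℚ) (heckeAlphaBar (AlgebraicClosure ℚ) M ℓ)
      = dedekindPsi (M * ℓ) := by
  letI := algebraAlong (heckeAlphaBar (AlgebraicClosure ℚ) M ℓ)
  letI algJ : Algebra (AlgebraicClosure ℚ)⟮jBar M⟯ ↥(modularFunctionFieldBar (M * ℓ)) :=
    ((algebraMap ↥(modularFunctionFieldBar M) ↥(modularFunctionFieldBar (M * ℓ))).comp
      (algebraMap (AlgebraicClosure ℚ)⟮jBar M⟯ ↥(modularFunctionFieldBar M))).toAlgebra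
  haveI : IsScalarTower (AlgebraicClosure ℚ)⟮jBar M⟯ ↥(modularFunctionFieldBar M)
      ↥(modularFunctionFieldBar (M * ℓ)) := IsScalarTower.of_algebraMap_eq fun _ => rfl
  haveI : Module.Free (AlgebraicClosure ℚ)⟮jBar M⟯ ↥(modularFunctionFieldBar M) :=
    Module.Free.of_divisionRing _ _
  haveI : Module.Free ↥(modularFunctionFieldBar M) ↥(modularFunctionFieldBar (M * ℓ)) :=
    Module.Free.of_divisionRing _ _
  have h1 := Module.finrank_mul_finrank (AlgebraicClosure ℚ)⟮jBar M⟯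
    ↥(modularFunctionFieldBar M) ↥(modularFunctionFieldBar (M * ℓ))
  have h2 : Module.finrank (AlgebraicClosure ℚ)⟮jBar M⟯ ↥(modularFunctionFieldBar (M * ℓ))
      = Module.finrank (AlgebraicClosure ℚ)⟮jBar (M * ℓ)⟯
          ↥(modularFunctionFieldBar (M * ℓ)) := by
    apply hkd_finrank_eq_of_range
    intro y
    have hmap : (AlgebraicClosure ℚ)⟮jBar M⟯.map (heckeAlphaBar (AlgebraicClosure ℚ) M ℓ)
        = (AlgebraicClosure ℚ)⟮jBar (M * ℓ)⟯ := by
      rw [IntermediateField.adjoin_map, Set.image_singleton, hkd_alpha_jBar]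
    constructor
    · rintro ⟨a, rfl⟩
      have ha : heckeAlphaBar (AlgebraicClosure ℚ) M ℓ (a : ↥(modularFunctionFieldBar M)) ∈
          (AlgebraicClosure ℚ)⟮jBar (M * ℓ)⟯ := by
        rw [← hmap]
        exact ⟨a, a.2, rfl⟩
      exact ⟨⟨_, ha⟩, rfl⟩
    · rintro ⟨b, rfl⟩
      have hb : (b : ↥(modularFunctionFieldBar (M * ℓ))) ∈
          (AlgebraicClosure ℚ)⟮jBar M⟯.map (heckeAlphaBar (AlgebraicClosure ℚ) M ℓ) := by
        rw [hmap]
        exact b.2
      obtain ⟨a, ha, hab⟩ := hb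
      exact ⟨⟨a, ha⟩, hab⟩
  rw [hkd_finrank_jBar M, h2, hkd_finrank_jBar (M * ℓ)] at h1
  exact h1

variable {ℓ} in
theorem hkd_finrankAlong_alpha (hℓ : ℓ.Prime) (hM : ¬ ℓ ∣ M) :
    finrankAlong (AlgebraicClosure ℚ) (heckeAlphaBar (AlgebraicClosure ℚ) M ℓ) = ℓ + 1 := by
  have h := hkd_finrankAlong_alpha_mul M ℓ
  have hψ : dedekindPsi (M * ℓ) = (ℓ + 1) * dedekindPsi M := by
    rw [mul_comm M ℓ]
    exact dedekindPsi_mul_of_not_dvd hℓ (NeZero.pos M) hM
  rw [hψ, mul_comm] at h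
  exact Nat.eq_of_mul_eq_mul_right (dedekindPsi_pos M (NeZero.ne M)) h

/-- the swap as a ring automorphism. -/
noncomputable def hkdSwap {ℓ : ℕ} [NeZero ℓ] (hℓ : ℓ.Prime) (hM : ¬ ℓ ∣ M) :
    ↥(modularFunctionFieldBar (M * ℓ)) ≃+* ↥(modularFunctionFieldBar (M * ℓ)) :=
  RingEquiv.ofRingHom (swp M ℓ hℓ hM) (swp M ℓ hℓ hM)
    (RingHom.ext fun x => swp_swp M ℓ hℓ hM x) (RingHom.ext fun x => swp_swp M ℓ hℓ hM x)

variable {ℓ} in
theorem hkd_finrankAlong_beta (hℓ : ℓ.Prime) (hM : ¬ ℓ ∣ M) :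
    finrankAlong (AlgebraicClosure ℚ) (heckeBetaBar (AlgebraicClosure ℚ) M ℓ) = ℓ + 1 := by
  rw [← hkd_finrankAlong_alpha M hℓ hM]
  symm
  exact @Algebra.finrank_eq_of_equiv_equiv ↥(modularFunctionFieldBar M)
    ↥(modularFunctionFieldBar (M * ℓ)) _ _
    (algebraAlong (heckeAlphaBar (AlgebraicClosure ℚ) M ℓ))
    ↥(modularFunctionFieldBar M) ↥(modularFunctionFieldBar (M * ℓ)) _ _
    (algebraAlong (heckeBetaBar (AlgebraicClosure ℚ) M ℓ))
    (RingEquiv.refl _) (hkdSwap M hℓ hM)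
    (RingHom.ext fun x => (swp_alpha M ℓ hℓ hM x).symm)

end degree

/-! ### positivity of pullback and pushforward -/

section positivity

variable {K F F' : Type*} [Field K] [Field F] [Field F'] [Algebra K F] [Algebra K F']

theorem hkd_pullbackAlong_nonneg [HasPrincipalDivisors K F'] (φ : F →ₐ[K] F')
    (hφ : φ.toRingHom.IsIntegral) (D : Divisor K F) (hD : ∀ P, 0 ≤ D P) (w : Place K F') :
    0 ≤ Divisor.pullbackAlong φ hφ D w := by
  rw [Divisor.pullbackAlong_apply]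
  exact mul_nonneg (Int.natCast_nonneg _) (hD _)

theorem hkd_pushforwardAlong_nonneg (ψ : F →ₐ[K] F') (hψ : ψ.toRingHom.IsIntegral)
    (D : Divisor K F') (hD : ∀ w, 0 ≤ D w) (v : Place K F) :
    0 ≤ Divisor.pushforwardAlong ψ hψ D v := by
  classical
  letI := algebraAlong ψ
  haveI := isScalarTower_along ψ
  haveI := isIntegral_along ψ hψ
  show 0 ≤ Divisor.pushforward F D v
  rw [Divisor.pushforward_apply]
  refine Finset.sum_nonneg fun w _ => ?_
  split_ifs
  · exact mul_nonneg (hD w) (Int.natCast_nonneg _)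
  · exact le_rfl

theorem hkd_correspondence_nonneg [HasPrincipalDivisors K F'] (φ ψ : F →ₐ[K] F')
    (hφ : φ.toRingHom.IsIntegral) (hψ : ψ.toRingHom.IsIntegral)
    (D : Divisor K F) (hD : ∀ P, 0 ≤ D P) (v : Place K F) :
    0 ≤ Divisor.correspondence φ ψ hφ hψ D v :=
  hkd_pushforwardAlong_nonneg ψ hψ _ (hkd_pullbackAlong_nonneg φ hφ D hD) v

end positivity

/-! ### the Hecke correspondence on divisors -/

instance hkd_instHasPrincipalDivisors (N : ℕ) [NeZero N] :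
    HasPrincipalDivisors (AlgebraicClosure ℚ) ↥(modularFunctionFieldBar N) :=
  hki_hasPrincipalDivisors N

section hecke

variable (M ℓ : ℕ) [NeZero M] [NeZero ℓ]

theorem hkd_alpha_isIntegral :
    (heckeAlphaBar (AlgebraicClosure ℚ) M ℓ).toRingHom.IsIntegral :=
  hki_isIntegral M (M * ℓ) (heckeAlphaBar (AlgebraicClosure ℚ) M ℓ)

theorem hkd_beta_isIntegral :
    (heckeBetaBar (AlgebraicClosure ℚ) M ℓ).toRingHom.IsIntegral :=
  hki_isIntegral M (M * ℓ) (heckeBetaBar (AlgebraicClosure ℚ) M ℓ)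

/-- The Hecke correspondence `T_ℓ = α_* β^*` on the divisors of `F_M`. -/
noncomputable def hkdT : Divisor (AlgebraicClosure ℚ) ↥(modularFunctionFieldBar M) →+
    Divisor (AlgebraicClosure ℚ) ↥(modularFunctionFieldBar M) :=
  heckeDivBar (hkd_alpha_isIntegral M ℓ) (hkd_beta_isIntegral M ℓ)

/-- `hkdT` is the Prelude's `heckeDivBar`, for any choice of the proofs. -/
theorem hkdT_eq (hα : HeckeAlphaBarIntegral (AlgebraicClosure ℚ) M ℓ)
    (hβ : HeckeBetaBarIntegral (AlgebraicClosure ℚ) M ℓ)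
    [HasPrincipalDivisors (AlgebraicClosure ℚ)
      (laurentBaseChange (AlgebraicClosure ℚ) (modularFunctionFieldFull (M * ℓ)))] :
    heckeDivBar hα hβ = hkdT M ℓ := rfl

theorem hkdT_apply (D : Divisor (AlgebraicClosure ℚ) ↥(modularFunctionFieldBar M)) :
    hkdT M ℓ D = Divisor.pushforwardAlong (heckeAlphaBar (AlgebraicClosure ℚ) M ℓ)
      (hkd_alpha_isIntegral M ℓ)
      (Divisor.pullbackAlong (heckeBetaBar (AlgebraicClosure ℚ) M ℓ) (hkd_beta_isIntegral M ℓ) D) :=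
  rfl

/-- `T` maps effective divisors to effective divisors. -/
theorem hkdT_nonneg (D : Divisor (AlgebraicClosure ℚ) ↥(modularFunctionFieldBar M))
    (hD : ∀ P, 0 ≤ D P) (v : Place (AlgebraicClosure ℚ) ↥(modularFunctionFieldBar M)) :
    0 ≤ hkdT M ℓ D v :=
  hkd_correspondence_nonneg _ _ _ _ D hD v

variable {ℓ} in
/-- `deg (T D) = (ℓ + 1) deg D`. -/
theorem hkdT_degree (hℓ : ℓ.Prime) (hM : ¬ ℓ ∣ M)
    (D : Divisor (AlgebraicClosure ℚ) ↥(modularFunctionFieldBar M)) :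
    Divisor.degree (hkdT M ℓ D) = ((ℓ : ℤ) + 1) * Divisor.degree D := by
  have h := Divisor.degree_correspondence (heckeBetaBar (AlgebraicClosure ℚ) M ℓ)
    (heckeAlphaBar (AlgebraicClosure ℚ) M ℓ) (hkd_beta_isIntegral M ℓ) (hkd_alpha_isIntegral M ℓ)
    (hki_fundamentalIdentityAlong M (M * ℓ) _ (hkd_beta_isIntegral M ℓ)) D
  rw [hkd_finrankAlong_beta M hℓ hM] at h
  push_cast at h
  exact h

theorem hkdT_mem_degZero {D : Divisor (AlgebraicClosure ℚ) ↥(modularFunctionFieldBar M)}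
    (hD : D ∈ Divisor.degZero (K := AlgebraicClosure ℚ) (F := ↥(modularFunctionFieldBar M))) :
    hkdT M ℓ D ∈ Divisor.degZero (K := AlgebraicClosure ℚ) (F := ↥(modularFunctionFieldBar M)) :=
  Divisor.correspondence_mem_degZero _ _ _ _
    (hki_fundamentalIdentityAlong M (M * ℓ) _ (hkd_beta_isIntegral M ℓ)) hD

/-- the norm from `F_{Mℓ}` to `F_M` along `α`. -/
noncomputable def hkdNorm : ↥(modularFunctionFieldBar (M * ℓ)) →* ↥(modularFunctionFieldBar M) :=
  letI := algebraAlong (heckeAlphaBar (AlgebraicClosure ℚ) M ℓ)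
  Algebra.norm ↥(modularFunctionFieldBar M)

theorem hkdNorm_ne_zero {y : ↥(modularFunctionFieldBar (M * ℓ))} (hy : y ≠ 0) :
    hkdNorm M ℓ y ≠ 0 := by
  letI := algebraAlong (heckeAlphaBar (AlgebraicClosure ℚ) M ℓ)
  haveI : Module.Finite ↥(modularFunctionFieldBar M) ↥(modularFunctionFieldBar (M * ℓ)) :=
    hki_finiteAlong M (M * ℓ) _
  haveI : Module.Free ↥(modularFunctionFieldBar M) ↥(modularFunctionFieldBar (M * ℓ)) :=
    Module.Free.of_divisionRing _ _
  show Algebra.norm ↥(modularFunctionFieldBar M) y ≠ 0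
  rw [Ne, Algebra.norm_eq_zero_iff]
  exact hy

/-- `β^* (div g) = div (β g)`. -/
theorem hkd_pullback_beta_principal (g : ↥(modularFunctionFieldBar M))
    (D : Divisor (AlgebraicClosure ℚ) ↥(modularFunctionFieldBar M)) (hD : ∀ P, D P = P.ord g)
    (w : Place (AlgebraicClosure ℚ) ↥(modularFunctionFieldBar (M * ℓ))) :
    Divisor.pullbackAlong (heckeBetaBar (AlgebraicClosure ℚ) M ℓ) (hkd_beta_isIntegral M ℓ) D w
      = w.ord (heckeBetaBar (AlgebraicClosure ℚ) M ℓ g) := by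
  rw [Divisor.pullbackAlong_apply, hD, ← Place.ord_restrictAlong]

/-- `T (div g) = div (N_α (β g))`. -/
theorem hkdT_principal (g : ↥(modularFunctionFieldBar M)) (hg : g ≠ 0)
    (D : Divisor (AlgebraicClosure ℚ) ↥(modularFunctionFieldBar M)) (hD : ∀ P, D P = P.ord g)
    (v : Place (AlgebraicClosure ℚ) ↥(modularFunctionFieldBar M)) :
    hkdT M ℓ D v = v.ord (hkdNorm M ℓ (heckeBetaBar (AlgebraicClosure ℚ) M ℓ g)) := by
  have hβg : heckeBetaBar (AlgebraicClosure ℚ) M ℓ g ≠ 0 := by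
    rw [Ne, map_eq_zero]; exact hg
  exact hki_normFormulaAlong M (M * ℓ) (heckeAlphaBar (AlgebraicClosure ℚ) M ℓ)
    (hki_finiteAlong M (M * ℓ) _) _ hβg _ (hkd_pullback_beta_principal M ℓ g D hD) v

end hecke

/-- all inertia degrees are `1`. -/
theorem hkd_inertiaDegAlong (N M : ℕ) [NeZero N] [NeZero M]
    (φ : ↥(modularFunctionFieldBar N) →ₐ[AlgebraicClosure ℚ] ↥(modularFunctionFieldBar M))
    (hφ : φ.toRingHom.IsIntegral)
    (w : Place (AlgebraicClosure ℚ) ↥(modularFunctionFieldBar M)) :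
    w.inertiaDegAlong φ hφ = 1 := by
  letI := algebraAlong φ
  haveI := isScalarTower_along φ
  haveI : Module.Finite ↥(modularFunctionFieldBar N) ↥(modularFunctionFieldBar M) :=
    hki_finiteAlong N M φ
  exact hki_inertiaDeg (hki_residue N) (hki_residue M) w

section hecke2

variable (M ℓ : ℕ) [NeZero M] [NeZero ℓ]

/-- `T (P) = ∑_{w ∣_β P} e_β(w) · (w ∣_α)`. -/
theorem hkdT_single (P : Place (AlgebraicClosure ℚ) ↥(modularFunctionFieldBar M)) :
    hkdT M ℓ (Finsupp.single P 1) =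
      ∑ w ∈ Place.fiberAlong (heckeBetaBar (AlgebraicClosure ℚ) M ℓ) (hkd_beta_isIntegral M ℓ) P,
        Finsupp.single
          (w.restrictAlong (heckeAlphaBar (AlgebraicClosure ℚ) M ℓ) (hkd_alpha_isIntegral M ℓ))
          ((w.ramificationIndexAlong (heckeBetaBar (AlgebraicClosure ℚ) M ℓ) : ℕ) : ℤ) := by
  rw [hkdT_apply, Divisor.pullbackAlong_single, map_sum]
  refine Finset.sum_congr rfl fun w _ => ?_
  rw [Divisor.pushforwardAlong_single, hkd_inertiaDegAlong, Nat.cast_one, mul_one, one_mul]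

/-- the norm from `F_{Mℓ}` to `F_M` along `β`. -/
noncomputable def hkdNormBeta :
    ↥(modularFunctionFieldBar (M * ℓ)) →* ↥(modularFunctionFieldBar M) :=
  letI := algebraAlong (heckeBetaBar (AlgebraicClosure ℚ) M ℓ)
  Algebra.norm ↥(modularFunctionFieldBar M)

variable {ℓ} in
/-- the swap exchanges the two norms: `N_α (w y) = N_β y`. -/
theorem hkdNorm_swp (hℓ : ℓ.Prime) (hM : ¬ ℓ ∣ M) (y : ↥(modularFunctionFieldBar (M * ℓ))) :
    hkdNorm M ℓ (swp M ℓ hℓ hM y) = hkdNormBeta M ℓ y := by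
  have h := @Algebra.norm_eq_of_equiv_equiv ↥(modularFunctionFieldBar M)
    ↥(modularFunctionFieldBar (M * ℓ)) ↥(modularFunctionFieldBar M)
    ↥(modularFunctionFieldBar (M * ℓ)) _ _ _ _
    (algebraAlong (heckeBetaBar (AlgebraicClosure ℚ) M ℓ))
    (algebraAlong (heckeAlphaBar (AlgebraicClosure ℚ) M ℓ))
    (RingEquiv.refl _) (hkdSwap M hℓ hM)
    (RingHom.ext fun x => (swp_beta M ℓ hℓ hM x).symm) y
  exact h.symm

variable {ℓ} in
/-- `N_α (β g) = N_β (α g)`: the two descriptions of `T_* g`. -/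
theorem hkdNorm_beta_eq (hℓ : ℓ.Prime) (hM : ¬ ℓ ∣ M) (g : ↥(modularFunctionFieldBar M)) :
    hkdNorm M ℓ (heckeBetaBar (AlgebraicClosure ℚ) M ℓ g) =
      hkdNormBeta M ℓ (heckeAlphaBar (AlgebraicClosure ℚ) M ℓ g) := by
  rw [← hkdNorm_swp M hℓ hM, swp_alpha]

end hecke2

/-- The Prelude Hecke operator on `J₀(M) = Pic⁰` is induced by `hkdT` on divisors. -/
theorem hkd_heckeOperatorBar_mk (M : ℕ) [NeZero M] (ℓ : Nat.Primes)
    (D : Divisor.degZero (K := AlgebraicClosure ℚ) (F := ↥(modularFunctionFieldBar M))) :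
    heckeOperatorBar M ℓ (Pic0.mk D) =
      Pic0.mk ⟨@hkdT M (ℓ : ℕ) _ ⟨ℓ.2.ne_zero⟩ (D : Divisor _ _),
        @hkdT_mem_degZero M (ℓ : ℕ) _ ⟨ℓ.2.ne_zero⟩ _ D.2⟩ := by
  haveI : NeZero (ℓ : ℕ) := ⟨ℓ.2.ne_zero⟩
  rw [heckeOperatorBar_apply, heckeOperatorAlong_eq (hkd_alpha_isIntegral M ℓ)
    (hkd_beta_isIntegral M ℓ) (hki_fundamentalIdentityAlong M (M * ℓ) _ _)
    (hki_finiteAlong M (M * ℓ) _) (hki_normFormulaAlong M (M * ℓ) _ _)]
  rfl

end Fermat.Agent.S37
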