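import Mathlib
import Fermat.Agent.S18.GaussTower
import Fermat.Agent.S37.JRingDefs

/-!
# S37, package JR-INT: integrality over `A[t]` and the Gauss valuation ring

Setting of `GaussMain`: `(K, A)` arbitrary, level `M`, `ℓ ∤ M`, `F` the level-`M` function field
over `K`, `V = grO` the Gauss valuation ring.  For a coordinate `t ∈ V` with transcendental
residue and `j ∈ K(t)` (e.g. `t = j` or `t = j⁻¹`):

* `jriPoly A t : A[X] →+* F` (`X ↦ t`); "`x` is integral over `A[t]`" is
  `(jriPoly A t).IsIntegralElem x` (adapters to `IsIntegral R x` for subrings `R` of `F`: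
  `jri_isIntegral_of_range_le`, `jri_isIntegralElem_of_le_range`, `jri_range_eq_closure`);
* `jri_poly_mem`: `K[t] ∩ V = A[t]` (Gauss lemma);
* `jri_isIntegral`: an element of `V` integral over `K[t]` is integral over `A[t]`;
* `jri_mem`: elements integral over `A[t]` lie in `V`;
* `jri_int`: (INT) an element integral over `A[t]` with Gauss residue zero is `c · x'` with
  `c ∈ 𝔪_A` and `x'` integral over `A[t]`;
* `JriZ A t x` (there is `s ∈ A[X]` with unit constant coefficient such that `s(t) · x` is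
  integral over `A[t]`, i.e. `x` is integral over the localisation of `A[t]` at `(𝔪_A, t)`),
  `jri_int_Z`, `jri_mem_Z`: the same for the localised ring;
* the instances `t = j` (`jri_int_j`, ...) and `t = j⁻¹` (`jri_int_jinv`, ...).

Names are prefixed `jri` / `Jri`.
-/

set_option autoImplicit false

noncomputable section

open ModularCurve Polynomial
open scoped IntermediateField
open scoped IntermediateField.algebraAdjoinAdjoin

namespace Fermat.Agent.S37

open Fermat.Agent.S18 Fermat.Agent.S28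

/-! ### Abstract part -/

section Abstract

variable {K F : Type*} [Field K] [Field F] [Algebra K F]

/-- The ring hom `A[X] → F`, `X ↦ t`; its range is `A[t]`. -/
def jriPoly (A : ValuationSubring K) (t : F) : (↥A)[X] →+* F :=
  ((aeval t : K[X] →ₐ[K] F) : K[X] →+* F).comp (mapRingHom A.subtype)

theorem jriPoly_apply (A : ValuationSubring K) (t : F) (p : (↥A)[X]) :
    jriPoly A t p = aeval t (p.map A.subtype) := rfl

theorem jriPoly_C (A : ValuationSubring K) (t : F) (a : ↥A) :
    jriPoly A t (C a) = algebraMap K F (a : K) := by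
  rw [jriPoly_apply, Polynomial.map_C, aeval_C]
  rfl

theorem jriPoly_X (A : ValuationSubring K) (t : F) : jriPoly A t X = t := by
  rw [jriPoly_apply, Polynomial.map_X, aeval_X]

/-- Integrality with respect to a ring hom gives integrality over any subring containing its
range. -/
theorem jri_isIntegral_of_range_le {S : Type*} [CommRing S] (f : S →+* F) (R : Subring F)
    (h : f.range ≤ R) {x : F} (hx : f.IsIntegralElem x) : IsIntegral R x := by
  obtain ⟨p, hp, hpx⟩ := hx
  let g : S →+* R := f.codRestrict R (fun s => h ⟨s, rfl⟩)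
  refine ⟨p.map g, hp.map g, ?_⟩
  rw [eval₂_map]
  have e : (algebraMap R F).comp g = f := RingHom.ext fun _ => rfl
  rw [e]
  exact hpx

/-- Integrality over a subring contained in the range of a ring hom gives integrality with
respect to the ring hom. -/
theorem jri_isIntegralElem_of_le_range {S : Type*} [CommRing S] (f : S →+* F) (R : Subring F)
    (h : R ≤ f.range) {x : F} (hx : IsIntegral R x) : f.IsIntegralElem x := by
  obtain ⟨p, hp, hpx⟩ := hx
  have hl : p.map (algebraMap R F) ∈ Polynomial.lifts f := by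
    rw [Polynomial.lifts_iff_coeff_lifts]
    intro n
    rw [coeff_map]
    exact h (p.coeff n).2
  obtain ⟨q, hq, -, hqm⟩ := Polynomial.lifts_and_natDegree_eq_and_monic hl (hp.map _)
  refine ⟨q, hqm, ?_⟩
  rw [← eval_map, hq, eval_map]
  exact hpx

/-- `A[t]` is the subring generated by `A` and `t`. -/
theorem jri_range_eq_closure (A : ValuationSubring K) (t : F) :
    (jriPoly A t).range =
      Subring.closure (Set.range (fun a : A => algebraMap K F (a : K)) ∪ {t}) := by
  have ht : t ∈ Subring.closure (Set.range (fun a : A => algebraMap K F (a : K)) ∪ {t}) :=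
    Subring.subset_closure (Or.inr rfl)
  have ha : ∀ a : A, algebraMap K F (a : K) ∈
      Subring.closure (Set.range (fun a : A => algebraMap K F (a : K)) ∪ {t}) :=
    fun a => Subring.subset_closure (Or.inl ⟨a, rfl⟩)
  apply le_antisymm
  · rintro _ ⟨p, rfl⟩
    rw [jriPoly_apply, aeval_eq_sum_range]
    refine Subring.sum_mem _ fun i _ => ?_
    rw [Algebra.smul_def, coeff_map]
    exact Subring.mul_mem _ (ha (p.coeff i)) (Subring.pow_mem _ ht _)
  · rw [Subring.closure_le]
    rintro x (⟨a, rfl⟩ | hx)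
    · exact ⟨C a, jriPoly_C A t a⟩
    · rw [Set.mem_singleton_iff] at hx
      rw [hx]
      exact ⟨X, jriPoly_X A t⟩

/-- `A[t] ⊆ O` as soon as `A ⊆ O` and `t ∈ O`. -/
theorem jri_poly_mem_abs (A : ValuationSubring K) (O : ValuationSubring F)
    (hAO : ∀ a : A, algebraMap K F (a : K) ∈ O) (t : F) (htO : t ∈ O) (p : (↥A)[X]) :
    jriPoly A t p ∈ O := by
  rw [jriPoly_apply, aeval_eq_sum_range]
  refine O.toSubring.sum_mem fun i _ => ?_
  rw [Algebra.smul_def, coeff_map]
  exact O.mul_mem _ _ (hAO _) (pow_mem htO _)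

/-- Elements integral over `A[t]` lie in every valuation ring containing `A` and `t`. -/
theorem jri_mem_abs (A : ValuationSubring K) (O : ValuationSubring F)
    (hAO : ∀ a : A, algebraMap K F (a : K) ∈ O) (t : F) (htO : t ∈ O) {x : F}
    (hx : (jriPoly A t).IsIntegralElem x) : x ∈ O := by
  let _ : Algebra (↥A)[X] F := (jriPoly A t).toAlgebra
  exact valext_mem_of_isIntegral O (S := (↥A)[X])
    (fun s => jri_poly_mem_abs A O hAO t htO s) x hx

/-- The ring hom `A[X] → K[t]`. -/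
def jriToAdjoin (A : ValuationSubring K) (t : F) : (↥A)[X] →+* ↥(Algebra.adjoin K {t}) :=
  (jriPoly A t).codRestrict (Algebra.adjoin K {t}) (fun p => by
    rw [Algebra.adjoin_singleton_eq_range_aeval]
    exact ⟨p.map A.subtype, rfl⟩)

theorem jriToAdjoin_coe (A : ValuationSubring K) (t : F) (p : (↥A)[X]) :
    ((jriToAdjoin A t p : ↥(Algebra.adjoin K {t})) : F) = jriPoly A t p := rfl

/-- Integral over `A[t]` implies integral over `K[t]`. -/
theorem jri_isIntegral_adjoin (A : ValuationSubring K) (t : F) {x : F}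
    (hx : (jriPoly A t).IsIntegralElem x) : IsIntegral (Algebra.adjoin K {t}) x := by
  obtain ⟨p, hp, hpx⟩ := hx
  refine ⟨p.map (jriToAdjoin A t), hp.map _, ?_⟩
  rw [eval₂_map]
  have e : (algebraMap ↥(Algebra.adjoin K {t}) F).comp (jriToAdjoin A t) = jriPoly A t :=
    RingHom.ext fun _ => rfl
  rw [e]
  exact hpx

/-- The integrality lemma, abstract form: if `O` is the unique valuation subring of `F` with its
trace on `K(t)`, `F / K(t)` is algebraic, and `K[t] ∩ O = A[t]`, then an element of `O` integral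
over `K[t]` is integral over `A[t]`. -/
theorem jri_isIntegral_abs (A : ValuationSubring K) (O : ValuationSubring F) (t : F)
    (ht : Transcendental K t) (halg : Algebra.IsAlgebraic ↥K⟮t⟯ F)
    (huniq : ∀ O' : ValuationSubring F,
      (∀ y : ↥K⟮t⟯, algebraMap ↥K⟮t⟯ F y ∈ O' ↔ algebraMap ↥K⟮t⟯ F y ∈ O) → O' = O)
    (hG : ∀ P : K[X], aeval t P ∈ O → ∃ P₀ : (↥A)[X], P₀.map A.subtype = P)
    {x : F} (hx : x ∈ O) (hint : IsIntegral (Algebra.adjoin K {t}) x) :
    (jriPoly A t).IsIntegralElem x := by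
  have : IsIntegrallyClosed ↥(Algebra.adjoin K {t}) :=
    IsIntegrallyClosed.of_equiv (Polynomial.algEquivOfTranscendental K t ht).toRingEquiv
  let _ : Algebra (↥A)[X] ↥(Algebra.adjoin K {t}) := (jriToAdjoin A t).toAlgebra
  let _ : Algebra (↥A)[X] F := (jriPoly A t).toAlgebra
  have : IsScalarTower (↥A)[X] ↥(Algebra.adjoin K {t}) F :=
    IsScalarTower.of_algebraMap_eq (fun p => rfl)
  refine valext_integral (R := ↥(Algebra.adjoin K {t})) (L := ↥K⟮t⟯) O huniq
    (R₀ := (↥A)[X]) ?_ x hx hint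
  intro r hr
  have hr' : (r : F) ∈ (aeval t : K[X] →ₐ[K] F).range := by
    rw [← Algebra.adjoin_singleton_eq_range_aeval]
    exact r.2
  obtain ⟨P, hP⟩ := hr'
  have hP' : aeval t P = (r : F) := hP
  obtain ⟨P₀, rfl⟩ := hG P (by rw [hP']; exact hr)
  exact ⟨P₀, Subtype.ext hP'⟩

/-- (INT), abstract form. -/
theorem jri_int_abs (A : ValuationSubring K) (O : ValuationSubring F) (t : F)
    (ht : Transcendental K t) (halg : Algebra.IsAlgebraic ↥K⟮t⟯ F)
    (huniq : ∀ O' : ValuationSubring F,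
      (∀ y : ↥K⟮t⟯, algebraMap ↥K⟮t⟯ F y ∈ O' ↔ algebraMap ↥K⟮t⟯ F y ∈ O) → O' = O)
    (hG : ∀ P : K[X], aeval t P ∈ O → ∃ P₀ : (↥A)[X], P₀.map A.subtype = P)
    (hdec : ∀ x ∈ O.nonunits, ∃ (c : ↥A) (x' : F), IsLocalRing.residue A c = 0 ∧ x' ∈ O ∧
      x = algebraMap K F (c : K) * x')
    {x : F} (hxint : (jriPoly A t).IsIntegralElem x) (hx : x ∈ O.nonunits) :
    ∃ (c : ↥A) (x' : F), IsLocalRing.residue A c = 0 ∧ (jriPoly A t).IsIntegralElem x' ∧
      x = algebraMap K F (c : K) * x' := by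
  obtain ⟨c, x', hc, hx'O, rfl⟩ := hdec x hx
  by_cases hc0 : (c : K) = 0
  · refine ⟨0, 0, map_zero _, ⟨X, monic_X, ?_⟩, ?_⟩
    · rw [eval₂_X]
    · rw [hc0, map_zero, zero_mul, mul_zero]
  · refine ⟨c, x', hc, jri_isIntegral_abs A O t ht halg huniq hG hx'O ?_, rfl⟩
    have h1 := jri_isIntegral_adjoin A t hxint
    have h2 : IsIntegral ↥(Algebra.adjoin K {t}) (algebraMap K F (c : K)⁻¹) := by
      have e : algebraMap K F (c : K)⁻¹ = algebraMap ↥(Algebra.adjoin K {t}) F
          (algebraMap K ↥(Algebra.adjoin K {t}) (c : K)⁻¹) := rfl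
      rw [e]
      exact isIntegral_algebraMap
    have h3 := h2.mul h1
    rwa [← mul_assoc, ← map_mul, inv_mul_cancel₀ hc0, map_one, one_mul] at h3

/-- `x` is integral over the localisation of `A[t]` at the elements `s(t)`, `s ∈ A[X]` with unit
constant coefficient: some `s(t) · x` is integral over `A[t]`. -/
def JriZ (A : ValuationSubring K) (t : F) (x : F) : Prop :=
  ∃ s : (↥A)[X], IsUnit (s.coeff 0) ∧ (jriPoly A t).IsIntegralElem (jriPoly A t s * x)

theorem jriZ_iff (A : ValuationSubring K) (t : F) (x : F) :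
    JriZ A t x ↔ ∃ s : (↥A)[X], IsUnit (s.coeff 0) ∧
      (jriPoly A t).IsIntegralElem (jriPoly A t s * x) := Iff.rfl

/-- Elements integral over `A[t]` satisfy `JriZ`. -/
theorem jriZ_of_isIntegralElem (A : ValuationSubring K) (t : F) {x : F}
    (hx : (jriPoly A t).IsIntegralElem x) : JriZ A t x := by
  refine ⟨1, ?_, ?_⟩
  · rw [coeff_one_zero]
    exact isUnit_one
  · rwa [map_one, one_mul]

theorem jri_unit_ne_zero (A : ValuationSubring K) (t : F) (ht : Transcendental K t)
    (s : (↥A)[X]) (hs : IsUnit (s.coeff 0)) : jriPoly A t s ≠ 0 := by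
  rw [jriPoly_apply]
  intro h0
  have h1 := transcendental_iff.mp ht _ h0
  have h2 := congrArg (fun p : K[X] => p.coeff 0) h1
  simp only [coeff_map, coeff_zero] at h2
  have h3 : s.coeff 0 = 0 := Subtype.ext h2
  rw [h3] at hs
  exact not_isUnit_zero hs

/-- (INT) for the localised ring, abstract form. -/
theorem jri_int_Z_abs (A : ValuationSubring K) (O : ValuationSubring F) (t : F)
    (ht : Transcendental K t) (halg : Algebra.IsAlgebraic ↥K⟮t⟯ F)
    (huniq : ∀ O' : ValuationSubring F,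
      (∀ y : ↥K⟮t⟯, algebraMap ↥K⟮t⟯ F y ∈ O' ↔ algebraMap ↥K⟮t⟯ F y ∈ O) → O' = O)
    (hG : ∀ P : K[X], aeval t P ∈ O → ∃ P₀ : (↥A)[X], P₀.map A.subtype = P)
    (hdec : ∀ x ∈ O.nonunits, ∃ (c : ↥A) (x' : F), IsLocalRing.residue A c = 0 ∧ x' ∈ O ∧
      x = algebraMap K F (c : K) * x')
    (hAO : ∀ a : A, algebraMap K F (a : K) ∈ O) (htO : t ∈ O)
    {x : F} (hxint : JriZ A t x) (hx : x ∈ O.nonunits) :
    ∃ (c : ↥A) (x' : F), IsLocalRing.residue A c = 0 ∧ JriZ A t x' ∧
      x = algebraMap K F (c : K) * x' := by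
  obtain ⟨s, hs, hsx⟩ := hxint
  have hsO : jriPoly A t s ∈ O := jri_poly_mem_abs A O hAO t htO s
  have hs0 : jriPoly A t s ≠ 0 := jri_unit_ne_zero A t ht s hs
  have hn : jriPoly A t s * x ∈ O.nonunits := by
    rw [ValuationSubring.mem_nonunits_iff] at hx ⊢
    rw [map_mul]
    calc O.valuation (jriPoly A t s) * O.valuation x ≤ 1 * O.valuation x :=
          mul_le_mul' ((ValuationSubring.valuation_le_one_iff _ _).mpr hsO) le_rfl
      _ < 1 := by rw [one_mul]; exact hx
  obtain ⟨c, x₁, hc, hx₁, he⟩ := jri_int_abs A O t ht halg huniq hG hdec hsx hn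
  refine ⟨c, (jriPoly A t s)⁻¹ * x₁, hc, ⟨s, hs, ?_⟩, ?_⟩
  · rw [← mul_assoc, mul_inv_cancel₀ hs0, one_mul]
    exact hx₁
  · have e : x = (jriPoly A t s)⁻¹ * (jriPoly A t s * x) := by
      rw [← mul_assoc, inv_mul_cancel₀ hs0, one_mul]
    rw [e, he]
    ring

/-- Elements with `JriZ` lie in `O` provided the `s(t)` are units of `O`. -/
theorem jri_mem_Z_abs (A : ValuationSubring K) (O : ValuationSubring F)
    (hAO : ∀ a : A, algebraMap K F (a : K) ∈ O) (t : F) (htO : t ∈ O)
    (hunit : ∀ s : (↥A)[X], IsUnit (s.coeff 0) → (jriPoly A t s)⁻¹ ∈ O)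
    (ht0 : ∀ s : (↥A)[X], IsUnit (s.coeff 0) → jriPoly A t s ≠ 0)
    {x : F} (hx : JriZ A t x) : x ∈ O := by
  obtain ⟨s, hs, hsx⟩ := hx
  have h1 := jri_mem_abs A O hAO t htO hsx
  have e : x = (jriPoly A t s)⁻¹ * (jriPoly A t s * x) := by
    rw [← mul_assoc, inv_mul_cancel₀ (ht0 s hs), one_mul]
  rw [e]
  exact O.mul_mem _ _ (hunit s hs) h1

end Abstract

/-! ### The Gauss valuation ring -/

section Gauss

variable {K : Type*} [Field K] [Algebra ℚ K] (A : ValuationSubring K) {ℓ : ℕ} [Fact ℓ.Prime]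
  (hA : A.LiesOverPrime ℓ) (M : ℕ) [NeZero M] (hℓM : ¬ ℓ ∣ M)

omit [NeZero M] in
theorem jri_coe_aeval (t : ↥(laurentBaseChange K (modularFunctionFieldFull M))) (P : K[X]) :
    ((aeval t P : ↥(laurentBaseChange K (modularFunctionFieldFull M))) : LaurentSeries K) =
      aeval (t : LaurentSeries K) P :=
  (Polynomial.aeval_algHom_apply (laurentBaseChange K (modularFunctionFieldFull M)).val t P).symm

/-- `A ⊆ grO`. -/
theorem jri_algebraMap_mem (a : ↥A) :
    algebraMap K ↥(laurentBaseChange K (modularFunctionFieldFull M)) (a : K) ∈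
      grO A hA M hℓM := by
  rw [mem_grO_iff]
  exact gr_algebraMap_mem A a

/-- A coordinate of the Gauss valuation ring with transcendental residue is transcendental. -/
theorem jri_transcendental (t : ↥(laurentBaseChange K (modularFunctionFieldFull M)))
    (htV : t ∈ grO A hA M hℓM)
    (htr : Transcendental (IsLocalRing.ResidueField A) (grRes A hA M hℓM ⟨t, htV⟩)) :
    Transcendental K t := by
  have h1 : Transcendental K ((⟨(t : LaurentSeries K), htV⟩ : grV A) : LaurentSeries K) :=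
    gab_transcendental (gr_gabHyp A) ⟨(t : LaurentSeries K), htV⟩ htr
  intro h
  exact h1 ((isAlgebraic_algHom_iff (laurentBaseChange K (modularFunctionFieldFull M)).val
    Subtype.val_injective).mpr h)

/-- Gauss lemma: `K[t] ∩ grO = A[t]`. -/
theorem jri_poly_mem (t : ↥(laurentBaseChange K (modularFunctionFieldFull M)))
    (htV : t ∈ grO A hA M hℓM)
    (htr : Transcendental (IsLocalRing.ResidueField A) (grRes A hA M hℓM ⟨t, htV⟩))
    (P : K[X]) (hP : aeval t P ∈ grO A hA M hℓM) :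
    ∃ P₀ : (↥A)[X], P₀.map A.subtype = P := by
  by_cases hP0 : P = 0
  · exact ⟨0, by rw [hP0, Polynomial.map_zero]⟩
  obtain ⟨c, R, hc, hPR, i₀, -, hR₀⟩ := gab_content A ({()} : Finset Unit) (fun _ => P)
    ⟨(), Finset.mem_singleton_self _, hP0⟩
  have hPR' : P = C c * (R ()).map A.subtype := hPR () (Finset.mem_singleton_self _)
  have hu1 : (((R ()).eval₂ (gabToV (gr_gabHyp A)) ⟨(t : LaurentSeries K), htV⟩ : grV A) :
      LaurentSeries K) = aeval (t : LaurentSeries K) ((R ()).map A.subtype) :=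
    gab_coe_eval₂ (gr_gabHyp A) ⟨(t : LaurentSeries K), htV⟩ (R ())
  have hu2 : grRho A ((R ()).eval₂ (gabToV (gr_gabHyp A)) ⟨(t : LaurentSeries K), htV⟩) ≠ 0 := by
    rw [gab_rho_eval₂]
    intro h0
    exact hR₀ (transcendental_iff.mp htr _ h0)
  have hmem : algebraMap K (LaurentSeries K) c *
      (((R ()).eval₂ (gabToV (gr_gabHyp A)) ⟨(t : LaurentSeries K), htV⟩ : grV A) :
        LaurentSeries K) ∈ grV A := by
    have h := (mem_grO_iff A hA M hℓM _).mp hP
    rw [jri_coe_aeval, hPR', map_mul, aeval_C, ← hu1] at h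
    exact h
  have hcA := gab_const_mem (gr_gabHyp A) c _ hu2 hmem
  refine ⟨C ⟨c, hcA⟩ * R (), ?_⟩
  rw [Polynomial.map_mul, Polynomial.map_C, hPR']
  rfl

/-- Elements of the Gauss valuation ring with residue zero are `c · x'`, `c ∈ 𝔪_A`,
`x' ∈ grO`. -/
theorem jri_decomp (x : ↥(laurentBaseChange K (modularFunctionFieldFull M)))
    (hx : x ∈ (grO A hA M hℓM).nonunits) :
    ∃ (c : ↥A) (x' : ↥(laurentBaseChange K (modularFunctionFieldFull M))),
      IsLocalRing.residue A c = 0 ∧ x' ∈ grO A hA M hℓM ∧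
        x = algebraMap K ↥(laurentBaseChange K (modularFunctionFieldFull M)) (c : K) * x' := by
  by_cases hx0 : x = 0
  · exact ⟨0, 0, map_zero _, (grO A hA M hℓM).zero_mem, by rw [hx0, mul_zero]⟩
  obtain ⟨hmem, hρ⟩ := (gr_mem_nonunits_iff A hA M hℓM x).mp hx
  obtain ⟨c, u, hc, hu, hxu⟩ := gr_exists_unit A hA M hℓM (x : LaurentSeries K) x.2
    (fun h0 => hx0 (Subtype.ext h0))
  have hmem' : algebraMap K (LaurentSeries K) c * (u : LaurentSeries K) ∈ grV A := hxu ▸ hmem
  have hρ' : grRho A ⟨_, hmem'⟩ = 0 := by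
    rw [← hρ]
    congr 1
    exact Subtype.ext hxu.symm
  obtain ⟨hcA, hres⟩ := gab_const_residue (gr_gabHyp A) c u hu hmem' hρ'
  have hx'coe : ((algebraMap K ↥(laurentBaseChange K (modularFunctionFieldFull M)) c⁻¹ * x :
      ↥(laurentBaseChange K (modularFunctionFieldFull M))) : LaurentSeries K) =
      (u : LaurentSeries K) := by
    show algebraMap K (LaurentSeries K) c⁻¹ * (x : LaurentSeries K) = _
    rw [hxu, ← mul_assoc, ← map_mul, inv_mul_cancel₀ hc, map_one, one_mul]
  refine ⟨⟨c, hcA⟩, algebraMap K ↥(laurentBaseChange K (modularFunctionFieldFull M)) c⁻¹ * x,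
    hres, ?_, ?_⟩
  · rw [mem_grO_iff, hx'coe]
    exact u.2
  · rw [← mul_assoc, ← map_mul, mul_inv_cancel₀ hc, map_one, one_mul]

/-- Elements integral over `A[t]` lie in the Gauss valuation ring. -/
theorem jri_mem (t : ↥(laurentBaseChange K (modularFunctionFieldFull M)))
    (htV : t ∈ grO A hA M hℓM) {x : ↥(laurentBaseChange K (modularFunctionFieldFull M))}
    (hx : (jriPoly A t).IsIntegralElem x) : x ∈ grO A hA M hℓM :=
  jri_mem_abs A (grO A hA M hℓM) (jri_algebraMap_mem A hA M hℓM) t htV hx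

/-- An element of the Gauss valuation ring integral over `K[t]` is integral over `A[t]`. -/
theorem jri_isIntegral (t : ↥(laurentBaseChange K (modularFunctionFieldFull M)))
    (htV : t ∈ grO A hA M hℓM)
    (htr : Transcendental (IsLocalRing.ResidueField A) (grRes A hA M hℓM ⟨t, htV⟩))
    (hj : grJ K M ∈ K⟮t⟯) {x : ↥(laurentBaseChange K (modularFunctionFieldFull M))}
    (hx : x ∈ grO A hA M hℓM) (hint : IsIntegral (Algebra.adjoin K {t}) x) :
    (jriPoly A t).IsIntegralElem x := by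
  obtain ⟨n, b, hb, hn, hfd, -⟩ := gr_hind_t A hA M hℓM t htV htr hj
  exact jri_isIntegral_abs A (grO A hA M hℓM) t (jri_transcendental A hA M hℓM t htV htr)
    (Algebra.IsAlgebraic.of_finite _ _) (gr_unique_t A hA M hℓM t hj)
    (jri_poly_mem A hA M hℓM t htV htr) hx hint

/-- (INT): an element integral over `A[t]` with Gauss residue zero is `c · x'` with `c ∈ 𝔪_A`
and `x'` integral over `A[t]`. -/
theorem jri_int (t : ↥(laurentBaseChange K (modularFunctionFieldFull M)))
    (htV : t ∈ grO A hA M hℓM)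
    (htr : Transcendental (IsLocalRing.ResidueField A) (grRes A hA M hℓM ⟨t, htV⟩))
    (hj : grJ K M ∈ K⟮t⟯) {x : ↥(laurentBaseChange K (modularFunctionFieldFull M))}
    (hxint : (jriPoly A t).IsIntegralElem x) (hx : x ∈ (grO A hA M hℓM).nonunits) :
    ∃ (c : ↥A) (x' : ↥(laurentBaseChange K (modularFunctionFieldFull M))),
      IsLocalRing.residue A c = 0 ∧ (jriPoly A t).IsIntegralElem x' ∧
        x = algebraMap K ↥(laurentBaseChange K (modularFunctionFieldFull M)) (c : K) * x' := by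
  obtain ⟨n, b, hb, hn, hfd, -⟩ := gr_hind_t A hA M hℓM t htV htr hj
  exact jri_int_abs A (grO A hA M hℓM) t (jri_transcendental A hA M hℓM t htV htr)
    (Algebra.IsAlgebraic.of_finite _ _) (gr_unique_t A hA M hℓM t hj)
    (jri_poly_mem A hA M hℓM t htV htr) (jri_decomp A hA M hℓM) hxint hx

/-- (INT) for the localised ring. -/
theorem jri_int_Z (t : ↥(laurentBaseChange K (modularFunctionFieldFull M)))
    (htV : t ∈ grO A hA M hℓM)
    (htr : Transcendental (IsLocalRing.ResidueField A) (grRes A hA M hℓM ⟨t, htV⟩))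
    (hj : grJ K M ∈ K⟮t⟯) {x : ↥(laurentBaseChange K (modularFunctionFieldFull M))}
    (hxint : JriZ A t x) (hx : x ∈ (grO A hA M hℓM).nonunits) :
    ∃ (c : ↥A) (x' : ↥(laurentBaseChange K (modularFunctionFieldFull M))),
      IsLocalRing.residue A c = 0 ∧ JriZ A t x' ∧
        x = algebraMap K ↥(laurentBaseChange K (modularFunctionFieldFull M)) (c : K) * x' := by
  obtain ⟨n, b, hb, hn, hfd, -⟩ := gr_hind_t A hA M hℓM t htV htr hj
  exact jri_int_Z_abs A (grO A hA M hℓM) t (jri_transcendental A hA M hℓM t htV htr)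
    (Algebra.IsAlgebraic.of_finite _ _) (gr_unique_t A hA M hℓM t hj)
    (jri_poly_mem A hA M hℓM t htV htr) (jri_decomp A hA M hℓM)
    (jri_algebraMap_mem A hA M hℓM) htV hxint hx

/-- For `s ∈ A[X]` with unit constant coefficient, `s(t)` is a unit of the Gauss valuation
ring. -/
theorem jri_unit_inv_mem (t : ↥(laurentBaseChange K (modularFunctionFieldFull M)))
    (htV : t ∈ grO A hA M hℓM)
    (htr : Transcendental (IsLocalRing.ResidueField A) (grRes A hA M hℓM ⟨t, htV⟩))
    (s : (↥A)[X]) (hs : IsUnit (s.coeff 0)) : (jriPoly A t s)⁻¹ ∈ grO A hA M hℓM := by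
  have hs' : s.map (IsLocalRing.residue A) ≠ 0 := by
    intro h0
    have h1 := congrArg (fun p : (IsLocalRing.ResidueField A)[X] => p.coeff 0) h0
    simp only [coeff_map, coeff_zero] at h1
    exact ((IsLocalRing.residue A).isUnit_map hs).ne_zero h1
  have hu1 : ((s.eval₂ (gabToV (gr_gabHyp A)) ⟨(t : LaurentSeries K), htV⟩ : grV A) :
      LaurentSeries K) = aeval (t : LaurentSeries K) (s.map A.subtype) :=
    gab_coe_eval₂ (gr_gabHyp A) ⟨(t : LaurentSeries K), htV⟩ s
  have hu2 : grRho A (s.eval₂ (gabToV (gr_gabHyp A)) ⟨(t : LaurentSeries K), htV⟩) ≠ 0 := by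
    rw [gab_rho_eval₂]
    intro h0
    exact hs' (transcendental_iff.mp htr _ h0)
  have h := gr_inv_mem A _ hu2
  rw [hu1, ← jri_coe_aeval] at h
  exact h

/-- Elements with `JriZ` lie in the Gauss valuation ring. -/
theorem jri_mem_Z (t : ↥(laurentBaseChange K (modularFunctionFieldFull M)))
    (htV : t ∈ grO A hA M hℓM)
    (htr : Transcendental (IsLocalRing.ResidueField A) (grRes A hA M hℓM ⟨t, htV⟩))
    {x : ↥(laurentBaseChange K (modularFunctionFieldFull M))} (hx : JriZ A t x) :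
    x ∈ grO A hA M hℓM :=
  jri_mem_Z_abs A (grO A hA M hℓM) (jri_algebraMap_mem A hA M hℓM) t htV
    (jri_unit_inv_mem A hA M hℓM t htV htr)
    (jri_unit_ne_zero A t (jri_transcendental A hA M hℓM t htV htr)) hx

/-! ### The coordinates `j` and `j⁻¹` -/

theorem jri_j_mem : grJ K M ∈ grO A hA M hℓM := gr_jqModC_mem A

theorem jri_j_transcendental :
    Transcendental (IsLocalRing.ResidueField A)
      (grRes A hA M hℓM ⟨grJ K M, jri_j_mem A hA M hℓM⟩) :=
  gr_transcendental_tau A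

omit [Algebra ℚ K] in
theorem jri_tau_residue_ne_zero : grRho A (grTau A) ≠ 0 := fun h0 =>
  gr_transcendental_tau A (h0 ▸ isAlgebraic_zero)

theorem jri_jinv_mem : (grJ K M)⁻¹ ∈ grO A hA M hℓM :=
  gr_inv_mem A (grTau A) (jri_tau_residue_ne_zero A)

theorem jri_jinv_transcendental :
    Transcendental (IsLocalRing.ResidueField A)
      (grRes A hA M hℓM ⟨(grJ K M)⁻¹, jri_jinv_mem A hA M hℓM⟩) := by
  have e : grRes A hA M hℓM ⟨(grJ K M)⁻¹, jri_jinv_mem A hA M hℓM⟩ =
      (grRho A (grTau A))⁻¹ := grRho_inv A (grTau A) (jri_tau_residue_ne_zero A)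
  rw [e]
  intro h
  exact gr_transcendental_tau A (IsAlgebraic.inv_iff.mp h)

omit [NeZero M] in
theorem jri_jinv_adjoin : grJ K M ∈ K⟮(grJ K M)⁻¹⟯ := by
  have h := (K⟮(grJ K M)⁻¹⟯).inv_mem (IntermediateField.mem_adjoin_simple_self K (grJ K M)⁻¹)
  rwa [inv_inv] at h

/-- Region `Y`: elements integral over `A[j]` lie in the Gauss valuation ring. -/
theorem jri_mem_j {x : ↥(laurentBaseChange K (modularFunctionFieldFull M))}
    (hx : (jriPoly A (grJ K M)).IsIntegralElem x) : x ∈ grO A hA M hℓM :=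
  jri_mem A hA M hℓM (grJ K M) (jri_j_mem A hA M hℓM) hx

/-- Region `Y`: elements of the Gauss valuation ring integral over `K[j]` are integral over
`A[j]`. -/
theorem jri_isIntegral_j {x : ↥(laurentBaseChange K (modularFunctionFieldFull M))}
    (hx : x ∈ grO A hA M hℓM) (hint : IsIntegral (Algebra.adjoin K {grJ K M}) x) :
    (jriPoly A (grJ K M)).IsIntegralElem x :=
  jri_isIntegral A hA M hℓM (grJ K M) (jri_j_mem A hA M hℓM) (jri_j_transcendental A hA M hℓM)
    (IntermediateField.mem_adjoin_simple_self K _) hx hint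

/-- Region `Y`, (INT): an element integral over `A[j]` with Gauss residue zero is `c · x'` with
`c ∈ 𝔪_A` and `x'` integral over `A[j]`. -/
theorem jri_int_j {x : ↥(laurentBaseChange K (modularFunctionFieldFull M))}
    (hxint : (jriPoly A (grJ K M)).IsIntegralElem x) (hx : x ∈ (grO A hA M hℓM).nonunits) :
    ∃ (c : ↥A) (x' : ↥(laurentBaseChange K (modularFunctionFieldFull M))),
      IsLocalRing.residue A c = 0 ∧ (jriPoly A (grJ K M)).IsIntegralElem x' ∧
        x = algebraMap K ↥(laurentBaseChange K (modularFunctionFieldFull M)) (c : K) * x' :=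
  jri_int A hA M hℓM (grJ K M) (jri_j_mem A hA M hℓM) (jri_j_transcendental A hA M hℓM)
    (IntermediateField.mem_adjoin_simple_self K _) hxint hx

/-- Region `Z`: elements integral over the localisation of `A[j⁻¹]` at `(𝔪_A, j⁻¹)` lie in the
Gauss valuation ring. -/
theorem jri_mem_jinv {x : ↥(laurentBaseChange K (modularFunctionFieldFull M))}
    (hx : JriZ A (grJ K M)⁻¹ x) : x ∈ grO A hA M hℓM :=
  jri_mem_Z A hA M hℓM (grJ K M)⁻¹ (jri_jinv_mem A hA M hℓM)
    (jri_jinv_transcendental A hA M hℓM) hx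

/-- Region `Z`, (INT): an element integral over the localisation of `A[j⁻¹]` at `(𝔪_A, j⁻¹)`
with Gauss residue zero is `c · x'` with `c ∈ 𝔪_A` and `x'` again integral over that ring. -/
theorem jri_int_jinv {x : ↥(laurentBaseChange K (modularFunctionFieldFull M))}
    (hxint : JriZ A (grJ K M)⁻¹ x) (hx : x ∈ (grO A hA M hℓM).nonunits) :
    ∃ (c : ↥A) (x' : ↥(laurentBaseChange K (modularFunctionFieldFull M))),
      IsLocalRing.residue A c = 0 ∧ JriZ A (grJ K M)⁻¹ x' ∧
        x = algebraMap K ↥(laurentBaseChange K (modularFunctionFieldFull M)) (c : K) * x' :=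
  jri_int_Z A hA M hℓM (grJ K M)⁻¹ (jri_jinv_mem A hA M hℓM)
    (jri_jinv_transcendental A hA M hℓM) (jri_jinv_adjoin M) hxint hx

end Gauss

/-- Over `ℚ̄` the element `j` of `GaussMain` is `jBar`. -/
theorem jri_jBar_eq (N : ℕ) [NeZero N] :
    Fermat.Agent.S24.jBar N = grJ (AlgebraicClosure ℚ) N :=
  Subtype.ext (Fermat.Agent.S24.dg_coe_jBar N)

/-! ### Bridge to the spelling of `JRingDefs` -/

section Bridge

variable {K F : Type*} [Field K] [Field F] [Algebra K F]

theorem jriPoly_eq_jrEval (A : ValuationSubring K) (t : F) : jriPoly A t = jrEval A t := by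
  refine RingHom.ext fun p => ?_
  rw [jriPoly_apply, jrEval, Polynomial.coe_eval₂RingHom, aeval_def, eval₂_map]

theorem jri_range_eq_jrPoly (A : ValuationSubring K) (t : F) :
    (jriPoly A t).range = jrPoly A t := by
  rw [jrPoly, jriPoly_eq_jrEval]

/-- `x ∈ jrIC (A[t])` in the spelling of `jriPoly`. -/
theorem jri_mem_jrIC_iff (A : ValuationSubring K) (t x : F) :
    x ∈ jrIC (jrPoly A t) ↔ (jriPoly A t).IsIntegralElem x :=
  ⟨fun h => jri_isIntegralElem_of_le_range _ _ (jri_range_eq_jrPoly A t).ge (mem_jrIC.mp h),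
    fun h => mem_jrIC.mpr (jri_isIntegral_of_range_le _ _ (jri_range_eq_jrPoly A t).le h)⟩

theorem jri_jriZ_iff (A : ValuationSubring K) (t x : F) :
    JriZ A t x ↔ ∃ s : Polynomial A, IsUnit (s.coeff 0) ∧
      jrEval A t s * x ∈ jrIC (jrPoly A t) := by
  constructor
  · rintro ⟨s, hs, h⟩
    refine ⟨s, hs, ?_⟩
    rw [← jriPoly_eq_jrEval]
    exact (jri_mem_jrIC_iff A t _).mpr h
  · rintro ⟨s, hs, h⟩
    refine ⟨s, hs, ?_⟩
    have h' := (jri_mem_jrIC_iff A t _).mp h
    rw [← jriPoly_eq_jrEval] at h'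
    exact h'

/-- Valuation rings contain the integral closure of any subring they contain. -/
theorem jri_mem_of_isIntegral_subring (O : ValuationSubring F) (R : Subring F)
    (hR : R ≤ O.toSubring) {x : F} (hx : IsIntegral R x) : x ∈ O :=
  valext_mem_of_isIntegral O (S := ↥R) (fun s => hR s.2) x hx

/-- `JriZ A t x` implies that `x` is integral over `Λ(t)`. -/
theorem jri_mem_jrIC_jrLam (A : ValuationSubring K) (t : F)
    (ht0 : ∀ s : Polynomial A, IsUnit (s.coeff 0) → jrEval A t s ≠ 0) {x : F}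
    (hx : JriZ A t x) : x ∈ jrIC (jrLam A t) := by
  obtain ⟨s, hs, h⟩ := (jri_jriZ_iff A t x).mp hx
  have h1 : jrEval A t s * x ∈ jrIC (jrLam A t) := by
    rw [jri_mem_jrIC_iff] at h
    exact mem_jrIC.mpr (jri_isIntegral_of_range_le _ _
      ((jri_range_eq_jrPoly A t).le.trans (jrPoly_le_jrLam t)) h)
  have h2 : (jrEval A t s)⁻¹ ∈ jrIC (jrLam A t) := le_jrIC _ (jr_inv_mem_jrLam t s hs)
  have e : x = (jrEval A t s)⁻¹ * (jrEval A t s * x) := by
    rw [← mul_assoc, inv_mul_cancel₀ (ht0 s hs), one_mul]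
  rw [e]
  exact (jrIC (jrLam A t)).mul_mem h2 h1

end Bridge

/-! ### The statements in the spelling of `JRingDefs`, general `(K, A)` -/

section Final

variable {K : Type*} [Field K] [Algebra ℚ K] (A : ValuationSubring K) {ℓ : ℕ} [Fact ℓ.Prime]
  (hA : A.LiesOverPrime ℓ) (M : ℕ) [NeZero M] (hℓM : ¬ ℓ ∣ M)

omit [Algebra ℚ K] in
theorem jri_mem_nonunits (c : ↥A) (hc : IsLocalRing.residue A c = 0) : (c : K) ∈ A.nonunits := by
  rw [ValuationSubring.mem_nonunits_iff_exists_mem_maximalIdeal]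
  exact ⟨c.2, (IsLocalRing.residue_eq_zero_iff _).mp hc⟩

/-- `Λ(t) ⊆ grO` for a coordinate `t ∈ grO` with transcendental residue. -/
theorem jri_jrLam_le (t : ↥(laurentBaseChange K (modularFunctionFieldFull M)))
    (htV : t ∈ grO A hA M hℓM)
    (htr : Transcendental (IsLocalRing.ResidueField A) (grRes A hA M hℓM ⟨t, htV⟩)) :
    jrLam A t ≤ (grO A hA M hℓM).toSubring := by
  rw [jrLam, Subring.closure_le]
  rintro x (hx | ⟨s, hs, rfl⟩)
  · obtain ⟨p, rfl⟩ := mem_jrPoly.mp hx
    rw [← jriPoly_eq_jrEval]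
    exact jri_poly_mem_abs A (grO A hA M hℓM) (jri_algebraMap_mem A hA M hℓM) t htV p
  · rw [← jriPoly_eq_jrEval]
    exact jri_unit_inv_mem A hA M hℓM t htV htr s hs

/-- (1a) The J-ring of the region `Y` lies in the Gauss valuation ring. -/
theorem jri_le_Y_gen : jrOY A (grJ K M) ≤ (grO A hA M hℓM).toSubring := fun x hx =>
  jri_mem_j A hA M hℓM ((jri_mem_jrIC_iff A _ x).mp hx)

/-- (1b) The J-ring of the region `Z` lies in the Gauss valuation ring. -/
theorem jri_le_Z_gen : jrOZ A (grJ K M) ≤ (grO A hA M hℓM).toSubring := fun _ hx =>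
  jri_mem_of_isIntegral_subring (grO A hA M hℓM) _
    (jri_jrLam_le A hA M hℓM _ (jri_jinv_mem A hA M hℓM) (jri_jinv_transcendental A hA M hℓM))
    (mem_jrOZ.mp hx)

/-- (2) (INT) for the integral closure of `A[y]`, `y = j` or `y = j⁻¹`. -/
theorem jri_int_poly_gen (y : ↥(laurentBaseChange K (modularFunctionFieldFull M)))
    (hy : y = grJ K M ∨ y = (grJ K M)⁻¹) :
    ∀ x ∈ jrOY A y, x ∈ (grO A hA M hℓM).nonunits →
      ∃ c : K, c ∈ A.nonunits ∧ ∃ x' ∈ jrOY A y,
        x = algebraMap K ↥(laurentBaseChange K (modularFunctionFieldFull M)) c * x' := by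
  intro x hx hxn
  have hx' := (jri_mem_jrIC_iff A y x).mp hx
  rcases hy with rfl | rfl
  · obtain ⟨c, x', hc, hx'i, he⟩ := jri_int_j A hA M hℓM hx' hxn
    exact ⟨c, jri_mem_nonunits A c hc, x', (jri_mem_jrIC_iff A _ x').mpr hx'i, he⟩
  · obtain ⟨c, x', hc, hx'i, he⟩ := jri_int A hA M hℓM (grJ K M)⁻¹ (jri_jinv_mem A hA M hℓM)
      (jri_jinv_transcendental A hA M hℓM) (jri_jinv_adjoin M) hx' hxn
    exact ⟨c, jri_mem_nonunits A c hc, x', (jri_mem_jrIC_iff A _ x').mpr hx'i, he⟩

/-- (3) (INT) for the J-ring of the region `Z`, given the description (Z5) of the integral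
closure of `Λ(j⁻¹)`. -/
theorem jri_int_Z_gen_of
    (hZ5 : ∀ x ∈ jrOZ A (grJ K M), ∃ s : Polynomial A, IsUnit (s.coeff 0) ∧
      jrEval A (grJ K M)⁻¹ s * x ∈ jrOY A (grJ K M)⁻¹) :
    ∀ x ∈ jrOZ A (grJ K M), x ∈ (grO A hA M hℓM).nonunits →
      ∃ c : K, c ∈ A.nonunits ∧ ∃ x' ∈ jrOZ A (grJ K M),
        x = algebraMap K ↥(laurentBaseChange K (modularFunctionFieldFull M)) c * x' := by
  intro x hx hxn
  have hxZ : JriZ A (grJ K M)⁻¹ x := (jri_jriZ_iff A _ x).mpr (hZ5 x hx)
  obtain ⟨c, x', hc, hx'Z, he⟩ := jri_int_jinv A hA M hℓM hxZ hxn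
  refine ⟨c, jri_mem_nonunits A c hc, x', ?_, he⟩
  refine jri_mem_jrIC_jrLam A _ (fun s hs => ?_) hx'Z
  rw [← jriPoly_eq_jrEval]
  exact jri_unit_ne_zero A _ (jri_transcendental A hA M hℓM _ (jri_jinv_mem A hA M hℓM)
    (jri_jinv_transcendental A hA M hℓM)) s hs

end Final

/-! ### The statements over `ℚ̄` with `j = jBar N` -/

section Qbar

variable (A : ValuationSubring (AlgebraicClosure ℚ)) {ℓ : ℕ} [Fact ℓ.Prime]
  (hA : A.LiesOverPrime ℓ) (N : ℕ) [NeZero N] (hℓN : ¬ ℓ ∣ N)

/-- (1a) The J-ring of the region `Y` lies in the Gauss valuation ring. -/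
theorem jri_le_Y : jrOY A (Fermat.Agent.S24.jBar N) ≤ (grO A hA N hℓN).toSubring := by
  rw [jri_jBar_eq]
  exact jri_le_Y_gen A hA N hℓN

/-- (1b) The J-ring of the region `Z` lies in the Gauss valuation ring. -/
theorem jri_le_Z : jrOZ A (Fermat.Agent.S24.jBar N) ≤ (grO A hA N hℓN).toSubring := by
  rw [jri_jBar_eq]
  exact jri_le_Z_gen A hA N hℓN

/-- (2) (INT) for the integral closure of `A[y]`, `y = j` or `y = j⁻¹`: an element with Gauss
residue zero is `c · x'` with `c ∈ 𝔪_A` and `x'` again in the integral closure of `A[y]`. -/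
theorem jri_int_poly (y : ↥(modularFunctionFieldBar N))
    (hy : y = Fermat.Agent.S24.jBar N ∨ y = (Fermat.Agent.S24.jBar N)⁻¹) :
    ∀ x ∈ jrOY A y, x ∈ (grO A hA N hℓN).nonunits →
      ∃ c : AlgebraicClosure ℚ, c ∈ A.nonunits ∧ ∃ x' ∈ jrOY A y,
        x = algebraMap (AlgebraicClosure ℚ) ↥(modularFunctionFieldBar N) c * x' :=
  jri_int_poly_gen A hA N hℓN y (by rw [← jri_jBar_eq]; exact hy)

/-- (3) (INT) for the J-ring of the region `Z`, given the description (Z5) of the integral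
closure of `Λ(j⁻¹)`. -/
theorem jri_int_Z_of
    (hZ5 : ∀ x ∈ jrOZ A (Fermat.Agent.S24.jBar N), ∃ s : Polynomial A, IsUnit (s.coeff 0) ∧
      jrEval A (Fermat.Agent.S24.jBar N)⁻¹ s * x ∈ jrOY A (Fermat.Agent.S24.jBar N)⁻¹) :
    ∀ x ∈ jrOZ A (Fermat.Agent.S24.jBar N), x ∈ (grO A hA N hℓN).nonunits →
      ∃ c : AlgebraicClosure ℚ, c ∈ A.nonunits ∧ ∃ x' ∈ jrOZ A (Fermat.Agent.S24.jBar N),
        x = algebraMap (AlgebraicClosure ℚ) ↥(modularFunctionFieldBar N) c * x' := by
  rw [jri_jBar_eq] at hZ5 ⊢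
  exact jri_int_Z_gen_of A hA N hℓN hZ5

end Qbar

end Fermat.Agent.S37
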