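import Mathlib
import Fermat.Agent.S18.CoreInstFinal
import Fermat.Agent.S18.Haupt9Rec
import Fermat.Agent.S18.Normalize

/-!
# S37, GLUE: the core hypothesis `hcore` of the torsion step from (SM-INST) of S18

`s37_hcore_of_SMInst`: the hypothesis `hcore` of `jrt_torsion` / `s37_redDiv_of_classMap`
(= the hypothesis `hcore` of `glc_main` of S18) from the statement (SM-INST) of S18 at the
auxiliary level `N' = N * a2` (`a2 = 4` or `9`).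
-/

set_option autoImplicit false
set_option linter.style.haveILetI false

namespace Fermat.Agent.S37

open ModularCurve AlgebraicCurve Fermat.Agent.S18

local notation "Qb" => AlgebraicClosure ℚ

theorem s37_hcore_of_SMInst (N : ℕ) [NeZero N] {ℓ : ℕ} (hℓ : ℓ.Prime) (hℓN : ¬ ℓ ∣ N)
    (A : ValuationSubring Qb) (hA : A.LiesOverPrime ℓ)
    (hSM : ∀ (N' : ℕ) [NeZero N'] {a2 : ℕ} (H : HauptRec a2 ℓ), a2 ∣ N' → ¬ ℓ ∣ N' →
      cinstSMInst N' H A) :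
    ∀ p : ℕ, p.Prime → p ≠ ℓ → ∃ N' : ℕ, N' ≠ 0 ∧ N ∣ N' ∧ ¬ ℓ ∣ N' ∧
      ∃ T : Finset Qb, ∀ (K0 : IntermediateField ℚ Qb) [FiniteDimensional ℚ K0],
        (∀ c ∈ T, c ∈ K0) → nrmCoreStmt ↥K0 (A.comap (algebraMap ↥K0 Qb)) N' p := by
  haveI : Fact ℓ.Prime := ⟨hℓ⟩
  intro p hp hpℓ
  obtain ⟨a2, -, ⟨H⟩⟩ := hp9_exists_hauptRec ℓ
  have hN'0 : N * a2 ≠ 0 := mul_ne_zero (NeZero.ne N) H.pos.ne'
  haveI : NeZero (N * a2) := ⟨hN'0⟩
  have hℓN' : ¬ ℓ ∣ N * a2 := fun h => (hℓ.dvd_mul.mp h).elim hℓN H.not_dvd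
  exact ⟨N * a2, hN'0, dvd_mul_right N a2, hℓN',
    cinst_final_of_SMInst (N * a2) hp hpℓ hℓN' H (dvd_mul_left a2 N) A hA
      (hSM (N * a2) H (dvd_mul_left a2 N) hℓN')⟩

end Fermat.Agent.S37
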