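import Mathlib
import Fermat.Prelude.Def_AlgebraicCurve_DivisorClassGroup
import Fermat.Agent.S24.SumFormulaBase

/-!
# S37 / ES-E2: the separation lemma

A divisor `E` on a function field over an infinite field `k` such that `g(E) = 1` for every
test function `g` (a unit at a finite set of places containing the support of `E`) is zero.

* `sep_zpow_eq_one`: `c ^ n = 1` for all nonzero `c` of an infinite field forces `n = 0`.
* `sep_finsupp`: the abstract statement for finitely supported integer functions.
* `sep_exists_dedekind`: prescribed residues at finitely many primes of a Dedekind domain.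
* `sep_main_dedekind`: the separation lemma for places coming from primes of a Dedekind
  domain `B` with fraction field `F`, with an arbitrary evaluation function `ev`.
-/

set_option autoImplicit false

open AlgebraicCurve IsDedekindDomain

namespace Fermat.Agent.S37

/-- In an infinite field, `c ^ n = 1` for all nonzero `c` forces `n = 0`. -/
theorem sep_zpow_eq_one {k : Type*} [Field k] [Infinite k] (n : ℤ)
    (h : ∀ c : k, c ≠ 0 → c ^ n = 1) : n = 0 := by
  classical
  by_contra hn
  have hm : n.natAbs ≠ 0 := Int.natAbs_ne_zero.mpr hn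
  have hp : (Polynomial.X ^ n.natAbs - 1 : Polynomial k) ≠ 0 :=
    Polynomial.X_pow_sub_C_ne_zero (Nat.pos_of_ne_zero hm) (1 : k)
  obtain ⟨c, hc⟩ := Infinite.exists_notMem_finset
    ((Polynomial.X ^ n.natAbs - 1 : Polynomial k).roots.toFinset ∪ {0})
  rw [Finset.mem_union, not_or, Multiset.mem_toFinset, Finset.mem_singleton] at hc
  obtain ⟨hroot, hc0⟩ := hc
  apply hroot
  rw [Polynomial.mem_roots hp, Polynomial.IsRoot.def]
  simp only [Polynomial.eval_sub, Polynomial.eval_pow, Polynomial.eval_X, Polynomial.eval_one]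
  have h1 := h c hc0
  rcases Int.natAbs_eq n with h2 | h2
  · rw [h2, zpow_natCast] at h1
    rw [h1, sub_self]
  · rw [h2, zpow_neg, zpow_natCast, inv_eq_one] at h1
    rw [h1, sub_self]

/-- Abstract separation lemma: if for every index `i` of a finite set `S` containing the support
of `E` and every nonzero `c` there is a family of values `v` with `v i = c`, `v j = 1` for the
other `j ∈ S`, and `∏_j (v j) ^ (E j) = 1`, then `E = 0`. -/
theorem sep_finsupp {k ι : Type*} [Field k] [Infinite k] (E : ι →₀ ℤ) (S : Finset ι)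
    (hS : E.support ⊆ S)
    (h : ∀ i ∈ S, ∀ c : k, c ≠ 0 → ∃ v : ι → k, v i = c ∧ (∀ j ∈ S, j ≠ i → v j = 1) ∧
      ∏ j ∈ S, v j ^ E j = 1) : E = 0 := by
  classical
  ext i
  rw [Finsupp.coe_zero, Pi.zero_apply]
  by_cases hi : i ∈ S
  · apply sep_zpow_eq_one (k := k)
    intro c hc
    obtain ⟨v, hvi, hvj, hprod⟩ := h i hi c hc
    rw [← hprod, Finset.prod_eq_single i, hvi]
    · intro j hj hji
      rw [hvj j hj hji, one_zpow]
    · intro hi'
      exact absurd hi hi'
  · by_contra h0
    exact hi (hS (Finsupp.mem_support_iff.mpr h0))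

section dedekind

variable {k B : Type*} [Field k] [CommRing B] [IsDedekindDomain B] [Algebra k B]

/-- Prescribed residues at finitely many primes of a Dedekind `k`-algebra: there is `b` with
`b ≡ c` modulo `P₁` and `b ≡ 1` modulo the other primes of `S`. -/
theorem sep_exists_dedekind (S : Finset (HeightOneSpectrum B)) (P₁ : HeightOneSpectrum B)
    (c : k) :
    ∃ b : B, b - algebraMap k B c ∈ P₁.asIdeal ∧
      ∀ P ∈ S, P ≠ P₁ → b - 1 ∈ P.asIdeal := by
  classical
  obtain ⟨y, hy⟩ := IsDedekindDomain.exists_forall_sub_mem_ideal (s := insert P₁ S)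
    (fun P : HeightOneSpectrum B => P.asIdeal) (fun _ => 1) (fun P _ => P.prime)
    (fun P _ P' _ hne h => hne (HeightOneSpectrum.ext h))
    (fun P => if (P : HeightOneSpectrum B) = P₁ then algebraMap k B c else 1)
  refine ⟨y, ?_, fun P hP hne => ?_⟩
  · have := hy P₁ (Finset.mem_insert_self _ _)
    simpa using this
  · have := hy P (Finset.mem_insert_of_mem hP)
    simpa [hne] using this

omit [IsDedekindDomain B] in
/-- If `b - c ∈ P` and `b - c' ∈ P` for constants `c, c'` then `c = c'`. -/
theorem sep_const_unique (P : HeightOneSpectrum B) (b : B) (c c' : k)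
    (h : b - algebraMap k B c ∈ P.asIdeal) (h' : b - algebraMap k B c' ∈ P.asIdeal) : c = c' := by
  by_contra hne
  have h1 : algebraMap k B (c - c') ∈ P.asIdeal := by
    have := P.asIdeal.sub_mem h' h
    rwa [sub_sub_sub_cancel_left, ← map_sub] at this
  have h2 : IsUnit (algebraMap k B (c - c')) :=
    (isUnit_iff_ne_zero.mpr (sub_ne_zero.mpr hne)).map _
  exact P.isPrime.ne_top (Ideal.eq_top_of_isUnit_mem _ h1 h2)

variable {F : Type*} [Field F] [Algebra k F] [Algebra B F] [IsFractionRing B F]
  [IsScalarTower k B F]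

/-- **Separation lemma (ES-E2), Dedekind form.**  Let `B` be a Dedekind `k`-algebra with fraction
field `F`, `k` infinite, `E` a divisor of `F / k` whose support consists of places attached to
primes of a finite set `S`, and `ev` an evaluation function (`b ≡ ev P b` modulo `P`).  If
`∏_{P ∈ S} (ev P b) ^ (E P) = 1` for every `b ∈ B` which is a unit at all `P ∈ S`, then
`E = 0`. -/
theorem sep_main_dedekind [Infinite k] (E : Divisor k F) (S : Finset (HeightOneSpectrum B))
    (hS : ∀ Q ∈ E.support, ∃ P ∈ S, Place.ofHeightOneSpectrum (K := k) (F := F) P = Q)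
    (ev : HeightOneSpectrum B → B → k)
    (hev : ∀ P ∈ S, ∀ b : B, b - algebraMap k B (ev P b) ∈ P.asIdeal)
    (hpair : ∀ b : B, (∀ P ∈ S, b ∉ P.asIdeal) →
      ∏ P ∈ S, ev P b ^ E (Place.ofHeightOneSpectrum (K := k) (F := F) P) = 1) : E = 0 := by
  classical
  ext Q
  rw [Finsupp.coe_zero, Pi.zero_apply]
  by_contra hQ
  obtain ⟨P₁, hP₁, rfl⟩ := hS Q (Finsupp.mem_support_iff.mpr hQ)
  apply hQ
  apply sep_zpow_eq_one (k := k)
  intro c hc
  obtain ⟨b, hb₁, hb⟩ := sep_exists_dedekind S P₁ c
  have hev₁ : ev P₁ b = c := sep_const_unique P₁ b _ _ (hev P₁ hP₁ b) hb₁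
  have hevP : ∀ P ∈ S, P ≠ P₁ → ev P b = 1 := by
    intro P hP hne
    refine sep_const_unique P b _ _ (hev P hP b) ?_
    rw [map_one]
    exact hb P hP hne
  have hunit : ∀ P ∈ S, b ∉ P.asIdeal := by
    intro P hP hmem
    have h0 : ev P b = 0 := by
      refine sep_const_unique P b _ _ (hev P hP b) ?_
      rwa [map_zero, sub_zero]
    by_cases hPP : P = P₁
    · subst hPP
      exact hc (hev₁ ▸ h0)
    · rw [hevP P hP hPP] at h0
      exact one_ne_zero h0
  have := hpair b hunit
  rw [Finset.prod_eq_single P₁, hev₁] at this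
  · exact this
  · intro P hP hne
    rw [hevP P hP hne, one_zpow]
  · intro h
    exact absurd hP₁ h

end dedekind

end Fermat.Agent.S37
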