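import Mathlib
import Fermat.Agent.S37.Separation

/-!
# S37 / ES-E3: abstract core of the placewise Eichler--Shimura congruence

`B` is a Dedekind algebra over an infinite field `k` (the chart ring of the special fibre),
`ev` an evaluation function at the primes of `B`.  If for every `b ∈ B`

  `∏ i, (X - ev (𝔯 i) b) ^ (e i) = (X - ev 𝔮₋ b) ^ ℓ * (X - ev 𝔮₊ b)`

then `∑ i, e i • [𝔯 i] = ℓ • [𝔮₋] + [𝔮₊]` as divisors.
-/

set_option autoImplicit false

open IsDedekindDomain Polynomial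

namespace Fermat.Agent.S37

section

variable {k B : Type*} [Field k] [CommRing B] [IsDedekindDomain B] [Algebra k B]

/-- Prescribed residues at finitely many primes of a Dedekind `k`-algebra. -/
theorem esa_exists_values (T : Finset (HeightOneSpectrum B)) (c : HeightOneSpectrum B → k) :
    ∃ b : B, ∀ 𝔮 ∈ T, b - algebraMap k B (c 𝔮) ∈ 𝔮.asIdeal := by
  classical
  obtain ⟨y, hy⟩ := IsDedekindDomain.exists_forall_sub_mem_ideal (s := T)
    (fun P : HeightOneSpectrum B => P.asIdeal) (fun _ => 1) (fun P _ => P.prime)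
    (fun P _ P' _ hne h => hne (HeightOneSpectrum.ext h))
    (fun P => algebraMap k B (c P))
  refine ⟨y, fun 𝔮 h𝔮 => ?_⟩
  have := hy 𝔮 h𝔮
  simpa using this

/-- There is an element of `B` whose residues at the primes of a finite set are pairwise
distinct (`k` infinite). -/
theorem esa_exists_injective [Infinite k] (T : Finset (HeightOneSpectrum B))
    (ev : HeightOneSpectrum B → B → k)
    (hev : ∀ 𝔮 ∈ T, ∀ b : B, b - algebraMap k B (ev 𝔮 b) ∈ 𝔮.asIdeal) :
    ∃ b : B, ∀ 𝔮 ∈ T, ∀ 𝔮' ∈ T, ev 𝔮 b = ev 𝔮' b → 𝔮 = 𝔮' := by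
  classical
  let f : {x // x ∈ T} → k := fun x =>
    Infinite.natEmbedding k ((T.equivFin x : Fin T.card) : ℕ)
  have hf : Function.Injective f := by
    intro x y hxy
    have h1 := (Infinite.natEmbedding k).injective hxy
    exact T.equivFin.injective (Fin.ext h1)
  let c : HeightOneSpectrum B → k := fun 𝔮 => if h : 𝔮 ∈ T then f ⟨𝔮, h⟩ else 0
  obtain ⟨b, hb⟩ := esa_exists_values T c
  refine ⟨b, fun 𝔮 h𝔮 𝔮' h𝔮' heq => ?_⟩
  have h1 : ev 𝔮 b = c 𝔮 := sep_const_unique 𝔮 b _ _ (hev 𝔮 h𝔮 b) (hb 𝔮 h𝔮)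
  have h2 : ev 𝔮' b = c 𝔮' := sep_const_unique 𝔮' b _ _ (hev 𝔮' h𝔮' b) (hb 𝔮' h𝔮')
  rw [h1, h2] at heq
  simp only [c, dif_pos h𝔮, dif_pos h𝔮'] at heq
  have := hf heq
  exact congrArg Subtype.val this

open Classical in
/-- Root multiplicities of a product of powers of linear factors. -/
theorem esa_rootMultiplicity_prod {ι : Type*} (s : Finset ι) (a : ι → k) (e : ι → ℕ) (c : k) :
    rootMultiplicity c (∏ i ∈ s, (X - C (a i)) ^ e i) = ∑ i ∈ s, if a i = c then e i else 0 := by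
  have hne : ∀ t : Finset ι, (∏ i ∈ t, (X - C (a i)) ^ e i) ≠ 0 := fun t =>
    (monic_prod_of_monic _ _ fun i _ => (monic_X_sub_C (a i)).pow (e i)).ne_zero
  induction s using Finset.induction_on with
  | empty =>
    simp only [Finset.prod_empty, Finset.sum_empty]
    exact rootMultiplicity_eq_zero (by simp)
  | insert i t hi ih =>
    rw [Finset.prod_insert hi, Finset.sum_insert hi,
      rootMultiplicity_mul (by have := hne (insert i t); rwa [Finset.prod_insert hi] at this),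
      ih]
    congr 1
    by_cases h : a i = c
    · rw [if_pos h, h, rootMultiplicity_X_sub_C_pow]
    · rw [if_neg h]
      apply rootMultiplicity_eq_zero
      rw [IsRoot.def, eval_pow, eval_sub, eval_X, eval_C]
      exact pow_ne_zero _ (sub_ne_zero.mpr (Ne.symm h))

/-- **Abstract placewise Eichler--Shimura congruence.**  If
`∏ i, (X - ev (𝔯 i) b) ^ (e i) = (X - ev 𝔮m b) ^ ℓ * (X - ev 𝔮p b)` for every `b ∈ B`, then
`∑ i, e i • [𝔯 i] = ℓ • [𝔮m] + [𝔮p]`. -/
theorem esa_main [Infinite k] {ι : Type*} (s : Finset ι) (e : ι → ℕ)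
    (𝔯 : ι → HeightOneSpectrum B) (𝔮p 𝔮m : HeightOneSpectrum B) (ℓ : ℕ)
    (ev : HeightOneSpectrum B → B → k)
    (hev : ∀ i ∈ s, ∀ b : B, b - algebraMap k B (ev (𝔯 i) b) ∈ (𝔯 i).asIdeal)
    (hevp : ∀ b : B, b - algebraMap k B (ev 𝔮p b) ∈ 𝔮p.asIdeal)
    (hevm : ∀ b : B, b - algebraMap k B (ev 𝔮m b) ∈ 𝔮m.asIdeal)
    (hpoly : ∀ b : B, ∏ i ∈ s, (X - C (ev (𝔯 i) b)) ^ e i =
      (X - C (ev 𝔮m b)) ^ ℓ * (X - C (ev 𝔮p b))) :
    ∑ i ∈ s, Finsupp.single (𝔯 i) (e i : ℤ) =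
      Finsupp.single 𝔮m (ℓ : ℤ) + Finsupp.single 𝔮p 1 := by
  classical
  set T : Finset (HeightOneSpectrum B) := s.image 𝔯 ∪ {𝔮p, 𝔮m} with hT
  have hevT : ∀ 𝔮 ∈ T, ∀ b : B, b - algebraMap k B (ev 𝔮 b) ∈ 𝔮.asIdeal := by
    intro 𝔮 h𝔮 b
    rw [hT, Finset.mem_union, Finset.mem_image, Finset.mem_insert, Finset.mem_singleton] at h𝔮
    rcases h𝔮 with ⟨i, hi, rfl⟩ | rfl | rfl
    · exact hev i hi b
    · exact hevp b
    · exact hevm b
  obtain ⟨b, hb⟩ := esa_exists_injective T ev hevT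
  have hmemr : ∀ i ∈ s, 𝔯 i ∈ T := fun i hi =>
    Finset.mem_union_left _ (Finset.mem_image_of_mem _ hi)
  have hmemp : 𝔮p ∈ T := Finset.mem_union_right _ (by simp)
  have hmemm : 𝔮m ∈ T := Finset.mem_union_right _ (by simp)
  ext 𝔮
  simp only [Finsupp.coe_finsetSum, Finset.sum_apply, Finsupp.coe_add, Pi.add_apply,
    Finsupp.single_apply]
  by_cases h𝔮 : 𝔮 ∈ T
  · have key := congrArg (rootMultiplicity (ev 𝔮 b)) (hpoly b)
    rw [esa_rootMultiplicity_prod] at key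
    have h2 : rootMultiplicity (ev 𝔮 b) ((X - C (ev 𝔮m b)) ^ ℓ * (X - C (ev 𝔮p b))) =
        (if 𝔮m = 𝔮 then ℓ else 0) + (if 𝔮p = 𝔮 then 1 else 0) := by
      have := esa_rootMultiplicity_prod (Finset.univ : Finset (Fin 2))
        (fun i : Fin 2 => if i = 0 then ev 𝔮m b else ev 𝔮p b)
        (fun i : Fin 2 => if i = 0 then ℓ else 1) (ev 𝔮 b)
      simp only [Fin.prod_univ_two, Fin.sum_univ_two, if_true, Fin.isValue, one_ne_zero,
        if_false, pow_one] at this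
      rw [this]
      congr 1
      · by_cases h : 𝔮m = 𝔮
        · rw [if_pos h, if_pos (by rw [h])]
        · rw [if_neg h, if_neg (fun h' => h (hb _ hmemm _ h𝔮 h'))]
      · by_cases h : 𝔮p = 𝔮
        · rw [if_pos h, if_pos (by rw [h])]
        · rw [if_neg h, if_neg (fun h' => h (hb _ hmemp _ h𝔮 h'))]
    rw [h2] at key
    have h1 : ∑ i ∈ s, (if ev (𝔯 i) b = ev 𝔮 b then e i else 0) =
        ∑ i ∈ s, if 𝔯 i = 𝔮 then e i else 0 := by
      refine Finset.sum_congr rfl fun i hi => ?_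
      by_cases h : 𝔯 i = 𝔮
      · rw [if_pos h, if_pos (by rw [h])]
      · rw [if_neg h, if_neg (fun h' => h (hb _ (hmemr i hi) _ h𝔮 h'))]
    rw [h1] at key
    have key' := congrArg (Nat.cast : ℕ → ℤ) key
    push_cast at key'
    simpa using key'
  · have h1 : ∀ i ∈ s, 𝔯 i ≠ 𝔮 := fun i hi h => h𝔮 (h ▸ hmemr i hi)
    have h2 : 𝔮m ≠ 𝔮 := fun h => h𝔮 (h ▸ hmemm)
    have h3 : 𝔮p ≠ 𝔮 := fun h => h𝔮 (h ▸ hmemp)
    rw [if_neg h2, if_neg h3, Finset.sum_eq_zero (fun i hi => if_neg (h1 i hi)), add_zero]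

end

section chars

variable {R k A₀ : Type*} [CommRing R] [Field k] [CommRing A₀]

/-- Two characters `R →+* k` restricting to the same surjection on `A₀` and having the same
kernel are equal. -/
theorem esa_char_eq_of_ker (ι₀ : A₀ →+* R) (π : A₀ →+* k) (hπ : Function.Surjective π)
    (θ θ' : R →+* k) (hθ : ∀ a, θ (ι₀ a) = π a) (hθ' : ∀ a, θ' (ι₀ a) = π a)
    (hker : RingHom.ker θ = RingHom.ker θ') : θ = θ' := by
  ext x
  obtain ⟨a, ha⟩ := hπ (θ x)
  have h1 : x - ι₀ a ∈ RingHom.ker θ := by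
    rw [RingHom.mem_ker, map_sub, hθ, ha, sub_self]
  rw [hker, RingHom.mem_ker, map_sub, hθ', sub_eq_zero] at h1
  rw [h1, ha]

/-- Finitely many characters `R →+* k` restricting to the same surjection on `A₀` are separated
by a single element of `R` (`k` infinite): Chinese remainder theorem. -/
theorem esa_char_exists_injective [Infinite k] (ι₀ : A₀ →+* R) (π : A₀ →+* k)
    (hπ : Function.Surjective π) (T : Finset (R →+* k))
    (hT : ∀ θ ∈ T, ∀ a, θ (ι₀ a) = π a) :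
    ∃ x : R, ∀ θ ∈ T, ∀ θ' ∈ T, θ x = θ' x → θ = θ' := by
  classical
  let c : {x // x ∈ T} → k := fun x =>
    Infinite.natEmbedding k ((T.equivFin x : Fin T.card) : ℕ)
  have hc : Function.Injective c := by
    intro x y hxy
    have h1 := (Infinite.natEmbedding k).injective hxy
    exact T.equivFin.injective (Fin.ext h1)
  choose a ha using fun x : {x // x ∈ T} => hπ (c x)
  have hsurj : ∀ θ ∈ T, Function.Surjective θ := by
    intro θ hθ y
    obtain ⟨b, hb⟩ := hπ y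
    exact ⟨ι₀ b, by rw [hT θ hθ, hb]⟩
  have hmax : ∀ x : {x // x ∈ T}, (RingHom.ker (x : R →+* k)).IsMaximal := fun x =>
    RingHom.ker_isMaximal_of_surjective _ (hsurj x.1 x.2)
  have hI : Pairwise (Function.onFun IsCoprime fun x : {x // x ∈ T} =>
      RingHom.ker (x : R →+* k)) := by
    intro x y hxy
    have := hmax x
    have := hmax y
    refine Ideal.isCoprime_of_isMaximal fun hker => hxy ?_
    exact Subtype.ext (esa_char_eq_of_ker ι₀ π hπ _ _ (hT x.1 x.2) (hT y.1 y.2) hker)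
  obtain ⟨r, hr⟩ := Ideal.exists_forall_sub_mem_ideal hI (fun x => ι₀ (a x))
  have hval : ∀ x : {x // x ∈ T}, (x : R →+* k) r = c x := by
    intro x
    have := hr x
    rw [RingHom.mem_ker, map_sub, hT x.1 x.2, ha, sub_eq_zero] at this
    exact this
  refine ⟨r, fun θ hθ θ' hθ' heq => ?_⟩
  have h1 := hval ⟨θ, hθ⟩
  have h2 := hval ⟨θ', hθ'⟩
  simp only at h1 h2
  rw [h1, h2] at heq
  exact congrArg Subtype.val (hc heq)

/-- **Abstract placewise Eichler--Shimura congruence, character form.**  Two finite families of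
characters `R →+* k` (with multiplicities), all restricting to the same surjection on `A₀`,
whose "characteristic polynomials" agree at every element of `R`, are equal as divisors on the
set of characters. -/
theorem esa_char_main [Infinite k] (ι₀ : A₀ →+* R) (π : A₀ →+* k)
    (hπ : Function.Surjective π) {ι κ : Type*} (s : Finset ι) (t : Finset κ)
    (χ : ι → R →+* k) (ψ : κ → R →+* k) (e : ι → ℕ) (f : κ → ℕ)
    (hχ : ∀ i ∈ s, ∀ a, χ i (ι₀ a) = π a) (hψ : ∀ j ∈ t, ∀ a, ψ j (ι₀ a) = π a)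
    (hpoly : ∀ x : R, ∏ i ∈ s, (X - C (χ i x)) ^ e i = ∏ j ∈ t, (X - C (ψ j x)) ^ f j) :
    ∑ i ∈ s, Finsupp.single (χ i) (e i : ℤ) = ∑ j ∈ t, Finsupp.single (ψ j) (f j : ℤ) := by
  classical
  set T : Finset (R →+* k) := s.image χ ∪ t.image ψ with hTdef
  have hT : ∀ θ ∈ T, ∀ a, θ (ι₀ a) = π a := by
    intro θ hθ a
    rw [hTdef, Finset.mem_union, Finset.mem_image, Finset.mem_image] at hθ
    rcases hθ with ⟨i, hi, rfl⟩ | ⟨j, hj, rfl⟩
    · exact hχ i hi a
    · exact hψ j hj a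
  obtain ⟨x, hx⟩ := esa_char_exists_injective ι₀ π hπ T hT
  have hmemχ : ∀ i ∈ s, χ i ∈ T := fun i hi =>
    Finset.mem_union_left _ (Finset.mem_image_of_mem _ hi)
  have hmemψ : ∀ j ∈ t, ψ j ∈ T := fun j hj =>
    Finset.mem_union_right _ (Finset.mem_image_of_mem _ hj)
  ext θ
  simp only [Finsupp.coe_finsetSum, Finset.sum_apply, Finsupp.single_apply]
  by_cases hθ : θ ∈ T
  · have key := congrArg (rootMultiplicity (θ x)) (hpoly x)
    rw [esa_rootMultiplicity_prod, esa_rootMultiplicity_prod] at key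
    have h1 : ∑ i ∈ s, (if χ i x = θ x then e i else 0) =
        ∑ i ∈ s, if χ i = θ then e i else 0 := by
      refine Finset.sum_congr rfl fun i hi => ?_
      by_cases h : χ i = θ
      · rw [if_pos h, if_pos (by rw [h])]
      · rw [if_neg h, if_neg (fun h' => h (hx _ (hmemχ i hi) _ hθ h'))]
    have h2 : ∑ j ∈ t, (if ψ j x = θ x then f j else 0) =
        ∑ j ∈ t, if ψ j = θ then f j else 0 := by
      refine Finset.sum_congr rfl fun j hj => ?_
      by_cases h : ψ j = θ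
      · rw [if_pos h, if_pos (by rw [h])]
      · rw [if_neg h, if_neg (fun h' => h (hx _ (hmemψ j hj) _ hθ h'))]
    rw [h1, h2] at key
    have key' := congrArg (Nat.cast : ℕ → ℤ) key
    push_cast at key'
    exact key'
  · have h1 : ∀ i ∈ s, χ i ≠ θ := fun i hi h => hθ (h ▸ hmemχ i hi)
    have h2 : ∀ j ∈ t, ψ j ≠ θ := fun j hj h => hθ (h ▸ hmemψ j hj)
    rw [Finset.sum_eq_zero (fun i hi => if_neg (h1 i hi)),
      Finset.sum_eq_zero (fun j hj => if_neg (h2 j hj))]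

/-- Multiplicative form of `esa_char_main`: it suffices that
`∏ i, χ i x ^ e i = ∏ j, ψ j x ^ f j` for every `x : R`. -/
theorem esa_char_main_mul [Infinite k] (ι₀ : A₀ →+* R) (π : A₀ →+* k)
    (hπ : Function.Surjective π) {ι κ : Type*} (s : Finset ι) (t : Finset κ)
    (χ : ι → R →+* k) (ψ : κ → R →+* k) (e : ι → ℕ) (f : κ → ℕ)
    (hχ : ∀ i ∈ s, ∀ a, χ i (ι₀ a) = π a) (hψ : ∀ j ∈ t, ∀ a, ψ j (ι₀ a) = π a)
    (hmul : ∀ x : R, ∏ i ∈ s, (χ i x) ^ e i = ∏ j ∈ t, (ψ j x) ^ f j) :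
    ∑ i ∈ s, Finsupp.single (χ i) (e i : ℤ) = ∑ j ∈ t, Finsupp.single (ψ j) (f j : ℤ) := by
  refine esa_char_main ι₀ π hπ s t χ ψ e f hχ hψ fun x => Polynomial.funext fun c => ?_
  obtain ⟨a, rfl⟩ := hπ c
  have h := hmul (ι₀ a - x)
  simp only [eval_prod, eval_pow, eval_sub, eval_X, eval_C]
  have h1 : ∏ i ∈ s, (χ i (ι₀ a - x)) ^ e i = ∏ i ∈ s, (π a - χ i x) ^ e i :=
    Finset.prod_congr rfl fun i hi => by rw [map_sub, hχ i hi]
  have h2 : ∏ j ∈ t, (ψ j (ι₀ a - x)) ^ f j = ∏ j ∈ t, (π a - ψ j x) ^ f j :=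
    Finset.prod_congr rfl fun j hj => by rw [map_sub, hψ j hj]
  rw [← h1, ← h2]
  exact h

end chars

end Fermat.Agent.S37
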