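import Mathlib
import Fermat.Agent.S37.Pairing
import Fermat.Agent.S37.ESAbs
import Fermat.Agent.S37.RedMapDefs

/-!
# S37 / JR-K2: the pointwise Eichler--Shimura congruence, abstract layer

`K` algebraically closed of characteristic zero, `A` a valuation subring with residue field `k`,
`F`, `F'` function fields over `K` with two integral `K`-embeddings `φ ψ : F → F'`
(`φ = β`, `ψ = α` for the Hecke correspondence `T = ψ_* φ^*`).  `O ⊆ F` is a subring of functions
which have values in `A` at all places of a region `Wr`, and `χ P : O →+* k` is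
"evaluate at `P` and reduce".

`jres_pointwise`: if the fibre of `P` under the correspondence stays in the region and
`χ_P (N_φ (ψ g)) = χ_{P₋}(g) ^ ℓ * χ_{P₊}(g)` for all `g ∈ O`, then
`χ_* (T P) = ℓ [χ_{P₋}] + [χ_{P₊}]`.
-/

set_option autoImplicit false
set_option linter.style.haveILetI false
set_option linter.unusedSectionVars false

open AlgebraicCurve

namespace Fermat.Agent.S37

section

variable {K F F' : Type*} [Field K] [IsAlgClosed K] [CharZero K] [Field F] [Field F']
  [Algebra K F] [Algebra K F'] [HasPrincipalDivisors K F']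

/-- The local norm formula for values along `φ`, values possibly zero. -/
theorem jres_hasVal_norm (φ : F →ₐ[K] F') (hφ : φ.toRingHom.IsIntegral)
    (hFI : FundamentalIdentityAlong K φ hφ) (P : Place K F) (hP : P.deg = 1)
    (hF' : ∀ W : Place K F', W.restrictAlong φ hφ = P → W.deg = 1)
    (x : F') (c : Place K F' → K)
    (hx : ∀ W : Place K F', W.restrictAlong φ hφ = P → RdmVal W x (c W)) :
    RdmVal P (e0Norm φ x)
      (∏ W ∈ Place.fiberAlong φ hφ P, c W ^ W.ramificationIndexAlong φ) := by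
  letI := algebraAlong φ
  haveI := isScalarTower_along φ
  haveI := isIntegral_along φ hφ
  haveI : FundamentalIdentity K F F' := hFI
  exact e0_norm_val (F' := F') P hP (fun W hW => hF' W (Place.mem_fiber.mp hW)) x c
    (fun W hW => hx W (Place.mem_fiber.mp hW))

/-- The correspondence applied to a point, all inertia degrees being one. -/
theorem jres_correspondence_single (φ ψ : F →ₐ[K] F') (hφ : φ.toRingHom.IsIntegral)
    (hψ : ψ.toRingHom.IsIntegral) (hF' : ∀ W : Place K F', W.deg = 1) (P : Place K F) :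
    Divisor.correspondence φ ψ hφ hψ (Finsupp.single P 1)
      = ∑ W ∈ Place.fiberAlong φ hφ P,
          Finsupp.single (W.restrictAlong ψ hψ) (W.ramificationIndexAlong φ : ℤ) := by
  rw [Divisor.correspondence_apply, Divisor.pullbackAlong_single, map_sum]
  refine Finset.sum_congr rfl fun W _ => ?_
  rw [Divisor.pushforwardAlong_single, e0_inertiaDegAlong_eq_one ψ hψ W (hF' W)]
  simp

/-- **Pointwise Eichler--Shimura congruence, abstract form.** -/
theorem jres_pointwise (φ ψ : F →ₐ[K] F') (hφ : φ.toRingHom.IsIntegral)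
    (hψ : ψ.toRingHom.IsIntegral) (hFI : FundamentalIdentityAlong K φ hφ)
    (hF : ∀ P : Place K F, P.deg = 1) (hF' : ∀ W : Place K F', W.deg = 1)
    (A : ValuationSubring K) [Infinite (IsLocalRing.ResidueField A)]
    (O : Subring F) (hAO : ∀ a : A, algebraMap K F (a : K) ∈ O)
    (Wr : Set (Place K F)) (χ : Place K F → O →+* IsLocalRing.ResidueField A)
    (hχ : ∀ P ∈ Wr, ∀ x : O, ∃ c : A, RdmVal P (x : F) (c : K) ∧
      χ P x = IsLocalRing.residue A c)
    (P Pm Pp : Place K F) (hP : P ∈ Wr) (hPm : Pm ∈ Wr) (hPp : Pp ∈ Wr)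
    (hstab : ∀ w : Place K F', w.restrictAlong φ hφ = P → w.restrictAlong ψ hψ ∈ Wr)
    (ℓ : ℕ)
    (hES : ∀ g : O, ∃ Tg : O, (Tg : F) = e0Norm φ (ψ g) ∧ χ P Tg = χ Pm g ^ ℓ * χ Pp g) :
    Finsupp.mapDomain χ (Divisor.correspondence φ ψ hφ hψ (Finsupp.single P 1))
      = Finsupp.single (χ Pm) (ℓ : ℤ) + Finsupp.single (χ Pp) 1 := by
  classical
  rw [jres_correspondence_single φ ψ hφ hψ hF' P, Finsupp.mapDomain_finsetSum]
  simp only [Finsupp.mapDomain_single]
  -- the constants
  let ι₀ : A →+* O := RingHom.codRestrict ((algebraMap K F).comp A.subtype) O hAO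
  have hι₀ : ∀ a : A, ((ι₀ a : O) : F) = algebraMap K F (a : K) := fun a => rfl
  have hconst : ∀ Q ∈ Wr, ∀ a : A, χ Q (ι₀ a) = IsLocalRing.residue A a := by
    intro Q hQ a
    obtain ⟨c, hc, hχc⟩ := hχ Q hQ (ι₀ a)
    rw [hι₀] at hc
    have : (c : K) = (a : K) := e0HasVal_unique Q hc (e0HasVal_const Q (a : K))
    rw [hχc, Subtype.ext this]
  have hπ : Function.Surjective (IsLocalRing.residue A) := IsLocalRing.residue_surjective
  -- the right-hand side as a sum over `Fin 2`
  have hrhs : Finsupp.single (χ Pm) (ℓ : ℤ) + Finsupp.single (χ Pp) 1 =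
      ∑ j ∈ (Finset.univ : Finset (Fin 2)),
        Finsupp.single ((fun j : Fin 2 => if j = 0 then χ Pm else χ Pp) j)
          (((fun j : Fin 2 => if j = 0 then ℓ else 1) j : ℕ) : ℤ) := by
    simp [Fin.sum_univ_two]
  rw [hrhs]
  refine esa_char_main_mul ι₀ (IsLocalRing.residue A) hπ (Place.fiberAlong φ hφ P) Finset.univ
    (fun W => χ (W.restrictAlong ψ hψ)) _ (fun W => W.ramificationIndexAlong φ) _ ?_ ?_ ?_
  · intro W hW a
    exact hconst _ (hstab W (Place.mem_fiberAlong.mp hW)) a
  · intro j _ a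
    by_cases hj : j = 0
    · simp only [hj, if_true]; exact hconst _ hPm a
    · simp only [hj, if_false]; exact hconst _ hPp a
  · intro g
    obtain ⟨Tg, hTg, hχT⟩ := hES g
    -- values of `g` at the points of the fibre
    have hval : ∀ W : Place K F', ∃ c : A, W.restrictAlong φ hφ = P →
        (RdmVal (W.restrictAlong ψ hψ) (g : F) (c : K) ∧
          χ (W.restrictAlong ψ hψ) g = IsLocalRing.residue A c) := by
      intro W
      by_cases hW : W.restrictAlong φ hφ = P
      · obtain ⟨c, hc⟩ := hχ _ (hstab W hW) g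
        exact ⟨c, fun _ => hc⟩
      · exact ⟨0, fun h => absurd h hW⟩
    choose cf hcf using hval
    have hnorm := jres_hasVal_norm φ hφ hFI P (hF P) (fun W _ => hF' W) (ψ (g : F))
      (fun W => (cf W : K))
      (fun W hW => (e0HasVal_restrictAlong ψ hψ W (g : F) _).mp (hcf W hW).1)
    obtain ⟨c, hc, hχc⟩ := hχ P hP Tg
    rw [hTg] at hc
    have hceq : (c : K) = ∏ W ∈ Place.fiberAlong φ hφ P,
        (cf W : K) ^ W.ramificationIndexAlong φ := e0HasVal_unique P hc hnorm
    have hceq' : c = ∏ W ∈ Place.fiberAlong φ hφ P, cf W ^ W.ramificationIndexAlong φ := by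
      apply Subtype.ext
      rw [hceq]
      simp
    have h1 : χ P Tg = ∏ W ∈ Place.fiberAlong φ hφ P,
        χ (W.restrictAlong ψ hψ) g ^ W.ramificationIndexAlong φ := by
      rw [hχc, hceq', map_prod]
      refine Finset.prod_congr rfl fun W hW => ?_
      rw [map_pow, (hcf W (Place.mem_fiberAlong.mp hW)).2]
    rw [← h1, hχT]
    simp [Fin.prod_univ_two]

end

section Stability

variable {K F F' : Type*} [Field K] [Field F] [Field F'] [Algebra K F] [Algebra K F']

/-- Integrality over a subring `S₂` all of whose elements are integral over `S₁` implies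
integrality over `S₁`. -/
theorem jres_isIntegral_of_le_closure {S : Type*} [CommRing S] (S₁ S₂ : Subring S)
    (h : ∀ y ∈ S₂, IsIntegral S₁ y) {x : S} (hx : IsIntegral S₂ x) : IsIntegral S₁ x := by
  let C := integralClosure S₁ S
  let f : S₂ →+* C := RingHom.codRestrict S₂.subtype C.toSubring (fun y => h y y.2)
  have h1 : IsIntegral C x := by
    have := IsIntegral.map_of_comp_eq (R := S₂) (S := S) (T := C) (U := S) f (RingHom.id S)
      (by ext y; rfl) hx
    simpa using this
  exact isIntegral_trans (R := S₁) (A := C) x h1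

/-- **`T^*`-stability.**  If `ψ r` is integral over `φ(R₁)` for all `r ∈ R₁`, then the norm along
`φ` of `ψ g` is integral over `R₁` for every `g` integral over `R₁`. -/
theorem jres_norm_isIntegral (φ ψ : F →ₐ[K] F') (R₁ : Subring F)
    (hint : ∀ r ∈ R₁, IsIntegral (R₁.map (φ : F →+* F')) (ψ r))
    (g : F) (hg : IsIntegral R₁ g) : IsIntegral R₁ (e0Norm φ (ψ g)) := by
  set S₁ : Subring F' := R₁.map (φ : F →+* F') with hS₁
  set S₂ : Subring F' := R₁.map (ψ : F →+* F') with hS₂
  have h1 : IsIntegral S₂ (ψ g) := by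
    let f : R₁ →+* S₂ := RingHom.codRestrict ((ψ : F →+* F').comp R₁.subtype) S₂
      (fun r => Subring.mem_map.mpr ⟨r, r.2, rfl⟩)
    exact IsIntegral.map_of_comp_eq (R := R₁) (S := F) (T := S₂) (U := F') f (ψ : F →+* F')
      (by ext y; rfl) hg
  have h2 : IsIntegral S₁ (ψ g) := by
    refine jres_isIntegral_of_le_closure S₁ S₂ ?_ h1
    intro y hy
    obtain ⟨r, hr, rfl⟩ := Subring.mem_map.mp hy
    exact hint r hr
  letI := algebraAlong φ
  letI : Algebra R₁ F' := ((algebraMap F F').comp R₁.subtype).toAlgebra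
  haveI : IsScalarTower R₁ F F' := IsScalarTower.of_algebraMap_eq (fun x => rfl)
  have hinj : Function.Injective (φ : F →+* F') := (φ : F →+* F').injective
  have h3 : IsIntegral R₁ (ψ g) := by
    let e := R₁.equivMapOfInjective (φ : F →+* F') hinj
    have := IsIntegral.map_of_comp_eq (R := S₁) (S := F') (T := R₁) (U := F')
      (e.symm : S₁ →+* R₁) (RingHom.id F') (by
        ext y
        have h := Subring.coe_equivMapOfInjective_apply (s := R₁) (φ : F →+* F') hinj (e.symm y)
        simp only [e, RingEquiv.apply_symm_apply] at h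
        simp only [RingHom.comp_apply, RingHom.id_apply, RingHom.coe_coe]
        exact h.symm) h2
    simpa using this
  exact Algebra.isIntegral_norm F h3

/-- It suffices to check the hypothesis of `jres_norm_isIntegral` on generators. -/
theorem jres_hint_of_closure (φ ψ : F →ₐ[K] F') (S : Set F)
    (hS : ∀ r ∈ S, IsIntegral ((Subring.closure S).map (φ : F →+* F')) (ψ r)) :
    ∀ r ∈ Subring.closure S, IsIntegral ((Subring.closure S).map (φ : F →+* F')) (ψ r) := by
  intro r hr
  induction hr using Subring.closure_induction with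
  | mem x hx => exact hS x hx
  | zero => rw [map_zero]; exact isIntegral_zero
  | one => rw [map_one]; exact isIntegral_one
  | add x y _ _ hx hy => rw [map_add]; exact hx.add hy
  | neg x _ hx => rw [map_neg]; exact hx.neg
  | mul x y _ _ hx hy => rw [map_mul]; exact hx.mul hy

end Stability

section Assembly

variable {F k : Type*} [Field F] [Field k]

/-- **Assembly of the congruence `χ_P(T^* g) = χ_{P₋}(g)^ℓ χ_{P₊}(g)`** from: stability of `O`
under `T^*`, `s`, `s⁻¹`; the two-valuation congruence `T^* g ≡ (s g) (s⁻¹ g)^ℓ` modulo the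
non-units of the Gauss ring `V`; `(INT)`: `χ_P` kills `O ∩ V.nonunits`; and the Galois transport
of characters. -/
theorem jres_hES (O : Subring F) (V : ValuationSubring F) (χP χm χp : O →+* k) (ℓ : ℕ)
    (sF : F ≃+* F) (hs : ∀ x ∈ O, sF x ∈ O) (hs' : ∀ x ∈ O, sF.symm x ∈ O)
    (hINT : ∀ x : O, (x : F) ∈ V.nonunits → χP x = 0)
    (hgal : ∀ x : O, χP ⟨sF x, hs x x.2⟩ = χm x ^ ℓ)
    (hgal' : ∀ x : O, χP ⟨sF.symm x, hs' x x.2⟩ ^ ℓ = χp x)
    (T : F → F) (hT : ∀ g ∈ O, T g ∈ O)
    (htv : ∀ g ∈ O, T g - sF g * sF.symm g ^ ℓ ∈ V.nonunits) :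
    ∀ g : O, ∃ Tg : O, (Tg : F) = T g ∧ χP Tg = χm g ^ ℓ * χp g := by
  intro g
  refine ⟨⟨T g, hT g g.2⟩, rfl, ?_⟩
  have h0 := hINT (⟨T g, hT g g.2⟩ - ⟨sF g, hs g g.2⟩ * ⟨sF.symm g, hs' g g.2⟩ ^ ℓ)
    (htv g g.2)
  rw [map_sub, sub_eq_zero, map_mul, map_pow, hgal, hgal'] at h0
  exact h0

end Assembly

end Fermat.Agent.S37
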