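import Mathlib
import Fermat.Agent.S37.JRingES
import Fermat.Prelude.Def_AlgebraicCurve_BaseChangeGalois

/-!
# S37 / JR-K2: the pointwise Eichler--Shimura congruence with a Frobenius-semilinear automorphism

`jres_K2_abs`: in the setting of `jres_pointwise`, let `g` be a semilinear automorphism of `F / K`
which preserves `A` and induces the `ℓ`-power map on the residue field (a Frobenius), preserving
the region `Wr` and the ring `O`.  If `O` is stable under `T^* = N_φ ∘ ψ`, the fibres of the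
correspondence stay in the region, `χ_P` kills the non-units of the Gauss ring `V` lying in `O`
(`(INT)`), and `T^* x ≡ (g x) (g⁻¹ x)^ℓ` modulo the non-units of `V` (two-valuation congruence),
then `χ_* (T P) = ℓ [χ_{g⁻¹ P}] + [χ_{g P}]`.
-/

set_option autoImplicit false
set_option linter.style.haveILetI false
set_option linter.unusedSectionVars false

open AlgebraicCurve

namespace Fermat.Agent.S37

section Gal

variable {K F : Type*} [Field K] [Field F] [Algebra K F]

/-- Transport of values under a semilinear automorphism: `(g x)(g P) = g (x(P))`. -/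
theorem jres_rdmVal_smul (g : SemilinearAut K F) (P : Place K F) (x : F) (c : K)
    (h : RdmVal P x c) : RdmVal (g • P) (g • x) (SemilinearAut.baseAut g c) := by
  rcases h with h | h
  · left
    rw [h, SemilinearAut.smul_algebraMap]
  · right
    have e : g • x - algebraMap K F (SemilinearAut.baseAut g c) = g • (x - algebraMap K F c) := by
      rw [smul_sub, SemilinearAut.smul_algebraMap]
    rw [e, SemilinearAut.ord_smul]
    exact h

/-- Transport of characters under a Frobenius-semilinear automorphism: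
`χ_{g P}(g x) = χ_P(x) ^ ℓ`. -/
theorem jres_char_smul (A : ValuationSubring K) (O : Subring F)
    (Wr : Set (Place K F)) (χ : Place K F → O →+* IsLocalRing.ResidueField A)
    (hχ : ∀ P ∈ Wr, ∀ x : O, ∃ c : A, RdmVal P (x : F) (c : K) ∧
      χ P x = IsLocalRing.residue A c)
    (g : SemilinearAut K F) (ℓ : ℕ)
    (hgA : ∀ c : A, ∃ c' : A, (c' : K) = SemilinearAut.baseAut g (c : K) ∧
      IsLocalRing.residue A c' = IsLocalRing.residue A c ^ ℓ)
    (Q : Place K F) (hQ : Q ∈ Wr) (hgQ : g • Q ∈ Wr) (x : O) (hgx : g • (x : F) ∈ O) :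
    χ (g • Q) ⟨g • (x : F), hgx⟩ = χ Q x ^ ℓ := by
  obtain ⟨c, hc, hχc⟩ := hχ Q hQ x
  obtain ⟨c', hc', hres⟩ := hgA c
  obtain ⟨c'', hc'', hχc''⟩ := hχ (g • Q) hgQ ⟨g • (x : F), hgx⟩
  have h1 : RdmVal (g • Q) (g • (x : F)) (c' : K) := by
    rw [hc']
    exact jres_rdmVal_smul g Q x c hc
  have h2 : (c'' : K) = (c' : K) := e0HasVal_unique (g • Q) hc'' h1
  rw [hχc'', Subtype.ext h2, hres, hχc]

end Gal

section Main

variable {K F F' : Type*} [Field K] [IsAlgClosed K] [CharZero K] [Field F] [Field F']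
  [Algebra K F] [Algebra K F'] [HasPrincipalDivisors K F']

/-- **Pointwise Eichler--Shimura congruence for a Frobenius-semilinear automorphism.** -/
theorem jres_K2_abs (φ ψ : F →ₐ[K] F') (hφ : φ.toRingHom.IsIntegral)
    (hψ : ψ.toRingHom.IsIntegral) (hFI : FundamentalIdentityAlong K φ hφ)
    (hF : ∀ P : Place K F, P.deg = 1) (hF' : ∀ W : Place K F', W.deg = 1)
    (A : ValuationSubring K) [Infinite (IsLocalRing.ResidueField A)]
    (O : Subring F) (hAO : ∀ a : A, algebraMap K F (a : K) ∈ O)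
    (Wr : Set (Place K F)) (χ : Place K F → O →+* IsLocalRing.ResidueField A)
    (hχ : ∀ P ∈ Wr, ∀ x : O, ∃ c : A, RdmVal P (x : F) (c : K) ∧
      χ P x = IsLocalRing.residue A c)
    (g : SemilinearAut K F) (ℓ : ℕ)
    (hgA : ∀ c : A, ∃ c' : A, (c' : K) = SemilinearAut.baseAut g (c : K) ∧
      IsLocalRing.residue A c' = IsLocalRing.residue A c ^ ℓ)
    (hWg : ∀ P ∈ Wr, g • P ∈ Wr) (hWg' : ∀ P ∈ Wr, g⁻¹ • P ∈ Wr)
    (hOg : ∀ x ∈ O, g • x ∈ O) (hOg' : ∀ x ∈ O, g⁻¹ • x ∈ O)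
    (hstab : ∀ P ∈ Wr, ∀ w : Place K F', w.restrictAlong φ hφ = P →
      w.restrictAlong ψ hψ ∈ Wr)
    (hT : ∀ x ∈ O, e0Norm φ (ψ x) ∈ O)
    (V : ValuationSubring F)
    (hINT : ∀ P ∈ Wr, ∀ x : O, (x : F) ∈ V.nonunits → χ P x = 0)
    (htv : ∀ x ∈ O, e0Norm φ (ψ x) - (g • x) * (g⁻¹ • x) ^ ℓ ∈ V.nonunits)
    (P : Place K F) (hP : P ∈ Wr) :
    Finsupp.mapDomain χ (Divisor.correspondence φ ψ hφ hψ (Finsupp.single P 1))
      = Finsupp.single (χ (g⁻¹ • P)) (ℓ : ℤ) + Finsupp.single (χ (g • P)) 1 := by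
  refine jres_pointwise φ ψ hφ hψ hFI hF hF' A O hAO Wr χ hχ P (g⁻¹ • P) (g • P) hP
    (hWg' P hP) (hWg P hP) (hstab P hP) ℓ ?_
  refine jres_hES O V (χ P) (χ (g⁻¹ • P)) (χ (g • P)) ℓ (SemilinearAut.toRingAut g)
    (fun x hx => hOg x hx) (fun x hx => hOg' x hx) (hINT P hP) ?_ ?_
    (fun x => e0Norm φ (ψ x)) hT (fun x hx => htv x hx)
  · intro x
    have h := jres_char_smul A O Wr χ hχ g ℓ hgA (g⁻¹ • P) (hWg' P hP)
      (by rw [smul_inv_smul]; exact hP) x (hOg x x.2)
    rw [smul_inv_smul] at h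
    exact h
  · intro x
    have h := jres_char_smul A O Wr χ hχ g ℓ hgA P hP (hWg P hP)
      ⟨g⁻¹ • (x : F), hOg' x x.2⟩ (by
        show g • g⁻¹ • (x : F) ∈ O
        rw [smul_inv_smul]; exact x.2)
    have hx : (⟨g • (⟨g⁻¹ • (x : F), hOg' x x.2⟩ : O).1, (by
        show g • g⁻¹ • (x : F) ∈ O
        rw [smul_inv_smul]; exact x.2)⟩ : O) = x := Subtype.ext (smul_inv_smul g (x : F))
    rw [hx] at h
    exact h.symm

end Main

end Fermat.Agent.S37
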