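import Mathlib
import Fermat.Agent.S37.Pairing
import Fermat.Agent.S37.RedMapDefs

/-!
# S37 / JR-K2: values at a place of degree one; integral elements have `A`-values; characters

* `jresEv P hdeg : P.toValuationSubring →+* K` : the value map at a place of degree one;
* `jres_val_of_isIntegral` : if all elements of a subring `R ⊆ F` have values in the valuation
  ring `A ⊆ K` at `P`, so do all elements of `F` integral over `R`
  (the ring of `A`-valued functions at `P` is integrally closed);
* `jresChar A P hdeg O h : O →+* k` : the character "evaluate at `P`, reduce modulo `𝔪_A`" of a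
  subring `O` of `A`-valued functions at `P`.
-/

set_option autoImplicit false
set_option linter.style.haveILetI false

open AlgebraicCurve

namespace Fermat.Agent.S37

open Fermat.Agent.S24

section Ev

variable {K F : Type*} [Field K] [Field F] [Algebra K F]

/-- A function with a value at `P` lies in the valuation ring of `P`. -/
theorem jres_mem_of_val (P : Place K F) {y : F} {c : K} (h : RdmVal P y c) :
    y ∈ P.toValuationSubring := by
  rcases e0HasVal_mem P h with h0 | h0
  · rw [h0]; exact zero_mem _
  · exact (sf_ord_nonneg_iff P y).mp h0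

theorem jres_exists_val (P : Place K F) (hdeg : P.deg = 1) (y : P.toValuationSubring) :
    ∃ c : K, RdmVal P (y : F) c :=
  e0HasVal_exists P hdeg (Or.inr ((sf_ord_nonneg_iff P _).mpr y.2))

/-- The value map at a place of degree one. -/
noncomputable def jresEv (P : Place K F) (hdeg : P.deg = 1) : P.toValuationSubring →+* K where
  toFun y := (jres_exists_val P hdeg y).choose
  map_one' := e0HasVal_unique P (jres_exists_val P hdeg 1).choose_spec
    (by simpa using e0HasVal_const P (1 : K))
  map_mul' x y := e0HasVal_unique P (jres_exists_val P hdeg (x * y)).choose_spec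
    (e0HasVal_mul P (jres_exists_val P hdeg x).choose_spec (jres_exists_val P hdeg y).choose_spec)
  map_zero' := e0HasVal_unique P (jres_exists_val P hdeg 0).choose_spec
    (by simpa using e0HasVal_const P (0 : K))
  map_add' x y := e0HasVal_unique P (jres_exists_val P hdeg (x + y)).choose_spec
    (e0HasVal_add P (jres_exists_val P hdeg x).choose_spec (jres_exists_val P hdeg y).choose_spec)

theorem jresEv_spec (P : Place K F) (hdeg : P.deg = 1) (y : P.toValuationSubring) :
    RdmVal P (y : F) (jresEv P hdeg y) :=
  (jres_exists_val P hdeg y).choose_spec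

theorem jresEv_eq (P : Place K F) (hdeg : P.deg = 1) (y : P.toValuationSubring) (c : K)
    (h : RdmVal P (y : F) c) : jresEv P hdeg y = c :=
  e0HasVal_unique P (jresEv_spec P hdeg y) h

/-- **Integral elements have `A`-values.**  If every element of the subring `R` has a value in
`A` at the place `P` (of degree one), then so does every element of `F` integral over `R`. -/
theorem jres_val_of_isIntegral (A : ValuationSubring K) (P : Place K F) (hdeg : P.deg = 1)
    (R : Subring F) (hR : ∀ r ∈ R, ∃ a : A, RdmVal P r (a : K)) (x : F)
    (hx : IsIntegral R x) : ∃ a : A, RdmVal P x (a : K) := by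
  have hle : R ≤ P.toValuationSubring.toSubring := fun r hr => by
    obtain ⟨a, ha⟩ := hR r hr
    exact jres_mem_of_val P ha
  -- `x` lies in the valuation ring of `P`
  have hxO : x ∈ P.toValuationSubring := by
    have h1 : IsIntegral P.toValuationSubring x := by
      have := IsIntegral.map_of_comp_eq (R := R) (S := F) (T := P.toValuationSubring) (U := F)
        (Subring.inclusion hle) (RingHom.id F) (by ext; rfl) hx
      simpa using this
    obtain ⟨y, hy⟩ := IsIntegrallyClosed.isIntegral_iff.mp h1
    rw [← hy]
    exact y.2
  -- its value is integral over `A`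
  letI : Algebra R P.toValuationSubring := (Subring.inclusion hle).toAlgebra
  have hx' : IsIntegral R (⟨x, hxO⟩ : P.toValuationSubring) := by
    let f : P.toValuationSubring →ₐ[R] F :=
      { P.toValuationSubring.subtype with commutes' := fun r => rfl }
    exact (isIntegral_algHom_iff f Subtype.val_injective).mp hx
  let φ : R →+* A := RingHom.codRestrict ((jresEv P hdeg).comp (Subring.inclusion hle)) A
    (fun r => by
      obtain ⟨a, ha⟩ := hR r r.2
      have := jresEv_eq P hdeg (Subring.inclusion hle r) a ha
      show jresEv P hdeg (Subring.inclusion hle r) ∈ A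
      rw [this]
      exact a.2)
  have h2 : IsIntegral A (jresEv P hdeg ⟨x, hxO⟩) :=
    IsIntegral.map_of_comp_eq (R := R) (S := P.toValuationSubring) (T := A) (U := K) φ
      (jresEv P hdeg) (by ext r; rfl) hx'
  obtain ⟨a, ha⟩ := IsIntegrallyClosed.isIntegral_iff.mp h2
  refine ⟨a, ?_⟩
  have := jresEv_spec P hdeg ⟨x, hxO⟩
  rw [← ha] at this
  exact this

/-- The character "evaluate at `P` and reduce" on a subring of `A`-valued functions at `P`. -/
theorem jres_le_of_val (A : ValuationSubring K) (P : Place K F)
    (O : Subring F) (h : ∀ x ∈ O, ∃ a : A, RdmVal P x (a : K)) :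
    O ≤ P.toValuationSubring.toSubring := fun x hx => by
  obtain ⟨a, ha⟩ := h x hx
  exact jres_mem_of_val P ha

theorem jres_ev_mem (A : ValuationSubring K) (P : Place K F) (hdeg : P.deg = 1)
    (O : Subring F) (h : ∀ x ∈ O, ∃ a : A, RdmVal P x (a : K)) (x : O) :
    ((jresEv P hdeg).comp (Subring.inclusion (jres_le_of_val A P O h))) x ∈ A := by
  obtain ⟨a, ha⟩ := h x x.2
  have := jresEv_eq P hdeg (Subring.inclusion (jres_le_of_val A P O h) x) a ha
  show jresEv P hdeg (Subring.inclusion (jres_le_of_val A P O h) x) ∈ A
  rw [this]
  exact a.2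

/-- The character "evaluate at `P` and reduce" on a subring of `A`-valued functions at `P`. -/
noncomputable def jresChar (A : ValuationSubring K) (P : Place K F) (hdeg : P.deg = 1)
    (O : Subring F) (h : ∀ x ∈ O, ∃ a : A, RdmVal P x (a : K)) :
    O →+* IsLocalRing.ResidueField A :=
  (IsLocalRing.residue A).comp
    (RingHom.codRestrict ((jresEv P hdeg).comp
      (Subring.inclusion (jres_le_of_val A P O h))) A (jres_ev_mem A P hdeg O h))

theorem jresChar_spec (A : ValuationSubring K) (P : Place K F) (hdeg : P.deg = 1)
    (O : Subring F) (h : ∀ x ∈ O, ∃ a : A, RdmVal P x (a : K)) (x : O) :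
    ∃ c : A, RdmVal P (x : F) (c : K) ∧ jresChar A P hdeg O h x = IsLocalRing.residue A c := by
  obtain ⟨a, ha⟩ := h x x.2
  refine ⟨a, ha, ?_⟩
  have := jresEv_eq P hdeg (Subring.inclusion (jres_le_of_val A P O h) x) a ha
  show IsLocalRing.residue A _ = IsLocalRing.residue A a
  congr 1
  exact Subtype.ext this

end Ev

end Fermat.Agent.S37
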