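import Mathlib
import Fermat.Agent.S37.JRingES2
import Fermat.Agent.S37.JRingESVal
import Fermat.Agent.S37.JRingDefs

/-!
# S37 / JR-K2: the pointwise Eichler--Shimura congruence for the class map `jrCls`

* `JresRegion` : the list of properties of a region `Wr` with its J-ring `O` used by (K2);
* `jres_K2_region` : the congruence for one region and any class map which is a function of the
  characters on that region;
* `jres_K2_cls` : the congruence `c_* (T P) = [c (g P)] + ℓ [c (g⁻¹ P)]` for `c = jrCls A j`, from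
  `JresRegion` for the two regions `Y` and `Z`.
-/

set_option autoImplicit false
set_option linter.style.haveILetI false
set_option linter.unusedSectionVars false

open AlgebraicCurve

namespace Fermat.Agent.S37

section Region

variable {K F F' : Type*} [Field K] [Field F] [Field F'] [Algebra K F] [Algebra K F']

/-- The properties of a region `Wr` of places of `F` and of its ring `O` which enter the pointwise
Eichler--Shimura congruence, for the correspondence `ψ_* φ^*`, a semilinear automorphism `g`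
(a Frobenius) and a valuation subring `V` of `F` (the Gauss ring). -/
structure JresRegion (A : ValuationSubring K) (φ ψ : F →ₐ[K] F')
    (hφ : φ.toRingHom.IsIntegral) (hψ : ψ.toRingHom.IsIntegral) (g : SemilinearAut K F) (ℓ : ℕ)
    (V : ValuationSubring F) (Wr : Set (Place K F)) (O : Subring F) : Prop where
  /-- constants of `A` lie in `O` -/
  const : ∀ a : A, algebraMap K F (a : K) ∈ O
  /-- elements of `O` have values in `A` at the places of the region -/
  val : ∀ P ∈ Wr, ∀ x ∈ O, ∃ a : A, RdmVal P x (a : K)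
  /-- the region is stable under `g` -/
  reg_smul : ∀ P ∈ Wr, g • P ∈ Wr
  /-- the region is stable under `g⁻¹` -/
  reg_inv_smul : ∀ P ∈ Wr, g⁻¹ • P ∈ Wr
  /-- the ring is stable under `g` -/
  ring_smul : ∀ x ∈ O, g • x ∈ O
  /-- the ring is stable under `g⁻¹` -/
  ring_inv_smul : ∀ x ∈ O, g⁻¹ • x ∈ O
  /-- the fibres of the correspondence stay in the region -/
  stab : ∀ P ∈ Wr, ∀ w : Place K F', w.restrictAlong φ hφ = P → w.restrictAlong ψ hψ ∈ Wr
  /-- the ring is stable under `T^* = N_φ ∘ ψ` -/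
  norm : ∀ x ∈ O, e0Norm φ (ψ x) ∈ O
  /-- `(INT)`: a non-unit of `V` lying in `O` has values in `𝔪_A` on the region -/
  int : ∀ P ∈ Wr, ∀ x ∈ O, x ∈ V.nonunits → ∀ a : A, RdmVal P x (a : K) →
    IsLocalRing.residue A a = 0
  /-- the two-valuation congruence `T^* x ≡ (g x) (g⁻¹ x)^ℓ` -/
  tv : ∀ x ∈ O, e0Norm φ (ψ x) - (g • x) * (g⁻¹ • x) ^ ℓ ∈ V.nonunits

end Region

section Main

variable {K F F' : Type*} [Field K] [IsAlgClosed K] [CharZero K] [Field F] [Field F']
  [Algebra K F] [Algebra K F'] [HasPrincipalDivisors K F']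

open Classical in
/-- **(K2) for one region**, for any class map `c` which on the region is a function `ι` of the
character `x ↦ res (x(P))` of `O`. -/
theorem jres_K2_region (φ ψ : F →ₐ[K] F') (hφ : φ.toRingHom.IsIntegral)
    (hψ : ψ.toRingHom.IsIntegral) (hFI : FundamentalIdentityAlong K φ hφ)
    (hF : ∀ P : Place K F, P.deg = 1) (hF' : ∀ W : Place K F', W.deg = 1)
    (A : ValuationSubring K) [Infinite (IsLocalRing.ResidueField A)]
    (g : SemilinearAut K F) (ℓ : ℕ)
    (hgA : ∀ c : A, ∃ c' : A, (c' : K) = SemilinearAut.baseAut g (c : K) ∧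
      IsLocalRing.residue A c' = IsLocalRing.residue A c ^ ℓ)
    (V : ValuationSubring F) (Wr : Set (Place K F)) (O : Subring F)
    (hR : JresRegion A φ ψ hφ hψ g ℓ V Wr O)
    {C : Type*} (c : Place K F → C) (ι : (O → IsLocalRing.ResidueField A) → C)
    (hc : ∀ P ∈ Wr, ∀ χ : O → IsLocalRing.ResidueField A,
      (∀ x : O, ∃ a : A, RdmVal P (x : F) (a : K) ∧ χ x = IsLocalRing.residue A a) → c P = ι χ)
    (P : Place K F) (hP : P ∈ Wr) :
    Finsupp.mapDomain c (Divisor.correspondence φ ψ hφ hψ (Finsupp.single P 1))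
      = Finsupp.single (c (g • P)) 1 + Finsupp.single (c (g⁻¹ • P)) (ℓ : ℤ) := by
  -- the characters
  let χ : Place K F → O →+* IsLocalRing.ResidueField A := fun Q =>
    if h : Q ∈ Wr then jresChar A Q (hF Q) O (hR.val Q h)
    else jresChar A P (hF P) O (hR.val P hP)
  have hχ : ∀ Q ∈ Wr, ∀ x : O, ∃ a : A, RdmVal Q (x : F) (a : K) ∧
      χ Q x = IsLocalRing.residue A a := by
    intro Q hQ x
    have e : χ Q = jresChar A Q (hF Q) O (hR.val Q hQ) := dif_pos hQ
    rw [e]
    exact jresChar_spec A Q (hF Q) O (hR.val Q hQ) x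
  have hcχ : ∀ Q ∈ Wr, c Q = ι (χ Q) := fun Q hQ => hc Q hQ (χ Q) (hχ Q hQ)
  have hINT : ∀ Q ∈ Wr, ∀ x : O, (x : F) ∈ V.nonunits → χ Q x = 0 := by
    intro Q hQ x hx
    obtain ⟨a, ha, hχa⟩ := hχ Q hQ x
    rw [hχa]
    exact hR.int Q hQ x x.2 hx a ha
  have key := jres_K2_abs φ ψ hφ hψ hFI hF hF' A O hR.const Wr χ hχ g ℓ hgA hR.reg_smul
    hR.reg_inv_smul hR.ring_smul hR.ring_inv_smul hR.stab hR.norm V hINT hR.tv P hP
  -- transport along `ι`
  have hsupp : ∀ Q ∈ (Divisor.correspondence φ ψ hφ hψ (Finsupp.single P 1)).support,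
      Q ∈ Wr := by
    intro Q hQ
    rw [jres_correspondence_single φ ψ hφ hψ hF' P] at hQ
    have h1 := Finsupp.support_finsetSum hQ
    rw [Finset.mem_biUnion] at h1
    obtain ⟨w, hw, hwQ⟩ := h1
    have h2 := Finsupp.support_single_subset hwQ
    rw [Finset.mem_singleton] at h2
    rw [h2]
    exact hR.stab P hP w (Place.mem_fiberAlong.mp hw)
  have h1 : Finsupp.mapDomain c (Divisor.correspondence φ ψ hφ hψ (Finsupp.single P 1))
      = Finsupp.mapDomain (fun θ : O →+* IsLocalRing.ResidueField A => ι θ)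
          (Finsupp.mapDomain χ (Divisor.correspondence φ ψ hφ hψ (Finsupp.single P 1))) := by
    rw [← Finsupp.mapDomain_comp]
    exact Finsupp.mapDomain_congr fun Q hQ => hcχ Q (hsupp Q hQ)
  rw [h1, key, Finsupp.mapDomain_add, Finsupp.mapDomain_single, Finsupp.mapDomain_single,
    ← hcχ _ (hR.reg_inv_smul P hP), ← hcχ _ (hR.reg_smul P hP), add_comm]

/-- **(K2) for the class map `jrCls A j`**, from the properties of the two regions. -/
theorem jres_K2_cls (φ ψ : F →ₐ[K] F') (hφ : φ.toRingHom.IsIntegral)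
    (hψ : ψ.toRingHom.IsIntegral) (hFI : FundamentalIdentityAlong K φ hφ)
    (hF : ∀ P : Place K F, P.deg = 1) (hF' : ∀ W : Place K F', W.deg = 1)
    (A : ValuationSubring K) [Infinite (IsLocalRing.ResidueField A)]
    (g : SemilinearAut K F) (ℓ : ℕ)
    (hgA : ∀ c : A, ∃ c' : A, (c' : K) = SemilinearAut.baseAut g (c : K) ∧
      IsLocalRing.residue A c' = IsLocalRing.residue A c ^ ℓ)
    (V : ValuationSubring F) (j : F)
    (hY : JresRegion A φ ψ hφ hψ g ℓ V {P | jrRegY A j P} (jrOY A j))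
    (hZ : JresRegion A φ ψ hφ hψ g ℓ V {P | ¬ jrRegY A j P} (jrOZ A j))
    (P : Place K F) :
    Finsupp.mapDomain (jrCls A j) (Divisor.correspondence φ ψ hφ hψ (Finsupp.single P 1))
      = Finsupp.single (jrCls A j (g • P)) 1 + Finsupp.single (jrCls A j (g⁻¹ • P)) (ℓ : ℤ) := by
  by_cases hP : jrRegY A j P
  · exact jres_K2_region φ ψ hφ hψ hFI hF hF' A g ℓ hgA V _ _ hY (jrCls A j)
      (jrClsOf A True (jrOY A j)) (fun Q hQ χ hχ => jrCls_eq_clsOf_Y hQ χ hχ) P hP
  · exact jres_K2_region φ ψ hφ hψ hFI hF hF' A g ℓ hgA V _ _ hZ (jrCls A j)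
      (jrClsOf A False (jrOZ A j)) (fun Q hQ χ hχ => jrCls_eq_clsOf_Z hQ χ hχ) P hP

end Main

end Fermat.Agent.S37
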