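import Mathlib
import Fermat.Agent.S37.JRingES3
import Fermat.Agent.S37.HeckeDeg
import Fermat.Agent.S18.IfaceRed
import Fermat.Agent.S18.GaussMain

/-!
# S37 / JR-K2: the pointwise Eichler--Shimura congruence at level `N`, from the two regions

`jres_K2_of_regions`: (K2) in the exact shape consumed by `s37_redDiv_of_classMap`
(`Torsion.lean`), for the class map `jrCls A (jBar N)`, given `JresRegion` for the regions `Y`
and `Z` of `X₀(N)` with respect to the Hecke correspondence, the semilinear automorphism of a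
Frobenius element and the Gauss ring.
-/

set_option autoImplicit false
set_option linter.style.haveILetI false

open AlgebraicCurve ModularCurve

namespace Fermat.Agent.S37

open Fermat.Agent.S18 Fermat.Agent.S24

local notation "Qb" => AlgebraicClosure ℚ

/-- A Frobenius element at `A` preserves `A` and induces the `ℓ`-th power map on the residue
field. -/
theorem jres_frob_residue {K L : Type*} [Field K] [Field L] [Algebra K L]
    (A : ValuationSubring L) (σ : L ≃ₐ[K] L) (ℓ : ℕ) (hσ : A.IsFrobeniusAt σ ℓ) (c : A) :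
    ∃ c' : A, (c' : L) = σ (c : L) ∧
      IsLocalRing.residue A c' = IsLocalRing.residue A c ^ ℓ := by
  refine ⟨(⟨σ, hσ.mem_decompositionSubgroup⟩ : A.decompositionSubgroup K) • c, rfl, ?_⟩
  rw [IsLocalRing.ResidueField.residue_smul]
  exact hσ.smul_residue_eq _

/-- **(K2) at level `N`** from the properties of the two regions. -/
theorem jres_K2_of_regions (N : ℕ) [NeZero N] (ℓ : ℕ) [NeZero ℓ] [Fact ℓ.Prime]
    (hℓN : ¬ ℓ ∣ N) (A : ValuationSubring Qb) (hA : A.LiesOverPrime ℓ)
    (σ : Qb ≃ₐ[ℚ] Qb) (hσ : A.IsFrobeniusAt σ ℓ)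
    (hY : JresRegion A (heckeBetaBar Qb N ℓ) (heckeAlphaBar Qb N ℓ)
      (hkd_beta_isIntegral N ℓ) (hkd_alpha_isIntegral N ℓ)
      (arithmeticGalois (modularFunctionFieldFull N) σ) ℓ (grO A hA N hℓN)
      {P | jrRegY A (jBar N) P} (jrOY A (jBar N)))
    (hZ : JresRegion A (heckeBetaBar Qb N ℓ) (heckeAlphaBar Qb N ℓ)
      (hkd_beta_isIntegral N ℓ) (hkd_alpha_isIntegral N ℓ)
      (arithmeticGalois (modularFunctionFieldFull N) σ) ℓ (grO A hA N hℓN)
      {P | ¬ jrRegY A (jBar N) P} (jrOZ A (jBar N)))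
    (P : Place Qb ↥(modularFunctionFieldBar N)) :
    Finsupp.mapDomain (jrCls A (jBar N)) (hkdT N ℓ (Finsupp.single P 1)) =
      Finsupp.single (jrCls A (jBar N) (arithmeticGalois (modularFunctionFieldFull N) σ • P)) 1
        + Finsupp.single
            (jrCls A (jBar N) (arithmeticGalois (modularFunctionFieldFull N) σ⁻¹ • P))
            (ℓ : ℤ) := by
  haveI : IsAlgClosed (IsLocalRing.ResidueField A) := ifr_residue_isAlgClosed A
  haveI : Infinite (IsLocalRing.ResidueField A) := IsAlgClosed.instInfinite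
  have hgA : ∀ c : A, ∃ c' : A,
      (c' : Qb) = SemilinearAut.baseAut (arithmeticGalois (modularFunctionFieldFull N) σ) (c : Qb) ∧
      IsLocalRing.residue A c' = IsLocalRing.residue A c ^ ℓ :=
    fun c => jres_frob_residue A σ ℓ hσ c
  have key := jres_K2_cls (heckeBetaBar Qb N ℓ) (heckeAlphaBar Qb N ℓ)
    (hkd_beta_isIntegral N ℓ) (hkd_alpha_isIntegral N ℓ)
    (hki_fundamentalIdentityAlong N (N * ℓ) _ (hkd_beta_isIntegral N ℓ))
    (fun P => hki_deg_eq_one P (hki_residue N P))
    (fun W => hki_deg_eq_one W (hki_residue (N * ℓ) W))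
    A (arithmeticGalois (modularFunctionFieldFull N) σ) ℓ hgA (grO A hA N hℓN) (jBar N) hY hZ P
  rw [map_inv]
  exact key

end Fermat.Agent.S37
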