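import Mathlib
import Fermat.Agent.S37.JRingES3

/-!
# S37 / JR-K2: stability of the regions and of the J-rings under the correspondence

Generic setting: `φ ψ : F →ₐ[K] F'`, `j : F`.

* region `Y` (`jres_stab_Y`, `jres_norm_Y`): from "`ψ j` is integral over every subring
  containing `φ j`" (modular equation, swapped form);
* region `Z` (`jres_stab_Z`, `jres_norm_Z`): from the two consequences (Z3), (Z4) of
  "`φ j` is integral over `A[ψ j]`" (package JR-Z).
-/

set_option autoImplicit false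
set_option linter.style.haveILetI false
set_option linter.unusedSectionVars false

open AlgebraicCurve

namespace Fermat.Agent.S37

section ValRing

variable {K F : Type*} [Field K] [Field F] [Algebra K F]

/-- The subring of the functions having a value in `A` at the place `P`. -/
def jresValRing (A : ValuationSubring K) (P : Place K F) : Subring F where
  carrier := {y | ∃ a : A, RdmVal P y (a : K)}
  mul_mem' := by
    rintro x y ⟨a, ha⟩ ⟨b, hb⟩
    exact ⟨a * b, e0HasVal_mul P ha hb⟩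
  one_mem' := ⟨1, by
    have h := e0HasVal_const (F := F) P (1 : K)
    rw [map_one] at h
    exact h⟩
  add_mem' := by
    rintro x y ⟨a, ha⟩ ⟨b, hb⟩
    exact ⟨a + b, e0HasVal_add P ha hb⟩
  zero_mem' := ⟨0, by
    have h := e0HasVal_const (F := F) P (0 : K)
    rw [map_zero] at h
    exact h⟩
  neg_mem' := by
    rintro x ⟨a, ha⟩
    exact ⟨-a, e0HasVal_neg P ha⟩

theorem mem_jresValRing (A : ValuationSubring K) (P : Place K F) (y : F) :
    y ∈ jresValRing A P ↔ ∃ a : A, RdmVal P y (a : K) := Iff.rfl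

/-- The ring of `A`-valued functions at a place of degree one is integrally closed in `F`. -/
theorem jres_valRing_closed (A : ValuationSubring K) (P : Place K F) (hdeg : P.deg = 1) (x : F)
    (hx : IsIntegral (jresValRing A P) x) : x ∈ jresValRing A P :=
  jres_val_of_isIntegral A P hdeg (jresValRing A P) (fun _ hr => hr) x hx

end ValRing

section Maps

variable {K F F' : Type*} [Field K] [Field F] [Field F'] [Algebra K F] [Algebra K F']
  (A : ValuationSubring K)

theorem jres_map_jrEval (φ : F →ₐ[K] F') (y : F) (p : Polynomial A) :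
    φ (jrEval A y p) = jrEval A (φ y) p := by
  unfold jrEval
  rw [Polynomial.coe_eval₂RingHom, Polynomial.coe_eval₂RingHom]
  have h := Polynomial.hom_eval₂ p ((algebraMap K F).comp A.subtype) (φ : F →+* F') y
  have e : (φ : F →+* F').comp ((algebraMap K F).comp A.subtype)
      = (algebraMap K F').comp A.subtype := by
    ext a
    simp
  rw [e] at h
  exact h

theorem jres_map_jrPoly (φ : F →ₐ[K] F') (y : F) :
    (jrPoly A y).map (φ : F →+* F') = jrPoly A (φ y) := by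
  ext x
  constructor
  · rintro ⟨r, hr, rfl⟩
    obtain ⟨p, rfl⟩ := mem_jrPoly.mp hr
    exact mem_jrPoly.mpr ⟨p, (jres_map_jrEval A φ y p).symm⟩
  · intro hx
    obtain ⟨p, rfl⟩ := mem_jrPoly.mp hx
    exact ⟨jrEval A y p, mem_jrPoly.mpr ⟨p, rfl⟩, jres_map_jrEval A φ y p⟩

theorem jres_map_jrLam (φ : F →ₐ[K] F') (y : F) :
    (jrLam A y).map (φ : F →+* F') = jrLam A (φ y) := by
  unfold jrLam
  rw [RingHom.map_closure]
  congr 1
  ext x
  constructor
  · rintro ⟨r, hr | ⟨s, hs, rfl⟩, rfl⟩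
    · left
      rw [← jres_map_jrPoly A φ y]
      exact ⟨r, hr, rfl⟩
    · right
      refine ⟨s, hs, ?_⟩
      show φ ((jrEval A y s)⁻¹) = _
      rw [map_inv₀, jres_map_jrEval]
  · rintro (hx | ⟨s, hs, rfl⟩)
    · rw [← jres_map_jrPoly A φ y] at hx
      obtain ⟨r, hr, rfl⟩ := hx
      exact ⟨r, Or.inl hr, rfl⟩
    · refine ⟨(jrEval A y s)⁻¹, Or.inr ⟨s, hs, rfl⟩, ?_⟩
      show φ ((jrEval A y s)⁻¹) = _
      rw [map_inv₀, jres_map_jrEval]

end Maps

section RegionY

variable {K F F' : Type*} [Field K] [Field F] [Field F'] [Algebra K F] [Algebra K F']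
  (A : ValuationSubring K)

/-- **Region `Y` is stable under the correspondence.** -/
theorem jres_stab_Y (φ ψ : F →ₐ[K] F') (hφ : φ.toRingHom.IsIntegral)
    (hψ : ψ.toRingHom.IsIntegral) (j : F)
    (hmeq : ∀ R : Subring F', φ j ∈ R → IsIntegral R (ψ j))
    (hF' : ∀ w : Place K F', w.deg = 1)
    (P : Place K F) (hP : jrRegY A j P) (w : Place K F') (hw : w.restrictAlong φ hφ = P) :
    jrRegY A j (w.restrictAlong ψ hψ) := by
  obtain ⟨b, hb⟩ := hP
  rw [← hw] at hb
  have hb' : RdmVal w (φ j) (b : K) := (e0HasVal_restrictAlong φ hφ w j _).mp hb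
  have h1 : φ j ∈ jresValRing A w := ⟨b, hb'⟩
  obtain ⟨a, ha⟩ := jres_valRing_closed A w (hF' w) (ψ j) (hmeq _ h1)
  exact ⟨a, (e0HasVal_restrictAlong ψ hψ w j _).mpr ha⟩

/-- **`O_Y` is stable under `T^* = N_φ ∘ ψ`.** -/
theorem jres_norm_Y (φ ψ : F →ₐ[K] F') (j : F)
    (hmeq : ∀ R : Subring F', φ j ∈ R → IsIntegral R (ψ j)) :
    ∀ x ∈ jrOY A j, e0Norm φ (ψ x) ∈ jrOY A j := by
  intro x hx
  refine mem_jrOY.mpr (jres_norm_isIntegral φ ψ (jrPoly A j) ?_ x (mem_jrOY.mp hx))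
  intro r hr
  obtain ⟨p, rfl⟩ := mem_jrPoly.mp hr
  rw [jres_map_jrEval]
  set S : Subring F' := (jrPoly A j).map (φ : F →+* F') with hS
  have hφj : φ j ∈ S := ⟨j, jr_self_mem_jrPoly j, rfl⟩
  have hψj : IsIntegral S (ψ j) := hmeq S hφj
  have hconst : ∀ a : A, IsIntegral S (algebraMap K F' (a : K)) := by
    intro a
    have hmem : algebraMap K F' (a : K) ∈ S :=
      ⟨algebraMap K F (a : K), jr_const_mem_jrPoly j a, by simp⟩
    exact isIntegral_algebraMap (R := S) (A := F') (x := ⟨_, hmem⟩)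
  show IsIntegral S (Polynomial.eval₂ ((algebraMap K F').comp A.subtype) (ψ j) p)
  rw [Polynomial.eval₂_eq_sum_range]
  refine IsIntegral.sum _ fun i _ => ?_
  exact (hconst (p.coeff i)).mul (hψj.pow i)

end RegionY

section RegionZ

variable {K F F' : Type*} [Field K] [Field F] [Field F'] [Algebra K F] [Algebra K F']
  (A : ValuationSubring K)

/-- **Region `Z` is stable under the correspondence**, from (Z4). -/
theorem jres_stab_Z (φ ψ : F →ₐ[K] F') (hφ : φ.toRingHom.IsIntegral)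
    (hψ : ψ.toRingHom.IsIntegral) (j : F)
    (hregZ : ∀ P : Place K F, ¬ jrRegY A j P →
      ∃ b : A, (b : K) ∈ A.nonunits ∧ RdmVal P j⁻¹ (b : K))
    (hnotY : ∀ P : Place K F, (∃ b : A, (b : K) ∈ A.nonunits ∧ RdmVal P j⁻¹ (b : K)) →
      ¬ jrRegY A j P)
    (hZ4 : ∀ w : Place K F', ∀ b : A, (b : K) ∈ A.nonunits → RdmVal w (φ j)⁻¹ (b : K) →
      ∃ b' : A, (b' : K) ∈ A.nonunits ∧ RdmVal w (ψ j)⁻¹ (b' : K))
    (P : Place K F) (hP : ¬ jrRegY A j P) (w : Place K F') (hw : w.restrictAlong φ hφ = P) :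
    ¬ jrRegY A j (w.restrictAlong ψ hψ) := by
  obtain ⟨b, hbm, hb⟩ := hregZ P hP
  rw [← hw] at hb
  have hb' : RdmVal w (φ j)⁻¹ (b : K) := by
    have := (e0HasVal_restrictAlong φ hφ w j⁻¹ _).mp hb
    rwa [map_inv₀] at this
  obtain ⟨b', hb'm, hb''⟩ := hZ4 w b hbm hb'
  refine hnotY _ ⟨b', hb'm, ?_⟩
  refine (e0HasVal_restrictAlong ψ hψ w j⁻¹ _).mpr ?_
  rw [map_inv₀]
  exact hb''

/-- **`O_Z` is stable under `T^* = N_φ ∘ ψ`**, from (Z3). -/
theorem jres_norm_Z (φ ψ : F →ₐ[K] F') (j : F)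
    (hZ3 : jrLam A (ψ j)⁻¹ ≤ jrIC (jrLam A (φ j)⁻¹)) :
    ∀ x ∈ jrOZ A j, e0Norm φ (ψ x) ∈ jrOZ A j := by
  intro x hx
  refine mem_jrOZ.mpr (jres_norm_isIntegral φ ψ (jrLam A j⁻¹) ?_ x (mem_jrOZ.mp hx))
  intro r hr
  have h1 : ψ r ∈ jrLam A (ψ j)⁻¹ := by
    have : ψ r ∈ (jrLam A j⁻¹).map (ψ : F →+* F') := ⟨r, hr, rfl⟩
    rwa [jres_map_jrLam, map_inv₀] at this
  have h2 := mem_jrIC.mp (hZ3 h1)
  rw [jres_map_jrLam, map_inv₀]
  exact h2

end RegionZ

end Fermat.Agent.S37
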