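import Mathlib
import Fermat.Agent.S37.JRingDefs

/-!
# S37, J-rings (finding 136), package JR-Z: the algebra of the region `Z`

`K` a field, `A : ValuationSubring K`, `F / K` a field extension.  For `y : F`, `Λ(y) = jrLam A y`
is the subring of `F` generated by `A[y]` and the inverses of the `s(y)`, `s ∈ A[X]`,
`s(0) ∈ Aˣ`.

* `jrz_mem_jrLam` (Z0) : every element of `Λ(y)` is a fraction `p(y) / s(y)`;
* `jrz_isIntegral_iff` (Z5) : `x` is integral over `Λ(y)` iff `s(y) x` is integral over `A[y]`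
  for some `s` with `s(0) ∈ Aˣ`;
* `jrz_mem_jrIC_iff` : the valuative criterion for integrality over a subring of a field;
* `jrz_isIntegral` (Z1) : if `Y` is integral over `A[X]` then `X⁻¹` is integral over `Λ(Y⁻¹)`;
* `jrz_isUnit` (Z2) : ... and so are the `t(X⁻¹)⁻¹`, `t(0) ∈ Aˣ`;
* `jrz_le`, `jrz_jrIC_le_jrIC`, `jrz_OZ_le` (Z3) : hence `Λ(X⁻¹) ⊆ jrIC (Λ(Y⁻¹))` and
  `jrOZ A X ≤ jrOZ A Y`;
* `jrz_region` (Z4) : region stability at a `K`-rational point.

The proofs of (Z1), (Z2), (Z4) are valuative: for a valuation subring `W ⊇ Λ(Y⁻¹)` containing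
`X`, the residue of `X` is not integral over the image of `A` in the residue field of `W`
(`jrz_core`); for (Z4) this is applied to the composite valuation ring `jrzComp`.
-/

set_option autoImplicit false

noncomputable section

open AlgebraicCurve

namespace Fermat.Agent.S37

section JRZ

variable {K : Type*} [Field K] (A : ValuationSubring K) {F : Type*} [Field F] [Algebra K F]

/-! ### Denominators -/

theorem jrz_unit_one : IsUnit ((1 : Polynomial A).coeff 0) := by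
  rw [Polynomial.coeff_one_zero]
  exact isUnit_one

variable {A} in
theorem jrz_unit_mul {s s' : Polynomial A} (hs : IsUnit (s.coeff 0)) (hs' : IsUnit (s'.coeff 0)) :
    IsUnit ((s * s').coeff 0) := by
  rw [Polynomial.mul_coeff_zero]
  exact hs.mul hs'

/-- **(Z0)** Elementwise description of `Λ(y)`: every element is a fraction `p(y) / s(y)` with
`s(0) ∈ Aˣ`. -/
theorem jrz_mem_jrLam (y x : F) (hx : x ∈ jrLam A y) :
    ∃ p s : Polynomial A, IsUnit (s.coeff 0) ∧ x * jrEval A y s = jrEval A y p := by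
  induction hx using Subring.closure_induction with
  | mem x hx =>
    rcases hx with hx | ⟨s, hs, rfl⟩
    · obtain ⟨p, rfl⟩ := mem_jrPoly.mp hx
      exact ⟨p, 1, jrz_unit_one A, by rw [map_one, mul_one]⟩
    · by_cases h0 : jrEval A y s = 0
      · exact ⟨0, 1, jrz_unit_one A, by rw [h0, inv_zero, zero_mul, map_zero]⟩
      · exact ⟨1, s, hs, by rw [inv_mul_cancel₀ h0, map_one]⟩
  | zero => exact ⟨0, 1, jrz_unit_one A, by rw [zero_mul, map_zero]⟩
  | one => exact ⟨1, 1, jrz_unit_one A, by rw [one_mul]⟩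
  | add x x' _ _ h h' =>
    obtain ⟨p, s, hs, h⟩ := h
    obtain ⟨p', s', hs', h'⟩ := h'
    refine ⟨p * s' + p' * s, s * s', jrz_unit_mul hs hs', ?_⟩
    rw [map_mul, map_add, map_mul, map_mul, ← h, ← h']
    ring
  | neg x _ h =>
    obtain ⟨p, s, hs, h⟩ := h
    exact ⟨-p, s, hs, by rw [map_neg, neg_mul, h]⟩
  | mul x x' _ _ h h' =>
    obtain ⟨p, s, hs, h⟩ := h
    obtain ⟨p', s', hs', h'⟩ := h'
    refine ⟨p * p', s * s', jrz_unit_mul hs hs', ?_⟩
    rw [map_mul, map_mul, ← h, ← h']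
    ring

/-! ### Integrality: monotonicity and the valuative criterion -/

omit [Algebra K F] in
theorem jrz_isIntegral_mono {R R' : Subring F} (h : R ≤ R') {x : F} (hx : IsIntegral R x) :
    IsIntegral R' x := by
  obtain ⟨p, hp, hpx⟩ := hx
  refine ⟨p.map (Subring.inclusion h), hp.map _, ?_⟩
  rw [Polynomial.eval₂_map]
  exact hpx

omit [Algebra K F] in
theorem jrz_jrIC_mono {R R' : Subring F} (h : R ≤ R') : jrIC R ≤ jrIC R' :=
  fun _ hx => jrz_isIntegral_mono h hx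

omit [Algebra K F] in
/-- A valuation subring containing `R` contains the integral closure of `R`. -/
theorem jrz_jrIC_le (R : Subring F) (W : ValuationSubring F) (h : R ≤ W.toSubring) :
    jrIC R ≤ W.toSubring := by
  have : IsIntegrallyClosedIn W.toSubring F := inferInstanceAs (IsIntegrallyClosedIn W F)
  exact (Subring.integralClosure_subring_le_iff (S := R) (T := W.toSubring)).mpr h

omit [Algebra K F] in
/-- The valuative criterion for integrality over a subring of a field. -/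
theorem jrz_mem_jrIC_iff (R : Subring F) (x : F) :
    x ∈ jrIC R ↔ ∀ W : ValuationSubring F, R ≤ W.toSubring → x ∈ W := by
  constructor
  · intro hx W hW
    exact jrz_jrIC_le R W hW hx
  · intro h
    by_contra hx
    have : IsIntegrallyClosedIn ↥(jrIC R) F :=
      inferInstanceAs (IsIntegrallyClosedIn ↥(integralClosure R F).toSubring F)
    obtain ⟨V, hV, hxV⟩ :=
      Subring.exists_le_valuationSubring_of_isIntegrallyClosedIn (R := jrIC R) hx
    exact hxV (h V ((le_jrIC R).trans hV))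

omit [Algebra K F] in
theorem jrz_jrIC_idem (R : Subring F) : jrIC (jrIC R) = jrIC R := by
  refine le_antisymm ?_ (le_jrIC _)
  intro x hx
  rw [jrz_mem_jrIC_iff] at hx ⊢
  intro W hW
  exact hx W (jrz_jrIC_le R W hW)


/-! ### (Z5): integrality over `Λ(y)` -/

/-- the denominators `s(y)`, `s(0) ∈ Aˣ`, as a submonoid of `A[y]` -/
def jrzDen (y : F) : Submonoid (jrPoly A y) where
  carrier := {r | ∃ s : Polynomial A, IsUnit (s.coeff 0) ∧ (r : F) = jrEval A y s}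
  mul_mem' := by
    rintro a b ⟨s, hs, ha⟩ ⟨s', hs', hb⟩
    exact ⟨s * s', jrz_unit_mul hs hs', by rw [Subring.coe_mul, ha, hb, map_mul]⟩
  one_mem' := ⟨1, jrz_unit_one A, by rw [Subring.coe_one, map_one]⟩

/-- clearing denominators: an element integral over `Λ(y)` becomes integral over `A[y]` after
multiplication by some `s(y)`, `s(0) ∈ Aˣ`. -/
theorem jrz_exists_mul_isIntegral (y : F)
    (hne : ∀ s : Polynomial A, IsUnit (s.coeff 0) → jrEval A y s ≠ 0) (x : F)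
    (hx : IsIntegral (jrLam A y) x) :
    ∃ s : Polynomial A, IsUnit (s.coeff 0) ∧ IsIntegral (jrPoly A y) (jrEval A y s * x) := by
  let _ : Algebra (jrPoly A y) (jrLam A y) := (Subring.inclusion (jrPoly_le_jrLam y)).toAlgebra
  have : IsScalarTower (jrPoly A y) (jrLam A y) F :=
    IsScalarTower.of_algebraMap_eq (fun _ => rfl)
  have : IsLocalization (jrzDen A y) (jrLam A y) := by
    rw [isLocalization_iff]
    refine ⟨?_, ?_, ?_⟩
    · rintro ⟨r, s, hs, hr⟩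
      have hr0 : (r : F) ≠ 0 := by
        rw [hr]
        exact hne s hs
      refine isUnit_iff_exists_inv.mpr ⟨⟨(r : F)⁻¹, ?_⟩, ?_⟩
      · rw [hr]
        exact jr_inv_mem_jrLam y s hs
      · exact Subtype.ext (mul_inv_cancel₀ hr0)
    · intro z
      obtain ⟨p, s, hs, h⟩ := jrz_mem_jrLam A y z z.2
      refine ⟨(⟨jrEval A y p, mem_jrPoly.mpr ⟨p, rfl⟩⟩,
        ⟨⟨jrEval A y s, mem_jrPoly.mpr ⟨s, rfl⟩⟩, s, hs, rfl⟩), ?_⟩
      exact Subtype.ext h
    · intro a b hab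
      refine ⟨1, ?_⟩
      have hab' : a = b := Subtype.ext (congrArg (fun z : jrLam A y => (z : F)) hab)
      rw [hab']
  obtain ⟨⟨m, s, hs, hm⟩, hmx⟩ :=
    IsIntegral.exists_multiple_integral_of_isLocalization (jrzDen A y) x hx
  refine ⟨s, hs, ?_⟩
  have e : (⟨m, s, hs, hm⟩ : jrzDen A y) • x = (m : F) * x := rfl
  rw [e, hm] at hmx
  exact hmx

/-- **(Z5)** `x` is integral over `Λ(y)` iff `s(y) x` is integral over `A[y]` for some
`s ∈ A[X]` with `s(0) ∈ Aˣ`. -/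
theorem jrz_isIntegral_iff (y : F)
    (hne : ∀ s : Polynomial A, IsUnit (s.coeff 0) → jrEval A y s ≠ 0) (x : F) :
    x ∈ jrIC (jrLam A y) ↔
      ∃ s : Polynomial A, IsUnit (s.coeff 0) ∧ jrEval A y s * x ∈ jrIC (jrPoly A y) := by
  constructor
  · intro hx
    exact jrz_exists_mul_isIntegral A y hne x hx
  · rintro ⟨s, hs, h⟩
    have h1 : jrEval A y s * x ∈ jrIC (jrLam A y) := jrz_jrIC_mono (jrPoly_le_jrLam y) h
    have h2 : (jrEval A y s)⁻¹ ∈ jrIC (jrLam A y) := le_jrIC _ (jr_inv_mem_jrLam y s hs)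
    have h3 := (jrIC (jrLam A y)).mul_mem h2 h1
    rwa [inv_mul_cancel_left₀ (hne s hs)] at h3

/-- the non-vanishing hypothesis holds when `y` is transcendental over `K` -/
theorem jrz_ne_of_transcendental (y : F) (hy : Transcendental K y) (s : Polynomial A)
    (hs : IsUnit (s.coeff 0)) : jrEval A y s ≠ 0 := by
  intro h0
  have h1 : Polynomial.aeval y (s.map A.subtype) = 0 := by
    rw [Polynomial.aeval_def, Polynomial.eval₂_map]
    exact h0
  have h2 : s.map A.subtype = 0 := (transcendental_iff.mp hy) _ h1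
  have h3 : (s.map A.subtype).coeff 0 = 0 := by rw [h2, Polynomial.coeff_zero]
  rw [Polynomial.coeff_map] at h3
  have h4 : s.coeff 0 = 0 := Subtype.ext h3
  exact hs.ne_zero h4

/-! ### Subrings containing `A[X]`, `Λ(y)` -/

theorem jrz_poly_le (X : F) (S : Subring F) (hA : ∀ a : A, algebraMap K F (a : K) ∈ S)
    (hX : X ∈ S) : jrPoly A X ≤ S := by
  rintro _ ⟨p, rfl⟩
  show jrEval A X p ∈ S
  rw [jrEval, Polynomial.coe_eval₂RingHom, Polynomial.eval₂_eq_sum_range]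
  exact sum_mem fun i _ => S.mul_mem (hA _) (S.pow_mem hX i)

theorem jrz_lam_le_iff (y : F) (S : Subring F) :
    jrLam A y ≤ S ↔ (∀ a : A, algebraMap K F (a : K) ∈ S) ∧ y ∈ S ∧
      ∀ s : Polynomial A, IsUnit (s.coeff 0) → (jrEval A y s)⁻¹ ∈ S := by
  constructor
  · intro h
    exact ⟨fun a => h (jrPoly_le_jrLam _ (jr_const_mem_jrPoly _ a)),
      h (jrPoly_le_jrLam _ (jr_self_mem_jrPoly _)), fun s hs => h (jr_inv_mem_jrLam y s hs)⟩
  · rintro ⟨hA, hy, hinv⟩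
    refine Subring.closure_le.mpr ?_
    rintro x (hx | ⟨s, hs, rfl⟩)
    · exact jrz_poly_le A y S hA hy hx
    · exact hinv s hs

/-! ### Reduction to the residue field of a valuation subring -/

omit [Algebra K F] in
theorem jrz_residue_eq_zero (W : ValuationSubring F) (z : W) (hz : (z : F)⁻¹ ∉ W) :
    IsLocalRing.residue W z = 0 := by
  rw [IsLocalRing.residue_eq_zero_iff, IsLocalRing.mem_maximalIdeal, mem_nonunits_iff]
  intro hu
  obtain ⟨⟨d, hd⟩, hd1⟩ := isUnit_iff_exists_inv.mp hu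
  have h1 : (z : F) * d = 1 := congrArg Subtype.val hd1
  have h2 : d = (z : F)⁻¹ := eq_inv_of_mul_eq_one_right h1
  exact hz (h2 ▸ hd)

omit [Algebra K F] in
theorem jrz_residue_ne_zero (W : ValuationSubring F) (z : W) (hz0 : (z : F) ≠ 0)
    (hz : (z : F)⁻¹ ∈ W) : IsLocalRing.residue W z ≠ 0 := by
  intro h0
  have h1 : z * ⟨(z : F)⁻¹, hz⟩ = 1 := Subtype.ext (mul_inv_cancel₀ hz0)
  have h2 := congrArg (IsLocalRing.residue W) h1
  rw [map_mul, h0, zero_mul, map_one] at h2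
  exact zero_ne_one h2

/-- the inclusion of `A` into a valuation subring of `F` containing it -/
def jrzInc (W : ValuationSubring F) (hA : ∀ a : A, algebraMap K F (a : K) ∈ W) : A →+* W :=
  ((algebraMap K F).comp A.subtype).codRestrict W hA

/-- the composite `A → W → κ_W` -/
def jrzRho (W : ValuationSubring F) (hA : ∀ a : A, algebraMap K F (a : K) ∈ W) :
    A →+* IsLocalRing.ResidueField W :=
  (IsLocalRing.residue W).comp (jrzInc A W hA)

theorem jrz_coe_eval₂ (W : ValuationSubring F) (hA : ∀ a : A, algebraMap K F (a : K) ∈ W)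
    (z : W) (s : Polynomial A) :
    ((Polynomial.eval₂ (jrzInc A W hA) z s : W) : F) = jrEval A (z : F) s :=
  Polynomial.hom_eval₂ s (jrzInc A W hA) W.subtype z

theorem jrz_residue_eval₂ (W : ValuationSubring F) (hA : ∀ a : A, algebraMap K F (a : K) ∈ W)
    (z : W) (s : Polynomial A) :
    IsLocalRing.residue W (Polynomial.eval₂ (jrzInc A W hA) z s) =
      Polynomial.eval₂ (jrzRho A W hA) (IsLocalRing.residue W z) s :=
  Polynomial.hom_eval₂ s (jrzInc A W hA) (IsLocalRing.residue W) z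


/-- **Core.** Let `W` be a valuation subring of `F` containing `Λ(Y⁻¹)` and `X`, with `Y`
integral over `A[X]`.  Then the residue of `X` is not integral over the image of `A` in the
residue field of `W`. -/
theorem jrz_core (W : ValuationSubring F) (X Y : F) (hY : Y ≠ 0)
    (hne : ∀ s : Polynomial A, IsUnit (s.coeff 0) → jrEval A Y⁻¹ s ≠ 0)
    (hΛ : jrLam A Y⁻¹ ≤ W.toSubring) (hint : IsIntegral (jrPoly A X) Y) (hX : X ∈ W)
    (hA : ∀ a : A, algebraMap K F (a : K) ∈ W) :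
    ¬ (jrzRho A W hA).IsIntegralElem (IsLocalRing.residue W ⟨X, hX⟩) := by
  intro hXint
  have hpolyW : jrPoly A X ≤ W.toSubring := jrz_poly_le A X W.toSubring hA hX
  have hYW : Y ∈ W := jrz_jrIC_le _ W hpolyW hint
  have hyW : Y⁻¹ ∈ W := hΛ (jrPoly_le_jrLam _ (jr_self_mem_jrPoly _))
  -- step 1: the residue of `Y` is integral over the image of `A`
  have hYint : (jrzRho A W hA).IsIntegralElem (IsLocalRing.residue W ⟨Y, hYW⟩) := by
    obtain ⟨P, hP, hPY⟩ := hint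
    let r : Polynomial A →+* jrPoly A X :=
      (jrEval A X).codRestrict (jrPoly A X) (fun p => mem_jrPoly.mpr ⟨p, rfl⟩)
    have hr : Function.Surjective r := by
      rintro ⟨x, hx⟩
      obtain ⟨p, rfl⟩ := mem_jrPoly.mp hx
      exact ⟨p, rfl⟩
    obtain ⟨Φ, hΦ, -, hΦm⟩ := Polynomial.lifts_and_natDegree_eq_and_monic (f := r)
      ((Polynomial.mem_lifts _).mpr (Polynomial.map_surjective r hr P)) hP
    let jW : Polynomial A →+* W := Polynomial.eval₂RingHom (jrzInc A W hA) ⟨X, hX⟩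
    have h1 : Polynomial.eval₂ jW ⟨Y, hYW⟩ Φ = 0 := by
      apply Subtype.ext
      have h := Polynomial.hom_eval₂ Φ jW W.subtype ⟨Y, hYW⟩
      have hcomp : W.subtype.comp jW = (algebraMap (jrPoly A X) F).comp r := by
        refine RingHom.ext fun s => ?_
        exact jrz_coe_eval₂ A W hA ⟨X, hX⟩ s
      rw [hcomp, ← Polynomial.eval₂_map, hΦ] at h
      exact h.trans hPY
    have h2 := congrArg (IsLocalRing.residue W) h1
    rw [Polynomial.hom_eval₂, map_zero] at h2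
    have hcomp2 : (IsLocalRing.residue W).comp jW =
        Polynomial.eval₂RingHom (jrzRho A W hA) (IsLocalRing.residue W ⟨X, hX⟩) := by
      refine RingHom.ext fun s => ?_
      exact jrz_residue_eval₂ A W hA ⟨X, hX⟩ s
    rw [hcomp2] at h2
    -- transitivity of integrality
    let _ : Algebra A (IsLocalRing.ResidueField W) := (jrzRho A W hA).toAlgebra
    have hX' : IsIntegral A (IsLocalRing.residue W ⟨X, hX⟩) := hXint
    let B := Algebra.adjoin A {IsLocalRing.residue W ⟨X, hX⟩}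
    have hBint : Algebra.IsIntegral A B := Algebra.IsIntegral.adjoin (by
      rintro _ rfl
      exact hX')
    let xB : B := ⟨IsLocalRing.residue W ⟨X, hX⟩, Algebra.self_mem_adjoin_singleton A _⟩
    let g : Polynomial A →+* B := (Polynomial.aeval xB).toRingHom
    have hg : (algebraMap B (IsLocalRing.ResidueField W)).comp g =
        Polynomial.eval₂RingHom (jrzRho A W hA) (IsLocalRing.residue W ⟨X, hX⟩) := by
      refine Polynomial.ringHom_ext ?_ ?_
      · intro a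
        show ((Polynomial.aeval xB (Polynomial.C a) : B) : IsLocalRing.ResidueField W) =
          Polynomial.eval₂ (jrzRho A W hA) _ (Polynomial.C a)
        rw [Polynomial.aeval_C, Polynomial.eval₂_C]
        rfl
      · show ((Polynomial.aeval xB Polynomial.X : B) : IsLocalRing.ResidueField W) =
          Polynomial.eval₂ (jrzRho A W hA) _ Polynomial.X
        rw [Polynomial.aeval_X, Polynomial.eval₂_X]
    have hYB : IsIntegral B (IsLocalRing.residue W ⟨Y, hYW⟩) := by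
      refine ⟨Φ.map g, hΦm.map g, ?_⟩
      rw [Polynomial.eval₂_map, hg]
      exact h2
    exact isIntegral_trans _ hYB
  -- step 2: reverse the polynomial
  obtain ⟨p, hp, hpY⟩ := hYint
  have hY0 : IsLocalRing.residue W ⟨Y, hYW⟩ ≠ 0 := jrz_residue_ne_zero W ⟨Y, hYW⟩ hY hyW
  let _ := invertibleOfNonzero hY0
  have hinv : ⅟(IsLocalRing.residue W ⟨Y, hYW⟩) = IsLocalRing.residue W ⟨Y⁻¹, hyW⟩ := by
    have h1 : (⟨Y, hYW⟩ : W) * ⟨Y⁻¹, hyW⟩ = 1 := Subtype.ext (mul_inv_cancel₀ hY)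
    have h2 := congrArg (IsLocalRing.residue W) h1
    rw [map_mul, map_one] at h2
    exact invOf_eq_right_inv h2
  have hs : Polynomial.eval₂ (jrzRho A W hA) (IsLocalRing.residue W ⟨Y⁻¹, hyW⟩) p.reverse = 0 := by
    rw [← hinv]
    exact (Polynomial.eval₂_reverse_eq_zero_iff (jrzRho A W hA) _ p).mpr hpY
  have hunit : IsUnit (p.reverse.coeff 0) := by
    rw [Polynomial.coeff_zero_reverse, hp.leadingCoeff]
    exact isUnit_one
  have hsy : IsLocalRing.residue W (Polynomial.eval₂ (jrzInc A W hA) ⟨Y⁻¹, hyW⟩ p.reverse) = 0 := by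
    rw [jrz_residue_eval₂]
    exact hs
  have hcoe : ((Polynomial.eval₂ (jrzInc A W hA) ⟨Y⁻¹, hyW⟩ p.reverse : W) : F) =
      jrEval A Y⁻¹ p.reverse := jrz_coe_eval₂ A W hA ⟨Y⁻¹, hyW⟩ _
  refine jrz_residue_ne_zero W _ ?_ ?_ hsy
  · rw [hcoe]
    exact hne _ hunit
  · rw [hcoe]
    exact hΛ (jr_inv_mem_jrLam _ _ hunit)

/-- **(Z1)** If `Y` is integral over `A[X]`, then `X⁻¹` is integral over `Λ(Y⁻¹)`. -/
theorem jrz_isIntegral (X Y : F) (hY : Y ≠ 0)
    (hne : ∀ s : Polynomial A, IsUnit (s.coeff 0) → jrEval A Y⁻¹ s ≠ 0)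
    (hint : IsIntegral (jrPoly A X) Y) : X⁻¹ ∈ jrIC (jrLam A Y⁻¹) := by
  rw [jrz_mem_jrIC_iff]
  intro W hΛ
  by_contra hx
  have hA : ∀ a : A, algebraMap K F (a : K) ∈ W := fun a =>
    hΛ (jrPoly_le_jrLam _ (jr_const_mem_jrPoly _ a))
  have hX : X ∈ W := by
    rcases W.mem_or_inv_mem X⁻¹ with h | h
    · exact absurd h hx
    · rwa [inv_inv] at h
  refine jrz_core A W X Y hY hne hΛ hint hX hA ?_
  have h0 : IsLocalRing.residue W ⟨X, hX⟩ = 0 := jrz_residue_eq_zero W ⟨X, hX⟩ hx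
  rw [h0]
  exact ⟨Polynomial.X, Polynomial.monic_X, by rw [Polynomial.eval₂_X]⟩

/-- **(Z2)** If `Y` is integral over `A[X]`, then the inverses `t(X⁻¹)⁻¹`, `t(0) ∈ Aˣ`, are
integral over `Λ(Y⁻¹)`. -/
theorem jrz_isUnit (X Y : F) (hY : Y ≠ 0)
    (hne : ∀ s : Polynomial A, IsUnit (s.coeff 0) → jrEval A Y⁻¹ s ≠ 0)
    (hint : IsIntegral (jrPoly A X) Y) (t : Polynomial A) (ht : IsUnit (t.coeff 0)) :
    (jrEval A X⁻¹ t)⁻¹ ∈ jrIC (jrLam A Y⁻¹) := by
  rw [jrz_mem_jrIC_iff]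
  intro W hΛ
  by_contra htx
  have hA : ∀ a : A, algebraMap K F (a : K) ∈ W := fun a =>
    hΛ (jrPoly_le_jrLam _ (jr_const_mem_jrPoly _ a))
  have hxW : X⁻¹ ∈ W := jrz_jrIC_le _ W hΛ (jrz_isIntegral A X Y hY hne hint)
  have hcoe : ((Polynomial.eval₂ (jrzInc A W hA) ⟨X⁻¹, hxW⟩ t : W) : F) = jrEval A X⁻¹ t :=
    jrz_coe_eval₂ A W hA ⟨X⁻¹, hxW⟩ t
  have h0 : IsLocalRing.residue W (Polynomial.eval₂ (jrzInc A W hA) ⟨X⁻¹, hxW⟩ t) = 0 :=
    jrz_residue_eq_zero W _ (by rw [hcoe]; exact htx)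
  rw [jrz_residue_eval₂] at h0
  have hx0 : IsLocalRing.residue W ⟨X⁻¹, hxW⟩ ≠ 0 := by
    intro hx0
    rw [hx0, Polynomial.eval₂_at_zero] at h0
    exact (ht.map (jrzRho A W hA)).ne_zero h0
  have hX : X ∈ W := by
    by_contra hXW
    exact hx0 (jrz_residue_eq_zero W ⟨X⁻¹, hxW⟩ (by rwa [inv_inv]))
  have hX0 : X ≠ 0 := by
    rintro rfl
    apply hx0
    have e : (⟨(0 : F)⁻¹, hxW⟩ : W) = 0 := Subtype.ext inv_zero
    rw [e, map_zero]
  refine jrz_core A W X Y hY hne hΛ hint hX hA ?_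
  let _ := invertibleOfNonzero hx0
  have hinv : ⅟(IsLocalRing.residue W ⟨X⁻¹, hxW⟩) = IsLocalRing.residue W ⟨X, hX⟩ := by
    have h1 : (⟨X⁻¹, hxW⟩ : W) * ⟨X, hX⟩ = 1 := Subtype.ext (inv_mul_cancel₀ hX0)
    have h2 := congrArg (IsLocalRing.residue W) h1
    rw [map_mul, map_one] at h2
    exact invOf_eq_right_inv h2
  have hrev : Polynomial.eval₂ (jrzRho A W hA) (IsLocalRing.residue W ⟨X, hX⟩) t.reverse = 0 := by
    rw [← hinv]
    exact (Polynomial.eval₂_reverse_eq_zero_iff _ _ t).mpr h0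
  have hlead : t.reverse.leadingCoeff = t.coeff 0 := by
    rw [Polynomial.reverse_leadingCoeff, Polynomial.trailingCoeff,
      Polynomial.natTrailingDegree_eq_zero.mpr (Or.inr ht.ne_zero)]
  obtain ⟨u, hu⟩ := ht.exists_left_inv
  refine ⟨Polynomial.C u * t.reverse,
    Polynomial.monic_C_mul_of_mul_leadingCoeff_eq_one (by rw [hlead]; exact hu), ?_⟩
  rw [Polynomial.eval₂_mul, hrev, mul_zero]

/-- **(Z3)** If `Y` is integral over `A[X]`, then `Λ(X⁻¹)` lies in the integral closure of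
`Λ(Y⁻¹)`. -/
theorem jrz_le (X Y : F) (hY : Y ≠ 0)
    (hne : ∀ s : Polynomial A, IsUnit (s.coeff 0) → jrEval A Y⁻¹ s ≠ 0)
    (hint : IsIntegral (jrPoly A X) Y) : jrLam A X⁻¹ ≤ jrIC (jrLam A Y⁻¹) := by
  refine Subring.closure_le.mpr ?_
  rintro x (hx | ⟨t, ht, rfl⟩)
  · exact jrz_poly_le A X⁻¹ (jrIC (jrLam A Y⁻¹))
      (fun a => le_jrIC _ (jrPoly_le_jrLam _ (jr_const_mem_jrPoly _ a)))
      (jrz_isIntegral A X Y hY hne hint) hx
  · exact jrz_isUnit A X Y hY hne hint t ht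

/-- **(Z3)**, second form: the integral closure of `Λ(X⁻¹)` lies in that of `Λ(Y⁻¹)`. -/
theorem jrz_jrIC_le_jrIC (X Y : F) (hY : Y ≠ 0)
    (hne : ∀ s : Polynomial A, IsUnit (s.coeff 0) → jrEval A Y⁻¹ s ≠ 0)
    (hint : IsIntegral (jrPoly A X) Y) : jrIC (jrLam A X⁻¹) ≤ jrIC (jrLam A Y⁻¹) := by
  have h := jrz_jrIC_mono (jrz_le A X Y hY hne hint)
  rwa [jrz_jrIC_idem] at h

/-- **(Z3)** for the J-rings of region `Z`: if `j'` is integral over `A[j]`, then
`jrOZ A j ≤ jrOZ A j'`. -/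
theorem jrz_OZ_le (j j' : F) (hj' : j' ≠ 0)
    (hne : ∀ s : Polynomial A, IsUnit (s.coeff 0) → jrEval A j'⁻¹ s ≠ 0)
    (hint : IsIntegral (jrPoly A j) j') : jrOZ A j ≤ jrOZ A j' :=
  jrz_jrIC_le_jrIC A j j' hj' hne hint


/-! ### (Z4): region stability -/

section Region

variable (W : ValuationSubring F) (hK : ∀ c : K, algebraMap K F c ∈ W) (ev : W →+* K)
  (hev : ∀ c : K, ev ⟨algebraMap K F c, hK c⟩ = c)

include hev in
/-- an element of `W` with nonzero value is a unit of `W` -/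
theorem jrz_ev_inv (z : W) (hz : ev z ≠ 0) :
    ∃ h : (z : F)⁻¹ ∈ W, ev ⟨(z : F)⁻¹, h⟩ = (ev z)⁻¹ := by
  have hsurj : Function.Surjective ev := fun c => ⟨_, hev c⟩
  have hmax : (RingHom.ker ev).IsMaximal := RingHom.ker_isMaximal_of_surjective ev hsurj
  have hker : RingHom.ker ev = IsLocalRing.maximalIdeal W := IsLocalRing.eq_maximalIdeal hmax
  have hunit : IsUnit z := by
    rw [← IsLocalRing.notMem_maximalIdeal, ← hker, RingHom.mem_ker]
    exact hz
  obtain ⟨⟨d, hd⟩, hd1⟩ := isUnit_iff_exists_inv.mp hunit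
  have h1 : (z : F) * d = 1 := congrArg Subtype.val hd1
  have h2 : d = (z : F)⁻¹ := eq_inv_of_mul_eq_one_right h1
  subst h2
  refine ⟨hd, ?_⟩
  have h3 := congrArg ev hd1
  rw [map_mul, map_one] at h3
  exact eq_inv_of_mul_eq_one_right h3

include hev in
theorem jrz_comp_aux (z : F) (hz : z ∈ W) :
    (∃ h : z ∈ W, ev ⟨z, h⟩ ∈ A) ∨ (∃ h : z⁻¹ ∈ W, ev ⟨z⁻¹, h⟩ ∈ A) := by
  rcases A.mem_or_inv_mem (ev ⟨z, hz⟩) with h | h
  · exact Or.inl ⟨hz, h⟩
  · by_cases h0 : ev ⟨z, hz⟩ = 0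
    · exact Or.inl ⟨hz, h0 ▸ A.zero_mem⟩
    · obtain ⟨h1, h2⟩ := jrz_ev_inv W hK ev hev ⟨z, hz⟩ h0
      exact Or.inr ⟨h1, h2 ▸ h⟩

/-- the composite valuation ring `{z ∈ W | ev z ∈ A}` of the valuation ring `W` of a
`K`-rational point and the valuation ring `A` of `K` -/
def jrzComp : ValuationSubring F where
  carrier := {z | ∃ h : z ∈ W, ev ⟨z, h⟩ ∈ A}
  mul_mem' := by
    rintro a b ⟨ha, ha'⟩ ⟨hb, hb'⟩
    refine ⟨W.mul_mem _ _ ha hb, ?_⟩
    have e : (⟨a * b, W.mul_mem _ _ ha hb⟩ : W) = ⟨a, ha⟩ * ⟨b, hb⟩ := rfl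
    rw [e, map_mul]
    exact A.mul_mem _ _ ha' hb'
  one_mem' := ⟨W.one_mem, by
    have e : (⟨1, W.one_mem⟩ : W) = 1 := rfl
    rw [e, map_one]
    exact A.one_mem⟩
  add_mem' := by
    rintro a b ⟨ha, ha'⟩ ⟨hb, hb'⟩
    refine ⟨W.add_mem _ _ ha hb, ?_⟩
    have e : (⟨a + b, W.add_mem _ _ ha hb⟩ : W) = ⟨a, ha⟩ + ⟨b, hb⟩ := rfl
    rw [e, map_add]
    exact A.add_mem _ _ ha' hb'
  zero_mem' := ⟨W.zero_mem, by
    have e : (⟨0, W.zero_mem⟩ : W) = 0 := rfl
    rw [e, map_zero]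
    exact A.zero_mem⟩
  neg_mem' := by
    rintro a ⟨ha, ha'⟩
    refine ⟨W.neg_mem _ ha, ?_⟩
    have e : (⟨-a, W.neg_mem _ ha⟩ : W) = -⟨a, ha⟩ := rfl
    rw [e, map_neg]
    exact A.neg_mem _ ha'
  mem_or_inv_mem' := by
    intro z
    rcases W.mem_or_inv_mem z with hz | hz
    · exact jrz_comp_aux A W hK ev hev z hz
    · have h := jrz_comp_aux A W hK ev hev z⁻¹ hz
      rw [inv_inv] at h
      exact h.symm

theorem mem_jrzComp {z : F} :
    z ∈ jrzComp A W hK ev hev ↔ ∃ h : z ∈ W, ev ⟨z, h⟩ ∈ A := Iff.rfl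

/-- elements of the composite valuation ring with value zero have residue zero -/
theorem jrz_comp_residue_eq_zero (z : jrzComp A W hK ev hev)
    (hz : ∃ h : (z : F) ∈ W, ev ⟨(z : F), h⟩ = 0) :
    IsLocalRing.residue (jrzComp A W hK ev hev) z = 0 := by
  rw [IsLocalRing.residue_eq_zero_iff, IsLocalRing.mem_maximalIdeal, mem_nonunits_iff]
  intro hu
  obtain ⟨hzW, hz0⟩ := hz
  obtain ⟨⟨d, hdW, hdA⟩, hd1⟩ := isUnit_iff_exists_inv.mp hu
  have h1 : (z : F) * d = 1 := congrArg Subtype.val hd1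
  have h2 : (⟨(z : F), hzW⟩ : W) * ⟨d, hdW⟩ = 1 := Subtype.ext h1
  have h3 := congrArg ev h2
  rw [map_mul, hz0, zero_mul, map_one] at h3
  exact zero_ne_one h3

include hev in
/-- **(Z4)** Region stability: let `W` be the valuation ring of a `K`-rational point of `F`
(with evaluation `ev : W → K`) and let `Y` be integral over `A[X]`.  If `Y⁻¹` is regular at the
point with value in the maximal ideal of `A`, then so is `X⁻¹`. -/
theorem jrz_region (X Y : F) (hY : Y ≠ 0) (hint : IsIntegral (jrPoly A X) Y)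
    (hyW : Y⁻¹ ∈ W) (hy : ev ⟨Y⁻¹, hyW⟩ ∈ A.nonunits) :
    ∃ hxW : X⁻¹ ∈ W, ev ⟨X⁻¹, hxW⟩ ∈ A.nonunits := by
  have hAW : ∀ a : A, algebraMap K F (a : K) ∈ W := fun a => hK _
  have hAB : ∀ a : A, algebraMap K F (a : K) ∈ jrzComp A W hK ev hev := fun a =>
    ⟨hK _, by rw [hev]; exact a.2⟩
  have hyA : ev ⟨Y⁻¹, hyW⟩ ∈ A := A.nonunits_subset hy
  have hyB : Y⁻¹ ∈ jrzComp A W hK ev hev := ⟨hyW, hyA⟩
  have hbmax : (⟨ev ⟨Y⁻¹, hyW⟩, hyA⟩ : A) ∈ IsLocalRing.maximalIdeal A :=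
    ValuationSubring.coe_mem_nonunits_iff.mp hy
  -- the value of `s(Y⁻¹)` at the point
  have hevs : ∀ s : Polynomial A, ∃ h : jrEval A Y⁻¹ s ∈ W,
      ev ⟨jrEval A Y⁻¹ s, h⟩ = ((s.eval ⟨ev ⟨Y⁻¹, hyW⟩, hyA⟩ : A) : K) := by
    intro s
    have hcoe := jrz_coe_eval₂ A W hAW ⟨Y⁻¹, hyW⟩ s
    have hmem : jrEval A Y⁻¹ s ∈ W := hcoe ▸ (Polynomial.eval₂ (jrzInc A W hAW) ⟨Y⁻¹, hyW⟩ s).2
    refine ⟨hmem, ?_⟩
    have e : (⟨jrEval A Y⁻¹ s, hmem⟩ : W) = Polynomial.eval₂ (jrzInc A W hAW) ⟨Y⁻¹, hyW⟩ s :=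
      Subtype.ext hcoe.symm
    rw [e, Polynomial.hom_eval₂]
    have hcomp : ev.comp (jrzInc A W hAW) = A.subtype := RingHom.ext fun a => hev _
    rw [hcomp]
    exact (Polynomial.hom_eval₂ s (RingHom.id A) A.subtype ⟨ev ⟨Y⁻¹, hyW⟩, hyA⟩).symm
  -- `s(b)` is a unit of `A` when `s(0)` is
  have hunit : ∀ s : Polynomial A, IsUnit (s.coeff 0) →
      IsUnit (s.eval (⟨ev ⟨Y⁻¹, hyW⟩, hyA⟩ : A)) := by
    intro s hs
    rw [← IsLocalRing.residue_ne_zero_iff_isUnit] at hs ⊢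
    have h1 : s.eval (⟨ev ⟨Y⁻¹, hyW⟩, hyA⟩ : A) =
        s.divX.eval (⟨ev ⟨Y⁻¹, hyW⟩, hyA⟩ : A) * ⟨ev ⟨Y⁻¹, hyW⟩, hyA⟩ + s.coeff 0 := by
      conv_lhs => rw [← Polynomial.divX_mul_X_add s]
      rw [Polynomial.eval_add, Polynomial.eval_mul, Polynomial.eval_X, Polynomial.eval_C]
    rw [h1, map_add, map_mul, (IsLocalRing.residue_eq_zero_iff _).mpr hbmax, mul_zero, zero_add]
    exact hs
  have hval : ∀ s : Polynomial A, IsUnit (s.coeff 0) →
      ((s.eval (⟨ev ⟨Y⁻¹, hyW⟩, hyA⟩ : A) : A) : K) ≠ 0 ∧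
        ((s.eval (⟨ev ⟨Y⁻¹, hyW⟩, hyA⟩ : A) : A) : K)⁻¹ ∈ A := by
    intro s hs
    obtain ⟨v, hv⟩ := isUnit_iff_exists_inv.mp (hunit s hs)
    have h1 : ((s.eval (⟨ev ⟨Y⁻¹, hyW⟩, hyA⟩ : A) : A) : K) * (v : K) = 1 :=
      congrArg Subtype.val hv
    refine ⟨left_ne_zero_of_mul_eq_one h1, ?_⟩
    rw [← eq_inv_of_mul_eq_one_right h1]
    exact v.2
  have hne : ∀ s : Polynomial A, IsUnit (s.coeff 0) → jrEval A Y⁻¹ s ≠ 0 := by
    intro s hs h0
    obtain ⟨h, hh⟩ := hevs s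
    apply (hval s hs).1
    rw [← hh]
    have e : (⟨jrEval A Y⁻¹ s, h⟩ : W) = 0 := Subtype.ext h0
    rw [e, map_zero]
  have hΛ : jrLam A Y⁻¹ ≤ (jrzComp A W hK ev hev).toSubring := by
    rw [jrz_lam_le_iff]
    refine ⟨hAB, hyB, fun s hs => ?_⟩
    obtain ⟨h, hh⟩ := hevs s
    obtain ⟨h1, h2⟩ := jrz_ev_inv W hK ev hev ⟨jrEval A Y⁻¹ s, h⟩ (by rw [hh]; exact (hval s hs).1)
    refine ⟨h1, ?_⟩
    rw [h2, hh]
    exact (hval s hs).2
  -- `X` does not lie in the composite valuation ring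
  have hXB : X ∉ jrzComp A W hK ev hev := by
    intro hXB
    refine jrz_core A (jrzComp A W hK ev hev) X Y hY hne hΛ hint hXB hAB ?_
    obtain ⟨hXW, hXA⟩ := hXB
    have hres : IsLocalRing.residue (jrzComp A W hK ev hev) ⟨X, ⟨hXW, hXA⟩⟩ =
        jrzRho A (jrzComp A W hK ev hev) hAB ⟨ev ⟨X, hXW⟩, hXA⟩ := by
      rw [← sub_eq_zero]
      show IsLocalRing.residue (jrzComp A W hK ev hev) ⟨X, ⟨hXW, hXA⟩⟩ -
        IsLocalRing.residue (jrzComp A W hK ev hev)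
          (jrzInc A (jrzComp A W hK ev hev) hAB ⟨ev ⟨X, hXW⟩, hXA⟩) = 0
      rw [← map_sub]
      refine jrz_comp_residue_eq_zero A W hK ev hev _ ⟨sub_mem hXW (hK _), ?_⟩
      have e : (⟨X - algebraMap K F (ev ⟨X, hXW⟩), sub_mem hXW (hK _)⟩ : W) =
          ⟨X, hXW⟩ - ⟨algebraMap K F (ev ⟨X, hXW⟩), hK _⟩ := rfl
      show ev ⟨X - algebraMap K F (ev ⟨X, hXW⟩), sub_mem hXW (hK _)⟩ = 0
      rw [e, map_sub, hev, sub_self]
    rw [hres]
    refine ⟨Polynomial.X - Polynomial.C ⟨ev ⟨X, hXW⟩, hXA⟩, Polynomial.monic_X_sub_C _, ?_⟩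
    rw [Polynomial.eval₂_sub, Polynomial.eval₂_X, Polynomial.eval₂_C, sub_self]
  -- hence `X⁻¹` lies in it, with value in the maximal ideal
  obtain ⟨hxW, hxA⟩ : X⁻¹ ∈ jrzComp A W hK ev hev :=
    ((jrzComp A W hK ev hev).mem_or_inv_mem X).resolve_left hXB
  refine ⟨hxW, ?_⟩
  rw [ValuationSubring.mem_nonunits_iff_or]
  by_contra hcon
  push Not at hcon
  obtain ⟨hc0, hcinv⟩ := hcon
  obtain ⟨h1, h2⟩ := jrz_ev_inv W hK ev hev ⟨X⁻¹, hxW⟩ hc0
  apply hXB
  have hXW : X ∈ W := by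
    have h1' : (X⁻¹)⁻¹ ∈ W := h1
    rwa [inv_inv] at h1'
  refine ⟨hXW, ?_⟩
  have e : (⟨X, hXW⟩ : W) = ⟨((⟨X⁻¹, hxW⟩ : W) : F)⁻¹, h1⟩ := Subtype.ext (inv_inv X).symm
  rw [e, h2]
  exact hcinv

end Region

end JRZ

end Fermat.Agent.S37
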