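import Mathlib
import Fermat.Agent.S37.JRingInt
import Fermat.Agent.S37.JRingZ
import Fermat.Agent.S37.JRingAbs

/-!
# S37, package JR-INT, final statements: (INT) for both J-rings, no hypothesis

`A` a valuation subring of `ℚ̄` over `ℓ`, `N` a level prime to `ℓ`, `F` the level-`N` function
field over `ℚ̄`, `V = grO A hA N hℓN` the Gauss valuation ring, `j = jBar N`.

* `jri_jBar_inv_transcendental`, `jri_jBar_ne_zero`;
* `jri_Z5`: (Z5) of `JRingZ` at `y = j⁻¹`;
* `jri_intY : JrInt A V (jrOY A j)`, `jri_intYinv : JrInt A V (jrOY A j⁻¹)`;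
* `jri_intZ : JrInt A V (jrOZ A j)`;
* `jri_mem_Y`, `jri_mem_Z`-type memberships in elementwise form: `jri_OY_mem`, `jri_OZ_mem`.

Names are prefixed `jri`.
-/

set_option autoImplicit false

noncomputable section

open ModularCurve Polynomial

namespace Fermat.Agent.S37

open Fermat.Agent.S18 Fermat.Agent.S28

section QbarFinal

variable (A : ValuationSubring (AlgebraicClosure ℚ)) {ℓ : ℕ} [Fact ℓ.Prime]
  (hA : A.LiesOverPrime ℓ) (N : ℕ) [NeZero N] (hℓN : ¬ ℓ ∣ N)

theorem jri_jBar_ne_zero : Fermat.Agent.S24.jBar N ≠ 0 := fun h0 =>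
  Fermat.Agent.S24.transcendental_jBar' N (h0 ▸ isAlgebraic_zero)

theorem jri_jBar_inv_transcendental :
    Transcendental (AlgebraicClosure ℚ) (Fermat.Agent.S24.jBar N)⁻¹ := fun h =>
  Fermat.Agent.S24.transcendental_jBar' N (IsAlgebraic.inv_iff.mp h)

/-- (Z5) at `y = j⁻¹`: the elements of the J-ring of the region `Z` are the `x` with
`s(j⁻¹) x` integral over `A[j⁻¹]` for some `s ∈ A[X]`, `s(0) ∈ Aˣ`. -/
theorem jri_Z5 (x : ↥(modularFunctionFieldBar N)) :
    x ∈ jrOZ A (Fermat.Agent.S24.jBar N) ↔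
      ∃ s : Polynomial A, IsUnit (s.coeff 0) ∧
        jrEval A (Fermat.Agent.S24.jBar N)⁻¹ s * x ∈ jrOY A (Fermat.Agent.S24.jBar N)⁻¹ :=
  jrz_isIntegral_iff A (Fermat.Agent.S24.jBar N)⁻¹
    (jrz_ne_of_transcendental A _ (jri_jBar_inv_transcendental N)) x

/-- **(INT)** for the J-ring of the region `Y`. -/
theorem jri_intY : JrInt A (grO A hA N hℓN) (jrOY A (Fermat.Agent.S24.jBar N)) :=
  jri_int_poly A hA N hℓN (Fermat.Agent.S24.jBar N) (Or.inl rfl)

/-- **(INT)** for the integral closure of `A[j⁻¹]`. -/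
theorem jri_intYinv : JrInt A (grO A hA N hℓN) (jrOY A (Fermat.Agent.S24.jBar N)⁻¹) :=
  jri_int_poly A hA N hℓN (Fermat.Agent.S24.jBar N)⁻¹ (Or.inr rfl)

/-- **(INT)** for the J-ring of the region `Z`. -/
theorem jri_intZ : JrInt A (grO A hA N hℓN) (jrOZ A (Fermat.Agent.S24.jBar N)) :=
  jri_int_Z_of A hA N hℓN (fun x hx => (jri_Z5 A N x).mp hx)

/-- The J-ring of the region `Y` lies in the Gauss valuation ring, elementwise. -/
theorem jri_OY_mem (x : ↥(modularFunctionFieldBar N))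
    (hx : x ∈ jrOY A (Fermat.Agent.S24.jBar N)) : x ∈ grO A hA N hℓN :=
  jri_le_Y A hA N hℓN hx

/-- The J-ring of the region `Z` lies in the Gauss valuation ring, elementwise. -/
theorem jri_OZ_mem (x : ↥(modularFunctionFieldBar N))
    (hx : x ∈ jrOZ A (Fermat.Agent.S24.jBar N)) : x ∈ grO A hA N hℓN :=
  jri_le_Z A hA N hℓN hx

end QbarFinal

end Fermat.Agent.S37
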