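import Fermat.Agent.S37.JRingZ
import Fermat.Agent.S37.JRingInst

/-!
# S37, J-rings, package JR-Z (part 2): region stability at points and places

Adapters of `jrz_region` (region stability, (Z4)) to the points `JrPt` and to the places of
degree one, in terms of `RdmVal` and of the region predicate `jrRegY`:

* `jrz_region_pt` : at a point `Q : JrPt K F`;
* `jrz_region_bij`, `jrz_region_place` : at a place with residue field `K` / of degree one;
* `jrz_not_regY`, `jrz_not_regY_of_deg` : if `Y` is integral over `A[X]` and the place is not in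
  the region `Y` of the function `Y`, then it is not in the region `Y` of the function `X`.
-/

set_option autoImplicit false

noncomputable section

open AlgebraicCurve

namespace Fermat.Agent.S37

section JRZ2

variable {K : Type*} [Field K] (A : ValuationSubring K) {F : Type*} [Field F] [Algebra K F]

/-- **(Z4)** at a point. -/
theorem jrz_region_pt (Q : JrPt K F) (X Y : F) (hY : Y ≠ 0) (hint : IsIntegral (jrPoly A X) Y)
    (hyW : Y⁻¹ ∈ Q.W) (hy : Q.ev ⟨Y⁻¹, hyW⟩ ∈ A.nonunits) :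
    ∃ hxW : X⁻¹ ∈ Q.W, Q.ev ⟨X⁻¹, hxW⟩ ∈ A.nonunits :=
  jrz_region A Q.W Q.mem Q.ev Q.ev_algebraMap X Y hY hint hyW hy

/-- **(Z4)** at a place with residue field `K`. -/
theorem jrz_region_bij (P : Place K F)
    (hbij : Function.Bijective (algebraMap K P.ResidueField)) (X Y : F) (hY : Y ≠ 0)
    (hint : IsIntegral (jrPoly A X) Y) (b : A) (hb : (b : K) ∈ A.nonunits)
    (hw : RdmVal P Y⁻¹ (b : K)) :
    ∃ b' : A, (b' : K) ∈ A.nonunits ∧ RdmVal P X⁻¹ (b' : K) := by
  obtain ⟨h, he⟩ := (jrPt_val_iff P hbij Y⁻¹ b).mp hw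
  obtain ⟨hxW, hx⟩ := jrz_region_pt A (jrPt P hbij) X Y hY hint h (by rw [he]; exact hb)
  exact ⟨⟨_, A.nonunits_subset hx⟩, hx, (jrPt_val_iff P hbij X⁻¹ _).mpr ⟨hxW, rfl⟩⟩

/-- **(Z4)** at a place of degree one. -/
theorem jrz_region_place (X Y : F) (hY : Y ≠ 0) (h : IsIntegral (jrPoly A X) Y)
    (w : Place K F) (hdeg : w.deg = 1) (b : A) (hb : (b : K) ∈ A.nonunits)
    (hw : RdmVal w Y⁻¹ (b : K)) :
    ∃ b' : A, (b' : K) ∈ A.nonunits ∧ RdmVal w X⁻¹ (b' : K) :=
  jrz_region_bij A w (jr_bij_of_deg w hdeg) X Y hY h b hb hw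

/-- Region stability: if `Y` is integral over `A[X]`, a place outside the region `Y` of the
function `Y` is outside the region `Y` of the function `X`. -/
theorem jrz_not_regY (P : Place K F) (hbij : Function.Bijective (algebraMap K P.ResidueField))
    (X Y : F) (hX : X ≠ 0) (hY : Y ≠ 0) (hint : IsIntegral (jrPoly A X) Y)
    (hP : ¬ jrRegY A Y P) : ¬ jrRegY A X P := by
  obtain ⟨b, hb, hv⟩ := jr_regZ A Y P hbij hP
  obtain ⟨b', hb', hv'⟩ := jrz_region_bij A P hbij X Y hY hint b hb hv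
  exact jr_not_regY A X P hX b' hb' hv'

theorem jrz_not_regY_of_deg (P : Place K F) (hdeg : P.deg = 1)
    (X Y : F) (hX : X ≠ 0) (hY : Y ≠ 0) (hint : IsIntegral (jrPoly A X) Y)
    (hP : ¬ jrRegY A Y P) : ¬ jrRegY A X P :=
  jrz_not_regY A P (jr_bij_of_deg P hdeg) X Y hX hY hint hP

end JRZ2

end Fermat.Agent.S37
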