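import Fermat.Agent.S24.SysCusp
import Fermat.Agent.S24.SysFin
import Fermat.Agent.S37.Swap

/-!
# S37, package MODEQ: the modular equation (integrality form)

For every level `N` and every `d ∣ N` the function `j(q^d)` is integral over every subring of
the function field of `X₀(N)` over `ℚ̄` containing `j` (`meq_isIntegral`); equivalently there is
a monic polynomial with coefficients in `ℤ[j]` vanishing at `j(q^d)` (`meq_exists_poly`).
Consequences for the two degeneracy maps `α, β` at a prime `ℓ`: `β j = j(q^ℓ)` is integral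
over `ℤ[α j]`, and (through the swap) `α j` is integral over `ℤ[β j]`.

Proof: the characteristic polynomial of `j(q^d)` over `ℚ̄(j)` maps, under any full family of
embeddings of the function field into a field of Laurent series, to the product of the
`X - (conjugate)`.  For the Taylor families at the points of the upper half plane the
conjugates are power series, so the coefficients of the characteristic polynomial are
polynomials in `j`; for the family at the cusps the conjugates have algebraic-integer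
coefficients, and a triangular induction shows that these polynomials have algebraic-integer
coefficients.
-/

set_option autoImplicit false

open Polynomial AlgebraicCurve IntermediateField UpperHalfPlane ModularForm
open scoped MatrixGroups

namespace Fermat.Agent.S37

section GenericAlgebra

variable {E F Λ : Type*} [Field E] [Field F] [Algebra E F] [FiniteDimensional E F]
  [CharZero E] [Field Λ] {ι : Type*} [Fintype ι]

/-- The norm is the product over a full family of embeddings. -/
theorem meq_map_norm (ψ : ι → F →+* Λ) (hinj : Function.Injective ψ)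
    (hcard : Fintype.card ι = Module.finrank E F)
    (hE : ∀ (i j : ι) (a : E), ψ i (algebraMap E F a) = ψ j (algebraMap E F a))
    (i : ι) (f : F) :
    ψ i (algebraMap E F (Algebra.norm E f)) = ∏ j, ψ j f := by
  classical
  let Ω := AlgebraicClosure Λ
  let ψ₀ : E →+* Ω := (algebraMap Λ Ω).comp ((ψ i).comp (algebraMap E F))
  let _ : Algebra E Ω := ψ₀.toAlgebra
  let σ : ι → (F →ₐ[E] Ω) := fun j =>
    { toRingHom := (algebraMap Λ Ω).comp (ψ j)
      commutes' := fun g => by
        show algebraMap Λ Ω (ψ j (algebraMap E F g)) = algebraMap Λ Ω (ψ i (algebraMap E F g))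
        exact congrArg _ (hE j i g) }
  have hσ : Function.Injective σ := by
    intro j j' h
    apply hinj
    refine RingHom.ext fun f => ?_
    have := DFunLike.congr_fun h f
    exact (algebraMap Λ Ω).injective this
  have hcard' : Fintype.card (F →ₐ[E] Ω) = Module.finrank E F := AlgHom.card E F Ω
  have hbij : Function.Bijective σ := by
    rw [Fintype.bijective_iff_injective_and_card]
    exact ⟨hσ, by rw [hcard', hcard]⟩
  have hnorm := Algebra.norm_eq_prod_embeddings E Ω f
  rw [← Fintype.prod_bijective σ hbij (fun j => σ j f) (fun τ => τ f) (fun _ => rfl)] at hnorm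
  apply (algebraMap Λ Ω).injective
  rw [map_prod]
  exact hnorm

/-- The characteristic polynomial of multiplication by `y` maps to the product of the
`X - ψ_j y` over a full family of embeddings. -/
theorem meq_map_charpoly (ψ : ι → F →+* Λ) (hinj : Function.Injective ψ)
    (hcard : Fintype.card ι = Module.finrank E F)
    (hE : ∀ (i j : ι) (a : E), ψ i (algebraMap E F a) = ψ j (algebraMap E F a))
    (i : ι) (y : F) :
    (LinearMap.charpoly (Algebra.lmul E F y)).map ((ψ i).comp (algebraMap E F))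
      = ∏ j, (X - C (ψ j y)) := by
  set g : E →+* Λ := (ψ i).comp (algebraMap E F) with hg
  apply Polynomial.eq_of_infinite_eval_eq
  refine Set.Infinite.mono ?_ (Set.infinite_range_of_injective g.injective)
  rintro _ ⟨a, rfl⟩
  show eval (g a) _ = eval (g a) _
  rw [eval_map, eval₂_at_apply, LinearMap.eval_charpoly, eval_prod]
  have h1 : (algebraMap E (Module.End E F) a - Algebra.lmul E F y)
      = Algebra.lmul E F (algebraMap E F a - y) := by
    ext z
    simp [Algebra.smul_def]
  rw [h1, ← Algebra.norm_apply, hg, RingHom.comp_apply, meq_map_norm ψ hinj hcard hE i]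
  refine Finset.prod_congr rfl fun j _ => ?_
  rw [eval_sub, eval_X, eval_C, map_sub, RingHom.comp_apply, hE i j a]

/-- Cayley-Hamilton for multiplication by `y`. -/
theorem meq_aeval_charpoly (y : F) :
    aeval y (LinearMap.charpoly (Algebra.lmul E F y)) = 0 := by
  have h := LinearMap.aeval_self_charpoly (Algebra.lmul E F y)
  rw [Polynomial.aeval_algHom_apply] at h
  have h2 := congrArg (fun T : Module.End E F => T 1) h
  simpa using h2

omit [Fintype ι] in
/-- Coefficients of `∏ (X - a_j)` lie in every subring containing the `a_j`. -/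
theorem meq_coeff_prod_mem (T : Subring Λ) (s : Finset ι) (a : ι → Λ) (ha : ∀ j ∈ s, a j ∈ T)
    (k : ℕ) : (∏ j ∈ s, (X - C (a j))).coeff k ∈ T := by
  classical
  have h : ∏ j ∈ s, (X - C (a j))
      = (∏ j ∈ s.attach, (X - C (⟨a j.1, ha j.1 j.2⟩ : T))).map T.subtype := by
    rw [Polynomial.map_prod, ← Finset.prod_attach]
    refine Finset.prod_congr rfl fun j _ => ?_
    rw [Polynomial.map_sub, map_X, map_C]
    rfl
  rw [h, coeff_map]
  exact Subtype.property _

/-- Abstract form: for families of full systems of embeddings `ψ t` with the conjugates of `y`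
in the subrings `T t`, there is a monic polynomial vanishing at `y` whose coefficients lie in
`K(x)` and are mapped into `T t` by all the embeddings. -/
theorem meq_abs {K F Λ : Type*} [Field K] [Field F] [Algebra K F] [CharZero K] [Field Λ]
    (x y : F) [FiniteDimensional K⟮x⟯ F] {ι τ : Type*} [Fintype ι]
    (hcard : Fintype.card ι = Module.finrank K⟮x⟯ F)
    (ψ : τ → ι → F →+* Λ) (T : τ → Subring Λ)
    (hinj : ∀ t, Function.Injective (ψ t))
    (hK : ∀ (t : τ) (i j : ι) (c : K), ψ t i (algebraMap K F c) = ψ t j (algebraMap K F c))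
    (hx : ∀ (t : τ) (i j : ι), ψ t i x = ψ t j x)
    (hy : ∀ (t : τ) (j : ι), ψ t j y ∈ T t) :
    ∃ p : F[X], p.Monic ∧ eval y p = 0 ∧
      ∀ k, p.coeff k ∈ K⟮x⟯ ∧ ∀ (t : τ) (i : ι), ψ t i (p.coeff k) ∈ T t := by
  have : CharZero K⟮x⟯ := charZero_of_injective_algebraMap (algebraMap K K⟮x⟯).injective
  refine ⟨(LinearMap.charpoly (Algebra.lmul K⟮x⟯ F y)).map (algebraMap K⟮x⟯ F),
    (LinearMap.charpoly_monic _).map _, ?_, fun k => ⟨?_, fun t i => ?_⟩⟩
  · rw [eval_map, ← aeval_def]
    exact meq_aeval_charpoly y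
  · rw [coeff_map]
    exact Subtype.property _
  · have hE : ∀ (i j : ι) (a : K⟮x⟯),
        ψ t i (algebraMap K⟮x⟯ F a) = ψ t j (algebraMap K⟮x⟯ F a) := by
      intro i j a
      let L : IntermediateField K F :=
        { RingHom.eqLocusField (ψ t i) (ψ t j) with
          algebraMap_mem' := fun c => hK t i j c }
      have hL : K⟮x⟯ ≤ L := adjoin_simple_le_iff.mpr (hx t i j)
      exact hL a.2
    have h1 := meq_map_charpoly (ψ t) (hinj t) hcard hE i y
    have h2 := congrArg (fun p => p.coeff k) h1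
    simp only [coeff_map, RingHom.comp_apply] at h2
    rw [coeff_map, h2]
    exact meq_coeff_prod_mem (T t) Finset.univ _ (fun j _ => hy t j) k

end GenericAlgebra

section CoeffSubring

variable {C₀ : Type*} [CommRing C₀]

/-- Laurent series all of whose coefficients lie in a given subring. -/
def meqCoeffSubring (S : Subring C₀) : Subring (LaurentSeries C₀) where
  carrier := {f | ∀ n : ℤ, f.coeff n ∈ S}
  mul_mem' := by
    intro f g hf hg n
    rw [HahnSeries.coeff_mul]
    exact S.sum_mem fun ij _ => S.mul_mem (hf _) (hg _)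
  one_mem' := by
    intro n
    rw [HahnSeries.coeff_one]
    split_ifs
    · exact S.one_mem
    · exact S.zero_mem
  add_mem' := by
    intro f g hf hg n
    rw [HahnSeries.coeff_add]
    exact S.add_mem (hf _) (hg _)
  zero_mem' := by
    intro n
    rw [HahnSeries.coeff_zero]
    exact S.zero_mem
  neg_mem' := by
    intro f hf n
    rw [HahnSeries.coeff_neg]
    exact S.neg_mem (hf _)

theorem mem_meqCoeffSubring (S : Subring C₀) (f : LaurentSeries C₀) :
    f ∈ meqCoeffSubring S ↔ ∀ n : ℤ, f.coeff n ∈ S := Iff.rfl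

theorem meq_C_mem (S : Subring C₀) {c : C₀} (hc : c ∈ S) :
    HahnSeries.C c ∈ meqCoeffSubring S := by
  intro n
  rw [HahnSeries.C_apply, HahnSeries.coeff_single]
  split_ifs
  · exact hc
  · exact S.zero_mem

theorem meq_coeff_eval₂ {K : Type*} [CommRing K] (ι₀ : K →+* C₀) (J : LaurentSeries C₀)
    (P : K[X]) (n : ℕ) (hn : P.natDegree < n) (k : ℤ) :
    (eval₂ ((HahnSeries.C : C₀ →+* LaurentSeries C₀).comp ι₀) J P).coeff k
      = ∑ i ∈ Finset.range n, ι₀ (P.coeff i) * (J ^ i).coeff k := by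
  rw [eval₂_eq_sum_range' _ hn, ← HahnSeries.coeff.addMonoidHom_apply, map_sum]
  refine Finset.sum_congr rfl fun i _ => ?_
  rw [HahnSeries.coeff.addMonoidHom_apply, RingHom.comp_apply, HahnSeries.C_mul_eq_smul,
    HahnSeries.coeff_smul, smul_eq_mul]

/-- Triangular induction: a polynomial in a series `J` with leading term `q^(-N)`, all of whose
coefficients (of the value at `J`) lie in a subring `S` containing the coefficients of `J`, has
its coefficients in `S`. -/
theorem meq_triangular {K : Type*} [CommRing K] (ι₀ : K →+* C₀) (S : Subring C₀)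
    (J : LaurentSeries C₀) (N : ℤ) (hJ : J ∈ meqCoeffSubring S)
    (hJtop : ∀ n : ℕ, (J ^ n).coeff (-(N * n)) = 1)
    (hJlow : ∀ (n m : ℕ), m < n → (J ^ m).coeff (-(N * n)) = 0) :
    ∀ (n : ℕ) (P : K[X]), P.natDegree ≤ n →
      eval₂ ((HahnSeries.C : C₀ →+* LaurentSeries C₀).comp ι₀) J P ∈ meqCoeffSubring S →
      ∀ m, ι₀ (P.coeff m) ∈ S := by
  intro n
  induction n with
  | zero =>
    intro P hdeg hP m
    have hPC : P = C (P.coeff 0) := Polynomial.eq_C_of_natDegree_le_zero hdeg
    rcases Nat.eq_zero_or_pos m with rfl | hm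
    · have h := hP 0
      rw [hPC, eval₂_C, RingHom.comp_apply, HahnSeries.C_apply, HahnSeries.coeff_single_same] at h
      exact h
    · rw [hPC, coeff_C, if_neg hm.ne', map_zero]
      exact S.zero_mem
  | succ n ih =>
    intro P hdeg hP m
    have ha : ι₀ (P.coeff (n + 1)) ∈ S := by
      have h := hP (-(N * ((n + 1 : ℕ) : ℤ)))
      rw [meq_coeff_eval₂ ι₀ J P (n + 2) (by omega),
        Finset.sum_eq_single (n + 1)] at h
      · rw [hJtop (n + 1), mul_one] at h
        exact h
      · intro i hi hne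
        have hi' : i < n + 1 := by
          have := Finset.mem_range.mp hi
          omega
        rw [hJlow (n + 1) i hi', mul_zero]
      · intro hni
        exact absurd (Finset.mem_range.mpr (by omega)) hni
    have hP' : (P - C (P.coeff (n + 1)) * X ^ (n + 1)).natDegree ≤ n := by
      rw [natDegree_le_iff_coeff_eq_zero]
      intro i hi
      rw [coeff_sub, coeff_C_mul_X_pow]
      split_ifs with h
      · rw [h, sub_self]
      · rw [sub_zero]
        exact coeff_eq_zero_of_natDegree_lt (by omega)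
    have hmem : eval₂ ((HahnSeries.C : C₀ →+* LaurentSeries C₀).comp ι₀) J
        (P - C (P.coeff (n + 1)) * X ^ (n + 1)) ∈ meqCoeffSubring S := by
      rw [eval₂_sub, eval₂_mul, eval₂_C, eval₂_X_pow]
      exact sub_mem hP (mul_mem (meq_C_mem S ha) (pow_mem hJ _))
    have h := ih _ hP' hmem m
    rw [coeff_sub, coeff_C_mul_X_pow] at h
    split_ifs at h with hm
    · rw [hm]
      exact ha
    · rwa [sub_zero] at h

end CoeffSubring

section FinalStep

/-- A root of a monic polynomial whose coefficients are polynomials in `j` with integral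
coefficients is integral over every subring containing `j`. -/
theorem meq_isIntegral_of_coeffs {K F : Type*} [Field K] [Field F] [Algebra K F]
    (R : Subring F) (j y : F) (hj : j ∈ R) (p : F[X]) (hpm : p.Monic) (hp0 : eval y p = 0)
    (hp : ∀ k, ∃ P : K[X], p.coeff k = aeval j P ∧ ∀ m, IsIntegral ℤ (P.coeff m)) :
    IsIntegral R y := by
  let A : Subalgebra R F := integralClosure R F
  have hjA : j ∈ A := A.algebraMap_mem ⟨j, hj⟩
  have hcoef : ∀ k, p.coeff k ∈ A := by
    intro k
    obtain ⟨P, hP, hint⟩ := hp k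
    rw [hP, aeval_eq_sum_range]
    refine A.sum_mem fun i _ => ?_
    rw [Algebra.smul_def]
    refine A.mul_mem ?_ (A.pow_mem hjA i)
    have h1 : IsIntegral ℤ (algebraMap K F (P.coeff i)) :=
      (hint i).map (algebraMap K F).toIntAlgHom
    exact h1.tower_top
  have hlift : p ∈ Polynomial.lifts (algebraMap A F) := by
    rw [lifts_iff_coeff_lifts]
    intro k
    exact ⟨⟨_, hcoef k⟩, rfl⟩
  obtain ⟨p', hp', -, hpm'⟩ := lifts_and_natDegree_eq_and_monic hlift hpm
  have hA : IsIntegral A y := by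
    refine ⟨p', hpm', ?_⟩
    rw [← eval_map, hp']
    exact hp0
  exact isIntegral_trans _ hA

/-- integrality over the range of a ring homomorphism, as a monic polynomial upstairs -/
theorem meq_lift_range {R₀ F : Type*} [CommRing R₀] [CommRing F] (f : R₀ →+* F) (y : F)
    (h : IsIntegral f.range y) : ∃ Φ : R₀[X], Φ.Monic ∧ Φ.eval₂ f y = 0 := by
  obtain ⟨p, hpm, hp⟩ := h
  have hlift : p ∈ Polynomial.lifts f.rangeRestrict := by
    rw [lifts_iff_coeff_lifts]
    intro k
    exact f.rangeRestrict_surjective _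
  obtain ⟨Φ, hΦ, -, hΦm⟩ := lifts_and_natDegree_eq_and_monic hlift hpm
  refine ⟨Φ, hΦm, ?_⟩
  rw [← hΦ, eval₂_map] at hp
  exact hp

/-- transport of integrality along a ring endomorphism -/
theorem meq_isIntegral_comap {F : Type*} [CommRing F] (w : F →+* F) (R : Subring F) (y : F)
    (h : IsIntegral (R.comap w) y) : IsIntegral R (w y) := by
  let φ : R.comap w →+* R := (w.comp (R.comap w).subtype).codRestrict R (fun x => x.2)
  exact IsIntegral.map_of_comp_eq φ w (by ext x; rfl) h

end FinalStep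

open Fermat.Agent.S24 ModularCurve

/-- the conjugates at the cusp, with a rational translation: `j(d · γ(Nτ)) = j(kτ + b/e)` -/
theorem meq_jd_smul_scale (N d : ℕ) [NeZero N] (hd : d ∣ N) (γ : SL(2, ℤ)) :
    ∃ (k e : ℕ) (b : ℤ), 0 < k ∧ 0 < e ∧
      ∀ τ : ℍ, jd d (γ • ofComplex ((N : ℂ) * τ))
        = jFun (((b : ℝ) / (e : ℝ) : ℝ) +ᵥ ofComplex ((k : ℂ) * τ)) := by
  have hd0 : 0 < d := Nat.pos_of_ne_zero
    (fun h => NeZero.ne N (by rw [h] at hd; exact Nat.eq_zero_of_zero_dvd hd))
  obtain ⟨a, e, b, ha, he, hae, hgcd, hj⟩ := jc_hermite d hd0 γ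
  have heN : e ∣ N := (Dvd.intro_left a hae).trans hd
  obtain ⟨m, hm⟩ := heN
  have hm0 : 0 < m := Nat.pos_of_ne_zero (fun h => NeZero.ne N (by rw [hm, h, mul_zero]))
  refine ⟨a * m, e, b, Nat.mul_pos ha hm0, he, fun τ => ?_⟩
  rw [hj]
  have hNτ : 0 < ((N : ℂ) * (τ : ℂ)).im := by
    have h1 : ((N : ℂ) * (τ : ℂ)).im = N * τ.im := by simp [Complex.mul_im]
    rw [h1]
    have : (0 : ℝ) < N := by exact_mod_cast NeZero.pos N
    have := τ.im_pos
    positivity
  have hkτ : 0 < (((a * m : ℕ) : ℂ) * (τ : ℂ)).im := by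
    have h1 : (((a * m : ℕ) : ℂ) * (τ : ℂ)).im = (a * m : ℕ) * τ.im := by simp [Complex.mul_im]
    rw [h1]
    have : (0 : ℝ) < (a * m : ℕ) := by exact_mod_cast Nat.mul_pos ha hm0
    have := τ.im_pos
    positivity
  have e_ne : (e : ℂ) ≠ 0 := by exact_mod_cast he.ne'
  rw [ofComplex_apply_of_im_pos hNτ, ofComplex_apply_of_im_pos hkτ, ← jc_jC_coe,
    UpperHalfPlane.coe_vadd]
  congr 1
  show ((a : ℂ) * ((N : ℂ) * (τ : ℂ)) + b) / e = (((b : ℝ) / e : ℝ) : ℂ) + ((a * m : ℕ) : ℂ) * τ
  rw [hm]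
  push_cast
  field_simp
  ring

/-- the subring of Laurent series over `ℂ` with algebraic-integer coefficients -/
def meqInt : Subring (LaurentSeries ℂ) := meqCoeffSubring (integralClosure ℤ ℂ).toSubring

theorem mem_meqInt (f : LaurentSeries ℂ) : f ∈ meqInt ↔ ∀ n : ℤ, IsIntegral ℤ (f.coeff n) :=
  Iff.rfl

theorem meq_coeff_jq_int (k : ℤ) : ∃ z : ℤ, jq.coeff k = (z : ℚ) := by
  rw [← jqModC_rat, coeff_jqModC_eq_intCast]
  exact ⟨_, rfl⟩

/-- a twisted, rescaled `j`-expansion has algebraic-integer coefficients -/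
theorem meq_twist_mem (k e : ℕ) [NeZero k] (he : 0 < e) (ζ : ℂ) (hζ : ζ ≠ 0) (hζe : ζ ^ e = 1) :
    qExpand ℂ k (twist ζ hζ (coeffEmb ℂ jq)) ∈ meqInt := by
  rw [mem_meqInt]
  intro n
  by_cases hk : (k : ℤ) ∣ n
  · obtain ⟨m, rfl⟩ := hk
    rw [qExpand_coeff_mul, twist_coeff, coeffEmb_coeff]
    obtain ⟨z, hz⟩ := meq_coeff_jq_int m
    rw [hz]
    refine IsIntegral.mul ?_ ?_
    · refine IsIntegral.of_pow he ?_
      rw [← zpow_natCast, ← zpow_mul, mul_comm, zpow_mul, zpow_natCast, hζe, one_zpow]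
      exact isIntegral_one
    · have : algebraMap ℚ ℂ (z : ℚ) = algebraMap ℤ ℂ z := by simp
      rw [this]
      exact isIntegral_algebraMap
  · rw [qExpand_coeff_of_not_dvd k _ hk]
    exact isIntegral_zero

/-- the conjugates of `j(q^d)` at the cusps have algebraic-integer coefficients -/
theorem meq_scPhi_jdBar_mem (N d : ℕ) [NeZero N] [NeZero d] (hd : d ∣ N)
    (q : SL(2, ℤ) ⧸ CongruenceSubgroup.Gamma0 N) :
    scPhi N q (jdBar N d hd) ∈ meqInt := by
  rw [sc_phi_jdBar]
  obtain ⟨k, e, b, hk, he, h⟩ := meq_jd_smul_scale N d hd q.out⁻¹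
  have : NeZero k := ⟨hk.ne'⟩
  set r : ℝ := (b : ℝ) / (e : ℝ) with hr
  have e1 : (⟨scComp N q.out (jd d), sc_isWH N q.out (jd_mem_anaRing hd)⟩ : whSubring)
      = ⟨fun τ : ℍ => (fun τ' : ℍ => jFun (r +ᵥ τ')) (ofComplex ((k : ℂ) * τ)),
          isWH_scale k hk (isWH_vadd r isWH_jFun)⟩ := by
    apply Subtype.ext
    funext τ
    exact h τ
  rw [e1, qLaurent_scale k (fun τ' : ℍ => jFun (r +ᵥ τ')) (isWH_vadd r isWH_jFun),
    qLaurent_vadd r jFun isWH_jFun, qLaurent_jFun]
  refine meq_twist_mem k e he _ _ ?_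
  rw [← Complex.exp_nat_mul, hr]
  have h2 : (e : ℂ) * (2 * Real.pi * Complex.I * (((b : ℝ) / (e : ℝ) : ℝ) : ℂ))
      = (b : ℂ) * (2 * Real.pi * Complex.I) := by
    have e_ne : (e : ℂ) ≠ 0 := by exact_mod_cast he.ne'
    push_cast
    field_simp
  rw [h2]
  exact Complex.exp_int_mul_two_pi_mul_I b

/-- `j(q^N)` has integer coefficients -/
theorem meq_scJ_mem (N : ℕ) [NeZero N] : scJ N ∈ meqInt := by
  have h := meq_twist_mem N 1 one_pos 1 one_ne_zero (one_pow 1)
  have h2 : twist 1 one_ne_zero (coeffEmb ℂ jq) = coeffEmb ℂ jq := by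
    ext n
    rw [twist_coeff, one_zpow, one_mul]
  rwa [h2] at h

theorem meq_scJ_pow (N : ℕ) [NeZero N] (n : ℕ) :
    scJ N ^ n = qExpand ℂ N (coeffEmb ℂ (jq ^ n)) := by
  rw [scJ, map_pow, map_pow]

theorem meq_scJ_top (N : ℕ) [NeZero N] (n : ℕ) :
    (scJ N ^ n).coeff (-((N : ℤ) * n)) = 1 := by
  rw [meq_scJ_pow, show (-((N : ℤ) * n)) = (N : ℤ) * (-(n : ℤ)) by ring, qExpand_coeff_mul,
    coeffEmb_coeff, coeff_jq_pow_self, map_one]

theorem meq_scJ_low (N : ℕ) [NeZero N] (n m : ℕ) (h : m < n) :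
    (scJ N ^ m).coeff (-((N : ℤ) * n)) = 0 := by
  rw [meq_scJ_pow, show (-((N : ℤ) * n)) = (N : ℤ) * (-(n : ℤ)) by ring, qExpand_coeff_mul,
    coeffEmb_coeff, coeff_jq_pow_of_lt (by omega), map_zero]

/-! ### Finite points: the coefficients are polynomials in `j` -/

section Finite

variable (N : ℕ) [NeZero N]

local notation "Kb" => AlgebraicClosure ℚ
set_option quotPrecheck false in
local notation "Fb" => ↥(modularFunctionFieldBar N)
local notation "Xc" => SL(2, ℤ) ⧸ CongruenceSubgroup.Gamma0 N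

omit [NeZero N] in
theorem meq_taylor_const (τ₀ : ℍ) (g : ℍ → ℂ) :
    PowerSeries.constantCoeff (taylorAt τ₀ g) = g τ₀ := by
  rw [← PowerSeries.coeff_zero_eq_constantCoeff_apply, taylorAt, PowerSeries.coeff_mk]
  simp [ofComplex_apply]

/-- evaluation of a Taylor point on polynomials in `j` -/
theorem meq_psi_aeval (ψ : Fb →+* LaurentSeries ℂ) (T : PowerSeries ℂ)
    (hc : ∀ c : Kb, ψ (algebraMap Kb Fb c) = HahnSeries.C (ιc c))
    (hj : ψ (jBar N) = HahnSeries.ofPowerSeries ℤ ℂ T) (p : Kb[X]) :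
    ψ (aeval (jBar N) p)
      = HahnSeries.ofPowerSeries ℤ ℂ (eval₂ ((PowerSeries.C : ℂ →+* PowerSeries ℂ).comp ιc) T p) := by
  rw [aeval_def, hom_eval₂, hom_eval₂, hj]
  congr 1
  ext c
  simp [hc, HahnSeries.ofPowerSeries_C]

omit [NeZero N] in
theorem meq_const_eval₂ (T : PowerSeries ℂ) (a : Kb) (hT : PowerSeries.constantCoeff T = ιc a)
    (p : Kb[X]) :
    PowerSeries.constantCoeff (eval₂ ((PowerSeries.C : ℂ →+* PowerSeries ℂ).comp ιc) T p)
      = ιc (eval a p) := by
  rw [hom_eval₂, hT]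
  have h : (PowerSeries.constantCoeff : PowerSeries ℂ →+* ℂ).comp
      ((PowerSeries.C : ℂ →+* PowerSeries ℂ).comp ιc) = ιc := by
    ext c
    simp
  rw [h, eval₂_at_apply]

theorem meq_jBar_sub_ne (a : Kb) : jBar N - algebraMap Kb Fb a ≠ 0 := by
  intro h0
  apply transcendental_jBar' N
  rw [sub_eq_zero.mp h0]
  exact isAlgebraic_algebraMap a

/-- an element `r(j)/s(j)` whose Taylor expansions at all points of the upper half plane are
power series is a polynomial in `j` -/
theorem meq_poly_of_regular (q₀ : Xc) (c : Fb)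
    (hreg : ∀ τ₀ : ℍ, ∃ u : PowerSeries ℂ,
      sysfinPhi N τ₀ q₀ c = HahnSeries.ofPowerSeries ℤ ℂ u) :
    ∀ (n : ℕ) (r s : Kb[X]), s.natDegree ≤ n → s ≠ 0 →
      c * aeval (jBar N) s = aeval (jBar N) r → ∃ P : Kb[X], c = aeval (jBar N) P := by
  intro n
  induction n with
  | zero =>
    intro r s hdeg hs h
    have hsC : s = C (s.coeff 0) := eq_C_of_natDegree_le_zero hdeg
    have hs0 : s.coeff 0 ≠ 0 := by
      intro h0
      apply hs
      rw [hsC, h0, map_zero]
    have hne : algebraMap Kb Fb (s.coeff 0) ≠ 0 := (_root_.map_ne_zero _).mpr hs0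
    have h' : c * algebraMap Kb Fb (s.coeff 0) = aeval (jBar N) r := by
      rw [← h]
      conv_rhs => rw [hsC, aeval_C]
    refine ⟨C (s.coeff 0)⁻¹ * r, ?_⟩
    rw [map_mul, aeval_C, map_inv₀, ← h']
    field_simp
  | succ n ih =>
    intro r s hdeg hs h
    by_cases hle : s.natDegree ≤ n
    · exact ih r s hle hs h
    have hdeg' : s.natDegree = n + 1 := by omega
    have hsdeg : s.degree ≠ 0 := by
      rw [degree_eq_natDegree hs, hdeg']
      exact_mod_cast Nat.succ_ne_zero n
    obtain ⟨a, ha⟩ := IsAlgClosed.exists_root s hsdeg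
    obtain ⟨τ₀, hτ₀⟩ := jFun_surjective (ιc a)
    obtain ⟨u, hu⟩ := hreg τ₀
    have hT : PowerSeries.constantCoeff (taylorAt τ₀ jFun) = ιc a := by
      rw [meq_taylor_const, hτ₀]
    have h1 := congrArg (sysfinPhi N τ₀ q₀) h
    rw [map_mul, hu, meq_psi_aeval N _ _ (sysfinPhi_const N τ₀ q₀) (sysfinPhi_jBar N τ₀ q₀),
      meq_psi_aeval N _ _ (sysfinPhi_const N τ₀ q₀) (sysfinPhi_jBar N τ₀ q₀), ← map_mul] at h1
    have h2 := HahnSeries.ofPowerSeries_injective h1
    have h3 := congrArg PowerSeries.constantCoeff h2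
    rw [map_mul, meq_const_eval₂ _ a hT, meq_const_eval₂ _ a hT] at h3
    have hr : r.IsRoot a := by
      have h4 : ιc (eval a r) = 0 := by
        rw [← h3, show eval a s = 0 from ha, map_zero, mul_zero]
      exact (_root_.map_eq_zero ιc).mp h4
    obtain ⟨s₁, hs₁⟩ := dvd_iff_isRoot.mpr ha
    obtain ⟨r₁, hr₁⟩ := dvd_iff_isRoot.mpr hr
    have hs₁0 : s₁ ≠ 0 := by
      rintro rfl
      apply hs
      rw [hs₁, mul_zero]
    have hdeg₁ : s₁.natDegree ≤ n := by
      have h5 := natDegree_mul (X_sub_C_ne_zero a) hs₁0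
      rw [← hs₁, natDegree_X_sub_C] at h5
      omega
    refine ih r₁ s₁ hdeg₁ hs₁0 ?_
    have e1 : aeval (jBar N) s = (jBar N - algebraMap Kb Fb a) * aeval (jBar N) s₁ := by
      conv_lhs => rw [hs₁]
      rw [map_mul, map_sub, aeval_X, aeval_C]
    have e2 : aeval (jBar N) r = (jBar N - algebraMap Kb Fb a) * aeval (jBar N) r₁ := by
      conv_lhs => rw [hr₁]
      rw [map_mul, map_sub, aeval_X, aeval_C]
    rw [e1, e2] at h
    refine mul_left_cancel₀ (meq_jBar_sub_ne N a) ?_
    linear_combination h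

theorem meq_mem_poly (q₀ : Xc) (c : Fb) (hc : c ∈ Kb⟮jBar N⟯)
    (hreg : ∀ τ₀ : ℍ, ∃ u : PowerSeries ℂ,
      sysfinPhi N τ₀ q₀ c = HahnSeries.ofPowerSeries ℤ ℂ u) :
    ∃ P : Kb[X], c = aeval (jBar N) P := by
  obtain ⟨r, s, hrs⟩ := (mem_adjoin_simple_iff Kb c).mp hc
  by_cases hs : aeval (jBar N) s = 0
  · refine ⟨0, ?_⟩
    rw [hrs, hs, div_zero, map_zero]
  · have hs0 : s ≠ 0 := by
      rintro rfl
      exact hs (map_zero _)
    exact meq_poly_of_regular N q₀ c hreg s.natDegree r s le_rfl hs0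
      (by rw [hrs, div_mul_cancel₀ _ hs])

end Finite

/-! ### The main theorem -/

section Main

variable (N : ℕ) [NeZero N]

local notation "Kb" => AlgebraicClosure ℚ
set_option quotPrecheck false in
local notation "Fb" => ↥(modularFunctionFieldBar N)
local notation "Xc" => SL(2, ℤ) ⧸ CongruenceSubgroup.Gamma0 N

theorem meq_card_eq [Fintype Xc] :
    haveI := finiteDimensional_jBar' N
    Fintype.card Xc = Module.finrank Kb⟮jBar N⟯ Fb := by
  have := finiteDimensional_jBar' N
  rw [← Nat.card_eq_fintype_card]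
  apply le_antisymm
  · exact sys_card_le_finrank (K := Kb) (jBar N) (scPhi N) (sc_phi_injective N)
      (fun i j c => by rw [sc_phi_const, sc_phi_const])
      (fun i j => by rw [sc_phi_jBar, sc_phi_jBar])
  · exact finrank_jBar_le N

/-- the value of a cusp point on polynomials in `j` -/
theorem meq_scPhi_aeval (q : Xc) (P : Kb[X]) :
    scPhi N q (aeval (jBar N) P)
      = eval₂ ((HahnSeries.C : ℂ →+* LaurentSeries ℂ).comp ιc) (scJ N) P := by
  rw [aeval_def, hom_eval₂, sc_phi_jBar]
  congr 1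
  ext c
  simp [sc_phi_const]

/-- the families of embeddings: the cusps (`none`) and the points of the upper half plane -/
noncomputable def meqFam (t : Option ℍ) : Xc → Fb →+* LaurentSeries ℂ :=
  t.elim (scPhi N) (fun τ₀ => sysfinPhi N τ₀)

/-- the target subrings: algebraic-integer coefficients at the cusps, power series at the
finite points -/
noncomputable def meqTarget (t : Option ℍ) : Subring (LaurentSeries ℂ) :=
  t.elim meqInt (fun _ => (HahnSeries.ofPowerSeries ℤ ℂ).range)

/-- There is a monic polynomial vanishing at `j(q^d)` whose coefficients are polynomials in `j`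
with algebraic-integer coefficients. -/
theorem meq_exists_monic (d : ℕ) [NeZero d] (hd : d ∣ N) :
    ∃ p : Fb[X], p.Monic ∧ eval (jdBar N d hd) p = 0 ∧
      ∀ k, ∃ P : Kb[X], p.coeff k = aeval (jBar N) P ∧ ∀ m, IsIntegral ℤ (P.coeff m) := by
  classical
  let _ : Fintype Xc := Fintype.ofFinite Xc
  have := finiteDimensional_jBar' N
  have hcard := meq_card_eq N
  have hinj : ∀ t : Option ℍ, Function.Injective (meqFam N t) := by
    rintro (_ | τ₀)
    · exact sc_phi_injective N
    · exact sysfinPhi_injective N τ₀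
  have hK : ∀ (t : Option ℍ) (i j : Xc) (c : Kb),
      meqFam N t i (algebraMap Kb Fb c) = meqFam N t j (algebraMap Kb Fb c) := by
    rintro (_ | τ₀) i j c
    · show scPhi N i _ = scPhi N j _
      rw [sc_phi_const, sc_phi_const]
    · show sysfinPhi N τ₀ i _ = sysfinPhi N τ₀ j _
      rw [sysfinPhi_const, sysfinPhi_const]
  have hx : ∀ (t : Option ℍ) (i j : Xc), meqFam N t i (jBar N) = meqFam N t j (jBar N) := by
    rintro (_ | τ₀) i j
    · show scPhi N i _ = scPhi N j _
      rw [sc_phi_jBar, sc_phi_jBar]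
    · show sysfinPhi N τ₀ i _ = sysfinPhi N τ₀ j _
      rw [sysfinPhi_jBar, sysfinPhi_jBar]
  have hy : ∀ (t : Option ℍ) (j : Xc), meqFam N t j (jdBar N d hd) ∈ meqTarget t := by
    rintro (_ | τ₀) j
    · exact meq_scPhi_jdBar_mem N d hd j
    · exact ⟨_, (sysfinPhi_jdBar N τ₀ j d hd).symm⟩
  obtain ⟨p, hpm, hp0, hp⟩ := meq_abs (K := Kb) (jBar N) (jdBar N d hd) hcard (meqFam N)
    meqTarget hinj hK hx hy
  refine ⟨p, hpm, hp0, fun k => ?_⟩
  obtain ⟨hk1, hk2⟩ := hp k
  let q₀ : Xc := QuotientGroup.mk 1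
  have hfin : ∀ τ₀ : ℍ, ∃ u : PowerSeries ℂ,
      sysfinPhi N τ₀ q₀ (p.coeff k) = HahnSeries.ofPowerSeries ℤ ℂ u := by
    intro τ₀
    obtain ⟨u, hu⟩ := hk2 (some τ₀) q₀
    exact ⟨u, hu.symm⟩
  obtain ⟨P, hP⟩ := meq_mem_poly N q₀ (p.coeff k) hk1 hfin
  refine ⟨P, hP, fun m => ?_⟩
  have hmem : eval₂ ((HahnSeries.C : ℂ →+* LaurentSeries ℂ).comp ιc) (scJ N) P ∈ meqInt := by
    rw [← meq_scPhi_aeval N q₀ P, ← hP]
    exact hk2 none q₀
  have h5 := meq_triangular ιc (integralClosure ℤ ℂ).toSubring (scJ N) (N : ℤ) (meq_scJ_mem N)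
    (meq_scJ_top N) (meq_scJ_low N) P.natDegree P le_rfl hmem m
  have h6 : IsIntegral ℤ (ιc (P.coeff m)) := h5
  exact (isIntegral_algHom_iff ιc.toIntAlgHom ιc.injective).mp h6

/-- **The modular equation, integrality form**: `j(q^d)` is integral over every subring of the
function field of `X₀(N)` containing `j`. -/
theorem meq_isIntegral (d : ℕ) [NeZero d] (hd : d ∣ N) (R : Subring Fb) (hj : jBar N ∈ R) :
    @IsIntegral ↥R Fb _ _ (Algebra.ofSubsemiring R) (jdBar N d hd) := by
  obtain ⟨p, hpm, hp0, hp⟩ := meq_exists_monic N d hd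
  exact meq_isIntegral_of_coeffs (K := Kb) R (jBar N) (jdBar N d hd) hj p hpm hp0 hp

/-- `meq_isIntegral` for an arbitrary base ring whose image contains `j`. -/
theorem meq_isIntegral' (d : ℕ) [NeZero d] (hd : d ∣ N) {R₀ : Type*} [CommRing R₀]
    [Algebra R₀ Fb] (hj : jBar N ∈ Set.range (algebraMap R₀ Fb)) :
    IsIntegral R₀ (jdBar N d hd) :=
  meq_lift_range (algebraMap R₀ Fb) _ (meq_isIntegral N d hd (algebraMap R₀ Fb).range hj)

/-- **The modular equation**: a monic polynomial with coefficients in `ℤ[j]` vanishing at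
`j(q^d)`. -/
theorem meq_exists_poly (d : ℕ) [NeZero d] (hd : d ∣ N) :
    ∃ Φ : Polynomial (Polynomial ℤ), Φ.Monic ∧
      Φ.eval₂ ((Polynomial.aeval (jBar N) : Polynomial ℤ →ₐ[ℤ] Fb).toRingHom) (jdBar N d hd) = 0 :=
  meq_lift_range _ _ (meq_isIntegral N d hd _ ⟨X, by simp⟩)

end Main

/-! ### The degeneracy maps -/

section Degeneracy

variable (N ℓ : ℕ) [NeZero N] [NeZero ℓ]

local notation "Kb" => AlgebraicClosure ℚ

theorem meq_alpha_jBar : heckeAlphaBar Kb N ℓ (jBar N) = jBar (N * ℓ) :=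
  Subtype.ext rfl

theorem meq_beta_jBar :
    heckeBetaBar Kb N ℓ (jBar N) = jdBar (N * ℓ) ℓ (dvd_mul_left ℓ N) := by
  apply Subtype.ext
  show qExpand Kb ℓ (coeffEmb Kb jq) = coeffEmb Kb (qExpand ℚ ℓ jq)
  rw [coeffEmb, coeffMap_qExpand]

/-- `β j = j(q^ℓ)` is integral over every subring containing `α j = j(q)`. -/
theorem meq_beta_isIntegral (R : Subring ↥(modularFunctionFieldBar (N * ℓ)))
    (hj : heckeAlphaBar Kb N ℓ (jBar N) ∈ R) :
    @IsIntegral ↥R ↥(modularFunctionFieldBar (N * ℓ)) _ _ (Algebra.ofSubsemiring R)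
      (heckeBetaBar Kb N ℓ (jBar N)) := by
  rw [meq_beta_jBar]
  rw [meq_alpha_jBar] at hj
  exact meq_isIntegral (N * ℓ) ℓ _ R hj

/-- `α j = j(q)` is integral over every subring containing `β j = j(q^ℓ)` (`ℓ ∤ N` prime). -/
theorem meq_alpha_isIntegral (hℓ : ℓ.Prime) (hN : ¬ ℓ ∣ N)
    (R : Subring ↥(modularFunctionFieldBar (N * ℓ)))
    (hj : heckeBetaBar Kb N ℓ (jBar N) ∈ R) :
    @IsIntegral ↥R ↥(modularFunctionFieldBar (N * ℓ)) _ _ (Algebra.ofSubsemiring R)
      (heckeAlphaBar Kb N ℓ (jBar N)) := by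
  have h1 : heckeAlphaBar Kb N ℓ (jBar N) ∈ R.comap (swp N ℓ hℓ hN) := by
    show swp N ℓ hℓ hN (heckeAlphaBar Kb N ℓ (jBar N)) ∈ R
    rw [swp_alpha]
    exact hj
  have h2 := meq_isIntegral_comap (swp N ℓ hℓ hN) R _
    (meq_beta_isIntegral N ℓ (R.comap (swp N ℓ hℓ hN)) h1)
  rwa [swp_beta] at h2

end Degeneracy

end Fermat.Agent.S37
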