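import Mathlib
import Fermat.Agent.S37.JRingESInst
import Fermat.Agent.S37.JRingESReg
import Fermat.Agent.S37.JRingGal
import Fermat.Agent.S37.JRingIntZ
import Fermat.Agent.S37.JRingZ2
import Fermat.Agent.S37.ModEq

/-!
# S37 / JR-K2: the two regions of `X₀(N)` satisfy `JresRegion`

For a level `N` prime to `ℓ`, a valuation subring `A` of `ℚ̄` over `ℓ` and a Frobenius element
`σ` at `A`, the regions `Y` (`j` integral) and `Z` (`j⁻¹` in the maximal ideal) with their
J-rings satisfy the ten properties `JresRegion`, given the two-valuation congruence `htv` on the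
Gauss ring. Consequently (K2) holds (`jres_K2_of_tv`).
-/

set_option autoImplicit false
set_option linter.style.haveILetI false

open AlgebraicCurve ModularCurve

namespace Fermat.Agent.S37

open Fermat.Agent.S18 Fermat.Agent.S24

local notation "Qb" => AlgebraicClosure ℚ

section Regions

variable (N : ℕ) [NeZero N] (ℓ : ℕ) [NeZero ℓ] [Fact ℓ.Prime] (hℓN : ¬ ℓ ∣ N)
  (A : ValuationSubring Qb) (hA : A.LiesOverPrime ℓ) (σ : Qb ≃ₐ[ℚ] Qb)

/-- The region `Y` of `X₀(N)` with its J-ring. -/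
theorem jres_region_Y (hσ : A.IsFrobeniusAt σ ℓ)
    (htv : ∀ x ∈ grO A hA N hℓN,
      e0Norm (heckeBetaBar Qb N ℓ) (heckeAlphaBar Qb N ℓ x)
        - (arithmeticGalois (modularFunctionFieldFull N) σ • x)
          * ((arithmeticGalois (modularFunctionFieldFull N) σ)⁻¹ • x) ^ ℓ
        ∈ (grO A hA N hℓN).nonunits) :
    JresRegion A (heckeBetaBar Qb N ℓ) (heckeAlphaBar Qb N ℓ)
      (hkd_beta_isIntegral N ℓ) (hkd_alpha_isIntegral N ℓ)
      (arithmeticGalois (modularFunctionFieldFull N) σ) ℓ (grO A hA N hℓN)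
      {P | jrRegY A (jBar N) P} (jrOY A (jBar N)) := by
  have hℓ : ℓ.Prime := Fact.out
  have hσD : σ ∈ A.decompositionSubgroup ℚ := hσ.mem_decompositionSubgroup
  have hσD' : σ⁻¹ ∈ A.decompositionSubgroup ℚ := (A.decompositionSubgroup ℚ).inv_mem hσD
  have hmeq : ∀ R : Subring ↥(modularFunctionFieldBar (N * ℓ)),
      heckeBetaBar Qb N ℓ (jBar N) ∈ R → IsIntegral R (heckeAlphaBar Qb N ℓ (jBar N)) :=
    fun R hj => meq_alpha_isIntegral N ℓ hℓ hℓN R hj
  refine
    { const := fun a => jr_const_mem_jrOY _ a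
      val := fun P hP x hx => jrn_exists_val_Y N A P hP hx
      reg_smul := fun P hP => (jrg_regY_galois N A hσD P).mpr hP
      reg_inv_smul := fun P hP => ?_
      ring_smul := fun x hx => jrg_jrOY_galois N A hσD hx
      ring_inv_smul := fun x hx => ?_
      stab := fun P hP w hw =>
        jres_stab_Y A (heckeBetaBar Qb N ℓ) (heckeAlphaBar Qb N ℓ) (hkd_beta_isIntegral N ℓ)
          (hkd_alpha_isIntegral N ℓ) (jBar N) hmeq
          (fun w => hki_deg_eq_one w (hki_residue (N * ℓ) w)) P hP w hw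
      norm := jres_norm_Y A (heckeBetaBar Qb N ℓ) (heckeAlphaBar Qb N ℓ) (jBar N) hmeq
      int := fun P hP x hx hxn a ha =>
        jrn_int N A _ (jri_intY A hA N hℓN) (jri_intZ A hA N hℓN) P
          (by rw [jrRing_of_regY hP]; exact hx) hxn a ha
      tv := fun x hx => htv x (jri_OY_mem A hA N hℓN x hx) }
  · rw [← map_inv]
    exact (jrg_regY_galois N A hσD' P).mpr hP
  · rw [← map_inv]
    exact jrg_jrOY_galois N A hσD' hx

/-- The region `Z` of `X₀(N)` with its J-ring. -/
theorem jres_region_Z (hσ : A.IsFrobeniusAt σ ℓ)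
    (htv : ∀ x ∈ grO A hA N hℓN,
      e0Norm (heckeBetaBar Qb N ℓ) (heckeAlphaBar Qb N ℓ x)
        - (arithmeticGalois (modularFunctionFieldFull N) σ • x)
          * ((arithmeticGalois (modularFunctionFieldFull N) σ)⁻¹ • x) ^ ℓ
        ∈ (grO A hA N hℓN).nonunits) :
    JresRegion A (heckeBetaBar Qb N ℓ) (heckeAlphaBar Qb N ℓ)
      (hkd_beta_isIntegral N ℓ) (hkd_alpha_isIntegral N ℓ)
      (arithmeticGalois (modularFunctionFieldFull N) σ) ℓ (grO A hA N hℓN)
      {P | ¬ jrRegY A (jBar N) P} (jrOZ A (jBar N)) := by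
  have hσD : σ ∈ A.decompositionSubgroup ℚ := hσ.mem_decompositionSubgroup
  have hσD' : σ⁻¹ ∈ A.decompositionSubgroup ℚ := (A.decompositionSubgroup ℚ).inv_mem hσD
  have hj0 : jBar N ≠ 0 := jri_jBar_ne_zero N
  -- `β j` is integral over `A[α j]`
  have hint : IsIntegral (jrPoly A (heckeAlphaBar Qb N ℓ (jBar N)))
      (heckeBetaBar Qb N ℓ (jBar N)) :=
    meq_beta_isIntegral N ℓ _ (jr_self_mem_jrPoly _)
  have hβ0 : heckeBetaBar Qb N ℓ (jBar N) ≠ 0 := fun h =>
    hj0 ((heckeBetaBar Qb N ℓ).toRingHom.injective (h.trans (map_zero _).symm))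
  have hβtr : Transcendental Qb (heckeBetaBar Qb N ℓ (jBar N))⁻¹ := by
    intro h
    have h1 : IsAlgebraic Qb (heckeBetaBar Qb N ℓ (jBar N)⁻¹) := by rwa [map_inv₀]
    exact jri_jBar_inv_transcendental N
      ((isAlgebraic_algHom_iff (heckeBetaBar Qb N ℓ)
        (heckeBetaBar Qb N ℓ).toRingHom.injective).mp h1)
  have hZ3 : jrLam A (heckeAlphaBar Qb N ℓ (jBar N))⁻¹
      ≤ jrIC (jrLam A (heckeBetaBar Qb N ℓ (jBar N))⁻¹) :=
    jrz_le A _ _ hβ0 (jrz_ne_of_transcendental A _ hβtr) hint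
  refine
    { const := fun a => jr_const_mem_jrOZ _ a
      val := fun P hP x hx => jrn_exists_val_Z N A P hP hx
      reg_smul := fun P hP h => hP ((jrg_regY_galois N A hσD P).mp h)
      reg_inv_smul := fun P hP h => ?_
      ring_smul := fun x hx => jrg_jrOZ_galois N A hσD hx
      ring_inv_smul := fun x hx => ?_
      stab := fun P hP w hw =>
        jres_stab_Z A (heckeBetaBar Qb N ℓ) (heckeAlphaBar Qb N ℓ) (hkd_beta_isIntegral N ℓ)
          (hkd_alpha_isIntegral N ℓ) (jBar N)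
          (fun P hP => (jrn_regZ_iff N A P).mp hP)
          (fun P hP => (jrn_regZ_iff N A P).mpr hP)
          (fun w b hb hw =>
            jrz_region_place A _ _ hβ0 hint w (hki_deg_eq_one w (hki_residue (N * ℓ) w)) b hb hw)
          P hP w hw
      norm := jres_norm_Z A (heckeBetaBar Qb N ℓ) (heckeAlphaBar Qb N ℓ) (jBar N) hZ3
      int := fun P hP x hx hxn a ha =>
        jrn_int N A _ (jri_intY A hA N hℓN) (jri_intZ A hA N hℓN) P
          (by rw [jrRing_of_not_regY hP]; exact hx) hxn a ha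
      tv := fun x hx => htv x (jri_OZ_mem A hA N hℓN x hx) }
  · rw [← map_inv] at h
    exact hP ((jrg_regY_galois N A hσD' P).mp h)
  · rw [← map_inv]
    exact jrg_jrOZ_galois N A hσD' hx

/-- **(K2) at level `N`**, given the two-valuation congruence on the Gauss ring. -/
theorem jres_K2_of_tv (hσ : A.IsFrobeniusAt σ ℓ)
    (htv : ∀ x ∈ grO A hA N hℓN,
      e0Norm (heckeBetaBar Qb N ℓ) (heckeAlphaBar Qb N ℓ x)
        - (arithmeticGalois (modularFunctionFieldFull N) σ • x)
          * ((arithmeticGalois (modularFunctionFieldFull N) σ)⁻¹ • x) ^ ℓ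
        ∈ (grO A hA N hℓN).nonunits)
    (P : Place Qb ↥(modularFunctionFieldBar N)) :
    Finsupp.mapDomain (jrCls A (jBar N)) (hkdT N ℓ (Finsupp.single P 1)) =
      Finsupp.single (jrCls A (jBar N) (arithmeticGalois (modularFunctionFieldFull N) σ • P)) 1
        + Finsupp.single
            (jrCls A (jBar N) (arithmeticGalois (modularFunctionFieldFull N) σ⁻¹ • P))
            (ℓ : ℤ) :=
  jres_K2_of_regions N ℓ hℓN A hA σ hσ (jres_region_Y N ℓ hℓN A hA σ hσ htv)
    (jres_region_Z N ℓ hℓN A hA σ hσ htv) P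

end Regions

end Fermat.Agent.S37
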