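import Fermat.Agent.S37.TwoVal
import Fermat.Agent.S37.HeckeDeg

/-!
# S37, package ES-E1, final form: the norm-residue formula for `T^*`

For `ℓ` prime, `ℓ ∤ M`, `A` a valuation subring of `ℚ̄` over `ℓ`, and a Gauss-integral `g ∈ F_M`:
the function `T^* g = N_β (α g) = N_α (β g)` is Gauss-integral and
`red (T^* g) = Fr(ḡ) · ḡ(q^ℓ)`  (`Fr` = coefficientwise Frobenius of the residue field `k` of `A`).

* `tv_norm_beta`  : for `hkdNormBeta M ℓ (heckeAlphaBar ℚ̄ M ℓ g)`;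
* `tv_norm_alpha` : for `hkdNorm M ℓ (heckeBetaBar ℚ̄ M ℓ g)`;
* `tv_norm_beta'`, `tv_norm_alpha'` : the same without a `CharP` instance in the statement:
  the Frobenius is any ring endomorphism `φ` of `k` with `φ x = x ^ ℓ`.
-/

set_option autoImplicit false

open AlgebraicCurve ModularCurve Fermat.Agent.S18

namespace Fermat.Agent.S37

section Final

variable (M ℓ : ℕ) [NeZero M] [hℓ : Fact ℓ.Prime] (A : ValuationSubring (AlgebraicClosure ℚ))
  (hA : A.LiesOverPrime ℓ) (hM : ¬ ℓ ∣ M)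

local notation "kA" => IsLocalRing.ResidueField A
local notation "Qb" => AlgebraicClosure ℚ

/-- **Norm-residue formula** for `T^* g = N_β (α g)`. -/
theorem tv_norm_beta [CharP kA ℓ] (g : ↥(modularFunctionFieldBar M)) (hg : g ∈ grO A hA M hM) :
    ∃ hN : hkdNormBeta M ℓ (heckeAlphaBar Qb M ℓ g) ∈ grO A hA M hM,
      grRes A hA M hM ⟨_, hN⟩
        = coeffMap (frobenius kA ℓ) (grRes A hA M hM ⟨g, hg⟩)
          * qExpand kA ℓ (grRes A hA M hM ⟨g, hg⟩) :=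
  tv_norm_frob_of_finrank M ℓ A hA hM (hkd_finrankAlong_beta M hℓ.out hM) g hg

/-- **Norm-residue formula** for `T^* g = N_α (β g)`. -/
theorem tv_norm_alpha [CharP kA ℓ] (g : ↥(modularFunctionFieldBar M)) (hg : g ∈ grO A hA M hM) :
    ∃ hN : hkdNorm M ℓ (heckeBetaBar Qb M ℓ g) ∈ grO A hA M hM,
      grRes A hA M hM ⟨_, hN⟩
        = coeffMap (frobenius kA ℓ) (grRes A hA M hM ⟨g, hg⟩)
          * qExpand kA ℓ (grRes A hA M hM ⟨g, hg⟩) := by
  obtain ⟨hN, h⟩ := tv_norm_beta M ℓ A hA hM g hg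
  have he : hkdNorm M ℓ (heckeBetaBar Qb M ℓ g) = hkdNormBeta M ℓ (heckeAlphaBar Qb M ℓ g) :=
    hkdNorm_beta_eq M hℓ.out hM g
  refine ⟨he ▸ hN, ?_⟩
  rw [← h]
  exact congrArg (grRes A hA M hM) (Subtype.ext he)

/-- `tv_norm_beta` with an explicit Frobenius endomorphism (no `CharP` instance needed). -/
theorem tv_norm_beta' (φ : kA →+* kA) (hφ : ∀ x, φ x = x ^ ℓ)
    (g : ↥(modularFunctionFieldBar M)) (hg : g ∈ grO A hA M hM) :
    ∃ hN : hkdNormBeta M ℓ (heckeAlphaBar Qb M ℓ g) ∈ grO A hA M hM,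
      grRes A hA M hM ⟨_, hN⟩
        = coeffMap φ (grRes A hA M hM ⟨g, hg⟩) * qExpand kA ℓ (grRes A hA M hM ⟨g, hg⟩) := by
  have : CharP kA ℓ := grc_charP A ℓ hA
  have hφ' : φ = frobenius kA ℓ := RingHom.ext fun x => (hφ x).trans (frobenius_def ℓ x).symm
  rw [hφ']
  exact tv_norm_beta M ℓ A hA hM g hg

/-- `tv_norm_alpha` with an explicit Frobenius endomorphism (no `CharP` instance needed). -/
theorem tv_norm_alpha' (φ : kA →+* kA) (hφ : ∀ x, φ x = x ^ ℓ)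
    (g : ↥(modularFunctionFieldBar M)) (hg : g ∈ grO A hA M hM) :
    ∃ hN : hkdNorm M ℓ (heckeBetaBar Qb M ℓ g) ∈ grO A hA M hM,
      grRes A hA M hM ⟨_, hN⟩
        = coeffMap φ (grRes A hA M hM ⟨g, hg⟩) * qExpand kA ℓ (grRes A hA M hM ⟨g, hg⟩) := by
  have : CharP kA ℓ := grc_charP A ℓ hA
  have hφ' : φ = frobenius kA ℓ := RingHom.ext fun x => (hφ x).trans (frobenius_def ℓ x).symm
  rw [hφ']
  exact tv_norm_alpha M ℓ A hA hM g hg

end Final

end Fermat.Agent.S37
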