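import Mathlib
import Fermat.Agent.S37.JRingGal
import Fermat.Agent.S37.TwoValFinal
import Fermat.Agent.S37.FrobSeries
import Fermat.Agent.S37.Pairing
import Fermat.Agent.S37.HeckeDeg

/-!
# S37 / JR-K2: the two-valuation congruence in Galois form

For a Frobenius element `σ` at `A` and `x` in the Gauss ring of `X₀(N)`:
`N_β (α x) ≡ (σ x) · (σ⁻¹ x)^ℓ` modulo the maximal ideal of the Gauss ring.
-/

set_option autoImplicit false
set_option linter.style.haveILetI false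

open AlgebraicCurve ModularCurve

namespace Fermat.Agent.S37

open Fermat.Agent.S18 Fermat.Agent.S24

local notation "Qb" => AlgebraicClosure ℚ

/-- **The two-valuation congruence in Galois form.** -/
theorem jres_tv_main (N : ℕ) [NeZero N] (ℓ : ℕ) [NeZero ℓ] [Fact ℓ.Prime] (hℓN : ¬ ℓ ∣ N)
    (A : ValuationSubring Qb) (hA : A.LiesOverPrime ℓ) (σ : Qb ≃ₐ[ℚ] Qb)
    (hσ : A.IsFrobeniusAt σ ℓ) (x : ↥(modularFunctionFieldBar N)) (hx : x ∈ grO A hA N hℓN) :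
    e0Norm (heckeBetaBar Qb N ℓ) (heckeAlphaBar Qb N ℓ x)
        - (arithmeticGalois (modularFunctionFieldFull N) σ • x)
          * ((arithmeticGalois (modularFunctionFieldFull N) σ)⁻¹ • x) ^ ℓ
        ∈ (grO A hA N hℓN).nonunits := by
  haveI : CharP (IsLocalRing.ResidueField A) ℓ := grc_charP A ℓ hA
  have hσD : σ ∈ A.decompositionSubgroup ℚ := hσ.mem_decompositionSubgroup
  have hσD' : σ⁻¹ ∈ A.decompositionSubgroup ℚ := (A.decompositionSubgroup ℚ).inv_mem hσD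
  -- the residue automorphisms
  have hφ : ∀ y, jrgAutRes ℚ A ⟨σ, hσD⟩ y = y ^ ℓ := fun y => hσ.smul_residue_eq y
  have hψ : ∀ y, (jrgAutRes ℚ A ⟨σ⁻¹, hσD'⟩ y) ^ ℓ = y := by
    intro y
    rw [← hφ]
    show (⟨σ, hσD⟩ : A.decompositionSubgroup ℚ) • ((⟨σ⁻¹, hσD'⟩ : A.decompositionSubgroup ℚ) • y)
      = y
    rw [smul_smul]
    have e : (⟨σ, hσD⟩ : A.decompositionSubgroup ℚ) * ⟨σ⁻¹, hσD'⟩ = 1 :=
      Subtype.ext (mul_inv_cancel σ)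
    rw [e, one_smul]
  obtain ⟨hN, hNres⟩ := tv_norm_beta' N ℓ A hA hℓN (jrgAutRes ℚ A ⟨σ, hσD⟩) hφ x hx
  have hN' : e0Norm (heckeBetaBar Qb N ℓ) (heckeAlphaBar Qb N ℓ x) ∈ grO A hA N hℓN := hN
  have h1 := jrg_grRes_smul A hA N hℓN ⟨σ, hσD⟩ ⟨x, hx⟩
  have h2 := jrg_grRes_smul A hA N hℓN ⟨σ⁻¹, hσD'⟩ ⟨x, hx⟩
  have hm1 : arithmeticGalois (modularFunctionFieldFull N) σ • x ∈ grO A hA N hℓN :=
    jrg_grO_smul A hA N hℓN ⟨σ, hσD⟩ hx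
  have hm2' : arithmeticGalois (modularFunctionFieldFull N) σ⁻¹ • x ∈ grO A hA N hℓN :=
    jrg_grO_smul A hA N hℓN ⟨σ⁻¹, hσD'⟩ hx
  rw [← map_inv]
  have hmem : e0Norm (heckeBetaBar Qb N ℓ) (heckeAlphaBar Qb N ℓ x)
        - (arithmeticGalois (modularFunctionFieldFull N) σ • x)
          * (arithmeticGalois (modularFunctionFieldFull N) σ⁻¹ • x) ^ ℓ ∈ grO A hA N hℓN :=
    sub_mem hN' (mul_mem hm1 (pow_mem hm2' ℓ))
  have key := (gr_mem_nonunits_iff_grRes A hA N hℓN ⟨_, hmem⟩).mpr ?_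
  · exact key
  have e : (⟨_, hmem⟩ : ↥(grO A hA N hℓN))
      = ⟨_, hN'⟩ - ⟨_, hm1⟩ * ⟨_, hm2'⟩ ^ ℓ := rfl
  rw [e, map_sub, map_mul, map_pow]
  have e1 : grRes A hA N hℓN ⟨_, hN'⟩
      = coeffMap (jrgAutRes ℚ A ⟨σ, hσD⟩) (grRes A hA N hℓN ⟨x, hx⟩)
        * qExpand (IsLocalRing.ResidueField A) ℓ (grRes A hA N hℓN ⟨x, hx⟩) := hNres
  have e2 : grRes A hA N hℓN ⟨_, hm1⟩
      = coeffMap (jrgAutRes ℚ A ⟨σ, hσD⟩) (grRes A hA N hℓN ⟨x, hx⟩) := h1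
  have e3 : grRes A hA N hℓN ⟨_, hm2'⟩
      = coeffMap (jrgAutRes ℚ A ⟨σ⁻¹, hσD'⟩) (grRes A hA N hℓN ⟨x, hx⟩) := h2
  rw [e1, e2, e3, tvf_pow_char ℓ, coeffMap_coeffMap]
  have e4 : (frobenius (IsLocalRing.ResidueField A) ℓ).comp (jrgAutRes ℚ A ⟨σ⁻¹, hσD'⟩)
      = RingHom.id _ := RingHom.ext fun y => by
    rw [RingHom.comp_apply, frobenius_def, hψ, RingHom.id_apply]
  rw [e4]
  have e5 : coeffMap (RingHom.id (IsLocalRing.ResidueField A)) (grRes A hA N hℓN ⟨x, hx⟩)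
      = grRes A hA N hℓN ⟨x, hx⟩ := by
    ext n
    simp [coeffMap]
  rw [e5, sub_self]

end Fermat.Agent.S37
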