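import Mathlib
import Fermat.Agent.S37.JRingESFinal
import Fermat.Agent.S37.JRingESTv

/-!
# S37 / JR-K2: the pointwise Eichler--Shimura congruence for the J-ring class map

`jres_K2`: for a level `N` prime to `ℓ`, a valuation subring `A` of `ℚ̄` over `ℓ` and a Frobenius
element `σ` at `A`, the class map `jrCls A (jBar N)` satisfies
`cls_* (T_ℓ P) = [cls (σ P)] + ℓ [cls (σ⁻¹ P)]` for every place `P` of `X₀(N)`.
-/

set_option autoImplicit false
set_option linter.style.haveILetI false

open AlgebraicCurve ModularCurve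

namespace Fermat.Agent.S37

open Fermat.Agent.S18 Fermat.Agent.S24

local notation "Qb" => AlgebraicClosure ℚ

/-- **(K2)**: the pointwise Eichler--Shimura congruence for the J-ring class map. -/
theorem jres_K2 (N : ℕ) [NeZero N] (ℓ : ℕ) [NeZero ℓ] (hℓ : ℓ.Prime) (hℓN : ¬ ℓ ∣ N)
    (A : ValuationSubring Qb) (hA : A.LiesOverPrime ℓ) :
    ∀ σ : Qb ≃ₐ[ℚ] Qb, A.IsFrobeniusAt σ ℓ →
      ∀ P : Place Qb ↥(modularFunctionFieldBar N),
        Finsupp.mapDomain (jrCls A (Fermat.Agent.S24.jBar N)) (hkdT N ℓ (Finsupp.single P 1)) =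
          Finsupp.single (jrCls A (Fermat.Agent.S24.jBar N)
              (arithmeticGalois (modularFunctionFieldFull N) σ • P)) 1
            + Finsupp.single (jrCls A (Fermat.Agent.S24.jBar N)
              (arithmeticGalois (modularFunctionFieldFull N) σ⁻¹ • P)) (ℓ : ℤ) := by
  intro σ hσ P
  haveI : Fact ℓ.Prime := ⟨hℓ⟩
  exact jres_K2_of_tv N ℓ hℓN A hA σ hσ
    (fun x hx => jres_tv_main N ℓ hℓN A hA σ hσ x hx) P

end Fermat.Agent.S37
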