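import Mathlib
import Fermat.Agent.S37.JRingGal
import Fermat.Agent.S37.JRingInt
import Fermat.Agent.S37.JRingZ

/-!
# S37, package JR-K1: the class of a place is invariant under inertia (unconditional)

* `jrg_int_Y`, `jrg_int_Z`: the integrality property (INT) of the two J-rings at level `N` with
  respect to the Gauss valuation ring (from `JRingInt` and the description (Z5) of `JRingZ`);
* `jrg_k1`: clause (K1), `jrCls A j (σ • P) = jrCls A j P` for `σ` in the inertia group of `A`;
* `jrg_red_inertia`: the reduction map on divisors is invariant under inertia.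
-/

set_option autoImplicit false

noncomputable section

open AlgebraicCurve ModularCurve

namespace Fermat.Agent.S37

open Fermat.Agent.S18 Fermat.Agent.S24

section LevelN

variable (N : ℕ) [NeZero N] {ℓ : ℕ} [Fact ℓ.Prime] (hℓN : ¬ ℓ ∣ N)
  (A : ValuationSubring (AlgebraicClosure ℚ)) (hA : A.LiesOverPrime ℓ)

/-- (INT) for the J-ring of the region `Y` at level `N`. -/
theorem jrg_int_Y : JrInt A (grO A hA N hℓN) (jrOY A (jBar N)) :=
  jri_int_poly A hA N hℓN (jBar N) (Or.inl rfl)

/-- (INT) for the J-ring of the region `Z` at level `N`. -/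
theorem jrg_int_Z : JrInt A (grO A hA N hℓN) (jrOZ A (jBar N)) := by
  refine jri_int_Z_of A hA N hℓN (fun x hx => ?_)
  have htr : Transcendental (AlgebraicClosure ℚ) (jBar N)⁻¹ := fun h =>
    transcendental_jBar' N (by simpa using h.inv)
  exact (jrz_isIntegral_iff A (jBar N)⁻¹ (jrz_ne_of_transcendental A _ htr) x).mp hx

end LevelN

/-- **(K1)**: the class of a place is invariant under the inertia group of `A`. -/
theorem jrg_k1 (N : ℕ) [NeZero N] {ℓ : ℕ} (hℓ : ℓ.Prime) (hℓN : ¬ ℓ ∣ N)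
    (A : ValuationSubring (AlgebraicClosure ℚ)) (hA : A.LiesOverPrime ℓ) :
    ∀ σ ∈ A.inertiaSubgroupIn ℚ,
      ∀ P : Place (AlgebraicClosure ℚ) ↥(modularFunctionFieldBar N),
        jrCls A (Fermat.Agent.S24.jBar N) (arithmeticGalois (modularFunctionFieldFull N) σ • P) =
          jrCls A (Fermat.Agent.S24.jBar N) P := by
  have : Fact ℓ.Prime := ⟨hℓ⟩
  intro σ hσ P
  exact jrg_k1_of N hℓN A hA (jri_le_Y A hA N hℓN) (jri_le_Z A hA N hℓN)
    (jrg_int_Y N hℓN A hA) (jrg_int_Z N hℓN A hA) σ hσ P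

/-- **(I1)**: the reduction map on divisors is invariant under the inertia group of `A`. -/
theorem jrg_red_inertia (N : ℕ) [NeZero N] {ℓ : ℕ} (hℓ : ℓ.Prime) (hℓN : ¬ ℓ ∣ N)
    (A : ValuationSubring (AlgebraicClosure ℚ)) (hA : A.LiesOverPrime ℓ) :
    ∀ σ ∈ A.inertiaSubgroupIn ℚ,
      ∀ D : Divisor (AlgebraicClosure ℚ) ↥(modularFunctionFieldBar N),
        jrRed A (Fermat.Agent.S24.jBar N) (arithmeticGalois (modularFunctionFieldFull N) σ • D) =
          jrRed A (Fermat.Agent.S24.jBar N) D := by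
  have : Fact ℓ.Prime := ⟨hℓ⟩
  intro σ hσ D
  exact jrg_red_inertia_of N hℓN A hA (jri_le_Y A hA N hℓN) (jri_le_Z A hA N hℓN)
    (jrg_int_Y N hℓN A hA) (jrg_int_Z N hℓN A hA) σ hσ D

end Fermat.Agent.S37
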