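import Mathlib
import Fermat.Agent.S37.JRingDefs
import Fermat.Agent.S37.JRingN
import Fermat.Agent.S18.Char0Ram
import Fermat.Agent.S18.HauptCusp2

/-!
# S37, J-rings (finding 136), package JR-CHART-Z: the Hauptmodul chart lies in the J-ring of the
region `Z`

For `H : HauptRec a2 ℓ`, `a2 ∣ N`, `A : ValuationSubring ℚ̄`, base points `c0 c1 ∈ A` with
`Q(c0) ∈ Aˣ` and the chart coordinate `t = c0rT N H ha2 c0 c1 = (h - c1)/(h - c0)`:

* `jrcz_integral_abs` (abstract): if `u · Den(t) = Num(t)` with `Num, Den ∈ A[X]` of degree `≤ n`,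
  `Num_n ∈ Aˣ` and `Num_n - Den_n u ≠ 0`, then `t` is integral over `Λ(u)`;
* `jrcz_ic_mono`: `R ≤ jrIC S → jrIC R ≤ jrIC S` (transitivity of integrality);
* `jrcz_t_mem`: `t ∈ jrOZ A (jBar N)`;
* `jrcz_le`: the integral closure of `A[t]` is contained in `jrOZ A (jBar N)`.
-/

set_option autoImplicit false

noncomputable section

open AlgebraicCurve ModularCurve Polynomial
open Fermat.Agent.S18 Fermat.Agent.S24 Fermat.Agent.S28

namespace Fermat.Agent.S37

section Abs

variable {K : Type*} [Field K] (A : ValuationSubring K) {F : Type*} [Field F] [Algebra K F]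

/-- the constants of `A` as elements of `Λ(u)`. -/
def jrczConst (u : F) : A →+* jrLam A u :=
  ((algebraMap K F).comp A.subtype).codRestrict (jrLam A u)
    (fun a => jrPoly_le_jrLam u (jr_const_mem_jrPoly u a))

theorem jrczConst_comp (u : F) :
    (jrLam A u).subtype.comp (jrczConst A u) = (algebraMap K F).comp A.subtype :=
  RingHom.ext fun _ => rfl

/-- **Abstract integrality of the chart coordinate.**  If `u · Den(t) = Num(t)` with
`Num, Den ∈ A[X]` of degree `≤ n`, `Num_n ∈ Aˣ` and `Num_n - Den_n u ≠ 0`, then `t` is integral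
over `Λ(u)`. -/
theorem jrcz_integral_abs (u t : F) (NumA DenA : Polynomial A) (n : ℕ)
    (hN : NumA.natDegree ≤ n) (hD : DenA.natDegree ≤ n)
    (hrel : u * aeval t (DenA.map A.subtype) = aeval t (NumA.map A.subtype))
    (hunit : IsUnit (NumA.coeff n))
    (hne : algebraMap K F ((NumA.coeff n : A) : K) -
      algebraMap K F ((DenA.coeff n : A) : K) * u ≠ 0) :
    IsIntegral (jrLam A u) t := by
  set S : Subring F := jrLam A u with hS
  set φ : A →+* S := jrczConst A u with hφ
  have hφ' : S.subtype.comp φ = (algebraMap K F).comp A.subtype := jrczConst_comp A u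
  have huS : u ∈ S := jrPoly_le_jrLam u (jr_self_mem_jrPoly u)
  set G : S[X] := NumA.map φ - C ⟨u, huS⟩ * DenA.map φ with hG
  have hGdeg : G.natDegree ≤ n := by
    refine (Polynomial.natDegree_sub_le _ _).trans (max_le ?_ ?_)
    · exact (Polynomial.natDegree_map_le).trans hN
    · exact (Polynomial.natDegree_C_mul_le _ _).trans ((Polynomial.natDegree_map_le).trans hD)
  have hGeval : G.eval₂ S.subtype t = 0 := by
    rw [hG, Polynomial.eval₂_sub, Polynomial.eval₂_mul, Polynomial.eval₂_C,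
      Polynomial.eval₂_map, Polynomial.eval₂_map, hφ']
    have e1 : ∀ p : Polynomial A, Polynomial.eval₂ ((algebraMap K F).comp A.subtype) t p =
        aeval t (p.map A.subtype) := by
      intro p
      rw [Polynomial.aeval_def, Polynomial.eval₂_map]
    rw [e1, e1]
    show aeval t (NumA.map A.subtype) - u * aeval t (DenA.map A.subtype) = 0
    rw [hrel, sub_self]
  -- the `T^n`-coefficient
  set s : Polynomial A := C (NumA.coeff n) - C (DenA.coeff n) * X with hs
  have hs0 : IsUnit (s.coeff 0) := by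
    rw [hs, Polynomial.coeff_sub, Polynomial.coeff_C_zero, Polynomial.coeff_C_mul,
      Polynomial.coeff_X_zero, mul_zero, sub_zero]
    exact hunit
  have hsw : jrEval A u s = algebraMap K F ((NumA.coeff n : A) : K) -
      algebraMap K F ((DenA.coeff n : A) : K) * u := by
    rw [hs, map_sub, map_mul, jrEval_C, jrEval_C, jrEval_X]
  have hwinv : (jrEval A u s)⁻¹ ∈ S := jr_inv_mem_jrLam u s hs0
  have hGcoeff : S.subtype (G.coeff n) = jrEval A u s := by
    rw [hsw, hG, Polynomial.coeff_sub, Polynomial.coeff_C_mul, Polynomial.coeff_map,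
      Polynomial.coeff_map, map_sub, map_mul, mul_comm (algebraMap K F _) u]
    rfl
  have hw0 : jrEval A u s ≠ 0 := by
    rw [hsw]
    exact hne
  have hlead : G.natDegree = n := by
    rcases hGdeg.eq_or_lt with h | h
    · exact h
    · exfalso
      apply hw0
      rw [← hGcoeff, Polynomial.coeff_eq_zero_of_natDegree_lt h, map_zero]
  have h1 := RingHom.isIntegralElem_leadingCoeff_mul S.subtype G t hGeval
  rw [Polynomial.leadingCoeff, hlead, hGcoeff] at h1
  have h2 : IsIntegral S (jrEval A u s * t) := h1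
  have h3 : IsIntegral S ((jrEval A u s)⁻¹) :=
    isIntegral_algebraMap (R := S) (A := F) (x := ⟨_, hwinv⟩)
  have h4 := h3.mul h2
  rwa [← mul_assoc, inv_mul_cancel₀ hw0, one_mul] at h4

omit [Algebra K F] in
/-- transitivity of integrality for subrings. -/
theorem jrcz_ic_mono (R S : Subring F) (h : R ≤ jrIC S) : jrIC R ≤ jrIC S := by
  intro x hx
  rw [mem_jrIC] at hx ⊢
  have hx' : IsIntegral (integralClosure S F) x := by
    obtain ⟨p, hp, hpx⟩ := hx
    let incl : R →+* (integralClosure S F) :=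
      { toFun := fun r => ⟨(r : F), h r.2⟩
        map_one' := rfl
        map_mul' := fun _ _ => rfl
        map_zero' := rfl
        map_add' := fun _ _ => rfl }
    refine ⟨p.map incl, hp.map _, ?_⟩
    rw [Polynomial.eval₂_map]
    exact hpx
  exact isIntegral_trans x hx'

/-- `A[t] ⊆ jrIC R` as soon as the constants of `A` and `t` lie in `jrIC R`. -/
theorem jrcz_poly_le (R : Subring F) (t : F)
    (hconst : ∀ a : A, algebraMap K F (a : K) ∈ jrIC R) (ht : t ∈ jrIC R) :
    jrPoly A t ≤ jrIC R := by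
  intro x hx
  obtain ⟨p, rfl⟩ := mem_jrPoly.mp hx
  induction p using Polynomial.induction_on' with
  | add p q hp hq =>
    rw [map_add]
    exact (jrIC R).add_mem (hp (mem_jrPoly.mpr ⟨p, rfl⟩)) (hq (mem_jrPoly.mpr ⟨q, rfl⟩))
  | monomial n a =>
    have e : jrEval A t (Polynomial.monomial n a) = algebraMap K F (a : K) * t ^ n := by
      simp [jrEval, Polynomial.eval₂_monomial]
    rw [e]
    exact (jrIC R).mul_mem (hconst a) ((jrIC R).pow_mem ht n)

end Abs

section Level

local notation "Qb" => AlgebraicClosure ℚ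

variable (N : ℕ) [NeZero N] {a2 ℓ : ℕ} (H : HauptRec a2 ℓ) (ha2 : a2 ∣ N)
  (A : ValuationSubring Qb)

/-- `j⁻¹ · Den(t) = Num(t)` in the function field of `X₀(N)`. -/
theorem jrcz_rel (c0 c1 : Qb) :
    (jBar N)⁻¹ * aeval (c0rT N H ha2 c0 c1) (hcuDen H Qb c0 c1) =
      aeval (c0rT N H ha2 c0 c1) (hcuNum H Qb c0 c1) := by
  apply Subtype.ext
  rw [MulMemClass.coe_mul, c0r_coe_aeval, c0r_coe_aeval, IntermediateField.coe_inv, dg_coe_jBar,
    ← jd_one, c0rT_coe]
  exact hcu_rel_inv H c0 c1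

/-- **(F3)** the chart coordinate lies in the J-ring of the region `Z`. -/
theorem jrcz_t_mem (c0 c1 : Qb) (hc0 : c0 ∈ A) (hc1 : c1 ∈ A) (hq0 : (aeval c0 H.Q)⁻¹ ∈ A)
    (hq0' : aeval c0 H.Q ≠ 0) : c0rT N H ha2 c0 c1 ∈ jrOZ A (jBar N) := by
  rw [mem_jrOZ]
  set x0 : A := ⟨c0, hc0⟩ with hx0
  set x1 : A := ⟨c1, hc1⟩ with hx1
  have hNmap : (hcuNum H A x0 x1).map A.subtype = hcuNum H Qb c0 c1 :=
    hcuNum_map H A.subtype x0 x1
  have hDmap : (hcuDen H A x0 x1).map A.subtype = hcuDen H Qb c0 c1 :=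
    hcuDen_map H A.subtype x0 x1
  refine jrcz_integral_abs A (jBar N)⁻¹ (c0rT N H ha2 c0 c1) (hcuNum H A x0 x1)
    (hcuDen H A x0 x1) (psi a2) (hcuNum_natDegree_le H x0 x1) (hcuDen_natDegree_le H x0 x1)
    ?_ ?_ ?_
  · rw [hNmap, hDmap]
    exact jrcz_rel N H ha2 c0 c1
  · rw [hcuNum_coeff]
    have hcoe : ((aeval x0 H.Q : A) : Qb) = aeval c0 H.Q := hcu_coe_aeval A x0 H.Q
    refine isUnit_iff_exists_inv.mpr ⟨⟨(aeval c0 H.Q)⁻¹, hq0⟩, ?_⟩
    apply Subtype.ext
    show ((aeval x0 H.Q : A) : Qb) * (aeval c0 H.Q)⁻¹ = 1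
    rw [hcoe, mul_inv_cancel₀ hq0']
  · rw [hcuNum_coeff, hcuDen_coeff, hcu_coe_aeval, hcu_coe_aeval]
    intro h0
    have hj := jrn_jBar_ne_zero N
    have h1 : algebraMap Qb ↥(modularFunctionFieldBar N) (aeval c0 H.Q) * jBar N -
        algebraMap Qb ↥(modularFunctionFieldBar N) (aeval c0 H.P) = 0 := by
      have h2 := congrArg (fun y => y * jBar N) h0
      simp only [zero_mul, sub_mul, mul_assoc, inv_mul_cancel₀ hj, mul_one] at h2
      exact h2
    apply transcendental_jBar' N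
    refine ⟨C (aeval c0 H.Q) * X - C (aeval c0 H.P), ?_, ?_⟩
    · intro hz
      have h3 := congrArg (fun p : Qb[X] => p.coeff 1) hz
      simp only [Polynomial.coeff_sub, Polynomial.coeff_C_mul, Polynomial.coeff_X_one, mul_one,
        Polynomial.coeff_C, one_ne_zero, if_false, sub_zero, Polynomial.coeff_zero] at h3
      exact hq0' h3
    · rw [map_sub, map_mul, aeval_C, aeval_C, aeval_X]
      exact h1

/-- **(F3')** the integral closure of `A[t]` is contained in the J-ring of the region `Z`. -/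
theorem jrcz_le (c0 c1 : Qb) (hc0 : c0 ∈ A) (hc1 : c1 ∈ A) (hq0 : (aeval c0 H.Q)⁻¹ ∈ A)
    (hq0' : aeval c0 H.Q ≠ 0) (x : ↥(modularFunctionFieldBar N))
    (hx : x ∈ jrIC (jrPoly A (c0rT N H ha2 c0 c1))) : x ∈ jrOZ A (jBar N) := by
  have h1 : jrPoly A (c0rT N H ha2 c0 c1) ≤ jrIC (jrLam A (jBar N)⁻¹) :=
    jrcz_poly_le A _ _ (fun a => jr_const_mem_jrOZ (jBar N) a)
      (jrcz_t_mem N H ha2 A c0 c1 hc0 hc1 hq0 hq0')
  exact jrcz_ic_mono _ _ h1 hx

end Level

end Fermat.Agent.S37
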