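import Mathlib
import Fermat.Agent.S37.JRingDefs
import Fermat.Agent.S18.Char0Ram
import Fermat.Agent.S18.HauptCusp2
import Fermat.Agent.S18.ConnInt

/-!
# S37, J-rings: the Hauptmodul chart and the J-ring of the region `Y`

Leaves (F1), (F2) of the chart compatibility (JR-CONS-GLUE):

* `jrcy_h_mem`: the Hauptmodul `h` of a record lies in `O_Y = jrOY A (jBar N)`
  (it is a root of `P - j Q`, monic over `A[j]`);
* `jrcy_mul_pow`: every `x` integral over `A[t]`, `t = (h - c1)/(h - c0)` the chart coordinate,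
  satisfies `x * (h - c0)^m ∈ O_Y` for some `m`.

Abstract versions (`jrcy_trans`, `jrcy_isIntegral_mono`, `jrcy_mem_of_rel`, `jrcy_mul_pow_abs`)
hold for any function field `F / K` and elements `j, h ∈ F`.
-/

set_option autoImplicit false

noncomputable section

open AlgebraicCurve ModularCurve Polynomial Fermat.Agent.S18 Fermat.Agent.S24

namespace Fermat.Agent.S37

section Abs

variable {F : Type*} [Field F]

/-- Transitivity of integrality: an element integral over a ring all of whose elements are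
integral over the subring `R` is integral over `R`. -/
theorem jrcy_trans (R : Subring F) {S : Type*} [CommRing S] [Algebra S F]
    (hS : ∀ s : S, algebraMap S F s ∈ jrIC R) {x : F} (hx : IsIntegral S x) : x ∈ jrIC R := by
  obtain ⟨p, hp, hpx⟩ := hx
  let ι : S →+* integralClosure R F := (algebraMap S F).codRestrict (integralClosure R F) hS
  have h1 : IsIntegral (integralClosure R F) x := by
    refine ⟨p.map ι, hp.map ι, ?_⟩
    rw [Polynomial.eval₂_map]
    exact hpx
  exact isIntegral_trans (R := R) (A := integralClosure R F) x h1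

/-- Integrality over a subring passes to any ring whose image contains the subring. -/
theorem jrcy_isIntegral_mono {R : Subring F} {S : Type*} [CommRing S] [Algebra S F]
    (h : ∀ r ∈ R, r ∈ (algebraMap S F).range) {x : F} (hx : IsIntegral R x) :
    IsIntegral S x := by
  obtain ⟨p, hp, hpx⟩ := hx
  have hl : p.map R.subtype ∈ Polynomial.lifts (algebraMap S F) := by
    rw [Polynomial.lifts_iff_coeff_lifts]
    intro n
    rw [Polynomial.coeff_map]
    exact h _ (p.coeff n).2
  obtain ⟨q, hq, -, hqm⟩ := Polynomial.lifts_and_degree_eq_and_monic hl (hp.map _)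
  refine ⟨q, hqm, ?_⟩
  rw [Polynomial.eval₂_eq_eval_map, hq, Polynomial.eval_map]
  exact hpx

variable {K : Type*} [Field K] [Algebra K F] (A : ValuationSubring K)

/-- `h` is integral over `A[j]` when `j * Q(h) = P(h)` with `P, Q ∈ ℤ[X]`, `P` monic,
`deg Q < deg P`. -/
theorem jrcy_mem_of_rel (P Q : Polynomial ℤ) (hP : P.Monic) (hdeg : Q.natDegree < P.natDegree)
    (j h : F)
    (hrel : j * aeval h (Q.map (Int.castRingHom K)) = aeval h (P.map (Int.castRingHom K))) :
    h ∈ jrOY A j := by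
  rw [mem_jrOY]
  set R : Subring F := jrPoly A j with hR
  let jj : R := ⟨j, jr_self_mem_jrPoly j⟩
  have hPm : (P.map (Int.castRingHom R)).Monic := hP.map _
  have hlt : (C jj * Q.map (Int.castRingHom R)).degree < (P.map (Int.castRingHom R)).degree := by
    apply Polynomial.degree_lt_degree
    rw [hP.natDegree_map]
    calc (C jj * Q.map (Int.castRingHom R)).natDegree
        ≤ (Q.map (Int.castRingHom R)).natDegree := Polynomial.natDegree_C_mul_le _ _
      _ ≤ Q.natDegree := Polynomial.natDegree_map_le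
      _ < P.natDegree := hdeg
  refine ⟨P.map (Int.castRingHom R) - C jj * Q.map (Int.castRingHom R),
    hPm.sub_of_left hlt, ?_⟩
  have e1 : ∀ p : Polynomial ℤ, Polynomial.eval₂ (algebraMap R F) h (p.map (Int.castRingHom R)) =
      aeval h (p.map (Int.castRingHom K)) := by
    intro p
    rw [Polynomial.eval₂_map, Polynomial.aeval_def, Polynomial.eval₂_map]
    congr 1
    exact RingHom.ext_int _ _
  rw [Polynomial.eval₂_sub, Polynomial.eval₂_mul, Polynomial.eval₂_C, e1, e1, ← hrel]
  exact sub_self _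

/-- Abstract form of (F2): if `h ∈ O_Y` and `x` is integral over `A[t]`,
`t = (h - c1)/(h - c0)` with `c0, c1 ∈ A`, then `x * (h - c0)^m ∈ O_Y` for some `m`. -/
theorem jrcy_mul_pow_abs (j h : F) (hh : h ∈ jrOY A j) (c0 c1 : K) (hc0 : c0 ∈ A)
    (hc1 : c1 ∈ A) (hne : h - algebraMap K F c0 ≠ 0) (x : F)
    (hx : x ∈ jrIC (jrPoly A ((h - algebraMap K F c1) / (h - algebraMap K F c0)))) :
    ∃ m : ℕ, x * (h - algebraMap K F c0) ^ m ∈ jrOY A j := by
  let _ : Algebra A F := ((algebraMap K F).comp A.subtype).toAlgebra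
  have halg : ∀ a : A, algebraMap A F a = algebraMap K F (a : K) := fun a => rfl
  set v : F := h - algebraMap K F c0 with hv
  set s : F := v⁻¹ with hs
  set t : F := (h - algebraMap K F c1) / v with ht
  have hsv : s * v = 1 := inv_mul_cancel₀ hne
  -- `t = 1 + (c0 - c1) s`
  have hts : t = 1 + algebraMap A F (⟨c0, hc0⟩ - ⟨c1, hc1⟩) * s := by
    rw [halg, ht, hs]
    have : ((⟨c0, hc0⟩ - ⟨c1, hc1⟩ : A) : K) = c0 - c1 := rfl
    rw [this, map_sub]
    field_simp
    rw [hv]
    ring
  have htmem : t ∈ Algebra.adjoin A {s} := by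
    rw [hts]
    exact Subalgebra.add_mem _ (Subalgebra.one_mem _)
      (Subalgebra.mul_mem _ (Subalgebra.algebraMap_mem _ _) (Algebra.self_mem_adjoin_singleton A s))
  -- `x` is integral over `A[s]`
  have hx1 : IsIntegral (Algebra.adjoin A {s}) x := by
    refine jrcy_isIntegral_mono (R := jrPoly A t) ?_ hx
    intro r hr
    obtain ⟨p, rfl⟩ := mem_jrPoly.mp hr
    have h1 : jrEval A t p = aeval t p := rfl
    rw [h1]
    have h2 : aeval t p ∈ Algebra.adjoin A {s} := by
      have h3 : aeval t p ∈ Algebra.adjoin A {t} := by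
        rw [Algebra.adjoin_singleton_eq_range_aeval]
        exact ⟨p, rfl⟩
      exact Algebra.adjoin_le (Set.singleton_subset_iff.mpr htmem) h3
    exact ⟨⟨_, h2⟩, rfl⟩
  obtain ⟨N, hN⟩ := conn_isIntegral_mul_pow s v hsv x hx1
  refine ⟨N, ?_⟩
  have hvY : v ∈ jrOY A j := (jrOY A j).sub_mem hh (jr_const_mem_jrOY j ⟨c0, hc0⟩)
  refine jrcy_trans (jrPoly A j) (S := Algebra.adjoin A {v}) ?_ (hN N le_rfl)
  intro y
  have hy : (y : F) ∈ (aeval v : A[X] →ₐ[A] F).range := by
    rw [← Algebra.adjoin_singleton_eq_range_aeval]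
    exact y.2
  obtain ⟨p, hp⟩ := hy
  change aeval v p = (y : F) at hp
  show (y : F) ∈ jrOY A j
  rw [← hp, Polynomial.aeval_eq_sum_range]
  refine Subring.sum_mem _ fun i _ => ?_
  rw [Algebra.smul_def]
  exact (jrOY A j).mul_mem (jr_const_mem_jrOY j _) ((jrOY A j).pow_mem hvY i)

end Abs

section Level

variable (N : ℕ) [NeZero N] {a2 ℓ : ℕ} (H : HauptRec a2 ℓ) (ha2 : a2 ∣ N)
  (A : ValuationSubring (AlgebraicClosure ℚ))

/-- (F1) The Hauptmodul lies in the J-ring of the region `Y`. -/
theorem jrcy_h_mem : c0rH N H ha2 ∈ jrOY A (jBar N) :=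
  jrcy_mem_of_rel A H.P H.Q H.P_monic (by rw [H.natDegree_P]; exact H.natDegree_Q) (jBar N)
    (c0rH N H ha2) (c0r_rel N H ha2)

/-- (F2) Every element integral over `A[t]`, `t` the chart coordinate, lies in
`O_Y[1/(h - c0)]`. -/
theorem jrcy_mul_pow (c0 c1 : AlgebraicClosure ℚ) (hc0 : c0 ∈ A) (hc1 : c1 ∈ A)
    (hc : c0 ≠ c1) (h01 : (c0 - c1)⁻¹ ∈ A) (x : ↥(modularFunctionFieldBar N))
    (hx : x ∈ jrIC (jrPoly A (c0rT N H ha2 c0 c1))) :
    ∃ m : ℕ, x * (c0rH N H ha2 -
      algebraMap (AlgebraicClosure ℚ) ↥(modularFunctionFieldBar N) c0) ^ m ∈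
        jrOY A (jBar N) := by
  have _ := hc
  have _ := h01
  have hne : c0rH N H ha2 - algebraMap (AlgebraicClosure ℚ) ↥(modularFunctionFieldBar N) c0 ≠ 0 := by
    intro h0
    apply c0r_transcendental N H ha2
    rw [sub_eq_zero] at h0
    rw [h0]
    exact isAlgebraic_algebraMap c0
  rw [c0rT_eq] at hx
  exact jrcy_mul_pow_abs A (jBar N) (c0rH N H ha2) (jrcy_h_mem N H ha2 A) c0 c1 hc0 hc1 hne x hx

end Level

end Fermat.Agent.S37
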