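import Mathlib
import Fermat.Agent.S24.SumFormulaBase

/-!
# S37, package JR-CONS-GLUE (abstract part)

* `jrc_isIntegral_of_two`: an element of a field `κ / k` which is integral over `k[u]` and over
  `k[u⁻¹]` is integral over `k`;
* `jrc_const_of_two`: if moreover `k` is algebraically closed, it is a constant.
-/

set_option autoImplicit false

open AlgebraicCurve IsDedekindDomain

namespace Fermat.Agent.S37

section Two

variable {k κ : Type*} [Field k] [Field κ] [Algebra k κ]

/-- An element integral over a subalgebra contained in a valuation subring lies in it. -/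
theorem jrc_mem_valuationSubring_of_isIntegral (V : ValuationSubring κ) (S : Subalgebra k κ)
    (hS : ∀ x ∈ S, x ∈ V) (y : κ) (hy : IsIntegral S y) : y ∈ V := by
  obtain ⟨p, hp, hpy⟩ := hy
  have hint : IsIntegral V y := by
    refine ⟨p.map ((Subring.inclusion (fun x hx => hS x hx : S.toSubring ≤ V.toSubring))), hp.map _,
      ?_⟩
    rw [← hpy, Polynomial.eval₂_map]
    rfl
  have := (IsIntegrallyClosed.isIntegral_iff (R := V) (K := κ)).mp hint
  obtain ⟨z, hz⟩ := this
  rw [← hz]
  exact z.2

/-- An element which is integral over `k[u]` and over `k[u⁻¹]` is integral over `k`. -/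
theorem jrc_isIntegral_of_two (u y : κ) (h0 : IsIntegral (Algebra.adjoin k {u}) y)
    (h1 : IsIntegral (Algebra.adjoin k {u⁻¹}) y) : IsIntegral k y := by
  have key : y ∈ (integralClosure (Subring.closure (Set.range (algebraMap k κ))) κ).toSubring := by
    rw [← iInf_valuationSubring_superset]
    rw [Subring.mem_iInf]
    rintro ⟨V, hV⟩
    show y ∈ V
    have hk : ∀ c : k, algebraMap k κ c ∈ V := fun c => hV ⟨c, rfl⟩
    rcases V.mem_or_inv_mem u with hu | hu
    · refine jrc_mem_valuationSubring_of_isIntegral V (Algebra.adjoin k {u}) ?_ y h0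
      intro x hx
      refine Algebra.adjoin_induction (p := fun x _ => x ∈ V) ?_ ?_ ?_ ?_ hx
      · rintro x (rfl : x = u)
        exact hu
      · exact hk
      · exact fun _ _ _ _ => V.add_mem _ _
      · exact fun _ _ _ _ => V.mul_mem _ _
    · refine jrc_mem_valuationSubring_of_isIntegral V (Algebra.adjoin k {u⁻¹}) ?_ y h1
      intro x hx
      refine Algebra.adjoin_induction (p := fun x _ => x ∈ V) ?_ ?_ ?_ ?_ hx
      · rintro x (rfl : x = u⁻¹)
        exact hu
      · exact hk
      · exact fun _ _ _ _ => V.add_mem _ _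
      · exact fun _ _ _ _ => V.mul_mem _ _
  obtain ⟨p, hp, hpy⟩ := key
  have hcl : Subring.closure (Set.range (algebraMap k κ)) ≤ (⊥ : Subalgebra k κ).toSubring := by
    rw [Subring.closure_le]
    rintro x ⟨c, rfl⟩
    exact (⊥ : Subalgebra k κ).algebraMap_mem c
  have hint : IsIntegral (⊥ : Subalgebra k κ) y := by
    refine ⟨p.map (Subring.inclusion hcl), hp.map _, ?_⟩
    rw [← hpy, Polynomial.eval₂_map]
    rfl
  have halg : Algebra.IsIntegral k (⊥ : Subalgebra k κ) := by
    refine ⟨fun x => ?_⟩
    obtain ⟨c, hc⟩ := Algebra.mem_bot.mp x.2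
    have hx : x = algebraMap k (⊥ : Subalgebra k κ) c := Subtype.ext hc.symm
    rw [hx]
    exact isIntegral_algebraMap
  exact isIntegral_trans y hint

/-- Over an algebraically closed field `k`: an element integral over `k[u]` and over `k[u⁻¹]`
is a constant. -/
theorem jrc_const_of_two [IsAlgClosed k] (u y : κ) (h0 : IsIntegral (Algebra.adjoin k {u}) y)
    (h1 : IsIntegral (Algebra.adjoin k {u⁻¹}) y) : ∃ c : k, y = algebraMap k κ c := by
  have hy := jrc_isIntegral_of_two u y h0 h1
  have hdeg : (minpoly k y).degree = 1 :=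
    IsAlgClosed.degree_eq_one_of_irreducible k (minpoly.irreducible hy)
  obtain ⟨c, hc⟩ := (minpoly.degree_eq_one_iff).mp hdeg
  exact ⟨c, hc.symm⟩

end Two

section Dedekind

variable {k κ : Type*} [Field k] [Field κ] [Algebra k κ]

/-- An element of the fraction field of a Dedekind domain `B` which is regular at all places
attached to the primes of `B` lies in `B`. -/
theorem jrc_mem_of_ord_nonneg (B : Subalgebra k κ) [IsDedekindDomain B] [IsFractionRing B κ]
    (y : κ) (h : ∀ w : HeightOneSpectrum B,
      0 ≤ (Place.ofHeightOneSpectrum (K := k) (F := κ) w).ord y) : y ∈ B := by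
  have h1 : ∀ w : HeightOneSpectrum B, w.valuation κ y ≤ 1 := fun w =>
    (Fermat.Agent.S24.sf_mem_ofHeightOneSpectrum_iff (K := k) w y).mp
      ((Fermat.Agent.S24.sf_ord_nonneg_iff _ y).mp (h w))
  obtain ⟨b, hb⟩ := HeightOneSpectrum.mem_integers_of_valuation_le_one κ y h1
  rw [← hb]
  exact b.2

/-- Two charts `B₀` (integral over `k[u]`) and `B₁` (integral over `k[u⁻¹]`), `k` algebraically
closed: an element which is regular at all points of both charts is a constant. -/
theorem jrc_const_of_ord [IsAlgClosed k] (B₀ B₁ : Subalgebra k κ)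
    [IsDedekindDomain B₀] [IsFractionRing B₀ κ] [IsDedekindDomain B₁] [IsFractionRing B₁ κ]
    (u : κ) (hB₀ : ∀ b ∈ B₀, IsIntegral (Algebra.adjoin k {u}) b)
    (hB₁ : ∀ b ∈ B₁, IsIntegral (Algebra.adjoin k {u⁻¹}) b) (y : κ)
    (h₀ : ∀ w : HeightOneSpectrum B₀,
      0 ≤ (Place.ofHeightOneSpectrum (K := k) (F := κ) w).ord y)
    (h₁ : ∀ w : HeightOneSpectrum B₁,
      0 ≤ (Place.ofHeightOneSpectrum (K := k) (F := κ) w).ord y) :
    ∃ c : k, y = algebraMap k κ c :=
  jrc_const_of_two u y (hB₀ y (jrc_mem_of_ord_nonneg B₀ y h₀))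
    (hB₁ y (jrc_mem_of_ord_nonneg B₁ y h₁))

end Dedekind

section Classes

/-- A finitely supported integer function whose push-forward along a class map `c` vanishes has
total mass zero on every `c`-saturated set. -/
theorem jrc_finsum_eq_zero {X C : Type*} (c : X → C) (D : X →₀ ℤ)
    (hD : Finsupp.mapDomain c D = 0) (S : Set X)
    (hS : ∀ P P' : X, c P = c P' → P ∈ S → P' ∈ S) : ∑ᶠ P ∈ S, D P = 0 := by
  classical
  have h1 : ∑ᶠ P ∈ S, D P = D.sum fun P n => if c P ∈ c '' S then n else 0 := by
    rw [Finsupp.sum, ← Finset.sum_filter]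
    refine finsum_mem_eq_sum_of_inter_support_eq (fun P => D P) ?_
    ext P
    simp only [Set.mem_inter_iff, Function.mem_support, ne_eq, Finset.coe_filter,
      Finsupp.mem_support_iff, Set.mem_image]
    constructor
    · rintro ⟨hP, hne⟩
      exact ⟨⟨hne, P, hP, rfl⟩, hne⟩
    · rintro ⟨⟨hne, P', hP', hc⟩, -⟩
      exact ⟨hS P' P hc hP', hne⟩
  have h2 : (Finsupp.mapDomain c D).sum (fun q n => if q ∈ c '' S then n else 0)
      = D.sum fun P n => if c P ∈ c '' S then n else 0 := by
    refine Finsupp.sum_mapDomain_index (fun _ => by simp) (fun q m n => ?_)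
    by_cases hq : q ∈ c '' S <;> simp [hq]
  rw [h1, ← h2, hD, Finsupp.sum_zero_index]

end Classes

end Fermat.Agent.S37
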