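import Mathlib
import Fermat.Prelude.Def_AlgebraicCurve_DivisorClassGroup
import Fermat.Agent.S24.SumFormulaBase
import Fermat.Agent.S37.RedMapDefs

/-!
# S37, package JR-CONS (REDMAP): the abstract chart, part 1

* value API for `RdmVal` (`rdmVal_iff`: residue form; `rdmVal_add`, `rdmVal_mul`, `rdmVal_inv`,
  `rdmVal_unique`, ...);
* the Gauss valuation ring: `rdmC` (structure map `A → V`), `rdm_const_mem_iff` (`V ∩ K = A`),
  `rdm_inv_mem`;
* one chart: `rdm_div` (integrality lemma), `rdmIdeal` (the centre of a point of the chart on the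
  special fibre), `rdm_exists_to` (existence of the specialization), `rdm_to_unique`,
  `rdm_to_mem_iff`.
-/

set_option autoImplicit false

noncomputable section

open AlgebraicCurve IsDedekindDomain

namespace Fermat.Agent.S37

open Fermat.Agent.S24

/-! ### Values of functions at places -/

section Val

variable {K F : Type*} [Field K] [Field F] [Algebra K F] (P : Place K F)

theorem rdmVal_iff (g : F) (c : K) :
    RdmVal P g c ↔ ∃ h : g ∈ P.toValuationSubring,
      IsLocalRing.residue P.toValuationSubring ⟨g, h⟩ = algebraMap K P.ResidueField c := by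
  constructor
  · rintro (rfl | h)
    · exact ⟨P.algebraMap_mem' c, rfl⟩
    · have h1 : g - algebraMap K F c ∈ P.toValuationSubring :=
        (sf_ord_nonneg_iff P _).mp h.le
      have hg : g ∈ P.toValuationSubring := by
        have := add_mem h1 (P.algebraMap_mem' c)
        simpa using this
      refine ⟨hg, ?_⟩
      have h2 : (⟨g, hg⟩ : P.toValuationSubring) =
          ⟨g - algebraMap K F c, h1⟩ + algebraMap K P.toValuationSubring c := by
        apply Subtype.ext
        simp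
      rw [h2, map_add]
      have h3 : IsLocalRing.residue P.toValuationSubring ⟨g - algebraMap K F c, h1⟩ = 0 := by
        rw [IsLocalRing.residue_eq_zero_iff, sf_mem_maximalIdeal_iff_ord]
        exact Or.inr h
      rw [h3, zero_add]
      rfl
  · rintro ⟨hg, h⟩
    have h1 : (⟨g, hg⟩ : P.toValuationSubring) - algebraMap K P.toValuationSubring c ∈
        IsLocalRing.maximalIdeal P.toValuationSubring := by
      rw [← IsLocalRing.residue_eq_zero_iff, map_sub, h]
      exact sub_self _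
    rcases (sf_mem_maximalIdeal_iff_ord P _).mp h1 with h0 | h0
    · left
      have := congrArg (fun y : P.toValuationSubring => (y : F)) h0
      simpa [sub_eq_zero] using this
    · right
      exact h0

theorem rdmVal_const (c : K) : RdmVal P (algebraMap K F c) c := Or.inl rfl

theorem rdmVal_zero : RdmVal P (0 : F) (0 : K) := Or.inl (map_zero _).symm

theorem rdmVal_one : RdmVal P (1 : F) (1 : K) := Or.inl (map_one _).symm

theorem rdmVal_ord_nonneg {g : F} {c : K} (h : RdmVal P g c) : 0 ≤ P.ord g := by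
  obtain ⟨hg, -⟩ := (rdmVal_iff P g c).mp h
  exact (sf_ord_nonneg_iff P g).mpr hg

theorem rdmVal_add {g g' : F} {c c' : K} (h : RdmVal P g c) (h' : RdmVal P g' c') :
    RdmVal P (g + g') (c + c') := by
  obtain ⟨hg, h1⟩ := (rdmVal_iff P g c).mp h
  obtain ⟨hg', h1'⟩ := (rdmVal_iff P g' c').mp h'
  refine (rdmVal_iff P _ _).mpr ⟨add_mem hg hg', ?_⟩
  have : (⟨g + g', add_mem hg hg'⟩ : P.toValuationSubring) = ⟨g, hg⟩ + ⟨g', hg'⟩ := rfl
  rw [this, map_add, h1, h1', map_add]

theorem rdmVal_mul {g g' : F} {c c' : K} (h : RdmVal P g c) (h' : RdmVal P g' c') :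
    RdmVal P (g * g') (c * c') := by
  obtain ⟨hg, h1⟩ := (rdmVal_iff P g c).mp h
  obtain ⟨hg', h1'⟩ := (rdmVal_iff P g' c').mp h'
  refine (rdmVal_iff P _ _).mpr ⟨mul_mem hg hg', ?_⟩
  have : (⟨g * g', mul_mem hg hg'⟩ : P.toValuationSubring) = ⟨g, hg⟩ * ⟨g', hg'⟩ := rfl
  rw [this, map_mul, h1, h1', map_mul]

theorem rdmVal_neg {g : F} {c : K} (h : RdmVal P g c) : RdmVal P (-g) (-c) := by
  have := rdmVal_mul P (rdmVal_const P (-1 : K)) h
  simpa using this

theorem rdmVal_sub {g g' : F} {c c' : K} (h : RdmVal P g c) (h' : RdmVal P g' c') :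
    RdmVal P (g - g') (c - c') := by
  rw [sub_eq_add_neg, sub_eq_add_neg]
  exact rdmVal_add P h (rdmVal_neg P h')

theorem rdmVal_pow {g : F} {c : K} (h : RdmVal P g c) (n : ℕ) : RdmVal P (g ^ n) (c ^ n) := by
  induction n with
  | zero => simpa using rdmVal_one P
  | succ n ih => rw [pow_succ, pow_succ]; exact rdmVal_mul P ih h

theorem rdmVal_unique {g : F} {c c' : K} (h : RdmVal P g c) (h' : RdmVal P g c') : c = c' := by
  obtain ⟨hg, h1⟩ := (rdmVal_iff P g c).mp h
  obtain ⟨hg', h1'⟩ := (rdmVal_iff P g c').mp h'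
  exact (algebraMap K P.ResidueField).injective (h1.symm.trans h1')

theorem rdmVal_zero_iff (g : F) : RdmVal P g (0 : K) ↔ g = 0 ∨ 0 < P.ord g := by
  unfold RdmVal
  rw [map_zero, sub_zero]

theorem rdmVal_ord_eq_zero {g : F} {c : K} (h : RdmVal P g c) (hc : c ≠ 0) : P.ord g = 0 := by
  rcases h with rfl | h
  · exact sf_ord_algebraMap P c
  · by_contra hne
    have h0 := rdmVal_ord_nonneg P (Or.inr h : RdmVal P g c)
    have hpos : 0 < P.ord g := lt_of_le_of_ne h0 (Ne.symm hne)
    have h2 : RdmVal P g (0 : K) := (rdmVal_zero_iff P g).mpr (Or.inr hpos)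
    exact hc (rdmVal_unique P (Or.inr h) h2)

theorem rdmVal_ne_zero {g : F} {c : K} (h : RdmVal P g c) (hc : c ≠ 0) : g ≠ 0 := by
  rintro rfl
  exact hc (rdmVal_unique P h (rdmVal_zero P))

theorem rdmVal_inv {g : F} {c : K} (h : RdmVal P g c) (hc : c ≠ 0) : RdmVal P g⁻¹ c⁻¹ := by
  have hg0 : g ≠ 0 := rdmVal_ne_zero P h hc
  have hord : P.ord g = 0 := rdmVal_ord_eq_zero P h hc
  have hinv : g⁻¹ ∈ P.toValuationSubring := by
    rw [← sf_ord_nonneg_iff, P.ord_inv, hord, neg_zero]
  obtain ⟨hg, h1⟩ := (rdmVal_iff P g c).mp h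
  refine (rdmVal_iff P _ _).mpr ⟨hinv, ?_⟩
  have h2 : (⟨g, hg⟩ : P.toValuationSubring) * ⟨g⁻¹, hinv⟩ = 1 := by
    apply Subtype.ext
    simp [hg0]
  have h3 := congrArg (IsLocalRing.residue P.toValuationSubring) h2
  rw [map_mul, map_one, h1] at h3
  rw [map_inv₀]
  exact eq_inv_of_mul_eq_one_right h3

theorem rdmVal_ord_pos {g : F} (h : RdmVal P g (0 : K)) (hg : g ≠ 0) : 0 < P.ord g := by
  rcases (rdmVal_zero_iff P g).mp h with h0 | h0
  · exact absurd h0 hg
  · exact h0

end Val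

/-! ### The Gauss valuation ring -/

section Gauss

variable {K : Type*} [Field K] {A : ValuationSubring K}
variable {F : Type*} [Field F] [Algebra K F]
variable {κ : Type*} [Field κ] [Algebra (IsLocalRing.ResidueField A) κ]
variable {V : ValuationSubring F} {ρ : V →+* κ}

/-- The structure map `A → V`. -/
def rdmC (G : RdmGauss A V ρ) : A →+* V where
  toFun c := ⟨algebraMap K F (c : K), G.mem c⟩
  map_one' := Subtype.ext (by simp)
  map_mul' x y := Subtype.ext (by simp)
  map_zero' := Subtype.ext (by simp)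
  map_add' x y := Subtype.ext (by simp)

theorem rdm_coe_C (G : RdmGauss A V ρ) (c : A) :
    ((rdmC G c : V) : F) = algebraMap K F (c : K) := rfl

theorem rdm_rho_C (G : RdmGauss A V ρ) (c : A) :
    ρ (rdmC G c) = algebraMap (IsLocalRing.ResidueField A) κ (IsLocalRing.residue A c) :=
  G.rho c

theorem rdm_rho_ne_zero_iff (G : RdmGauss A V ρ) (x : V) :
    ρ x ≠ 0 ↔ V.valuation (x : F) = 1 := by
  rw [Ne, G.ker, ValuationSubring.mem_nonunits_iff, not_lt]
  have h1 : V.valuation (x : F) ≤ 1 := (V.valuation_le_one_iff _).mpr x.2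
  exact ⟨fun h => le_antisymm h1 h, fun h => h.ge⟩

theorem rdm_inv_mem (G : RdmGauss A V ρ) (x : V) (hx : ρ x ≠ 0) : (x : F)⁻¹ ∈ V := by
  rw [← ValuationSubring.valuation_le_one_iff, map_inv₀, (rdm_rho_ne_zero_iff G x).mp hx, inv_one]

theorem rdm_ne_zero (_G : RdmGauss A V ρ) (x : V) (hx : ρ x ≠ 0) : (x : F) ≠ 0 := by
  intro h0
  apply hx
  have : x = 0 := Subtype.ext h0
  rw [this, map_zero]

theorem rdm_rho_inv (G : RdmGauss A V ρ) (x : V) (hx : ρ x ≠ 0) :
    ρ ⟨(x : F)⁻¹, rdm_inv_mem G x hx⟩ = (ρ x)⁻¹ := by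
  have h1 : x * ⟨(x : F)⁻¹, rdm_inv_mem G x hx⟩ = 1 :=
    Subtype.ext (by simp [rdm_ne_zero G x hx])
  have h2 := congrArg ρ h1
  rw [map_mul, map_one] at h2
  exact eq_inv_of_mul_eq_one_right h2

/-- `V ∩ K = A`. -/
theorem rdm_const_mem_iff (G : RdmGauss A V ρ) (d : K) : algebraMap K F d ∈ V ↔ d ∈ A := by
  constructor
  · intro hd
    by_contra hdA
    have hd0 : d ≠ 0 := fun h => hdA (h ▸ A.zero_mem)
    have hdi : d⁻¹ ∈ A := (A.mem_or_inv_mem d).resolve_left hdA
    have hnu : (⟨d⁻¹, hdi⟩ : A) ∈ IsLocalRing.maximalIdeal A := by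
      rw [IsLocalRing.mem_maximalIdeal, mem_nonunits_iff]
      intro hu
      obtain ⟨⟨e, he⟩, he1⟩ := isUnit_iff_exists_inv.mp hu
      have h1 : d⁻¹ * e = 1 := congrArg Subtype.val he1
      have h2 : e = d := by
        field_simp at h1
        exact h1
      exact hdA (h2 ▸ he)
    have hres : ρ (rdmC G ⟨d⁻¹, hdi⟩) = 0 := by
      rw [rdm_rho_C, (IsLocalRing.residue_eq_zero_iff _).mpr hnu, map_zero]
    have h3 : V.valuation (algebraMap K F d⁻¹) < 1 :=
      (ValuationSubring.mem_nonunits_iff _).mp ((G.ker _).mp hres)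
    have h4 : V.valuation (algebraMap K F d) ≤ 1 := (V.valuation_le_one_iff _).mpr hd
    have h5 : V.valuation (algebraMap K F d) * V.valuation (algebraMap K F d⁻¹) = 1 := by
      rw [← map_mul, ← map_mul, mul_inv_cancel₀ hd0, map_one, map_one]
    have h6 : V.valuation (algebraMap K F d) * V.valuation (algebraMap K F d⁻¹) < 1 :=
      mul_lt_one_of_nonneg_of_lt_one_right h4 zero_le h3
    exact absurd h5 (ne_of_lt h6)
  · intro hd
    exact G.mem ⟨d, hd⟩

theorem rdm_const_nonunit_iff (G : RdmGauss A V ρ) (d : A) :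
    algebraMap K F (d : K) ∈ V.nonunits ↔ d ∈ IsLocalRing.maximalIdeal A := by
  rw [← rdm_coe_C G d, ← G.ker, rdm_rho_C, map_eq_zero, IsLocalRing.residue_eq_zero_iff]

end Gauss

/-! ### One chart: existence and uniqueness of the specialization -/

section Chart

variable {K : Type*} [Field K] {A : ValuationSubring K}
variable {F : Type*} [Field F] [Algebra K F]
variable {κ : Type*} [Field κ] [Algebra (IsLocalRing.ResidueField A) κ]
variable {V : ValuationSubring F} {ρ : V →+* κ} {t : F} {O : Subring F}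
variable {B : Subalgebra (IsLocalRing.ResidueField A) κ}

/-- The integrality lemma: an element of the chart with residue zero is a constant of the
maximal ideal of `A` times an element of the chart. -/
theorem rdm_div (G : RdmGauss A V ρ) (C : RdmChart A V ρ t O B) (x : V) (hx : (x : F) ∈ O)
    (h0 : ρ x = 0) :
    ∃ (d : A) (u : V), d ∈ IsLocalRing.maximalIdeal A ∧ (u : F) ∈ O ∧
      (x : F) = algebraMap K F (d : K) * (u : F) := by
  by_cases hx0 : (x : F) = 0
  · exact ⟨0, 0, Ideal.zero_mem _, O.zero_mem, by simp [hx0]⟩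
  obtain ⟨c, u, hc, hu, hxu⟩ := G.unit (x : F) hx0
  have hnon : (x : F) ∈ V.nonunits := (G.ker x).mp h0
  have hval : V.valuation (algebraMap K F c) < 1 := by
    have h1 := (ValuationSubring.mem_nonunits_iff _).mp hnon
    rw [hxu, map_mul, (rdm_rho_ne_zero_iff G u).mp hu, mul_one] at h1
    exact h1
  have hcV : algebraMap K F c ∈ V := (V.valuation_le_one_iff _).mp hval.le
  have hcA : c ∈ A := (rdm_const_mem_iff G c).mp hcV
  have hcm : (⟨c, hcA⟩ : A) ∈ IsLocalRing.maximalIdeal A :=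
    (rdm_const_nonunit_iff G ⟨c, hcA⟩).mp ((ValuationSubring.mem_nonunits_iff _).mpr hval)
  have hu0 : (u : F) ≠ 0 := rdm_ne_zero G u hu
  have hc0 : algebraMap K F c ≠ 0 := by
    rw [Ne, map_eq_zero]
    exact hc
  refine ⟨⟨c, hcA⟩, u, hcm, ?_, hxu⟩
  refine C.sat (u : F) u.2 fun P hP => ?_
  have h1 := C.reg (x : F) hx P hP
  rw [hxu, P.ord_mul hc0 hu0, sf_ord_algebraMap, zero_add] at h1
  exact h1

/-- If `x` in the chart has residue zero, its value at a point of the chart lies in the maximal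
ideal of `A`. -/
theorem rdm_val_of_rho_eq_zero (G : RdmGauss A V ρ) (C : RdmChart A V ρ t O B) (P : Place K F)
    (hP : ∃ c : A, RdmVal P t (c : K)) (x : V) (hx : (x : F) ∈ O) (h0 : ρ x = 0) (c : A)
    (hc : RdmVal P (x : F) (c : K)) : c ∈ IsLocalRing.maximalIdeal A := by
  obtain ⟨d, u, hd, hu, hxu⟩ := rdm_div G C x hx h0
  obtain ⟨cu, hcu⟩ := C.val (u : F) hu P hP
  have h1 : RdmVal P (x : F) ((d : K) * (cu : K)) := by
    rw [hxu]
    exact rdmVal_mul P (rdmVal_const P _) hcu
  have h2 : (c : K) = (d : K) * (cu : K) := rdmVal_unique P hc h1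
  have h3 : c = d * cu := Subtype.ext h2
  rw [h3]
  exact Ideal.mul_mem_right _ _ hd

/-- The centre of a point of the chart on the special fibre. -/
def rdmIdeal (C : RdmChart A V ρ t O B) (P : Place K F)
    (hP : ∃ c : A, RdmVal P t (c : K)) : Ideal B where
  carrier := {b | ∃ x : V, (x : F) ∈ O ∧ ρ x = (b : κ) ∧ RdmVal P (x : F) (0 : K)}
  zero_mem' := ⟨0, O.zero_mem, by simp, rdmVal_zero P⟩
  add_mem' := by
    rintro b b' ⟨x, hx, hxb, hxv⟩ ⟨x', hx', hxb', hxv'⟩
    refine ⟨x + x', O.add_mem hx hx', by rw [map_add, hxb, hxb']; rfl, ?_⟩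
    have := rdmVal_add P hxv hxv'
    rwa [add_zero] at this
  smul_mem' := by
    rintro b' b ⟨x, hx, hxb, hxv⟩
    obtain ⟨y, hy, hyb⟩ := (C.image (b' : κ)).mp b'.2
    obtain ⟨cy, hcy⟩ := C.val (y : F) hy P hP
    refine ⟨y * x, O.mul_mem hy hx, by rw [map_mul, hxb, hyb]; rfl, ?_⟩
    have := rdmVal_mul P hcy hxv
    rwa [mul_zero] at this

theorem rdm_mem_ideal_iff (G : RdmGauss A V ρ) (C : RdmChart A V ρ t O B) (P : Place K F)
    (hP : ∃ c : A, RdmVal P t (c : K)) (x : V) (hx : (x : F) ∈ O) (c : A)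
    (hc : RdmVal P (x : F) (c : K)) (b : B) (hb : ρ x = (b : κ)) :
    b ∈ rdmIdeal C P hP ↔ c ∈ IsLocalRing.maximalIdeal A := by
  constructor
  · rintro ⟨x', hx', hxb', hxv'⟩
    have h0 : ρ (x - x') = 0 := by rw [map_sub, hb, hxb', sub_self]
    have h1 := rdm_val_of_rho_eq_zero G C P hP (x - x') (O.sub_mem hx hx') h0 c (by
      have := rdmVal_sub P hc hxv'
      rwa [sub_zero] at this)
    exact h1
  · intro hcm
    refine ⟨x - rdmC G c, O.sub_mem hx (C.const c), ?_, ?_⟩
    · rw [map_sub, hb, rdm_rho_C, (IsLocalRing.residue_eq_zero_iff _).mpr hcm, map_zero, sub_zero]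
    · have := rdmVal_sub P hc (rdmVal_const P (c : K))
      rwa [sub_self] at this

theorem rdmIdeal_isPrime (G : RdmGauss A V ρ) (C : RdmChart A V ρ t O B) (P : Place K F)
    (hP : ∃ c : A, RdmVal P t (c : K)) : (rdmIdeal C P hP).IsPrime := by
  constructor
  · intro htop
    have h1 : (1 : B) ∈ rdmIdeal C P hP := by rw [htop]; trivial
    have h2 := (rdm_mem_ideal_iff G C P hP 1 O.one_mem 1 (by simpa using rdmVal_one P) 1
      (by simp)).mp h1
    exact (Ideal.ne_top_iff_one _).mp (IsLocalRing.maximalIdeal.isMaximal A).ne_top h2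
  · intro b b' hbb'
    obtain ⟨y, hy, hyb⟩ := (C.image (b : κ)).mp b.2
    obtain ⟨y', hy', hyb'⟩ := (C.image (b' : κ)).mp b'.2
    obtain ⟨c, hc⟩ := C.val (y : F) hy P hP
    obtain ⟨c', hc'⟩ := C.val (y' : F) hy' P hP
    have h1 := (rdm_mem_ideal_iff G C P hP (y * y') (O.mul_mem hy hy') (c * c')
      (by simpa using rdmVal_mul P hc hc') (b * b') (by rw [map_mul, hyb, hyb']; rfl)).mp hbb'
    rcases (IsLocalRing.maximalIdeal.isMaximal A).isPrime.mem_or_mem h1 with h | h
    · exact Or.inl ((rdm_mem_ideal_iff G C P hP y hy c hc b hyb).mpr h)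
    · exact Or.inr ((rdm_mem_ideal_iff G C P hP y' hy' c' hc' b' hyb').mpr h)

theorem rdmIdeal_ne_bot (G : RdmGauss A V ρ) (C : RdmChart A V ρ t O B)
    (ht : Transcendental (IsLocalRing.ResidueField A) (ρ ⟨t, C.le t C.t_mem⟩)) (P : Place K F)
    (hP : ∃ c : A, RdmVal P t (c : K)) : rdmIdeal C P hP ≠ ⊥ := by
  obtain ⟨c, hc⟩ := hP
  intro hbot
  set tV : V := ⟨t, C.le t C.t_mem⟩ with htV
  have hmem : (ρ tV - algebraMap (IsLocalRing.ResidueField A) κ (IsLocalRing.residue A c)) ∈ B :=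
    (C.image _).mpr ⟨tV - rdmC G c, O.sub_mem C.t_mem (C.const c), by rw [map_sub, rdm_rho_C]⟩
  have h1 : (⟨_, hmem⟩ : B) ∈ rdmIdeal C P ⟨c, hc⟩ :=
    ⟨tV - rdmC G c, O.sub_mem C.t_mem (C.const c), by rw [map_sub, rdm_rho_C], by
      have := rdmVal_sub P hc (rdmVal_const P (c : K))
      rwa [sub_self] at this⟩
  rw [hbot, Ideal.mem_bot] at h1
  have h2 : ρ tV - algebraMap (IsLocalRing.ResidueField A) κ (IsLocalRing.residue A c) = 0 :=
    congrArg Subtype.val h1
  apply ht
  rw [sub_eq_zero.mp h2]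
  exact isAlgebraic_algebraMap _

variable [IsDedekindDomain B] [IsFractionRing B κ]

/-- Existence of the specialization of a point of the chart. -/
theorem rdm_exists_to (G : RdmGauss A V ρ) (C : RdmChart A V ρ t O B)
    (ht : Transcendental (IsLocalRing.ResidueField A) (ρ ⟨t, C.le t C.t_mem⟩)) (P : Place K F)
    (hP : ∃ c : A, RdmVal P t (c : K)) :
    ∃ w : HeightOneSpectrum B, RdmTo A V ρ t O P
      (Place.ofHeightOneSpectrum (K := IsLocalRing.ResidueField A) (F := κ) w) := by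
  have := rdmIdeal_isPrime G C P hP
  refine ⟨⟨rdmIdeal C P hP, inferInstance, rdmIdeal_ne_bot G C ht P hP⟩, hP, ?_⟩
  intro x hx c hc
  have hmem : ρ x - algebraMap (IsLocalRing.ResidueField A) κ (IsLocalRing.residue A c) ∈ B :=
    (C.image _).mpr ⟨x - rdmC G c, O.sub_mem hx (C.const c), by rw [map_sub, rdm_rho_C]⟩
  have h1 : (⟨_, hmem⟩ : B) ∈ rdmIdeal C P hP :=
    ⟨x - rdmC G c, O.sub_mem hx (C.const c), by rw [map_sub, rdm_rho_C], by
      have := rdmVal_sub P hc (rdmVal_const P (c : K))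
      rwa [sub_self] at this⟩
  rcases (sf_mem_asIdeal_iff_ord (K := IsLocalRing.ResidueField A) (F := κ)
    (⟨rdmIdeal C P hP, inferInstance, rdmIdeal_ne_bot G C ht P hP⟩ : HeightOneSpectrum B)
    ⟨_, hmem⟩).mp h1 with h0 | h0
  · left
    have := congrArg Subtype.val h0
    exact sub_eq_zero.mp this
  · right
    exact h0

omit [IsDedekindDomain B] [IsFractionRing B κ] in
/-- A specialization of a point of the chart is centred on `B`. -/
theorem rdm_to_ord_nonneg (C : RdmChart A V ρ t O B) (P : Place K F)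
    (Q : Place (IsLocalRing.ResidueField A) κ) (h : RdmTo A V ρ t O P Q) (b : B) :
    0 ≤ Q.ord (b : κ) := by
  obtain ⟨y, hy, hyb⟩ := (C.image (b : κ)).mp b.2
  obtain ⟨c, hc⟩ := C.val (y : F) hy P h.1
  rw [← hyb]
  exact rdmVal_ord_nonneg Q (h.2 y hy c hc)

theorem rdm_to_exists_height (C : RdmChart A V ρ t O B) (P : Place K F)
    (Q : Place (IsLocalRing.ResidueField A) κ) (h : RdmTo A V ρ t O P Q) :
    ∃ w : HeightOneSpectrum B,
      Place.ofHeightOneSpectrum (K := IsLocalRing.ResidueField A) (F := κ) w = Q :=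
  sf_exists_ofHeightOneSpectrum_eq Q fun b =>
    (sf_ord_nonneg_iff Q _).mp (rdm_to_ord_nonneg C P Q h b)

/-- The centre of the specialization: `ρ x` vanishes at `Q` iff the value of `x` at `P` lies in
the maximal ideal. -/
theorem rdm_to_mem_iff (_C : RdmChart A V ρ t O B) (P : Place K F) (w : HeightOneSpectrum B)
    (h : RdmTo A V ρ t O P
      (Place.ofHeightOneSpectrum (K := IsLocalRing.ResidueField A) (F := κ) w))
    (x : V) (hx : (x : F) ∈ O) (c : A) (hc : RdmVal P (x : F) (c : K)) (b : B)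
    (hb : ρ x = (b : κ)) : b ∈ w.asIdeal ↔ c ∈ IsLocalRing.maximalIdeal A := by
  have hv := h.2 x hx c hc
  rw [sf_mem_asIdeal_iff_ord (K := IsLocalRing.ResidueField A) (F := κ),
    ← IsLocalRing.residue_eq_zero_iff]
  have hb' : algebraMap B κ b = ρ x := hb.symm
  rw [hb']
  constructor
  · intro h0
    have h1 : RdmVal (Place.ofHeightOneSpectrum (K := IsLocalRing.ResidueField A) (F := κ) w)
        (ρ x) (0 : IsLocalRing.ResidueField A) := by
      rw [rdmVal_zero_iff]
      rcases h0 with h0 | h0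
      · left
        rw [← hb', h0, map_zero]
      · exact Or.inr h0
    exact rdmVal_unique _ hv h1
  · intro h0
    rw [h0] at hv
    rcases (rdmVal_zero_iff _ _).mp hv with h1 | h1
    · left
      exact Subtype.ext (by rw [← hb, h1]; rfl)
    · exact Or.inr h1

/-- Uniqueness of the specialization. -/
theorem rdm_to_unique (C : RdmChart A V ρ t O B) (P : Place K F)
    (Q Q' : Place (IsLocalRing.ResidueField A) κ) (h : RdmTo A V ρ t O P Q)
    (h' : RdmTo A V ρ t O P Q') : Q = Q' := by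
  obtain ⟨w, rfl⟩ := rdm_to_exists_height C P Q h
  obtain ⟨w', rfl⟩ := rdm_to_exists_height C P Q' h'
  congr 1
  apply HeightOneSpectrum.ext
  ext b
  obtain ⟨y, hy, hyb⟩ := (C.image (b : κ)).mp b.2
  obtain ⟨c, hc⟩ := C.val (y : F) hy P h.1
  rw [rdm_to_mem_iff C P w h y hy c hc b hyb, rdm_to_mem_iff C P w' h' y hy c hc b hyb]

end Chart

end Fermat.Agent.S37
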