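import Mathlib
import Fermat.Agent.S37.RedMapAbs
import Fermat.Agent.S37.JRingCons

/-!
# S37, package JR-CONS-GLUE: chart points are functions of J-ring characters (abstract part)

Setting of `RedMapDefs`: a chart `(t, O, B)`.  Let `R` be a "region ring" (a subring of `F` all of
whose elements have values in `A` at the places `P`, `P'`, with the same residues), and `b ∈ R`
such that `O ⊆ R[1/b]` and `b` has a unit value at `P`.  Then `P` and `P'` specialize to the same
points of the chart.

* `jrc_to_of_class`: the core statement;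
* `jrc_to_of_class_frac`: the case `t = 1 + d / b` with `d` a unit of `A` (chart coordinate
  `(h - c₁)/(h - c₀)`, `b = h - c₀`, region `j(P) ∈ A`);
* `jrc_to_of_class_sub`: the case `O ⊆ R` (cuspidal region);
* `jrc_const_abs`: two charts with conservation at every point, fibres saturated for a class map
  `c`, and a function `y` whose divisor has push-forward zero along `c`: the residue of `y` is a
  constant.
-/

set_option autoImplicit false

open AlgebraicCurve IsDedekindDomain

namespace Fermat.Agent.S37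

variable {K : Type*} [Field K] {A : ValuationSubring K}
variable {F : Type*} [Field F] [Algebra K F]
variable {κ : Type*} [Field κ] [Algebra (IsLocalRing.ResidueField A) κ]
variable {V : ValuationSubring F} {ρ : V →+* κ} {t : F} {O : Subring F}
variable {B : Subalgebra (IsLocalRing.ResidueField A) κ}

/-- Core statement: if all elements of the region ring `R` have `A`-values with equal residues
at `P` and `P'`, the chart ring is contained in `R[1/b]`, `b` has a unit value at `P`, and `t`
has an `A`-value at `P'`, then `P'` specializes to every point `P` specializes to. -/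
theorem jrc_to_of_class (C : RdmChart A V ρ t O B) (R : Subring F) (b : F) (hb : b ∈ R)
    (hOR : ∀ x ∈ O, ∃ m : ℕ, x * b ^ m ∈ R) (P P' : Place K F)
    (hP : ∀ y ∈ R, ∃ c : A, RdmVal P y (c : K)) (hP' : ∀ y ∈ R, ∃ c : A, RdmVal P' y (c : K))
    (hcl : ∀ y ∈ R, ∀ c c' : A, RdmVal P y (c : K) → RdmVal P' y (c' : K) →
      IsLocalRing.residue A c = IsLocalRing.residue A c')
    (hunit : ∀ β : A, RdmVal P b (β : K) → IsUnit β)
    (htP' : ∃ c : A, RdmVal P' t (c : K))
    (Q : Place (IsLocalRing.ResidueField A) κ) (h : RdmTo A V ρ t O P Q) :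
    RdmTo A V ρ t O P' Q := by
  obtain ⟨h1, h2⟩ := h
  refine ⟨htP', fun x hx c' hc' => ?_⟩
  obtain ⟨c, hc⟩ := C.val (x : F) hx P h1
  have hQ := h2 x hx c hc
  suffices hres : IsLocalRing.residue A c = IsLocalRing.residue A c' by rwa [hres] at hQ
  obtain ⟨β, hβ⟩ := hP b hb
  obtain ⟨β', hβ'⟩ := hP' b hb
  have hββ' : IsLocalRing.residue A β = IsLocalRing.residue A β' := hcl b hb β β' hβ hβ'
  have hβu : IsUnit β := hunit β hβ
  have hβres : IsLocalRing.residue A β ≠ 0 := by
    intro h0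
    exact (IsLocalRing.residue_eq_zero_iff β).mp h0 |> fun hm =>
      (IsLocalRing.mem_maximalIdeal β).mp hm hβu
  obtain ⟨m, hm⟩ := hOR (x : F) hx
  obtain ⟨γ, hγ⟩ := hP _ hm
  obtain ⟨γ', hγ'⟩ := hP' _ hm
  have hγγ' : IsLocalRing.residue A γ = IsLocalRing.residue A γ' := hcl _ hm γ γ' hγ hγ'
  have e1 : (γ : K) = (c : K) * (β : K) ^ m :=
    rdmVal_unique P hγ (rdmVal_mul P hc (rdmVal_pow P hβ m))
  have e2 : (γ' : K) = (c' : K) * (β' : K) ^ m :=
    rdmVal_unique P' hγ' (rdmVal_mul P' hc' (rdmVal_pow P' hβ' m))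
  have e1' : γ = c * β ^ m := Subtype.ext (by simpa using e1)
  have e2' : γ' = c' * β' ^ m := Subtype.ext (by simpa using e2)
  rw [e1', e2', map_mul, map_mul, map_pow, map_pow, ← hββ'] at hγγ'
  exact mul_right_cancel₀ (pow_ne_zero m hβres) hγγ'

/-- The case `O ⊆ R`. -/
theorem jrc_to_of_class_sub (C : RdmChart A V ρ t O B) (R : Subring F)
    (hOR : ∀ x ∈ O, x ∈ R) (P P' : Place K F)
    (hP : ∀ y ∈ R, ∃ c : A, RdmVal P y (c : K)) (hP' : ∀ y ∈ R, ∃ c : A, RdmVal P' y (c : K))
    (hcl : ∀ y ∈ R, ∀ c c' : A, RdmVal P y (c : K) → RdmVal P' y (c' : K) →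
      IsLocalRing.residue A c = IsLocalRing.residue A c')
    (Q : Place (IsLocalRing.ResidueField A) κ) (h : RdmTo A V ρ t O P Q) :
    RdmTo A V ρ t O P' Q := by
  refine jrc_to_of_class C R 1 R.one_mem (fun x hx => ⟨0, by simpa using hOR x hx⟩) P P' hP hP'
    hcl (fun β hβ => ?_) (hP' t (hOR t C.t_mem)) Q h
  have h1 : (β : K) = 1 := rdmVal_unique P hβ (rdmVal_one P)
  have : β = 1 := Subtype.ext (by simpa using h1)
  rw [this]
  exact isUnit_one

/-- The case `t * b = b + d` with `d` a unit of `A` (i.e. `t = 1 + d / b`). -/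
theorem jrc_to_of_class_frac (C : RdmChart A V ρ t O B) (R : Subring F) (b : F) (hb : b ∈ R)
    (d : A) (hd : IsUnit d) (htb : t * b = b + algebraMap K F (d : K))
    (hOR : ∀ x ∈ O, ∃ m : ℕ, x * b ^ m ∈ R) (P P' : Place K F)
    (hP : ∀ y ∈ R, ∃ c : A, RdmVal P y (c : K)) (hP' : ∀ y ∈ R, ∃ c : A, RdmVal P' y (c : K))
    (hcl : ∀ y ∈ R, ∀ c c' : A, RdmVal P y (c : K) → RdmVal P' y (c' : K) →
      IsLocalRing.residue A c = IsLocalRing.residue A c')
    (Q : Place (IsLocalRing.ResidueField A) κ) (h : RdmTo A V ρ t O P Q) :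
    RdmTo A V ρ t O P' Q := by
  obtain ⟨c, hc⟩ := h.1
  have hunit : ∀ β : A, RdmVal P b (β : K) → IsUnit β := by
    intro β hβ
    have e : (c : K) * (β : K) = (β : K) + (d : K) := by
      have h1 := rdmVal_mul P hc hβ
      rw [htb] at h1
      exact rdmVal_unique P h1 (rdmVal_add P hβ (rdmVal_const P (d : K)))
    have e' : β * (c - 1) = d := Subtype.ext (by push_cast; linear_combination e)
    exact isUnit_of_mul_isUnit_left (e' ▸ hd)
  refine jrc_to_of_class C R b hb hOR P P' hP hP' hcl hunit ?_ Q h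
  obtain ⟨β, hβ⟩ := hP b hb
  obtain ⟨β', hβ'⟩ := hP' b hb
  have hββ' : IsLocalRing.residue A β = IsLocalRing.residue A β' := hcl b hb β β' hβ hβ'
  have hβu : IsUnit β := hunit β hβ
  have hβ'u : IsUnit β' := by
    by_contra hnu
    have h0 : IsLocalRing.residue A β' = 0 :=
      (IsLocalRing.residue_eq_zero_iff β').mpr ((IsLocalRing.mem_maximalIdeal β').mpr hnu)
    rw [← hββ'] at h0
    exact (IsLocalRing.mem_maximalIdeal β).mp ((IsLocalRing.residue_eq_zero_iff β).mp h0) hβu
  have hβ'0 : (β' : K) ≠ 0 := by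
    intro h0
    have : β' = 0 := Subtype.ext (by simpa using h0)
    rw [this] at hβ'u
    exact not_isUnit_zero hβ'u
  have hb0 : b ≠ 0 := rdmVal_ne_zero P' hβ' hβ'0
  have hinv := rdmVal_inv P' hβ' hβ'0
  have ht : t = (b + algebraMap K F (d : K)) * b⁻¹ := by
    rw [← htb, mul_assoc, mul_inv_cancel₀ hb0, mul_one]
  obtain ⟨β'i, hβ'i⟩ := hβ'u.exists_left_inv
  have hβ'inv : (β' : K)⁻¹ = (β'i : K) := by
    have h1 : (β'i : K) * (β' : K) = 1 := by
      have := congrArg (Subtype.val) hβ'i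
      simpa using this
    exact (eq_inv_of_mul_eq_one_left h1).symm
  refine ⟨(β' + d) * β'i, ?_⟩
  rw [ht]
  have := rdmVal_mul P' (rdmVal_add P' hβ' (rdmVal_const P' (d : K))) hinv
  rw [hβ'inv] at this
  simpa using this

/-- Two charts `(t, O₀, B₀)`, `(t', O₁, B₁)` with conservation at every point (the conclusion of
`rdm_cons`), whose fibres are saturated for a class map `c`; `B₀` integral over `k[u]` and `B₁`
over `k[u⁻¹]`.  If the divisor `D` of a Gauss unit `y` has `Finsupp.mapDomain c D = 0`, then the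
residue of `y` is a constant. -/
theorem jrc_const_abs [IsAlgClosed (IsLocalRing.ResidueField A)] {t' : F} {O₀ O₁ : Subring F}
    {B₀ B₁ : Subalgebra (IsLocalRing.ResidueField A) κ}
    [IsDedekindDomain B₀] [IsFractionRing B₀ κ] [IsDedekindDomain B₁] [IsFractionRing B₁ κ]
    (u : κ) (hB₀ : ∀ b ∈ B₀, IsIntegral (Algebra.adjoin (IsLocalRing.ResidueField A) {u}) b)
    (hB₁ : ∀ b ∈ B₁, IsIntegral (Algebra.adjoin (IsLocalRing.ResidueField A) {u⁻¹}) b)
    (y : V)
    (hc₀ : ∀ w : HeightOneSpectrum B₀,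
      (Place.ofHeightOneSpectrum (K := IsLocalRing.ResidueField A) (F := κ) w).ord (ρ y) =
        ∑ᶠ P ∈ {P : Place K F | RdmTo A V ρ t O₀ P
          (Place.ofHeightOneSpectrum (K := IsLocalRing.ResidueField A) (F := κ) w)}, P.ord (y : F))
    (hc₁ : ∀ w : HeightOneSpectrum B₁,
      (Place.ofHeightOneSpectrum (K := IsLocalRing.ResidueField A) (F := κ) w).ord (ρ y) =
        ∑ᶠ P ∈ {P : Place K F | RdmTo A V ρ t' O₁ P
          (Place.ofHeightOneSpectrum (K := IsLocalRing.ResidueField A) (F := κ) w)}, P.ord (y : F))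
    {Cl : Type*} (c : Place K F → Cl)
    (hs₀ : ∀ (w : HeightOneSpectrum B₀) (P P' : Place K F), c P = c P' →
      RdmTo A V ρ t O₀ P
        (Place.ofHeightOneSpectrum (K := IsLocalRing.ResidueField A) (F := κ) w) →
      RdmTo A V ρ t O₀ P'
        (Place.ofHeightOneSpectrum (K := IsLocalRing.ResidueField A) (F := κ) w))
    (hs₁ : ∀ (w : HeightOneSpectrum B₁) (P P' : Place K F), c P = c P' →
      RdmTo A V ρ t' O₁ P
        (Place.ofHeightOneSpectrum (K := IsLocalRing.ResidueField A) (F := κ) w) →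
      RdmTo A V ρ t' O₁ P'
        (Place.ofHeightOneSpectrum (K := IsLocalRing.ResidueField A) (F := κ) w))
    (D : Place K F →₀ ℤ) (hD : ∀ P : Place K F, D P = P.ord (y : F))
    (hcD : Finsupp.mapDomain c D = 0) :
    ∃ a : IsLocalRing.ResidueField A, ρ y = algebraMap (IsLocalRing.ResidueField A) κ a := by
  refine jrc_const_of_ord B₀ B₁ u hB₀ hB₁ (ρ y) (fun w => ?_) (fun w => ?_)
  · rw [hc₀ w]
    have := jrc_finsum_eq_zero c D hcD _ (hs₀ w)
    simp only [hD] at this
    exact this.ge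
  · rw [hc₁ w]
    have := jrc_finsum_eq_zero c D hcD _ (hs₁ w)
    simp only [hD] at this
    exact this.ge

end Fermat.Agent.S37
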