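import Mathlib
import Fermat.Agent.S37.JRingChart
import Fermat.Agent.S37.JRingDefs
import Fermat.Agent.S18.Char0Ram

/-!
# S37, package JR-CONS-GLUE: chart points are functions of the J-ring class (level `N`)

`jrc_sat`: for the chart coordinate `t = (h - c₁)/(h - c₀)` of the level-`N` function field
(`a2 ∣ N`), any chart `(t, O, B)` in the sense of `RedMapDefs` whose ring `O` is integral over
`A[t]`: two places with the same J-ring class specialize to the same points of the chart.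
-/

set_option autoImplicit false

open AlgebraicCurve ModularCurve Polynomial
open Fermat.Agent.S18 Fermat.Agent.S24

namespace Fermat.Agent.S37

local notation "Qb" => AlgebraicClosure ℚ

variable (N : ℕ) [NeZero N] {a2 ℓ : ℕ} (H : HauptRec a2 ℓ) (ha2 : a2 ∣ N)
  (A : ValuationSubring Qb)

/-- Saturation of the fibres of a chart under the J-ring class map. -/
theorem jrc_sat (c0 c1 : Qb) (hc0 : c0 ∈ A) (hc1 : c1 ∈ A) (hc : c0 ≠ c1)
    (h01 : (c0 - c1)⁻¹ ∈ A)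
    {κ : Type*} [Field κ] [Algebra (IsLocalRing.ResidueField A) κ]
    {V : ValuationSubring ↥(modularFunctionFieldBar N)} {ρ : V →+* κ}
    {O : Subring ↥(modularFunctionFieldBar N)}
    {B : Subalgebra (IsLocalRing.ResidueField A) κ}
    (C : RdmChart A V ρ (c0rT N H ha2 c0 c1) O B)
    (hO : ∀ x ∈ O, x ∈ jrIC (jrPoly A (c0rT N H ha2 c0 c1)))
    (hval : ∀ P : Place Qb ↥(modularFunctionFieldBar N), ∀ x ∈ jrRing A (jBar N) P,
      ∃ a : A, RdmVal P x (a : Qb))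
    (hF1 : c0rH N H ha2 ∈ jrOY A (jBar N))
    (hF2 : ∀ x ∈ jrIC (jrPoly A (c0rT N H ha2 c0 c1)), ∃ m : ℕ,
      x * (c0rH N H ha2 - algebraMap Qb ↥(modularFunctionFieldBar N) c0) ^ m ∈ jrOY A (jBar N))
    (hF3 : ∀ x ∈ jrIC (jrPoly A (c0rT N H ha2 c0 c1)), x ∈ jrOZ A (jBar N))
    (Q : Place (IsLocalRing.ResidueField A) κ) (P P' : Place Qb ↥(modularFunctionFieldBar N))
    (hcls : jrCls A (jBar N) P = jrCls A (jBar N) P')
    (h : RdmTo A V ρ (c0rT N H ha2 c0 c1) O P Q) :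
    RdmTo A V ρ (c0rT N H ha2 c0 c1) O P' Q := by
  obtain ⟨hreg, hring, hres⟩ := jrCls_eq_imp hcls
  by_cases hY : jrRegY A (jBar N) P
  · have hY' : jrRegY A (jBar N) P' := hreg.mp hY
    have hR : jrRing A (jBar N) P = jrOY A (jBar N) := jrRing_of_regY hY
    have hR' : jrRing A (jBar N) P' = jrOY A (jBar N) := jrRing_of_regY hY'
    -- the denominator `b = h - c0`
    have hb : c0rH N H ha2 - algebraMap Qb ↥(modularFunctionFieldBar N) c0 ∈ jrOY A (jBar N) :=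
      Subring.sub_mem _ hF1 (jr_const_mem_jrOY (jBar N) ⟨c0, hc0⟩)
    have hd : IsUnit (⟨c0 - c1, A.sub_mem hc0 hc1⟩ : A) := by
      refine IsUnit.of_mul_eq_one (⟨(c0 - c1)⁻¹, h01⟩ : A) (Subtype.ext ?_)
      show (c0 - c1) * (c0 - c1)⁻¹ = 1
      exact mul_inv_cancel₀ (sub_ne_zero.mpr hc)
    have hb0 : c0rH N H ha2 - algebraMap Qb ↥(modularFunctionFieldBar N) c0 ≠ 0 := by
      intro h0
      have h1 : Transcendental Qb (c0rH N H ha2) := c0r_transcendental N H ha2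
      apply h1
      rw [sub_eq_zero.mp h0]
      exact isAlgebraic_algebraMap c0
    have htb : c0rT N H ha2 c0 c1 *
        (c0rH N H ha2 - algebraMap Qb ↥(modularFunctionFieldBar N) c0) =
        (c0rH N H ha2 - algebraMap Qb ↥(modularFunctionFieldBar N) c0) +
          algebraMap Qb ↥(modularFunctionFieldBar N) ((⟨c0 - c1, A.sub_mem hc0 hc1⟩ : A) : Qb) := by
      rw [c0rT_eq, div_mul_cancel₀ _ hb0]
      show _ = _ + algebraMap Qb ↥(modularFunctionFieldBar N) (c0 - c1)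
      rw [map_sub]
      ring
    refine jrc_to_of_class_frac C (jrOY A (jBar N)) _ hb ⟨c0 - c1, A.sub_mem hc0 hc1⟩ hd htb
      (fun x hx => hF2 x (hO x hx)) P P' (fun y hy => hval P y (hR ▸ hy))
      (fun y hy => hval P' y (hR' ▸ hy)) (fun y hy => hres y (hR ▸ hy)) Q h
  · have hY' : ¬ jrRegY A (jBar N) P' := fun h' => hY (hreg.mpr h')
    have hR : jrRing A (jBar N) P = jrOZ A (jBar N) := jrRing_of_not_regY hY
    have hR' : jrRing A (jBar N) P' = jrOZ A (jBar N) := jrRing_of_not_regY hY'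
    exact jrc_to_of_class_sub C (jrOZ A (jBar N)) (fun x hx => hF3 x (hO x hx)) P P'
      (fun y hy => hval P y (hR ▸ hy)) (fun y hy => hval P' y (hR' ▸ hy))
      (fun y hy => hres y (hR ▸ hy)) Q h

/-- The abstract main statement of JR-CONS-GLUE: for the two charts `t = (h - c₁)/(h - c₀)` and
`t⁻¹ = (h - c₀)/(h - c₁)` of the level-`N` function field, with conservation at every point of
both charts: a Gauss unit `y` whose divisor `D` has `jrRed D = 0` has constant residue. -/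
theorem jrc_main_abs [IsAlgClosed (IsLocalRing.ResidueField A)]
    (c0 c1 : Qb) (hc0 : c0 ∈ A) (hc1 : c1 ∈ A) (hc : c0 ≠ c1) (h01 : (c0 - c1)⁻¹ ∈ A)
    {κ : Type*} [Field κ] [Algebra (IsLocalRing.ResidueField A) κ]
    {V : ValuationSubring ↥(modularFunctionFieldBar N)} {ρ : V →+* κ}
    {O₀ O₁ : Subring ↥(modularFunctionFieldBar N)}
    {B₀ B₁ : Subalgebra (IsLocalRing.ResidueField A) κ}
    [IsDedekindDomain B₀] [IsFractionRing B₀ κ] [IsDedekindDomain B₁] [IsFractionRing B₁ κ]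
    (C₀ : RdmChart A V ρ (c0rT N H ha2 c0 c1) O₀ B₀)
    (C₁ : RdmChart A V ρ (c0rT N H ha2 c1 c0) O₁ B₁)
    (hO₀ : ∀ x ∈ O₀, x ∈ jrIC (jrPoly A (c0rT N H ha2 c0 c1)))
    (hO₁ : ∀ x ∈ O₁, x ∈ jrIC (jrPoly A (c0rT N H ha2 c1 c0)))
    (u : κ) (hB₀ : ∀ b ∈ B₀, IsIntegral (Algebra.adjoin (IsLocalRing.ResidueField A) {u}) b)
    (hB₁ : ∀ b ∈ B₁, IsIntegral (Algebra.adjoin (IsLocalRing.ResidueField A) {u⁻¹}) b)
    (hval : ∀ P : Place Qb ↥(modularFunctionFieldBar N), ∀ x ∈ jrRing A (jBar N) P,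
      ∃ a : A, RdmVal P x (a : Qb))
    (hF1 : c0rH N H ha2 ∈ jrOY A (jBar N))
    (hF2₀ : ∀ x ∈ jrIC (jrPoly A (c0rT N H ha2 c0 c1)), ∃ m : ℕ,
      x * (c0rH N H ha2 - algebraMap Qb ↥(modularFunctionFieldBar N) c0) ^ m ∈ jrOY A (jBar N))
    (hF2₁ : ∀ x ∈ jrIC (jrPoly A (c0rT N H ha2 c1 c0)), ∃ m : ℕ,
      x * (c0rH N H ha2 - algebraMap Qb ↥(modularFunctionFieldBar N) c1) ^ m ∈ jrOY A (jBar N))
    (hF3₀ : ∀ x ∈ jrIC (jrPoly A (c0rT N H ha2 c0 c1)), x ∈ jrOZ A (jBar N))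
    (hF3₁ : ∀ x ∈ jrIC (jrPoly A (c0rT N H ha2 c1 c0)), x ∈ jrOZ A (jBar N))
    (y : V)
    (hcons₀ : ∀ w : IsDedekindDomain.HeightOneSpectrum B₀,
      (Place.ofHeightOneSpectrum (K := IsLocalRing.ResidueField A) (F := κ) w).ord (ρ y) =
        ∑ᶠ P ∈ {P : Place Qb ↥(modularFunctionFieldBar N) |
          RdmTo A V ρ (c0rT N H ha2 c0 c1) O₀ P
            (Place.ofHeightOneSpectrum (K := IsLocalRing.ResidueField A) (F := κ) w)},
          P.ord (y : ↥(modularFunctionFieldBar N)))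
    (hcons₁ : ∀ w : IsDedekindDomain.HeightOneSpectrum B₁,
      (Place.ofHeightOneSpectrum (K := IsLocalRing.ResidueField A) (F := κ) w).ord (ρ y) =
        ∑ᶠ P ∈ {P : Place Qb ↥(modularFunctionFieldBar N) |
          RdmTo A V ρ (c0rT N H ha2 c1 c0) O₁ P
            (Place.ofHeightOneSpectrum (K := IsLocalRing.ResidueField A) (F := κ) w)},
          P.ord (y : ↥(modularFunctionFieldBar N)))
    (D : Divisor Qb ↥(modularFunctionFieldBar N))
    (hD : ∀ P : Place Qb ↥(modularFunctionFieldBar N),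
      D P = P.ord (y : ↥(modularFunctionFieldBar N)))
    (hcD : jrRed A (jBar N) D = 0) :
    ∃ a : IsLocalRing.ResidueField A, ρ y = algebraMap (IsLocalRing.ResidueField A) κ a := by
  have h10 : (c1 - c0)⁻¹ ∈ A := by
    have : (c1 - c0)⁻¹ = -(c0 - c1)⁻¹ := by
      rw [← neg_sub c0 c1, inv_neg]
    rw [this]
    exact A.neg_mem _ h01
  exact jrc_const_abs u hB₀ hB₁ y hcons₀ hcons₁ (jrCls A (jBar N))
    (fun w P P' hcls h => jrc_sat N H ha2 A c0 c1 hc0 hc1 hc h01 C₀ hO₀ hval hF1 hF2₀ hF3₀ _ P P'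
      hcls h)
    (fun w P P' hcls h => jrc_sat N H ha2 A c1 c0 hc1 hc0 (Ne.symm hc) h10 C₁ hO₁ hval hF1 hF2₁
      hF3₁ _ P P' hcls h)
    D hD hcD

end Fermat.Agent.S37
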