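import Mathlib

/-!
# S37, conservation: a counting lemma

`rdm_count_eq`: let `To : ι → W → Prop` be a partial function (`hTo`), `f : ι → ℤ` with finitely
many positive values, `S` a finite set of targets and `g : W → ℤ` with
`g w ≤ ∑ {i → w, 0 < f i} f i` for `w ∈ S`.  If `n ≤ ∑_{w ∈ S} g w` and the total positive mass of
`f` is `n`, then all the inequalities are equalities.
-/

set_option autoImplicit false

namespace Fermat.Agent.S37

theorem rdm_count_eq {ι W : Type*} (To : ι → W → Prop)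
    (hTo : ∀ i w w', To i w → To i w' → w = w') (f : ι → ℤ) (hfin : {i | 0 < f i}.Finite)
    (S : Finset W) (g : W → ℤ) (n : ℤ)
    (hle : ∀ w ∈ S, g w ≤ ∑ᶠ i ∈ {i | To i w ∧ 0 < f i}, f i)
    (hn : n ≤ ∑ w ∈ S, g w) (hf : ∑ᶠ i ∈ {i | 0 < f i}, f i = n) (w : W) (hw : w ∈ S) :
    g w = ∑ᶠ i ∈ {i | To i w ∧ 0 < f i}, f i := by
  classical
  set Z : Finset ι := hfin.toFinset with hZ
  have hZmem : ∀ i, i ∈ Z ↔ 0 < f i := fun i => by simp [hZ]
  -- the fibres as finsets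
  let Zw : W → Finset ι := fun w => Z.filter (fun i => To i w)
  have hZw : ∀ w, ∑ᶠ i ∈ {i | To i w ∧ 0 < f i}, f i = ∑ i ∈ Zw w, f i := by
    intro w
    have hset : {i | To i w ∧ 0 < f i} = ((Zw w : Finset ι) : Set ι) := by
      ext i
      show (To i w ∧ 0 < f i) ↔ i ∈ Z.filter (fun i => To i w)
      rw [Finset.mem_filter, hZmem]
      tauto
    rw [hset, finsum_mem_coe_finset]
  have hZtot : ∑ᶠ i ∈ {i | 0 < f i}, f i = ∑ i ∈ Z, f i := by
    have hset : {i | 0 < f i} = ((Z : Finset ι) : Set ι) := by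
      ext i
      show 0 < f i ↔ i ∈ Z
      rw [hZmem]
    rw [hset, finsum_mem_coe_finset]
  -- the fibres are pairwise disjoint
  have hdisj : (S : Set W).PairwiseDisjoint Zw := by
    intro w1 _ w2 _ hne
    rw [Function.onFun, Finset.disjoint_left]
    intro i h1 h2
    exact hne (hTo i w1 w2 (Finset.mem_filter.mp h1).2 (Finset.mem_filter.mp h2).2)
  have hsub : S.biUnion Zw ⊆ Z := by
    intro i hi
    obtain ⟨w', -, hi'⟩ := Finset.mem_biUnion.mp hi
    exact (Finset.mem_filter.mp hi').1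
  have h1 : ∑ w' ∈ S, ∑ i ∈ Zw w', f i ≤ ∑ i ∈ Z, f i := by
    rw [← Finset.sum_biUnion hdisj]
    exact Finset.sum_le_sum_of_subset_of_nonneg hsub
      (fun i hi _ => le_of_lt ((hZmem i).mp hi))
  have hle' : ∀ w' ∈ S, g w' ≤ ∑ i ∈ Zw w', f i := fun w' hw' => by
    rw [← hZw w']
    exact hle w' hw'
  have h2 : ∑ w' ∈ S, g w' ≤ ∑ w' ∈ S, ∑ i ∈ Zw w', f i := Finset.sum_le_sum hle'
  have h3 : ∑ w' ∈ S, g w' = ∑ w' ∈ S, ∑ i ∈ Zw w', f i := by
    refine le_antisymm h2 ?_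
    calc ∑ w' ∈ S, ∑ i ∈ Zw w', f i ≤ ∑ i ∈ Z, f i := h1
      _ = n := by rw [← hZtot, hf]
      _ ≤ ∑ w' ∈ S, g w' := hn
  rw [hZw w]
  exact (Finset.sum_eq_sum_iff_of_le hle').mp h3 w hw

end Fermat.Agent.S37
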