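import Mathlib
import Fermat.Prelude.Def_AlgebraicCurve_DivisorClassGroup
import Fermat.Agent.S24.SumFormulaBase
import Fermat.Agent.S37.RedMapDefs
import Fermat.Agent.S37.RedMapAbs

/-!
# S37, package REDMAP: the chart as a ring (part 2 of the conservation argument)

* Dedekind lemmas: `rdm_powers_indep`, `rdm_intValuation_eq`, `rdm_mem_iff_ord_pos`;
* the chart `O` as a subring `rdmOV V O` of `V`, with the residue map `rdmRhoO C` onto `B`,
  the constants `rdmCO G C` and the coordinate `rdmT C`;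
* `rdm_normalize`, `rdm_exists_sep`: the two ingredients of the inequality (C1).
-/

set_option autoImplicit false

noncomputable section

open AlgebraicCurve IsDedekindDomain

namespace Fermat.Agent.S37

open Fermat.Agent.S24

/-! ### Dedekind lemmas -/

section Dedekind

variable {k B : Type*} [Field k] [CommRing B] [IsDedekindDomain B] [Algebra k B]

omit [IsDedekindDomain B] in
theorem rdm_const_notMem (w : HeightOneSpectrum B) (u : k) (hu : u ≠ 0) :
    algebraMap k B u ∉ w.asIdeal := by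
  intro h
  have hunit : IsUnit (algebraMap k B u) := (IsUnit.mk0 u hu).map (algebraMap k B)
  exact w.isPrime.ne_top (Ideal.eq_top_of_isUnit_mem _ h hunit)

/-- A polynomial of degree `< e` in a uniformizer with constant coefficients which vanishes to
order `≥ e` is zero. -/
theorem rdm_powers_indep (w : HeightOneSpectrum B) (π : B)
    (hπ : w.intValuation π = WithZero.exp (-1 : ℤ)) :
    ∀ (e : ℕ) (u : Fin e → k),
      w.intValuation (∑ j, algebraMap k B (u j) * π ^ (j : ℕ)) ≤ WithZero.exp (-(e : ℤ)) →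
      ∀ j, u j = 0 := by
  intro e
  induction e with
  | zero => intro u _ j; exact j.elim0
  | succ e ih =>
    intro u h
    have hπmem : π ∈ w.asIdeal := by
      rw [← HeightOneSpectrum.intValuation_lt_one_iff_mem, hπ]
      exact WithZero.exp_lt_exp.mpr (by norm_num) |>.trans_eq WithZero.exp_zero
    have hsplit : ∑ j : Fin (e + 1), algebraMap k B (u j) * π ^ (j : ℕ) =
        algebraMap k B (u 0) + π * ∑ j : Fin e, algebraMap k B (u j.succ) * π ^ (j : ℕ) := by
      rw [Fin.sum_univ_succ, Finset.mul_sum]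
      congr 1
      · simp
      · refine Finset.sum_congr rfl fun j _ => ?_
        rw [Fin.val_succ, pow_succ]
        ring
    rw [hsplit] at h
    have hmem : algebraMap k B (u 0) + π * ∑ j : Fin e, algebraMap k B (u j.succ) * π ^ (j : ℕ) ∈
        w.asIdeal := by
      rw [← HeightOneSpectrum.intValuation_lt_one_iff_mem]
      refine lt_of_le_of_lt h ?_
      exact WithZero.exp_lt_exp.mpr (by omega) |>.trans_eq WithZero.exp_zero
    have hu0 : u 0 = 0 := by
      by_contra hne
      apply rdm_const_notMem w (u 0) hne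
      have := w.asIdeal.sub_mem hmem (w.asIdeal.mul_mem_right
        (∑ j : Fin e, algebraMap k B (u j.succ) * π ^ (j : ℕ)) hπmem)
      simpa using this
    rw [hu0, map_zero, zero_add, map_mul, hπ] at h
    have h2 : w.intValuation (∑ j : Fin e, algebraMap k B (u j.succ) * π ^ (j : ℕ)) ≤
        WithZero.exp (-(e : ℤ)) := by
      have h3 : WithZero.exp (-((e + 1 : ℕ) : ℤ)) = WithZero.exp (-1 : ℤ) * WithZero.exp (-(e : ℤ)) := by
        rw [← WithZero.exp_add]
        congr 1
        push_cast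
        ring
      rw [h3] at h
      exact (mul_le_mul_iff_right₀ (WithZero.exp_pos)).mp h
    have h4 := ih (fun j => u j.succ) h2
    intro j
    refine Fin.cases hu0 (fun i => h4 i) j

end Dedekind

/-! ### Orders at the places of a Dedekind chart ring -/

section DedPlace

variable {k κ : Type*} [Field k] [Field κ] [Algebra k κ] {B : Subalgebra k κ}
  [IsDedekindDomain B] [IsFractionRing B κ]

theorem rdm_ord_nonneg (w : HeightOneSpectrum B) (b : B) :
    0 ≤ (Place.ofHeightOneSpectrum (K := k) (F := κ) w).ord (b : κ) := by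
  rw [sf_ord_nonneg_iff, sf_mem_ofHeightOneSpectrum_iff]
  exact w.valuation_le_one b

theorem rdm_intValuation_eq (w : HeightOneSpectrum B) (b : B) (hb : b ≠ 0) :
    w.intValuation b =
      WithZero.exp (-(Place.ofHeightOneSpectrum (K := k) (F := κ) w).ord (b : κ)) := by
  have h1 : (Place.ofHeightOneSpectrum (K := k) (F := κ) w).ord (b : κ) =
      -WithZero.log (w.valuation κ (algebraMap B κ b)) :=
    sf_ord_ofHeightOneSpectrum (K := k) (F := κ) w (algebraMap B κ b)
  rw [h1, neg_neg, w.valuation_of_algebraMap, WithZero.exp_log]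
  exact (w.intValuation_ne_zero b) hb

theorem rdm_ord_eq_zero_of_notMem (w : HeightOneSpectrum B) (b : B) (hb : b ∉ w.asIdeal) :
    (Place.ofHeightOneSpectrum (K := k) (F := κ) w).ord (b : κ) = 0 := by
  have h1 := rdm_ord_nonneg (k := k) w b
  have h2 : ¬ (b = 0 ∨ 0 < (Place.ofHeightOneSpectrum (K := k) (F := κ) w).ord
      (algebraMap B κ b)) := fun h => hb ((sf_mem_asIdeal_iff_ord (K := k) (F := κ) w b).mpr h)
  push Not at h2
  have h3 : (Place.ofHeightOneSpectrum (K := k) (F := κ) w).ord (b : κ) ≤ 0 := h2.2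
  omega

theorem rdm_mem_iff_ord_pos (w : HeightOneSpectrum B) (b : B) (hb : b ≠ 0) :
    b ∈ w.asIdeal ↔ 0 < (Place.ofHeightOneSpectrum (K := k) (F := κ) w).ord (b : κ) := by
  rw [sf_mem_asIdeal_iff_ord (K := k) (F := κ) w b]
  constructor
  · rintro (h | h)
    · exact absurd h hb
    · exact h
  · intro h
    exact Or.inr h

end DedPlace

/-! ### The chart as a subring of `V` -/

section OV

variable {K : Type*} [Field K] {A : ValuationSubring K}
variable {F : Type*} [Field F] [Algebra K F]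
variable {κ : Type*} [Field κ] [Algebra (IsLocalRing.ResidueField A) κ]
variable {V : ValuationSubring F} {ρ : V →+* κ} {t : F} {O : Subring F}
variable {B : Subalgebra (IsLocalRing.ResidueField A) κ}

/-- The chart `O` as a subring of `V`. -/
def rdmOV (V : ValuationSubring F) (O : Subring F) : Subring V := O.comap V.subtype

theorem mem_rdmOV (x : V) : x ∈ rdmOV V O ↔ (x : F) ∈ O := Iff.rfl

/-- The residue map on the chart, with values in `B`. -/
def rdmRhoO (C : RdmChart A V ρ t O B) : rdmOV V O →+* B where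
  toFun x := ⟨ρ x.1, (C.image _).mpr ⟨x.1, x.2, rfl⟩⟩
  map_one' := Subtype.ext (map_one ρ)
  map_mul' x y := Subtype.ext (map_mul ρ x.1 y.1)
  map_zero' := Subtype.ext (map_zero ρ)
  map_add' x y := Subtype.ext (map_add ρ x.1 y.1)

theorem rdm_coe_rhoO (C : RdmChart A V ρ t O B) (x : rdmOV V O) :
    ((rdmRhoO C x : B) : κ) = ρ (x : V) := rfl

theorem rdmRhoO_surjective (C : RdmChart A V ρ t O B) : Function.Surjective (rdmRhoO C) := by
  intro b
  obtain ⟨x, hx, hxb⟩ := (C.image (b : κ)).mp b.2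
  exact ⟨⟨x, hx⟩, Subtype.ext hxb⟩

/-- The structure map `A → O`. -/
def rdmCO (G : RdmGauss A V ρ) (C : RdmChart A V ρ t O B) : A →+* rdmOV V O :=
  (rdmC G).codRestrict (rdmOV V O) fun c => C.const c

theorem rdm_coe_CO (G : RdmGauss A V ρ) (C : RdmChart A V ρ t O B) (c : A) :
    (((rdmCO G C c : rdmOV V O) : V) : F) = algebraMap K F (c : K) := rfl

theorem rdm_rhoO_CO (G : RdmGauss A V ρ) (C : RdmChart A V ρ t O B) (c : A) :
    rdmRhoO C (rdmCO G C c) =
      algebraMap (IsLocalRing.ResidueField A) B (IsLocalRing.residue A c) :=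
  Subtype.ext (G.rho c)

/-- The coordinate as an element of the chart. -/
def rdmT (C : RdmChart A V ρ t O B) : rdmOV V O := ⟨⟨t, C.le t C.t_mem⟩, C.t_mem⟩

theorem rdm_coe_T (C : RdmChart A V ρ t O B) : (((rdmT C : rdmOV V O) : V) : F) = t := rfl

theorem rdm_rhoO_ne_zero_iff (C : RdmChart A V ρ t O B) (x : rdmOV V O) :
    rdmRhoO C x ≠ 0 ↔ ρ (x : V) ≠ 0 := by
  rw [Ne, Ne, ← rdm_coe_rhoO C x]
  exact not_congr ⟨fun h => by rw [h]; rfl, fun h => Subtype.ext h⟩

theorem rdm_coe_ne_zero (G : RdmGauss A V ρ) (C : RdmChart A V ρ t O B) (x : rdmOV V O)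
    (hx : rdmRhoO C x ≠ 0) : ((x : V) : F) ≠ 0 :=
  rdm_ne_zero G (x : V) ((rdm_rhoO_ne_zero_iff C x).mp hx)

/-- Elements of the chart are regular at the points of the chart. -/
theorem rdm_to_reg (C : RdmChart A V ρ t O B) (P : Place K F)
    (hP : ∃ c : A, RdmVal P t (c : K)) (x : rdmOV V O) : 0 ≤ P.ord ((x : V) : F) := by
  obtain ⟨c, hc⟩ := hP
  exact C.reg _ x.2 P (rdmVal_ord_nonneg P hc)

/-- The coercion `O → F` as a ring homomorphism. -/
def rdmCoe (V : ValuationSubring F) (O : Subring F) : rdmOV V O →+* F :=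
  V.subtype.comp (rdmOV V O).subtype

theorem rdmCoe_apply (x : rdmOV V O) : rdmCoe V O x = ((x : V) : F) := rfl

end OV

/-! ### Auxiliary lemmas -/

section Aux

variable {K F : Type*} [Field K] [Field F] [Algebra K F]

theorem rdmVal_sum (P : Place K F) {ι : Type*} (s : Finset ι) (f : ι → F) (c : ι → K)
    (h : ∀ i ∈ s, RdmVal P (f i) (c i)) : RdmVal P (∑ i ∈ s, f i) (∑ i ∈ s, c i) := by
  classical
  induction s using Finset.induction_on with
  | empty => simpa using rdmVal_zero P
  | insert i s hi ih =>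
    rw [Finset.sum_insert hi, Finset.sum_insert hi]
    exact rdmVal_add P (h i (Finset.mem_insert_self i s))
      (ih fun j hj => h j (Finset.mem_insert_of_mem hj))

theorem rdm_ord_pow (P : Place K F) (f : F) (n : ℕ) : P.ord (f ^ n) = n * P.ord f := by
  rw [← zpow_natCast, P.ord_zpow]

theorem rdm_inv_mem_maximalIdeal (A : ValuationSubring K) (d : K) (hd : d ∉ A) :
    ∃ h : d⁻¹ ∈ A, (⟨d⁻¹, h⟩ : A) ∈ IsLocalRing.maximalIdeal A := by
  have hdi : d⁻¹ ∈ A := (A.mem_or_inv_mem d).resolve_left hd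
  refine ⟨hdi, ?_⟩
  have hd0 : d ≠ 0 := fun h => hd (h ▸ A.zero_mem)
  rw [IsLocalRing.mem_maximalIdeal, mem_nonunits_iff]
  intro hu
  obtain ⟨⟨e, he⟩, he1⟩ := isUnit_iff_exists_inv.mp hu
  have h1 : d⁻¹ * e = 1 := congrArg Subtype.val he1
  have h2 : e = d := by
    field_simp at h1
    exact h1
  exact hd (h2 ▸ he)

end Aux

/-! ### The inequality -/

section Cons

variable {K : Type*} [Field K] {A : ValuationSubring K}
variable {F : Type*} [Field F] [Algebra K F]
variable {κ : Type*} [Field κ] [Algebra (IsLocalRing.ResidueField A) κ]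
variable {V : ValuationSubring F} {ρ : V →+* κ} {t : F} {O : Subring F}
variable {B : Subalgebra (IsLocalRing.ResidueField A) κ}
variable [IsDedekindDomain B] [IsFractionRing B κ]

omit [IsFractionRing B κ] in
/-- Normalisation of a nonzero `K`-combination of powers of a lifted uniformizer. -/
theorem rdm_normalize (G : RdmGauss A V ρ) (C : RdmChart A V ρ t O B) (w : HeightOneSpectrum B)
    (π : rdmOV V O) (hπ : w.intValuation (rdmRhoO C π) = WithZero.exp (-1 : ℤ)) (e : ℕ)
    (c : Fin e → K) (hc : ∃ j, c j ≠ 0) :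
    ∃ (d : K) (x' : rdmOV V O), d ≠ 0 ∧
      ((x' : V) : F) = algebraMap K F d * ∑ j, algebraMap K F (c j) * ((π : V) : F) ^ (j : ℕ) ∧
      WithZero.exp (-(e : ℤ)) < w.intValuation (rdmRhoO C x') := by
  obtain ⟨j1, hj1⟩ := hc
  obtain ⟨j0, -, hj0⟩ := Finset.exists_max_image Finset.univ (fun j => A.valuation (c j))
    ⟨j1, Finset.mem_univ _⟩
  have hcj0 : c j0 ≠ 0 := by
    intro h0
    have h1 := hj0 j1 (Finset.mem_univ _)
    rw [h0, map_zero] at h1
    exact hj1 ((map_eq_zero _).mp (le_antisymm h1 zero_le))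
  have hmem : ∀ j, (c j0)⁻¹ * c j ∈ A := by
    intro j
    rw [← ValuationSubring.valuation_le_one_iff, map_mul, map_inv₀]
    have h1 := hj0 j (Finset.mem_univ _)
    have h2 : A.valuation (c j0) ≠ 0 := (Valuation.ne_zero_iff _).mpr hcj0
    rw [inv_mul_le_iff₀ (zero_lt_iff.mpr h2), mul_one]
    exact h1
  let a : Fin e → A := fun j => ⟨(c j0)⁻¹ * c j, hmem j⟩
  have ha0 : a j0 = 1 := Subtype.ext (inv_mul_cancel₀ hcj0)
  refine ⟨(c j0)⁻¹, ∑ j, rdmCO G C (a j) * π ^ (j : ℕ), inv_ne_zero hcj0, ?_, ?_⟩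
  · rw [← rdmCoe_apply, map_sum, Finset.mul_sum]
    refine Finset.sum_congr rfl fun j _ => ?_
    rw [map_mul, map_pow, rdmCoe_apply, rdmCoe_apply, rdm_coe_CO]
    show algebraMap K F ((c j0)⁻¹ * c j) * _ = _
    rw [map_mul]
    ring
  · by_contra hle
    rw [not_lt, map_sum] at hle
    have h3 : ∀ j : Fin e, rdmRhoO C (rdmCO G C (a j) * π ^ (j : ℕ)) =
        algebraMap (IsLocalRing.ResidueField A) B (IsLocalRing.residue A (a j)) *
          (rdmRhoO C π) ^ (j : ℕ) := fun j => by rw [map_mul, map_pow, rdm_rhoO_CO]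
    rw [Finset.sum_congr rfl fun j _ => h3 j] at hle
    have h4 := rdm_powers_indep w (rdmRhoO C π) hπ e (fun j => IsLocalRing.residue A (a j)) hle j0
    rw [ha0, map_one] at h4
    exact one_ne_zero h4

/-- Separation: a place where `t` is regular and which does not specialize to `w` is a zero of an
element of the chart whose residue is a unit at `w`. -/
theorem rdm_exists_sep (G : RdmGauss A V ρ) (C : RdmChart A V ρ t O B)
    (ht : Transcendental (IsLocalRing.ResidueField A) (ρ ⟨t, C.le t C.t_mem⟩))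
    (hres : ∀ (P : Place K F) (x : F), 0 ≤ P.ord x → ∃ c : K, RdmVal P x c)
    (w : HeightOneSpectrum B) (P' : Place K F) (hP't : 0 ≤ P'.ord t)
    (hnot : ¬ RdmTo A V ρ t O P'
      (Place.ofHeightOneSpectrum (K := IsLocalRing.ResidueField A) (F := κ) w)) :
    ∃ σ : rdmOV V O, rdmRhoO C σ ∉ w.asIdeal ∧ 0 < P'.ord ((σ : V) : F) := by
  by_cases hP : ∃ c : A, RdmVal P' t (c : K)
  · obtain ⟨w', hw'⟩ := rdm_exists_to G C ht P' hP
    have hne : w' ≠ w := fun h => hnot (h ▸ hw')
    have hnle : ¬ w'.asIdeal ≤ w.asIdeal := by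
      intro hle
      apply hne
      exact HeightOneSpectrum.ext (w'.isMaximal.eq_of_le w.isPrime.ne_top hle)
    obtain ⟨b, hbw', hbw⟩ := SetLike.not_le_iff_exists.mp hnle
    obtain ⟨y, rfl⟩ := rdmRhoO_surjective C b
    obtain ⟨c, hc⟩ := C.val _ y.2 P' hP
    have hcm : c ∈ IsLocalRing.maximalIdeal A :=
      (rdm_to_mem_iff C P' w' hw' (y : V) y.2 c hc (rdmRhoO C y) rfl).mp hbw'
    have hσ : rdmRhoO C (y - rdmCO G C c) ∉ w.asIdeal := by
      rw [map_sub, rdm_rhoO_CO, (IsLocalRing.residue_eq_zero_iff _).mpr hcm, map_zero, sub_zero]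
      exact hbw
    refine ⟨y - rdmCO G C c, hσ, ?_⟩
    have hv : RdmVal P' (((y - rdmCO G C c : rdmOV V O) : V) : F) (0 : K) := by
      have := rdmVal_sub P' hc (rdmVal_const P' (c : K))
      rwa [sub_self] at this
    exact rdmVal_ord_pos P' hv
      (rdm_coe_ne_zero G C _ fun h => hσ (h ▸ Ideal.zero_mem _))
  · obtain ⟨α, hα⟩ := hres P' t hP't
    have hαA : α ∉ A := fun h => hP ⟨⟨α, h⟩, hα⟩
    have hα0 : α ≠ 0 := fun h => hαA (h ▸ A.zero_mem)
    obtain ⟨hβA, hβm⟩ := rdm_inv_mem_maximalIdeal A α hαA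
    have hσ : rdmRhoO C (1 - rdmCO G C ⟨α⁻¹, hβA⟩ * rdmT C) ∉ w.asIdeal := by
      rw [map_sub, map_mul, rdm_rhoO_CO, (IsLocalRing.residue_eq_zero_iff _).mpr hβm, map_zero,
        zero_mul, sub_zero, map_one]
      exact fun h => w.isPrime.ne_top ((Ideal.eq_top_iff_one _).mpr h)
    refine ⟨1 - rdmCO G C ⟨α⁻¹, hβA⟩ * rdmT C, hσ, ?_⟩
    have hv : RdmVal P' (((1 - rdmCO G C ⟨α⁻¹, hβA⟩ * rdmT C : rdmOV V O) : V) : F) (0 : K) := by
      have := rdmVal_sub P' (rdmVal_one P') (rdmVal_mul P' (rdmVal_const P' α⁻¹) hα)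
      rwa [inv_mul_cancel₀ hα0, sub_self] at this
    exact rdmVal_ord_pos P' hv
      (rdm_coe_ne_zero G C _ fun h => hσ (h ▸ Ideal.zero_mem _))

end Cons

end Fermat.Agent.S37
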