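import Mathlib
import Fermat.Prelude.Def_AlgebraicCurve_DivisorClassGroup
import Fermat.Agent.S24.SumFormulaBase
import Fermat.Agent.S37.RedMapDefs
import Fermat.Agent.S37.RedMapAbs
import Fermat.Agent.S37.RedMapChart
import Fermat.Agent.S37.RedConsCount

/-!
# S37, package JR-CONS (REDMAP): assembly of the conservation law from the inequality

Setting of `RedMapChart.lean`, `section Cons`.  For `y : V` with nonzero residue write
`L w y := ord_w (ρ y)` and `R w y := ∑ {P ↦ w} ord_P y` (`rdmaR`), and `rdmaCons y` for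
`∀ w, L w y = R w y`.  Given the inequality `L w a ≤ R w a` for the elements `a` of the chart
with nonzero residue (hypothesis `hle`), the fibre counts `hfibF` / `hfibκ` of the coordinate
and finiteness `hfin`, the theorem `rdma_cons_of_le` proves `rdmaCons y` for all `y : V` with
nonzero residue:

* `rdma_cons_mul`, `rdma_cons_pow`, `rdma_cons_of_mul_le`, `rdma_cons_of_mul`: multiplicativity;
* `rdma_cons_linear`: the linear factors `t - α`, `α ∈ A` (counting lemma `rdm_count_eq`);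
* `rdma_cons_unit`: the factors `1 - β t`, `β ∈ 𝔪_A`;
* `rdma_exists_lambda`: a conservative element of the chart with prescribed vanishing;
* `rdma_cons_chart`: all elements of the chart with nonzero residue;
* `rdma_cons_of_le`: all Gauss units.
-/

set_option autoImplicit false

noncomputable section

open AlgebraicCurve IsDedekindDomain

namespace Fermat.Agent.S37

open Fermat.Agent.S24

section Asm

variable {K : Type*} [Field K] {A : ValuationSubring K}
variable {F : Type*} [Field F] [Algebra K F]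
variable {κ : Type*} [Field κ] [Algebra (IsLocalRing.ResidueField A) κ]
variable {V : ValuationSubring F} {ρ : V →+* κ} {t : F} {O : Subring F}
variable {B : Subalgebra (IsLocalRing.ResidueField A) κ}
variable [IsDedekindDomain B] [IsFractionRing B κ]

/-- The right-hand side of the conservation law: the sum of the orders of `f` over the places
of `F / K` which specialize to `w`. -/
def rdmaR (A : ValuationSubring K) {κ : Type*} [Field κ] [Algebra (IsLocalRing.ResidueField A) κ]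
    (V : ValuationSubring F) (ρ : V →+* κ) (t : F) (O : Subring F)
    {B : Subalgebra (IsLocalRing.ResidueField A) κ} [IsDedekindDomain B] [IsFractionRing B κ]
    (w : HeightOneSpectrum B) (f : F) : ℤ :=
  ∑ᶠ P ∈ {P : Place K F | RdmTo A V ρ t O P
    (Place.ofHeightOneSpectrum (K := IsLocalRing.ResidueField A) (F := κ) w)}, P.ord f

/-- The conservation law for `y`. -/
def rdmaCons (A : ValuationSubring K) {κ : Type*} [Field κ]
    [Algebra (IsLocalRing.ResidueField A) κ] {V : ValuationSubring F} (ρ : V →+* κ) (t : F)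
    (O : Subring F) (B : Subalgebra (IsLocalRing.ResidueField A) κ) [IsDedekindDomain B]
    [IsFractionRing B κ] (y : V) : Prop :=
  ∀ w : HeightOneSpectrum B,
    (Place.ofHeightOneSpectrum (K := IsLocalRing.ResidueField A) (F := κ) w).ord (ρ y) =
      rdmaR A V ρ t O w (y : F)

/-! ### Additivity -/

theorem rdma_R_mul (hfin : ∀ f : F, f ≠ 0 → (Function.support fun P : Place K F => P.ord f).Finite)
    (w : HeightOneSpectrum B) {f g : F} (hf : f ≠ 0) (hg : g ≠ 0) :
    rdmaR A V ρ t O w (f * g) = rdmaR A V ρ t O w f + rdmaR A V ρ t O w g := by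
  unfold rdmaR
  rw [← finsum_mem_add_distrib' ((hfin f hf).subset Set.inter_subset_right)
    ((hfin g hg).subset Set.inter_subset_right)]
  exact finsum_mem_congr rfl fun P _ => P.ord_mul hf hg

theorem rdma_R_one (w : HeightOneSpectrum B) : rdmaR A V ρ t O w (1 : F) = 0 := by
  unfold rdmaR
  exact finsum_mem_eq_zero_of_forall_eq_zero fun P _ => P.ord_one

theorem rdma_cons_one : rdmaCons A ρ t O B (1 : V) := by
  intro w
  rw [map_one, Place.ord_one]
  exact (rdma_R_one w).symm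

theorem rdma_cons_mul (G : RdmGauss A V ρ)
    (hfin : ∀ f : F, f ≠ 0 → (Function.support fun P : Place K F => P.ord f).Finite)
    {y z : V} (hy : ρ y ≠ 0) (hz : ρ z ≠ 0) (h1 : rdmaCons A ρ t O B y)
    (h2 : rdmaCons A ρ t O B z) : rdmaCons A ρ t O B (y * z) := by
  intro w
  rw [map_mul, Place.ord_mul _ hy hz, h1 w, h2 w]
  exact (rdma_R_mul hfin w (rdm_ne_zero G y hy) (rdm_ne_zero G z hz)).symm

theorem rdma_cons_pow (G : RdmGauss A V ρ)
    (hfin : ∀ f : F, f ≠ 0 → (Function.support fun P : Place K F => P.ord f).Finite)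
    {y : V} (hy : ρ y ≠ 0) (h : rdmaCons A ρ t O B y) (n : ℕ) : rdmaCons A ρ t O B (y ^ n) := by
  induction n with
  | zero => rw [pow_zero]; exact rdma_cons_one
  | succ n ih =>
    rw [pow_succ]
    exact rdma_cons_mul G hfin (by rw [map_pow]; exact pow_ne_zero _ hy) hy ih h

/-- If a product is conservative and both factors satisfy the inequality, then the first factor
is conservative. -/
theorem rdma_cons_of_mul_le (G : RdmGauss A V ρ)
    (hfin : ∀ f : F, f ≠ 0 → (Function.support fun P : Place K F => P.ord f).Finite)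
    {y z : V} (hy : ρ y ≠ 0) (hz : ρ z ≠ 0) (h : rdmaCons A ρ t O B (y * z))
    (hly : ∀ w : HeightOneSpectrum B,
      (Place.ofHeightOneSpectrum (K := IsLocalRing.ResidueField A) (F := κ) w).ord (ρ y) ≤
        rdmaR A V ρ t O w (y : F))
    (hlz : ∀ w : HeightOneSpectrum B,
      (Place.ofHeightOneSpectrum (K := IsLocalRing.ResidueField A) (F := κ) w).ord (ρ z) ≤
        rdmaR A V ρ t O w (z : F)) : rdmaCons A ρ t O B y := by
  intro w
  have h1 := h w
  rw [map_mul, Place.ord_mul _ hy hz] at h1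
  have h2 : rdmaR A V ρ t O w ((y * z : V) : F) =
      rdmaR A V ρ t O w (y : F) + rdmaR A V ρ t O w (z : F) :=
    rdma_R_mul hfin w (rdm_ne_zero G y hy) (rdm_ne_zero G z hz)
  rw [h2] at h1
  have h3 := hly w
  have h4 := hlz w
  omega

/-- If a product and its second factor are conservative, so is the first factor. -/
theorem rdma_cons_of_mul (G : RdmGauss A V ρ)
    (hfin : ∀ f : F, f ≠ 0 → (Function.support fun P : Place K F => P.ord f).Finite)
    {y z : V} (hy : ρ y ≠ 0) (hz : ρ z ≠ 0) (h : rdmaCons A ρ t O B (y * z))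
    (hz' : rdmaCons A ρ t O B z) : rdmaCons A ρ t O B y := by
  intro w
  have h1 := h w
  rw [map_mul, Place.ord_mul _ hy hz] at h1
  have h2 : rdmaR A V ρ t O w ((y * z : V) : F) =
      rdmaR A V ρ t O w (y : F) + rdmaR A V ρ t O w (z : F) :=
    rdma_R_mul hfin w (rdm_ne_zero G y hy) (rdm_ne_zero G z hz)
  rw [h2] at h1
  have h3 := hz' w
  omega

/-! ### The linear factors `t - α` -/

omit [IsDedekindDomain B] [IsFractionRing B κ] in
theorem rdma_rho_linear (G : RdmGauss A V ρ) (C : RdmChart A V ρ t O B) (α : A) :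
    ρ ((rdmT C - rdmCO G C α : rdmOV V O) : V) = ρ ⟨t, C.le t C.t_mem⟩ -
      algebraMap (IsLocalRing.ResidueField A) κ (IsLocalRing.residue A α) := by
  show ρ (⟨t, C.le t C.t_mem⟩ - rdmC G α) = _
  rw [map_sub, rdm_rho_C]

omit [IsDedekindDomain B] [IsFractionRing B κ] in
theorem rdma_linear_ne_zero (G : RdmGauss A V ρ) (C : RdmChart A V ρ t O B)
    (ht : Transcendental (IsLocalRing.ResidueField A) (ρ ⟨t, C.le t C.t_mem⟩)) (α : A) :
    rdmRhoO C (rdmT C - rdmCO G C α) ≠ 0 := by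
  rw [rdm_rhoO_ne_zero_iff, rdma_rho_linear G C α]
  intro h0
  apply ht
  rw [sub_eq_zero.mp h0]
  exact isAlgebraic_algebraMap _

theorem rdma_cons_linear (G : RdmGauss A V ρ) (C : RdmChart A V ρ t O B)
    (ht : Transcendental (IsLocalRing.ResidueField A) (ρ ⟨t, C.le t C.t_mem⟩))
    (hfin : ∀ f : F, f ≠ 0 → (Function.support fun P : Place K F => P.ord f).Finite) (n : ℕ)
    (hfibF : ∀ α : A, ∑ᶠ P ∈ {P : Place K F | 0 < P.ord (t - algebraMap K F (α : K))},
      P.ord (t - algebraMap K F (α : K)) = (n : ℤ))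
    (hfibκ : ∀ c : IsLocalRing.ResidueField A, ∃ S : Finset (HeightOneSpectrum B),
      (∀ w, w ∈ S ↔ ∀ b : B, (b : κ) = ρ ⟨t, C.le t C.t_mem⟩ -
          algebraMap (IsLocalRing.ResidueField A) κ c → b ∈ w.asIdeal) ∧
      (n : ℤ) ≤ ∑ w ∈ S,
        (Place.ofHeightOneSpectrum (K := IsLocalRing.ResidueField A) (F := κ) w).ord
          (ρ ⟨t, C.le t C.t_mem⟩ - algebraMap (IsLocalRing.ResidueField A) κ c))
    (hle : ∀ a : rdmOV V O, rdmRhoO C a ≠ 0 → ∀ w : HeightOneSpectrum B,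
      (Place.ofHeightOneSpectrum (K := IsLocalRing.ResidueField A) (F := κ) w).ord (ρ (a : V)) ≤
        ∑ᶠ P ∈ {P : Place K F | RdmTo A V ρ t O P
          (Place.ofHeightOneSpectrum (K := IsLocalRing.ResidueField A) (F := κ) w)},
          P.ord ((a : V) : F))
    (α : A) : rdmaCons A ρ t O B ((rdmT C - rdmCO G C α : rdmOV V O) : V) := by
  classical
  obtain ⟨a, ha⟩ : ∃ a : rdmOV V O, a = rdmT C - rdmCO G C α := ⟨_, rfl⟩
  rw [← ha]
  have hane : rdmRhoO C a ≠ 0 := ha ▸ rdma_linear_ne_zero G C ht α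
  have haF : ((a : V) : F) = t - algebraMap K F (α : K) := by rw [ha]; rfl
  have haρ : ρ (a : V) = ρ ⟨t, C.le t C.t_mem⟩ -
      algebraMap (IsLocalRing.ResidueField A) κ (IsLocalRing.residue A α) := by
    rw [ha]; exact rdma_rho_linear G C α
  have haF0 : ((a : V) : F) ≠ 0 := rdm_coe_ne_zero G C a hane
  obtain ⟨S, hS, hSn⟩ := hfibκ (IsLocalRing.residue A α)
  have hSmem : ∀ w, w ∈ S ↔ rdmRhoO C a ∈ w.asIdeal := by
    intro w
    rw [hS]
    constructor
    · intro h
      exact h _ haρ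
    · intro h b hb
      have hb' : b = rdmRhoO C a := Subtype.ext (by rw [hb, rdm_coe_rhoO, haρ])
      rw [hb']
      exact h
  have hreg : ∀ (w : HeightOneSpectrum B) (P : Place K F), RdmTo A V ρ t O P
      (Place.ofHeightOneSpectrum (K := IsLocalRing.ResidueField A) (F := κ) w) →
      0 ≤ P.ord ((a : V) : F) := fun w P h => rdm_to_reg C P h.1 a
  have hpos : ∀ (w : HeightOneSpectrum B) (P : Place K F), RdmTo A V ρ t O P
      (Place.ofHeightOneSpectrum (K := IsLocalRing.ResidueField A) (F := κ) w) →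
      0 < P.ord ((a : V) : F) → rdmRhoO C a ∈ w.asIdeal := by
    intro w P h hp
    have hv : RdmVal P ((a : V) : F) (((0 : A) : K)) := by
      right
      simpa using hp
    exact (rdm_to_mem_iff C P w h (a : V) a.2 0 hv (rdmRhoO C a) rfl).mpr (Ideal.zero_mem _)
  have hsum : ∀ w : HeightOneSpectrum B,
      ∑ᶠ P ∈ {P : Place K F | RdmTo A V ρ t O P
        (Place.ofHeightOneSpectrum (K := IsLocalRing.ResidueField A) (F := κ) w) ∧
          0 < P.ord ((a : V) : F)}, P.ord ((a : V) : F) = rdmaR A V ρ t O w ((a : V) : F) := by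
    intro w
    unfold rdmaR
    have hset : {P : Place K F | RdmTo A V ρ t O P
        (Place.ofHeightOneSpectrum (K := IsLocalRing.ResidueField A) (F := κ) w) ∧
          0 < P.ord ((a : V) : F)} =
        {P : Place K F | RdmTo A V ρ t O P
          (Place.ofHeightOneSpectrum (K := IsLocalRing.ResidueField A) (F := κ) w)} ∩
          Function.support fun P : Place K F => P.ord ((a : V) : F) := by
      ext P
      constructor
      · rintro ⟨h1, h2⟩
        exact ⟨h1, ne_of_gt h2⟩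
      · rintro ⟨h1, h2⟩
        exact ⟨h1, lt_of_le_of_ne (hreg w P h1) (Ne.symm h2)⟩
    rw [hset, finsum_mem_inter_support]
  intro w
  by_cases hw : w ∈ S
  · have hcount := rdm_count_eq
      (fun (P : Place K F) (w : HeightOneSpectrum B) => RdmTo A V ρ t O P
        (Place.ofHeightOneSpectrum (K := IsLocalRing.ResidueField A) (F := κ) w))
      (fun P w w' h h' => sf_ofHeightOneSpectrum_injective (rdm_to_unique C P _ _ h h'))
      (fun P => P.ord ((a : V) : F)) ((hfin _ haF0).subset fun P hP => (ne_of_gt hP))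
      S (fun w => (Place.ofHeightOneSpectrum (K := IsLocalRing.ResidueField A) (F := κ) w).ord
        (ρ (a : V))) (n : ℤ)
      (fun w' _ => (hle a hane w').trans (le_of_eq (hsum w').symm))
      (by rw [haρ]; exact hSn) (by rw [haF]; exact hfibF α) w hw
    exact hcount.trans (hsum w)
  · have hnm : rdmRhoO C a ∉ w.asIdeal := fun h => hw ((hSmem w).mpr h)
    have hL : (Place.ofHeightOneSpectrum (K := IsLocalRing.ResidueField A) (F := κ) w).ord
        (ρ (a : V)) = 0 := rdm_ord_eq_zero_of_notMem w (rdmRhoO C a) hnm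
    rw [hL]
    unfold rdmaR
    symm
    apply finsum_mem_eq_zero_of_forall_eq_zero
    intro P hP
    have h1 := hreg w P hP
    by_contra hne
    exact hnm (hpos w P hP (lt_of_le_of_ne h1 (Ne.symm hne)))

/-! ### The factors `1 - β t`, `β ∈ 𝔪_A` -/

theorem rdma_cons_unit (G : RdmGauss A V ρ) (C : RdmChart A V ρ t O B) (β : A)
    (hβ : β ∈ IsLocalRing.maximalIdeal A) :
    rdmaCons A ρ t O B ((1 - rdmCO G C β * rdmT C : rdmOV V O) : V) := by
  intro w
  have hρ : ρ ((1 - rdmCO G C β * rdmT C : rdmOV V O) : V) = 1 := by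
    show ρ (1 - rdmC G β * ⟨t, C.le t C.t_mem⟩) = 1
    rw [map_sub, map_mul, map_one, rdm_rho_C, (IsLocalRing.residue_eq_zero_iff _).mpr hβ,
      map_zero, zero_mul, sub_zero]
  rw [hρ, Place.ord_one]
  unfold rdmaR
  symm
  apply finsum_mem_eq_zero_of_forall_eq_zero
  intro P hP
  obtain ⟨c, hc⟩ := hP.1
  have hv : RdmVal P (1 - algebraMap K F (β : K) * t) (1 - (β : K) * (c : K)) :=
    rdmVal_sub P (rdmVal_one P) (rdmVal_mul P (rdmVal_const P _) hc)
  refine rdmVal_ord_eq_zero P hv ?_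
  intro h0
  have h1 : (1 : A) = β * c := Subtype.ext (by simpa using sub_eq_zero.mp h0)
  exact (Ideal.ne_top_iff_one _).mp (IsLocalRing.maximalIdeal.isMaximal A).ne_top
    (h1 ▸ Ideal.mul_mem_right _ _ hβ)

/-! ### Conservative elements with prescribed vanishing -/

theorem rdma_exists_lambda (G : RdmGauss A V ρ) (C : RdmChart A V ρ t O B)
    (ht : Transcendental (IsLocalRing.ResidueField A) (ρ ⟨t, C.le t C.t_mem⟩))
    (hres : ∀ (P : Place K F) (x : F), 0 ≤ P.ord x → ∃ c : K, RdmVal P x c)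
    (hfin : ∀ f : F, f ≠ 0 → (Function.support fun P : Place K F => P.ord f).Finite) (n : ℕ)
    (hfibF : ∀ α : A, ∑ᶠ P ∈ {P : Place K F | 0 < P.ord (t - algebraMap K F (α : K))},
      P.ord (t - algebraMap K F (α : K)) = (n : ℤ))
    (hfibκ : ∀ c : IsLocalRing.ResidueField A, ∃ S : Finset (HeightOneSpectrum B),
      (∀ w, w ∈ S ↔ ∀ b : B, (b : κ) = ρ ⟨t, C.le t C.t_mem⟩ -
          algebraMap (IsLocalRing.ResidueField A) κ c → b ∈ w.asIdeal) ∧
      (n : ℤ) ≤ ∑ w ∈ S,
        (Place.ofHeightOneSpectrum (K := IsLocalRing.ResidueField A) (F := κ) w).ord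
          (ρ ⟨t, C.le t C.t_mem⟩ - algebraMap (IsLocalRing.ResidueField A) κ c))
    (hle : ∀ a : rdmOV V O, rdmRhoO C a ≠ 0 → ∀ w : HeightOneSpectrum B,
      (Place.ofHeightOneSpectrum (K := IsLocalRing.ResidueField A) (F := κ) w).ord (ρ (a : V)) ≤
        ∑ᶠ P ∈ {P : Place K F | RdmTo A V ρ t O P
          (Place.ofHeightOneSpectrum (K := IsLocalRing.ResidueField A) (F := κ) w)},
          P.ord ((a : V) : F))
    (m : Place K F → ℕ) (T : Finset (Place K F)) (hT : ∀ P ∈ T, 0 ≤ P.ord t) :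
    ∃ Λ : rdmOV V O, rdmRhoO C Λ ≠ 0 ∧ rdmaCons A ρ t O B (Λ : V) ∧
      ∀ P ∈ T, (m P : ℤ) ≤ P.ord ((Λ : V) : F) := by
  classical
  induction T using Finset.induction_on with
  | empty => exact ⟨1, by rw [map_one]; exact one_ne_zero, rdma_cons_one, by simp⟩
  | insert P0 T hP0 ih =>
    obtain ⟨Λ, hΛ0, hΛc, hΛm⟩ := ih fun P hP => hT P (Finset.mem_insert_of_mem hP)
    have hP0t := hT P0 (Finset.mem_insert_self _ _)
    obtain ⟨l, hl0, hlc, hlpos⟩ : ∃ l : rdmOV V O, rdmRhoO C l ≠ 0 ∧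
        rdmaCons A ρ t O B (l : V) ∧ 0 < P0.ord ((l : V) : F) := by
      obtain ⟨τ, hτ⟩ := hres P0 t hP0t
      by_cases hτA : τ ∈ A
      · refine ⟨rdmT C - rdmCO G C ⟨τ, hτA⟩, rdma_linear_ne_zero G C ht _,
          rdma_cons_linear G C ht hfin n hfibF hfibκ hle _, ?_⟩
        have hv : RdmVal P0 (t - algebraMap K F τ) (0 : K) := by
          have := rdmVal_sub P0 hτ (rdmVal_const P0 τ)
          rwa [sub_self] at this
        exact rdmVal_ord_pos P0 hv
          (rdm_coe_ne_zero G C _ (rdma_linear_ne_zero G C ht ⟨τ, hτA⟩))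
      · obtain ⟨hβA, hβm⟩ := rdm_inv_mem_maximalIdeal A τ hτA
        have hτ0 : τ ≠ 0 := fun h => hτA (h ▸ A.zero_mem)
        have hne : rdmRhoO C (1 - rdmCO G C ⟨τ⁻¹, hβA⟩ * rdmT C) ≠ 0 := by
          rw [map_sub, map_mul, rdm_rhoO_CO, (IsLocalRing.residue_eq_zero_iff _).mpr hβm,
            map_zero, zero_mul, sub_zero, map_one]
          exact one_ne_zero
        refine ⟨1 - rdmCO G C ⟨τ⁻¹, hβA⟩ * rdmT C, hne, rdma_cons_unit G C _ hβm, ?_⟩
        have hv : RdmVal P0 (1 - algebraMap K F τ⁻¹ * t) (0 : K) := by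
          have := rdmVal_sub P0 (rdmVal_one P0) (rdmVal_mul P0 (rdmVal_const P0 τ⁻¹) hτ)
          rwa [inv_mul_cancel₀ hτ0, sub_self] at this
        exact rdmVal_ord_pos P0 hv (rdm_coe_ne_zero G C _ hne)
    have hΛρ := (rdm_rhoO_ne_zero_iff C Λ).mp hΛ0
    have hlρ := (rdm_rhoO_ne_zero_iff C l).mp hl0
    refine ⟨Λ * l ^ m P0, ?_, ?_, ?_⟩
    · rw [map_mul, map_pow]
      exact mul_ne_zero hΛ0 (pow_ne_zero _ hl0)
    · exact rdma_cons_mul G hfin hΛρ
        (by show ρ ((l : V) ^ m P0) ≠ 0; rw [map_pow]; exact pow_ne_zero _ hlρ) hΛc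
        (rdma_cons_pow G hfin hlρ hlc (m P0))
    · intro P hP
      have hΛF := rdm_coe_ne_zero G C Λ hΛ0
      have hlF := rdm_coe_ne_zero G C l hl0
      have hord : P.ord (((Λ * l ^ m P0 : rdmOV V O) : V) : F) =
          P.ord ((Λ : V) : F) + m P0 * P.ord ((l : V) : F) := by
        show P.ord (((Λ : V) : F) * ((l : V) : F) ^ m P0) = _
        rw [P.ord_mul hΛF (pow_ne_zero _ hlF), rdm_ord_pow]
      rw [hord]
      have hPt : 0 ≤ P.ord t := hT P hP
      have h1 : 0 ≤ P.ord ((Λ : V) : F) := C.reg _ Λ.2 P hPt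
      have h2 : 0 ≤ P.ord ((l : V) : F) := C.reg _ l.2 P hPt
      have h3 : (0 : ℤ) ≤ (m P0 : ℤ) := Int.natCast_nonneg _
      rcases Finset.mem_insert.mp hP with hPP | hPT
      · subst hPP
        nlinarith [mul_nonneg h3 (sub_nonneg.mpr (Int.add_one_le_iff.mpr hlpos))]
      · have h4 := hΛm P hPT
        nlinarith [mul_nonneg h3 h2]

/-! ### The elements of the chart -/

theorem rdma_cons_chart (G : RdmGauss A V ρ) (C : RdmChart A V ρ t O B)
    (ht : Transcendental (IsLocalRing.ResidueField A) (ρ ⟨t, C.le t C.t_mem⟩))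
    (hres : ∀ (P : Place K F) (x : F), 0 ≤ P.ord x → ∃ c : K, RdmVal P x c)
    (hfin : ∀ f : F, f ≠ 0 → (Function.support fun P : Place K F => P.ord f).Finite) (n : ℕ)
    (hfibF : ∀ α : A, ∑ᶠ P ∈ {P : Place K F | 0 < P.ord (t - algebraMap K F (α : K))},
      P.ord (t - algebraMap K F (α : K)) = (n : ℤ))
    (hfibκ : ∀ c : IsLocalRing.ResidueField A, ∃ S : Finset (HeightOneSpectrum B),
      (∀ w, w ∈ S ↔ ∀ b : B, (b : κ) = ρ ⟨t, C.le t C.t_mem⟩ -
          algebraMap (IsLocalRing.ResidueField A) κ c → b ∈ w.asIdeal) ∧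
      (n : ℤ) ≤ ∑ w ∈ S,
        (Place.ofHeightOneSpectrum (K := IsLocalRing.ResidueField A) (F := κ) w).ord
          (ρ ⟨t, C.le t C.t_mem⟩ - algebraMap (IsLocalRing.ResidueField A) κ c))
    (hle : ∀ a : rdmOV V O, rdmRhoO C a ≠ 0 → ∀ w : HeightOneSpectrum B,
      (Place.ofHeightOneSpectrum (K := IsLocalRing.ResidueField A) (F := κ) w).ord (ρ (a : V)) ≤
        ∑ᶠ P ∈ {P : Place K F | RdmTo A V ρ t O P
          (Place.ofHeightOneSpectrum (K := IsLocalRing.ResidueField A) (F := κ) w)},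
          P.ord ((a : V) : F))
    (a : rdmOV V O) (ha : rdmRhoO C a ≠ 0) : rdmaCons A ρ t O B (a : V) := by
  classical
  have haF := rdm_coe_ne_zero G C a ha
  have haρ := (rdm_rhoO_ne_zero_iff C a).mp ha
  obtain ⟨Λ, hΛ0, hΛc, hΛm⟩ := rdma_exists_lambda G C ht hres hfin n hfibF hfibκ hle
    (fun P => (P.ord ((a : V) : F)).toNat)
    ((hfin _ haF).toFinset.filter fun P => 0 ≤ P.ord t) (fun P hP => (Finset.mem_filter.mp hP).2)
  have hΛF := rdm_coe_ne_zero G C Λ hΛ0
  have hzV : ((Λ : V) : F) * ((a : V) : F)⁻¹ ∈ V :=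
    V.mul_mem _ _ (Λ : V).2 (rdm_inv_mem G (a : V) haρ)
  have hzO : ((Λ : V) : F) * ((a : V) : F)⁻¹ ∈ O := by
    refine C.sat _ hzV fun P hPt => ?_
    rw [P.ord_mul hΛF (inv_ne_zero haF), P.ord_inv]
    have h1 : 0 ≤ P.ord ((Λ : V) : F) := C.reg _ Λ.2 P hPt
    have h2 : 0 ≤ P.ord ((a : V) : F) := C.reg _ a.2 P hPt
    by_cases h0 : P.ord ((a : V) : F) = 0
    · omega
    · have hmem : P ∈ (hfin _ haF).toFinset.filter fun P => 0 ≤ P.ord t := by
        rw [Finset.mem_filter, Set.Finite.mem_toFinset]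
        exact ⟨h0, hPt⟩
      have h3 := hΛm P hmem
      rw [Int.toNat_of_nonneg h2] at h3
      omega
  obtain ⟨z, hz⟩ : ∃ z : rdmOV V O, ((z : V) : F) = ((Λ : V) : F) * ((a : V) : F)⁻¹ :=
    ⟨⟨⟨_, hzV⟩, hzO⟩, rfl⟩
  have haz : a * z = Λ := by
    apply Subtype.ext
    apply Subtype.ext
    show ((a : V) : F) * ((z : V) : F) = ((Λ : V) : F)
    rw [hz]
    field_simp
  have hz0 : rdmRhoO C z ≠ 0 := by
    intro h0
    apply hΛ0
    rw [← haz, map_mul, h0, mul_zero]
  have hzρ := (rdm_rhoO_ne_zero_iff C z).mp hz0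
  refine rdma_cons_of_mul_le G hfin haρ hzρ ?_ (hle a ha) (hle z hz0)
  have h1 : (a : V) * (z : V) = (Λ : V) := by rw [← haz]; rfl
  rw [h1]
  exact hΛc

/-! ### The conservation law -/

/-- **Conservation from the inequality.** -/
theorem rdma_cons_of_le (G : RdmGauss A V ρ) (C : RdmChart A V ρ t O B)
    (ht : Transcendental (IsLocalRing.ResidueField A) (ρ ⟨t, C.le t C.t_mem⟩))
    (hres : ∀ (P : Place K F) (x : F), 0 ≤ P.ord x → ∃ c : K, RdmVal P x c)
    (hfin : ∀ f : F, f ≠ 0 → (Function.support fun P : Place K F => P.ord f).Finite) (n : ℕ)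
    (hfibF : ∀ α : A, ∑ᶠ P ∈ {P : Place K F | 0 < P.ord (t - algebraMap K F (α : K))},
      P.ord (t - algebraMap K F (α : K)) = (n : ℤ))
    (hfibκ : ∀ c : IsLocalRing.ResidueField A, ∃ S : Finset (HeightOneSpectrum B),
      (∀ w, w ∈ S ↔ ∀ b : B, (b : κ) = ρ ⟨t, C.le t C.t_mem⟩ -
          algebraMap (IsLocalRing.ResidueField A) κ c → b ∈ w.asIdeal) ∧
      (n : ℤ) ≤ ∑ w ∈ S,
        (Place.ofHeightOneSpectrum (K := IsLocalRing.ResidueField A) (F := κ) w).ord
          (ρ ⟨t, C.le t C.t_mem⟩ - algebraMap (IsLocalRing.ResidueField A) κ c))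
    (hle : ∀ a : rdmOV V O, rdmRhoO C a ≠ 0 → ∀ w : HeightOneSpectrum B,
      (Place.ofHeightOneSpectrum (K := IsLocalRing.ResidueField A) (F := κ) w).ord (ρ (a : V)) ≤
        ∑ᶠ P ∈ {P : Place K F | RdmTo A V ρ t O P
          (Place.ofHeightOneSpectrum (K := IsLocalRing.ResidueField A) (F := κ) w)},
          P.ord ((a : V) : F))
    (y : V) (hy : ρ y ≠ 0) (w : HeightOneSpectrum B) :
    (Place.ofHeightOneSpectrum (K := IsLocalRing.ResidueField A) (F := κ) w).ord (ρ y) =
      ∑ᶠ P ∈ {P : Place K F | RdmTo A V ρ t O P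
        (Place.ofHeightOneSpectrum (K := IsLocalRing.ResidueField A) (F := κ) w)},
        P.ord (y : F) := by
  classical
  have hyF := rdm_ne_zero G y hy
  obtain ⟨Λ, hΛ0, hΛc, hΛm⟩ := rdma_exists_lambda G C ht hres hfin n hfibF hfibκ hle
    (fun P => (-P.ord (y : F)).toNat)
    ((hfin _ hyF).toFinset.filter fun P => 0 ≤ P.ord t) (fun P hP => (Finset.mem_filter.mp hP).2)
  have hΛF := rdm_coe_ne_zero G C Λ hΛ0
  have hΛρ := (rdm_rhoO_ne_zero_iff C Λ).mp hΛ0
  have haO : ((y * (Λ : V) : V) : F) ∈ O := by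
    refine C.sat _ (y * (Λ : V)).2 fun P hPt => ?_
    show 0 ≤ P.ord ((y : F) * ((Λ : V) : F))
    rw [P.ord_mul hyF hΛF]
    have h1 : 0 ≤ P.ord ((Λ : V) : F) := C.reg _ Λ.2 P hPt
    by_cases h0 : P.ord (y : F) = 0
    · omega
    · have hmem : P ∈ (hfin _ hyF).toFinset.filter fun P => 0 ≤ P.ord t := by
        rw [Finset.mem_filter, Set.Finite.mem_toFinset]
        exact ⟨h0, hPt⟩
      have h2 := hΛm P hmem
      have h3 : -P.ord (y : F) ≤ ((-P.ord (y : F)).toNat : ℤ) := Int.self_le_toNat _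
      omega
  have hane : rdmRhoO C ⟨y * (Λ : V), haO⟩ ≠ 0 := by
    rw [rdm_rhoO_ne_zero_iff]
    show ρ (y * (Λ : V)) ≠ 0
    rw [map_mul]
    exact mul_ne_zero hy hΛρ
  have hac := rdma_cons_chart G C ht hres hfin n hfibF hfibκ hle ⟨y * (Λ : V), haO⟩ hane
  exact rdma_cons_of_mul G hfin hy hΛρ hac hΛc w

/-- The same theorem under the name used by `RedMapCons.lean`. -/
theorem rdm_cons_of_le (G : RdmGauss A V ρ) (C : RdmChart A V ρ t O B)
    (ht : Transcendental (IsLocalRing.ResidueField A) (ρ ⟨t, C.le t C.t_mem⟩))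
    (hres : ∀ (P : Place K F) (x : F), 0 ≤ P.ord x → ∃ c : K, RdmVal P x c)
    (hfin : ∀ f : F, f ≠ 0 → (Function.support fun P : Place K F => P.ord f).Finite) (n : ℕ)
    (hfibF : ∀ α : A, ∑ᶠ P ∈ {P : Place K F | 0 < P.ord (t - algebraMap K F (α : K))},
      P.ord (t - algebraMap K F (α : K)) = (n : ℤ))
    (hfibκ : ∀ c : IsLocalRing.ResidueField A, ∃ S : Finset (HeightOneSpectrum B),
      (∀ w, w ∈ S ↔ ∀ b : B, (b : κ) = ρ ⟨t, C.le t C.t_mem⟩ -
          algebraMap (IsLocalRing.ResidueField A) κ c → b ∈ w.asIdeal) ∧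
      (n : ℤ) ≤ ∑ w ∈ S,
        (Place.ofHeightOneSpectrum (K := IsLocalRing.ResidueField A) (F := κ) w).ord
          (ρ ⟨t, C.le t C.t_mem⟩ - algebraMap (IsLocalRing.ResidueField A) κ c))
    (hle : ∀ a : rdmOV V O, rdmRhoO C a ≠ 0 → ∀ w : HeightOneSpectrum B,
      (Place.ofHeightOneSpectrum (K := IsLocalRing.ResidueField A) (F := κ) w).ord (ρ (a : V)) ≤
        ∑ᶠ P ∈ {P : Place K F | RdmTo A V ρ t O P
          (Place.ofHeightOneSpectrum (K := IsLocalRing.ResidueField A) (F := κ) w)},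
          P.ord ((a : V) : F))
    (y : V) (hy : ρ y ≠ 0) (w : HeightOneSpectrum B) :
    (Place.ofHeightOneSpectrum (K := IsLocalRing.ResidueField A) (F := κ) w).ord (ρ y) =
      ∑ᶠ P ∈ {P : Place K F | RdmTo A V ρ t O P
        (Place.ofHeightOneSpectrum (K := IsLocalRing.ResidueField A) (F := κ) w)},
        P.ord (y : F) :=
  rdma_cons_of_le G C ht hres hfin n hfibF hfibκ hle y hy w

end Asm

end Fermat.Agent.S37
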