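import Mathlib
import Fermat.Agent.S18.GaussMain
import Fermat.Agent.S37.RedMapDefs

/-!
# S37, package REDMAP-INST, part 1: the Gauss data at level `M`

For a field `K` over `ℚ`, a valuation subring `A` of `K` lying over a prime `ℓ ∤ M`, the Gauss
valuation ring `grO` of the level-`M` function field `F` over `K`, we define the residue field
`rmiKappa` (the image of the residue map `grRes` in `k((q))`, an intermediate field of
`k((q)) / k`), the residue map `rmiRho : grO →+* rmiKappa` and prove the structure `RdmGauss`.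
-/

set_option autoImplicit false

noncomputable section

open ModularCurve AlgebraicCurve

namespace Fermat.Agent.S37

open Fermat.Agent.S18

variable {K : Type*} [Field K] [Algebra ℚ K] (A : ValuationSubring K) {ℓ : ℕ} [Fact ℓ.Prime]
  (hA : A.LiesOverPrime ℓ) (M : ℕ) [NeZero M] (hℓM : ¬ ℓ ∣ M)

/-- The residue field of the Gauss valuation ring of the level-`M` function field, as an
intermediate field of `k((q)) / k`. -/
def rmiKappa : IntermediateField (IsLocalRing.ResidueField A)
    (LaurentSeries (IsLocalRing.ResidueField A)) where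
  carrier := Set.range (grRes A hA M hℓM)
  mul_mem' := by
    rintro _ _ ⟨x, rfl⟩ ⟨y, rfl⟩
    exact ⟨x * y, map_mul _ _ _⟩
  one_mem' := ⟨1, map_one _⟩
  add_mem' := by
    rintro _ _ ⟨x, rfl⟩ ⟨y, rfl⟩
    exact ⟨x + y, map_add _ _ _⟩
  zero_mem' := ⟨0, map_zero _⟩
  algebraMap_mem' := by
    intro c
    obtain ⟨a, rfl⟩ := IsLocalRing.residue_surjective c
    refine ⟨⟨⟨algebraMap K (LaurentSeries K) (a : K), ?_⟩, ?_⟩, ?_⟩
    · exact (laurentBaseChange K (modularFunctionFieldFull M)).algebraMap_mem (a : K)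
    · exact gr_algebraMap_mem A a
    · exact grRho_algebraMap A a
  inv_mem' := by
    rintro _ ⟨x, rfl⟩
    by_cases hx : grRes A hA M hℓM x = 0
    · rw [hx, inv_zero]
      exact ⟨0, map_zero _⟩
    · have hinv : ((x : ↥(laurentBaseChange K (modularFunctionFieldFull M))) :
          LaurentSeries K)⁻¹ ∈ grV A := gr_inv_mem A ⟨_, x.2⟩ hx
      refine ⟨⟨(x : ↥(laurentBaseChange K (modularFunctionFieldFull M)))⁻¹, hinv⟩, ?_⟩
      exact grRho_inv A ⟨_, x.2⟩ hx

instance rmiKappa_algebra :
    Algebra (IsLocalRing.ResidueField A) ↥(rmiKappa A hA M hℓM) :=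
  (rmiKappa A hA M hℓM).toSubalgebra.algebra

theorem rmiKappa_algebraMap_coe (c : IsLocalRing.ResidueField A) :
    ((algebraMap (IsLocalRing.ResidueField A) ↥(rmiKappa A hA M hℓM) c :
      ↥(rmiKappa A hA M hℓM)) : LaurentSeries (IsLocalRing.ResidueField A)) =
      algebraMap (IsLocalRing.ResidueField A) (LaurentSeries (IsLocalRing.ResidueField A)) c :=
  rfl

theorem mem_rmiKappa (y : LaurentSeries (IsLocalRing.ResidueField A)) :
    y ∈ rmiKappa A hA M hℓM ↔ ∃ x, grRes A hA M hℓM x = y := Iff.rfl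

/-- The residue map of the Gauss valuation ring onto its residue field. -/
def rmiRho : ↥(grO A hA M hℓM) →+* ↥(rmiKappa A hA M hℓM) :=
  (grRes A hA M hℓM).codRestrict (rmiKappa A hA M hℓM) (fun x => ⟨x, rfl⟩)

theorem rmiRho_coe (x : ↥(grO A hA M hℓM)) :
    ((rmiRho A hA M hℓM x : ↥(rmiKappa A hA M hℓM)) :
      LaurentSeries (IsLocalRing.ResidueField A)) = grRes A hA M hℓM x := rfl

theorem rmiRho_surjective : Function.Surjective (rmiRho A hA M hℓM) := by
  rintro ⟨y, x, rfl⟩
  exact ⟨x, rfl⟩

theorem rmiRho_eq_zero_iff (x : ↥(grO A hA M hℓM)) :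
    rmiRho A hA M hℓM x = 0 ↔ grRes A hA M hℓM x = 0 := by
  constructor
  · intro h
    have := congrArg Subtype.val h
    simpa [rmiRho_coe] using this
  · intro h
    exact Subtype.ext h

/-- The Gauss data at level `M`. -/
theorem rmi_gauss : RdmGauss A (grO A hA M hℓM) (rmiRho A hA M hℓM) where
  mem := fun c => gr_algebraMap_mem A c
  rho := fun c => Subtype.ext (grRho_algebraMap A c)
  ker := fun x => by
    rw [rmiRho_eq_zero_iff]
    exact (gr_mem_nonunits_iff_grRes A hA M hℓM x).symm
  unit := by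
    intro x hx
    have hx0 : (x : LaurentSeries K) ≠ 0 := fun h => hx (Subtype.ext h)
    obtain ⟨c, u, hc, hu, hxu⟩ := gr_exists_unit A hA M hℓM (x : LaurentSeries K) x.2 hx0
    have hcF : algebraMap K ↥(laurentBaseChange K (modularFunctionFieldFull M)) c ≠ 0 :=
      (map_ne_zero_iff _ (algebraMap K _).injective).mpr hc
    have hcL : algebraMap K (LaurentSeries K) c ≠ 0 :=
      (map_ne_zero_iff _ (algebraMap K _).injective).mpr hc
    set u' : ↥(laurentBaseChange K (modularFunctionFieldFull M)) :=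
      (algebraMap K ↥(laurentBaseChange K (modularFunctionFieldFull M)) c)⁻¹ * x with hu'
    have hu'coe : (u' : LaurentSeries K) = (u : LaurentSeries K) := by
      show (algebraMap K (LaurentSeries K) c)⁻¹ * (x : LaurentSeries K) = _
      rw [hxu, ← mul_assoc, inv_mul_cancel₀ hcL, one_mul]
    have hu'mem : u' ∈ grO A hA M hℓM := by
      show (u' : LaurentSeries K) ∈ grV A
      rw [hu'coe]; exact u.2
    refine ⟨c, ⟨u', hu'mem⟩, hc, ?_, ?_⟩
    · rw [Ne, rmiRho_eq_zero_iff]
      have : grRes A hA M hℓM ⟨u', hu'mem⟩ = grRho A u := by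
        rw [grRes_apply]
        congr 1
        exact Subtype.ext hu'coe
      rw [this]
      exact hu
    · show x = algebraMap K _ c * u'
      rw [hu', ← mul_assoc, mul_inv_cancel₀ hcF, one_mul]

end Fermat.Agent.S37
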