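import Mathlib
import Fermat.Prelude.Def_AlgebraicCurve_DivisorClassGroup
import Fermat.Agent.S24.SumFormulaBase
import Fermat.Agent.S37.RedMapDefs
import Fermat.Agent.S37.RedMapAbs

/-!
# S37, package JR-CONS (REDMAP), leaf [L]: functions vanishing to prescribed orders

`F / K` a function field, `s` a finite set of places whose residue fields are `K` (in the form:
every function regular at `P ∈ s` has a value in `K`), `U` a finite-dimensional `K`-space of
functions regular on `s`.  If `∑_{P ∈ s} m P < dim U`, some nonzero element of `U` vanishes to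
order `≥ m P` at every `P ∈ s` (`rdm_exists_vanishing`).

Each condition "`ord_P x ≥ j + 1`" on the space `{x | ord_P x ≥ j}` is the kernel of one
`K`-linear functional (`rdm_vanishing_step`).
-/

set_option autoImplicit false

open AlgebraicCurve

namespace Fermat.Agent.S37

open Fermat.Agent.S24

variable {K F : Type*} [Field K] [Field F] [Algebra K F]

/-- One more order of vanishing at `P` costs at most one dimension. -/
theorem rdm_vanishing_step (P : Place K F)
    (hres : ∀ x : F, 0 ≤ P.ord x → ∃ c : K, RdmVal P x c) (j : ℕ)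
    (U : Submodule K F) [FiniteDimensional K U]
    (hU : ∀ x ∈ U, x = 0 ∨ (j : ℤ) ≤ P.ord x) :
    ∃ U' : Submodule K F, U' ≤ U ∧ Module.finrank K U ≤ Module.finrank K U' + 1 ∧
      ∀ x ∈ U', x = 0 ∨ ((j + 1 : ℕ) : ℤ) ≤ P.ord x := by
  classical
  obtain ⟨π, hπ⟩ := IsDiscreteValuationRing.exists_irreducible P.toValuationSubring
  have hπ1 : P.ord (π : F) = 1 := P.ord_coe_irreducible hπ
  have hπ0 : (π : F) ≠ 0 := by
    intro h
    rw [h, P.ord_zero] at hπ1
    exact zero_ne_one hπ1
  have hπj : P.ord ((π : F) ^ j) = j := by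
    have := P.ord_zpow (π : F) (j : ℤ)
    rw [zpow_natCast, hπ1, mul_one] at this
    exact this
  have hπj0 : (π : F) ^ j ≠ 0 := pow_ne_zero _ hπ0
  have hord : ∀ x : F, x ≠ 0 → P.ord (x / (π : F) ^ j) = P.ord x - j := by
    intro x hx
    rw [div_eq_mul_inv, P.ord_mul hx (inv_ne_zero hπj0), P.ord_inv, hπj]
    ring
  have hnn : ∀ x : U, 0 ≤ P.ord ((x : F) / (π : F) ^ j) := by
    intro x
    by_cases hx : (x : F) = 0
    · rw [hx, zero_div, P.ord_zero]
    · rcases hU x x.2 with h | h
      · exact absurd h hx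
      · rw [hord _ hx]
        omega
  let val : U → K := fun x => Classical.choose (hres _ (hnn x))
  have hval : ∀ x : U, RdmVal P ((x : F) / (π : F) ^ j) (val x) :=
    fun x => Classical.choose_spec (hres _ (hnn x))
  let ℓ : U →ₗ[K] K :=
    { toFun := val
      map_add' := fun x y => by
        refine rdmVal_unique P (hval (x + y)) ?_
        have := rdmVal_add P (hval x) (hval y)
        rwa [← add_div] at this
      map_smul' := fun a x => by
        refine rdmVal_unique P (hval (a • x)) ?_
        have := rdmVal_mul P (rdmVal_const P a) (hval x)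
        rw [← mul_div_assoc, ← Algebra.smul_def] at this
        exact this }
  refine ⟨(LinearMap.ker ℓ).map U.subtype, Submodule.map_subtype_le U _, ?_, ?_⟩
  · have h1 := LinearMap.finrank_range_add_finrank_ker ℓ
    have h2 : Module.finrank K (LinearMap.range ℓ) ≤ 1 := by
      have := Submodule.finrank_le (LinearMap.range ℓ)
      rwa [Module.finrank_self] at this
    have h3 : Module.finrank K ((LinearMap.ker ℓ).map U.subtype) =
        Module.finrank K (LinearMap.ker ℓ) :=
      (Submodule.equivSubtypeMap U (LinearMap.ker ℓ)).symm.finrank_eq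
    omega
  · intro x hx
    obtain ⟨y, hy, rfl⟩ := Submodule.mem_map.mp hx
    have hy0 : val y = 0 := LinearMap.mem_ker.mp hy
    have h1 := hval y
    rw [hy0, rdmVal_zero_iff] at h1
    by_cases hx0 : (y : F) = 0
    · left
      exact hx0
    · right
      rcases h1 with h1 | h1
      · exfalso
        rcases div_eq_zero_iff.mp h1 with h2 | h2
        · exact hx0 h2
        · exact hπj0 h2
      · have h2 := hord _ hx0
        simp only [Submodule.coe_subtype] at h1 h2 ⊢
        push_cast
        omega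

/-- Vanishing to order `n` at one place costs at most `n` dimensions. -/
theorem rdm_vanishing_place (P : Place K F)
    (hres : ∀ x : F, 0 ≤ P.ord x → ∃ c : K, RdmVal P x c) (n : ℕ)
    (U : Submodule K F) [FiniteDimensional K U] (hU : ∀ x ∈ U, 0 ≤ P.ord x) :
    ∃ U' : Submodule K F, U' ≤ U ∧ Module.finrank K U ≤ Module.finrank K U' + n ∧
      ∀ x ∈ U', x = 0 ∨ (n : ℤ) ≤ P.ord x := by
  induction n with
  | zero =>
    exact ⟨U, le_rfl, le_rfl, fun x hx => Or.inr (by simpa using hU x hx)⟩
  | succ n ih =>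
    obtain ⟨U₁, hle₁, hrk₁, hU₁⟩ := ih
    have : FiniteDimensional K U₁ := Submodule.finiteDimensional_of_le hle₁
    obtain ⟨U₂, hle₂, hrk₂, hU₂⟩ := rdm_vanishing_step P hres n U₁ hU₁
    exact ⟨U₂, hle₂.trans hle₁, by omega, hU₂⟩

/-- Vanishing to order `m P` at every place of `s` costs at most `∑ m P` dimensions. -/
theorem rdm_vanishing_aux (s : Finset (Place K F))
    (hres : ∀ P ∈ s, ∀ x : F, 0 ≤ P.ord x → ∃ c : K, RdmVal P x c)
    (m : Place K F → ℕ) (U : Submodule K F) [FiniteDimensional K U]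
    (hU : ∀ x ∈ U, ∀ P ∈ s, 0 ≤ P.ord x) :
    ∃ U' : Submodule K F, U' ≤ U ∧ Module.finrank K U ≤ Module.finrank K U' + ∑ P ∈ s, m P ∧
      ∀ x ∈ U', ∀ P ∈ s, x = 0 ∨ (m P : ℤ) ≤ P.ord x := by
  classical
  induction s using Finset.induction_on with
  | empty =>
    exact ⟨U, le_rfl, by simp, fun x _ P hP => absurd hP (Finset.notMem_empty P)⟩
  | insert P s hPs ih =>
    obtain ⟨U₁, hle₁, hrk₁, hU₁⟩ := ih (fun Q hQ => hres Q (Finset.mem_insert_of_mem hQ))
      (fun x hx Q hQ => hU x hx Q (Finset.mem_insert_of_mem hQ))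
    have : FiniteDimensional K U₁ := Submodule.finiteDimensional_of_le hle₁
    obtain ⟨U₂, hle₂, hrk₂, hU₂⟩ := rdm_vanishing_place P (hres P (Finset.mem_insert_self P s))
      (m P) U₁ (fun x hx => hU x (hle₁ hx) P (Finset.mem_insert_self P s))
    refine ⟨U₂, hle₂.trans hle₁, ?_, ?_⟩
    · rw [Finset.sum_insert hPs]
      omega
    · intro x hx Q hQ
      rcases Finset.mem_insert.mp hQ with rfl | hQ
      · exact hU₂ x hx
      · exact hU₁ x (hle₂ hx) Q hQ

/-- **[L]** If `∑_{P ∈ s} m P < dim U`, some nonzero element of `U` vanishes to order at least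
`m P` at every `P ∈ s`. -/
theorem rdm_exists_vanishing (s : Finset (Place K F))
    (hres : ∀ P ∈ s, ∀ x : F, 0 ≤ P.ord x → ∃ c : K, RdmVal P x c)
    (m : Place K F → ℕ) (U : Submodule K F) [FiniteDimensional K U]
    (hU : ∀ x ∈ U, ∀ P ∈ s, 0 ≤ P.ord x)
    (hdim : ∑ P ∈ s, m P < Module.finrank K U) :
    ∃ x ∈ U, x ≠ 0 ∧ ∀ P ∈ s, (m P : ℤ) ≤ P.ord x := by
  obtain ⟨U', hle, hrk, hU'⟩ := rdm_vanishing_aux s hres m U hU
  have : FiniteDimensional K U' := Submodule.finiteDimensional_of_le hle
  have hpos : 0 < Module.finrank K U' := by omega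
  obtain ⟨x, hx⟩ := Module.finrank_pos_iff_exists_ne_zero.mp hpos
  have hx0 : (x : F) ≠ 0 := fun h => hx (Subtype.ext h)
  refine ⟨x, hle x.2, hx0, fun P hP => ?_⟩
  rcases hU' x x.2 P hP with h | h
  · exact absurd h hx0
  · exact h

end Fermat.Agent.S37
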