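import Mathlib
import Fermat.Prelude.Def_AlgebraicCurve_DivisorClassGroup
import Fermat.Agent.S24.SumFormulaBase
import Fermat.Agent.S37.RedMapDefs
import Fermat.Agent.S37.RedMapAbs
import Fermat.Agent.S37.RedMapChart
import Fermat.Agent.S37.RedConsLin

/-!
# S37, package REDMAP: the inequality (C1) of the conservation argument

* `rdm_cons_le`: for `a` in the chart with nonzero residue and a closed point `w` of the special
  chart, the order of the residue of `a` at `w` is at most the sum of the orders of `a` at the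
  places of the generic fibre which specialize to `w`.
* `RdmConsAt A ρ t B a`: equality for `a` at all `w`; `rdmConsAt_one`, `rdmConsAt_mul`,
  `rdmConsAt_pow`, `rdmConsAt_of_mul`.
-/

set_option autoImplicit false

noncomputable section

open AlgebraicCurve IsDedekindDomain

namespace Fermat.Agent.S37

open Fermat.Agent.S24

section Aux2

variable {K F : Type*} [Field K] [Field F] [Algebra K F]

theorem rdm_ord_prod (P : Place K F) {ι : Type*} (s : Finset ι) (f : ι → F)
    (h : ∀ i ∈ s, f i ≠ 0) : P.ord (∏ i ∈ s, f i) = ∑ i ∈ s, P.ord (f i) := by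
  classical
  induction s using Finset.induction_on with
  | empty => simp
  | insert i s hi ih =>
    rw [Finset.prod_insert hi, Finset.sum_insert hi,
      P.ord_mul (h i (Finset.mem_insert_self i s))
        (Finset.prod_ne_zero_iff.mpr fun j hj => h j (Finset.mem_insert_of_mem hj)),
      ih fun j hj => h j (Finset.mem_insert_of_mem hj)]

end Aux2

section Cons

variable {K : Type*} [Field K] {A : ValuationSubring K}
variable {F : Type*} [Field F] [Algebra K F]
variable {κ : Type*} [Field κ] [Algebra (IsLocalRing.ResidueField A) κ]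
variable {V : ValuationSubring F} {ρ : V →+* κ} {t : F} {O : Subring F}
variable {B : Subalgebra (IsLocalRing.ResidueField A) κ}
variable [IsDedekindDomain B] [IsFractionRing B κ]

omit [IsFractionRing B κ] in
/-- The powers of a lifted uniformizer are linearly independent over `K`. -/
theorem rdm_powers_linearIndependent (G : RdmGauss A V ρ) (C : RdmChart A V ρ t O B)
    (w : HeightOneSpectrum B) (π : rdmOV V O)
    (hπ : w.intValuation (rdmRhoO C π) = WithZero.exp (-1 : ℤ)) (e : ℕ) :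
    LinearIndependent K (fun j : Fin e => ((π : V) : F) ^ (j : ℕ)) := by
  rw [Fintype.linearIndependent_iff]
  intro c hc
  by_contra hne
  push Not at hne
  obtain ⟨d, x', hd, hx', hlt⟩ := rdm_normalize G C w π hπ e c hne
  have h0 : ((x' : V) : F) = 0 := by
    rw [hx']
    have : ∑ j, algebraMap K F (c j) * ((π : V) : F) ^ (j : ℕ) = 0 := by
      rw [← hc]
      exact Finset.sum_congr rfl fun j _ => (Algebra.smul_def _ _).symm
    rw [this, mul_zero]
  have h1 : x' = 0 := Subtype.ext (Subtype.ext h0)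
  rw [h1, map_zero, map_zero] at hlt
  exact not_lt_zero hlt

omit [IsDedekindDomain B] [IsFractionRing B κ] in
/-- Elements of the span of the powers of an element of the chart are regular at the points of
the chart. -/
theorem rdm_span_reg (C : RdmChart A V ρ t O B) (π : rdmOV V O) (e : ℕ) (x : F)
    (hx : x ∈ Submodule.span K (Set.range fun j : Fin e => ((π : V) : F) ^ (j : ℕ)))
    (P : Place K F) (hP : ∃ c : A, RdmVal P t (c : K)) : 0 ≤ P.ord x := by
  obtain ⟨c, rfl⟩ := (Submodule.mem_span_range_iff_exists_fun K).mp hx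
  obtain ⟨p, hp⟩ := C.val _ π.2 P hP
  refine rdmVal_ord_nonneg P (c := ∑ j : Fin e, c j * (p : K) ^ (j : ℕ)) ?_
  refine rdmVal_sum P _ _ _ fun j _ => ?_
  rw [Algebra.smul_def]
  exact rdmVal_mul P (rdmVal_const P (c j)) (rdmVal_pow P hp _)

/-- **The inequality (C1).** -/
theorem rdm_cons_le (G : RdmGauss A V ρ) (C : RdmChart A V ρ t O B)
    (ht : Transcendental (IsLocalRing.ResidueField A) (ρ ⟨t, C.le t C.t_mem⟩))
    (hres : ∀ (P : Place K F) (x : F), 0 ≤ P.ord x → ∃ c : K, RdmVal P x c)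
    (hfin : ∀ f : F, f ≠ 0 → (Function.support fun P : Place K F => P.ord f).Finite)
    (a : rdmOV V O) (ha : rdmRhoO C a ≠ 0) (w : HeightOneSpectrum B) :
    (Place.ofHeightOneSpectrum (K := IsLocalRing.ResidueField A) (F := κ) w).ord (ρ (a : V)) ≤
      ∑ᶠ P ∈ {P : Place K F | RdmTo A V ρ t O P
        (Place.ofHeightOneSpectrum (K := IsLocalRing.ResidueField A) (F := κ) w)},
        P.ord ((a : V) : F) := by
  classical
  set Q := Place.ofHeightOneSpectrum (K := IsLocalRing.ResidueField A) (F := κ) w with hQ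
  have haF : ((a : V) : F) ≠ 0 := rdm_coe_ne_zero G C a ha
  set Z : Finset (Place K F) := (hfin _ haF).toFinset with hZ
  have hmemZ : ∀ P : Place K F, P ∈ Z ↔ P.ord ((a : V) : F) ≠ 0 := by
    intro P
    rw [hZ, Set.Finite.mem_toFinset, Function.mem_support]
  set s : Finset (Place K F) := Z.filter (fun P => RdmTo A V ρ t O P Q) with hs
  have hsum : ∑ᶠ P ∈ {P : Place K F | RdmTo A V ρ t O P Q}, P.ord ((a : V) : F) =
      ∑ P ∈ s, P.ord ((a : V) : F) := by
    apply finsum_mem_eq_sum_of_inter_support_eq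
    ext P
    simp only [Set.mem_inter_iff, Set.mem_ofPred_eq, Function.mem_support, Finset.mem_coe, hs,
      Finset.mem_filter, hmemZ]
    tauto
  rw [hsum]
  by_contra hlt
  rw [not_le] at hlt
  -- the orders
  have hQnn : 0 ≤ Q.ord (ρ (a : V)) := rdm_ord_nonneg w (rdmRhoO C a)
  set e : ℕ := (Q.ord (ρ (a : V))).toNat with he
  have hecast : (e : ℤ) = Q.ord (ρ (a : V)) := Int.toNat_of_nonneg hQnn
  set m : Place K F → ℕ := fun P => (P.ord ((a : V) : F)).toNat with hm
  have hsTo : ∀ P ∈ s, RdmTo A V ρ t O P Q := fun P hP => (Finset.mem_filter.mp hP).2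
  have hmcast : ∀ P : Place K F, 0 ≤ P.ord t → (m P : ℤ) = P.ord ((a : V) : F) := fun P hP =>
    Int.toNat_of_nonneg (C.reg _ a.2 P hP)
  have hsreg : ∀ P ∈ s, 0 ≤ P.ord t := fun P hP => by
    obtain ⟨c, hc⟩ := (hsTo P hP).1
    exact rdmVal_ord_nonneg P hc
  have hdim0 : ∑ P ∈ s, m P < e := by
    have h1 : ((∑ P ∈ s, m P : ℕ) : ℤ) = ∑ P ∈ s, P.ord ((a : V) : F) := by
      rw [Nat.cast_sum]
      exact Finset.sum_congr rfl fun P hP => hmcast P (hsreg P hP)
    have h2 : ((∑ P ∈ s, m P : ℕ) : ℤ) < (e : ℤ) := by rw [h1, hecast]; exact hlt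
    exact_mod_cast h2
  -- the uniformizer
  obtain ⟨πB, hπB⟩ := w.intValuation_exists_uniformizer
  obtain ⟨π, rfl⟩ := rdmRhoO_surjective C πB
  set U : Submodule K F :=
    Submodule.span K (Set.range fun j : Fin e => ((π : V) : F) ^ (j : ℕ)) with hU
  have : FiniteDimensional K U := FiniteDimensional.span_of_finite K (Set.finite_range _)
  have hfr : Module.finrank K U = e := by
    rw [hU, finrank_span_eq_card (rdm_powers_linearIndependent G C w π hπB e), Fintype.card_fin]
  obtain ⟨x, hxU, hx0, hxm⟩ := rdm_exists_vanishing s (fun P _ x hx => hres P x hx) m U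
    (fun x hx P hP => rdm_span_reg C π e x hx P (hsTo P hP).1) (by rw [hfr]; exact hdim0)
  obtain ⟨c, rfl⟩ := (Submodule.mem_span_range_iff_exists_fun K).mp hxU
  have hcne : ∃ j, c j ≠ 0 := by
    by_contra hall
    push Not at hall
    exact hx0 (Finset.sum_eq_zero fun j _ => by rw [hall j, zero_smul])
  obtain ⟨d, x', hd, hx', hx'lt⟩ := rdm_normalize G C w π hπB e c hcne
  have hx'eq : ((x' : V) : F) =
      algebraMap K F d * ∑ j, c j • ((π : V) : F) ^ (j : ℕ) := by
    rw [hx']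
    congr 1
    exact Finset.sum_congr rfl fun j _ => (Algebra.smul_def _ _).symm
  have hx'ne : rdmRhoO C x' ≠ 0 := by
    intro h0
    rw [h0, map_zero] at hx'lt
    exact not_lt_zero hx'lt
  have hx'F : ((x' : V) : F) ≠ 0 := rdm_coe_ne_zero G C x' hx'ne
  have hx'm : ∀ P ∈ s, (m P : ℤ) ≤ P.ord ((x' : V) : F) := by
    intro P hP
    rw [hx'eq, P.ord_mul ((map_ne_zero _).mpr hd) hx0, sf_ord_algebraMap, zero_add]
    exact hxm P hP
  -- the other zeros
  set T : Finset (Place K F) :=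
    Z.filter (fun P => 0 ≤ P.ord t ∧ ¬ RdmTo A V ρ t O P Q) with hT
  have hsep : ∀ P' : Place K F, ∃ σ : rdmOV V O, (0 ≤ P'.ord t ∧ ¬ RdmTo A V ρ t O P' Q) →
      (rdmRhoO C σ ∉ w.asIdeal ∧ 0 < P'.ord ((σ : V) : F)) := by
    intro P'
    by_cases h : 0 ≤ P'.ord t ∧ ¬ RdmTo A V ρ t O P' Q
    · obtain ⟨σ, h1, h2⟩ := rdm_exists_sep G C ht hres w P' h.1 h.2
      exact ⟨σ, fun _ => ⟨h1, h2⟩⟩
    · exact ⟨1, fun h' => absurd h' h⟩
  choose σ hσ using hsep
  have hTσ : ∀ P' ∈ T, rdmRhoO C (σ P') ∉ w.asIdeal ∧ 0 < P'.ord ((σ P' : V) : F) :=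
    fun P' hP' => hσ P' (Finset.mem_filter.mp hP').2
  set Sg : rdmOV V O := ∏ P' ∈ T, σ P' ^ m P' with hSg
  have hSgw : rdmRhoO C Sg ∉ w.asIdeal := by
    rw [hSg, map_prod, w.isPrime.prod_mem_iff]
    rintro ⟨P', hP', hmem⟩
    rw [map_pow] at hmem
    exact (hTσ P' hP').1 (w.isPrime.mem_of_pow_mem _ hmem)
  have hSgne : rdmRhoO C Sg ≠ 0 := fun h => hSgw (h ▸ Ideal.zero_mem _)
  have hSgF : ((Sg : V) : F) ≠ 0 := rdm_coe_ne_zero G C Sg hSgne
  have hσne : ∀ P' ∈ T, ((σ P' : V) : F) ^ m P' ≠ 0 := fun P' hP' =>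
    pow_ne_zero _ (rdm_coe_ne_zero G C _ fun h => (hTσ P' hP').1 (h ▸ Ideal.zero_mem _))
  have hSgcoe : ((Sg : V) : F) = ∏ P' ∈ T, ((σ P' : V) : F) ^ m P' := by
    rw [← rdmCoe_apply, hSg, map_prod]
    exact Finset.prod_congr rfl fun P' _ => by rw [map_pow, rdmCoe_apply]
  have hSgm : ∀ P' ∈ T, (m P' : ℤ) ≤ P'.ord ((Sg : V) : F) := by
    intro P' hP'
    have hP't : 0 ≤ P'.ord t := (Finset.mem_filter.mp hP').2.1
    rw [hSgcoe, rdm_ord_prod P' T _ hσne]
    have h1 : P'.ord (((σ P' : V) : F) ^ m P') ≤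
        ∑ P'' ∈ T, P'.ord (((σ P'' : V) : F) ^ m P'') := by
      refine Finset.single_le_sum (f := fun P'' => P'.ord (((σ P'' : V) : F) ^ m P''))
        (fun P'' _ => ?_) hP'
      exact C.reg _ (O.pow_mem (σ P'').2 _) P' hP't
    refine le_trans ?_ h1
    rw [rdm_ord_pow]
    have h2 := (hTσ P' hP').2
    nlinarith [Int.natCast_nonneg (m P')]
  -- the quotient
  have hainv : ((a : V) : F)⁻¹ ∈ V := rdm_inv_mem G (a : V) ((rdm_rhoO_ne_zero_iff C a).mp ha)
  set zV : V := (x' : V) * (Sg : V) * ⟨((a : V) : F)⁻¹, hainv⟩ with hzV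
  have hzF : (zV : F) = ((x' : V) : F) * ((Sg : V) : F) * ((a : V) : F)⁻¹ := rfl
  have hzO : (zV : F) ∈ O := by
    refine C.sat _ zV.2 fun P hPt => ?_
    rw [hzF, P.ord_mul (mul_ne_zero hx'F hSgF) (inv_ne_zero haF), P.ord_mul hx'F hSgF, P.ord_inv]
    have h1 : 0 ≤ P.ord ((x' : V) : F) := C.reg _ x'.2 P hPt
    have h2 : 0 ≤ P.ord ((Sg : V) : F) := C.reg _ Sg.2 P hPt
    have h3 : 0 ≤ P.ord ((a : V) : F) := C.reg _ a.2 P hPt
    rcases h3.eq_or_lt with h4 | h4
    · omega
    · have hPZ : P ∈ Z := (hmemZ P).mpr (ne_of_gt h4)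
      by_cases hTo : RdmTo A V ρ t O P Q
      · have h5 := hx'm P (Finset.mem_filter.mpr ⟨hPZ, hTo⟩)
        rw [hmcast P hPt] at h5
        omega
      · have h5 := hSgm P (Finset.mem_filter.mpr ⟨hPZ, hPt, hTo⟩)
        rw [hmcast P hPt] at h5
        omega
  set z : rdmOV V O := ⟨zV, hzO⟩ with hz
  have hprod : x' * Sg = a * z := by
    apply Subtype.ext
    apply Subtype.ext
    show ((x' : V) : F) * ((Sg : V) : F) =
      ((a : V) : F) * (((x' : V) : F) * ((Sg : V) : F) * ((a : V) : F)⁻¹)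
    field_simp
  have hval := congrArg (fun y => w.intValuation (rdmRhoO C y)) hprod
  simp only [map_mul] at hval
  rw [(w.intValuation_eq_one_iff).mpr hSgw, mul_one, rdm_intValuation_eq (k := IsLocalRing.ResidueField A) w _ ha,
    rdm_coe_rhoO, ← hQ, ← hecast] at hval
  rw [hval] at hx'lt
  have h6 : WithZero.exp (-(e : ℤ)) * w.intValuation (rdmRhoO C z) ≤ WithZero.exp (-(e : ℤ)) :=
    mul_le_of_le_one_right zero_le (w.intValuation_le_one _)
  exact absurd hx'lt (not_lt.mpr h6)

/-! ### Conservation for elements of the chart -/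

/-- Conservation for an element `a` of the chart: at every closed point `w` of the special chart
the order of the residue of `a` is the sum of the orders of `a` at the places specializing
to `w`. -/
def RdmConsAt (A : ValuationSubring K) {κ : Type*} [Field κ] [Algebra (IsLocalRing.ResidueField A) κ]
    {V : ValuationSubring F} (ρ : V →+* κ) (t : F) {O : Subring F}
    (B : Subalgebra (IsLocalRing.ResidueField A) κ) [IsDedekindDomain B] [IsFractionRing B κ]
    (a : rdmOV V O) : Prop :=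
  ∀ w : HeightOneSpectrum B,
    (Place.ofHeightOneSpectrum (K := IsLocalRing.ResidueField A) (F := κ) w).ord (ρ (a : V)) =
      ∑ᶠ P ∈ {P : Place K F | RdmTo A V ρ t O P
        (Place.ofHeightOneSpectrum (K := IsLocalRing.ResidueField A) (F := κ) w)},
        P.ord ((a : V) : F)

omit [IsDedekindDomain B] [IsFractionRing B κ] in
/-- Additivity of the sum of the orders over a set of places. -/
theorem rdm_finsum_ord_mul
    (hfin : ∀ f : F, f ≠ 0 → (Function.support fun P : Place K F => P.ord f).Finite)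
    (S : Set (Place K F)) (x y : F) (hx : x ≠ 0) (hy : y ≠ 0) :
    ∑ᶠ P ∈ S, P.ord (x * y) = ∑ᶠ P ∈ S, P.ord x + ∑ᶠ P ∈ S, P.ord y := by
  rw [← finsum_mem_add_distrib' ((hfin x hx).subset Set.inter_subset_right)
    ((hfin y hy).subset Set.inter_subset_right)]
  exact finsum_mem_congr rfl fun P _ => P.ord_mul hx hy

theorem rdmConsAt_one : RdmConsAt A ρ t B (1 : rdmOV V O) := by
  intro w
  have h1 : ρ ((1 : rdmOV V O) : V) = 1 := map_one ρ
  have h2 : ∀ P : Place K F, P.ord (((1 : rdmOV V O) : V) : F) = 0 := fun P => P.ord_one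
  rw [h1, Place.ord_one]
  simp only [h2, finsum_zero]

theorem rdmConsAt_mul (G : RdmGauss A V ρ) (C : RdmChart A V ρ t O B)
    (hfin : ∀ f : F, f ≠ 0 → (Function.support fun P : Place K F => P.ord f).Finite)
    (a b : rdmOV V O) (ha : rdmRhoO C a ≠ 0) (hb : rdmRhoO C b ≠ 0)
    (ca : RdmConsAt A ρ t B a) (cb : RdmConsAt A ρ t B b) : RdmConsAt A ρ t B (a * b) := by
  intro w
  have h1 : ρ ((a * b : rdmOV V O) : V) = ρ (a : V) * ρ (b : V) := map_mul ρ _ _
  have h2 : (((a * b : rdmOV V O) : V) : F) = ((a : V) : F) * ((b : V) : F) := rfl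
  rw [h1, Place.ord_mul _ ((rdm_rhoO_ne_zero_iff C a).mp ha) ((rdm_rhoO_ne_zero_iff C b).mp hb),
    ca w, cb w, h2, rdm_finsum_ord_mul hfin _ _ _ (rdm_coe_ne_zero G C a ha)
      (rdm_coe_ne_zero G C b hb)]

theorem rdmConsAt_pow (G : RdmGauss A V ρ) (C : RdmChart A V ρ t O B)
    (hfin : ∀ f : F, f ≠ 0 → (Function.support fun P : Place K F => P.ord f).Finite)
    (a : rdmOV V O) (ha : rdmRhoO C a ≠ 0) (ca : RdmConsAt A ρ t B a) (n : ℕ) :
    RdmConsAt A ρ t B (a ^ n) := by
  induction n with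
  | zero => rw [pow_zero]; exact rdmConsAt_one
  | succ n ih =>
    rw [pow_succ]
    refine rdmConsAt_mul G C hfin _ _ ?_ ha ih ca
    rw [map_pow]
    exact pow_ne_zero _ ha

/-- Conservation for a product and the inequality (C1) for the factors give conservation for
the factors. -/
theorem rdmConsAt_of_mul (G : RdmGauss A V ρ) (C : RdmChart A V ρ t O B)
    (ht : Transcendental (IsLocalRing.ResidueField A) (ρ ⟨t, C.le t C.t_mem⟩))
    (hres : ∀ (P : Place K F) (x : F), 0 ≤ P.ord x → ∃ c : K, RdmVal P x c)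
    (hfin : ∀ f : F, f ≠ 0 → (Function.support fun P : Place K F => P.ord f).Finite)
    (a b : rdmOV V O) (ha : rdmRhoO C a ≠ 0) (hb : rdmRhoO C b ≠ 0)
    (cab : RdmConsAt A ρ t B (a * b)) : RdmConsAt A ρ t B a := by
  intro w
  have h1 : ρ ((a * b : rdmOV V O) : V) = ρ (a : V) * ρ (b : V) := map_mul ρ _ _
  have h2 : (((a * b : rdmOV V O) : V) : F) = ((a : V) : F) * ((b : V) : F) := rfl
  have h3 := cab w
  rw [h1, Place.ord_mul _ ((rdm_rhoO_ne_zero_iff C a).mp ha) ((rdm_rhoO_ne_zero_iff C b).mp hb),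
    h2, rdm_finsum_ord_mul hfin _ _ _ (rdm_coe_ne_zero G C a ha) (rdm_coe_ne_zero G C b hb)] at h3
  have h4 := rdm_cons_le G C ht hres hfin a ha w
  have h5 := rdm_cons_le G C ht hres hfin b hb w
  omega

end Cons

end Fermat.Agent.S37
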