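import Mathlib
import Fermat.Agent.S37.JRingCons2
import Fermat.Agent.S37.JRingN
import Fermat.Agent.S37.JRingChartY
import Fermat.Agent.S37.LevelUp
import Fermat.Agent.S37.RedMapInstGauss
import Fermat.Agent.S37.RedMapAsm
import Fermat.Agent.S37.RedMapLe
import Fermat.Agent.S18.GaussMain
import Fermat.Agent.S18.IfaceRed
import Fermat.Agent.S18.SMInstChoice
import Fermat.Agent.S18.Haupt9Rec

/-!
# S37, package JR-K3AB: weak conservation for the J-ring class map, assembly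

* `jrk_seam`: (K3AB) at level `N` from the level-raising statement (JR-LVL) and the statement
  at a level `N'` divisible by `N`;
* `JrkChart`: one chart of the reduction, packaged (chart ring inside the integral closure of
  `A[t]`, Dedekind image, conservation);
* `jrk_main_of_charts`, `jrk_main_of`: weak conservation at a level divisible by `a2` from the
  two packaged charts and (F3);
* `jrk_k3ab_of`: (K3AB) in the shape consumed by `s37_redDiv_of_classMap`, from the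
  level-raising statement, the packaged charts and (F3).
-/

set_option autoImplicit false
set_option linter.style.haveILetI false

open AlgebraicCurve ModularCurve Polynomial
open Fermat.Agent.S18 Fermat.Agent.S24

namespace Fermat.Agent.S37

local notation "Qb" => AlgebraicClosure ℚ

/-- One chart, packaged: what (K3AB) needs from the chart with coordinate `t` whose residue
generates the same ring as `u`. -/
def JrkChart {K : Type*} [Field K] (A : ValuationSubring K) {F : Type*} [Field F] [Algebra K F]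
    {κ : Type*} [Field κ] [Algebra (IsLocalRing.ResidueField A) κ] (V : ValuationSubring F)
    (ρ : V →+* κ) (t : F) (u : κ) : Prop :=
  ∃ (O : Subring F) (B : Subalgebra (IsLocalRing.ResidueField A) κ) (_ : IsDedekindDomain B)
    (_ : IsFractionRing B κ),
    RdmChart A V ρ t O B ∧ (∀ x ∈ O, x ∈ jrIC (jrPoly A t)) ∧
    (∀ b ∈ B, IsIntegral (Algebra.adjoin (IsLocalRing.ResidueField A) {u}) b) ∧
    ∀ y : V, ρ y ≠ 0 → ∀ w : IsDedekindDomain.HeightOneSpectrum B,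
      (Place.ofHeightOneSpectrum (K := IsLocalRing.ResidueField A) (F := κ) w).ord (ρ y) =
        ∑ᶠ P ∈ {P : Place K F | RdmTo A V ρ t O P
          (Place.ofHeightOneSpectrum (K := IsLocalRing.ResidueField A) (F := κ) w)},
          P.ord (y : F)

/-- Weak conservation at a level `N` divisible by `a2`, from the two packaged charts and the
chart-in-`O_Z` statements (F3). -/
theorem jrk_main_of_charts (N : ℕ) [NeZero N] {a2 ℓ : ℕ} (H : HauptRec a2 ℓ) (ha2 : a2 ∣ N)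
    (A : ValuationSubring Qb) [IsAlgClosed (IsLocalRing.ResidueField A)]
    (c0 c1 : Qb) (hc0 : c0 ∈ A) (hc1 : c1 ∈ A) (hc : c0 ≠ c1) (h01 : (c0 - c1)⁻¹ ∈ A)
    {κ : Type*} [Field κ] [Algebra (IsLocalRing.ResidueField A) κ]
    {V : ValuationSubring ↥(modularFunctionFieldBar N)} {ρ : V →+* κ} (u : κ)
    (hC₀ : JrkChart A V ρ (c0rT N H ha2 c0 c1) u)
    (hC₁ : JrkChart A V ρ (c0rT N H ha2 c1 c0) u⁻¹)
    (hF3₀ : ∀ x ∈ jrIC (jrPoly A (c0rT N H ha2 c0 c1)), x ∈ jrOZ A (jBar N))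
    (hF3₁ : ∀ x ∈ jrIC (jrPoly A (c0rT N H ha2 c1 c0)), x ∈ jrOZ A (jBar N))
    (y : V) (hy : ρ y ≠ 0)
    (D : Divisor Qb ↥(modularFunctionFieldBar N))
    (hD : ∀ P : Place Qb ↥(modularFunctionFieldBar N),
      D P = P.ord (y : ↥(modularFunctionFieldBar N)))
    (hcD : jrRed A (jBar N) D = 0) :
    ∃ a : IsLocalRing.ResidueField A, ρ y = algebraMap (IsLocalRing.ResidueField A) κ a := by
  obtain ⟨O₀, B₀, _, _, C₀, hO₀, hB₀, hcons₀⟩ := hC₀
  obtain ⟨O₁, B₁, _, _, C₁, hO₁, hB₁, hcons₁⟩ := hC₁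
  have h10 : (c1 - c0)⁻¹ ∈ A := by
    have : (c1 - c0)⁻¹ = -(c0 - c1)⁻¹ := by
      rw [← neg_sub c0 c1, inv_neg]
    rw [this]
    exact A.neg_mem _ h01
  exact jrc_main_abs N H ha2 A c0 c1 hc0 hc1 hc h01 C₀ C₁ hO₀ hO₁ u hB₀ hB₁
    (fun P x hx => jrn_exists_val N A P hx) (jrcy_h_mem N H ha2 A)
    (fun x hx => jrcy_mul_pow N H ha2 A c0 c1 hc0 hc1 hc h01 x hx)
    (fun x hx => jrcy_mul_pow N H ha2 A c1 c0 hc1 hc0 (Ne.symm hc) h10 x hx)
    hF3₀ hF3₁ y (hcons₀ y hy) (hcons₁ y hy) D hD hcD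

/-- The two chart coordinates are inverse to each other. -/
theorem jrk_c0rT_mul (N : ℕ) [NeZero N] {a2 ℓ : ℕ} (H : HauptRec a2 ℓ) (ha2 : a2 ∣ N)
    (c0 c1 : Qb) (hc : c0 ≠ c1) : c0rT N H ha2 c1 c0 * c0rT N H ha2 c0 c1 = 1 := by
  have h0 : ∀ c : Qb, c0rH N H ha2 - algebraMap Qb ↥(modularFunctionFieldBar N) c ≠ 0 := by
    intro c h0
    apply c0r_transcendental N H ha2
    rw [sub_eq_zero.mp h0]
    exact isAlgebraic_algebraMap c
  have _ := hc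
  rw [c0rT_eq, c0rT_eq, div_mul_div_comm, mul_comm, div_self (mul_ne_zero (h0 c1) (h0 c0))]

/-- Weak conservation at level `M` (`a2 ∣ M`, `ℓ ∤ M`) in the Gauss-ring spelling, from the
packaged charts. -/
theorem jrk_main_of (M : ℕ) [NeZero M] {ℓ : ℕ} [Fact ℓ.Prime] (hℓM : ¬ ℓ ∣ M) {a2 : ℕ}
    (H : HauptRec a2 ℓ) (ha2 : a2 ∣ M) (A : ValuationSubring Qb) (hA : A.LiesOverPrime ℓ)
    (c0 c1 : Qb) (hc0 : c0 ∈ A) (hc1 : c1 ∈ A) (hc : c0 ≠ c1) (h01 : (c0 - c1)⁻¹ ∈ A)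
    (ht₀ : c0rT M H ha2 c0 c1 ∈ grO A hA M hℓM) (ht₁ : c0rT M H ha2 c1 c0 ∈ grO A hA M hℓM)
    (hC₀ : JrkChart A (grO A hA M hℓM) (rmiRho A hA M hℓM) (c0rT M H ha2 c0 c1)
      (rmiRho A hA M hℓM ⟨_, ht₀⟩))
    (hC₁ : JrkChart A (grO A hA M hℓM) (rmiRho A hA M hℓM) (c0rT M H ha2 c1 c0)
      (rmiRho A hA M hℓM ⟨_, ht₁⟩))
    (hF3₀ : ∀ x ∈ jrIC (jrPoly A (c0rT M H ha2 c0 c1)), x ∈ jrOZ A (jBar M))
    (hF3₁ : ∀ x ∈ jrIC (jrPoly A (c0rT M H ha2 c1 c0)), x ∈ jrOZ A (jBar M))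
    (y : ↥(grO A hA M hℓM)) (hy : grRes A hA M hℓM y ≠ 0)
    (D : Divisor Qb ↥(modularFunctionFieldBar M))
    (hD : ∀ P : Place Qb ↥(modularFunctionFieldBar M),
      D P = P.ord (y : ↥(modularFunctionFieldBar M)))
    (hcD : jrRed A (jBar M) D = 0) :
    ∃ a : IsLocalRing.ResidueField A, grRes A hA M hℓM y =
      algebraMap (IsLocalRing.ResidueField A) (LaurentSeries (IsLocalRing.ResidueField A)) a := by
  haveI : IsAlgClosed (IsLocalRing.ResidueField A) := ifr_residue_isAlgClosed A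
  have hinv : rmiRho A hA M hℓM ⟨_, ht₁⟩ = (rmiRho A hA M hℓM ⟨_, ht₀⟩)⁻¹ := by
    apply eq_inv_of_mul_eq_one_left
    rw [← map_mul]
    have : (⟨_, ht₁⟩ : ↥(grO A hA M hℓM)) * ⟨_, ht₀⟩ = 1 :=
      Subtype.ext (jrk_c0rT_mul M H ha2 c0 c1 hc)
    rw [this, map_one]
  rw [hinv] at hC₁
  obtain ⟨a, ha⟩ := jrk_main_of_charts M H ha2 A c0 c1 hc0 hc1 hc h01 _ hC₀ hC₁ hF3₀ hF3₁ y
    (by rw [Ne, rmiRho_eq_zero_iff]; exact hy) D hD hcD
  refine ⟨a, ?_⟩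
  have h2 := congrArg (Subtype.val : ↥(rmiKappa A hA M hℓM) → _) ha
  rw [rmiRho_coe, rmiKappa_algebraMap_coe] at h2
  exact h2

/-- The seam of (K3AB): weak conservation at level `N` from the level-raising statement
`hlvl` and weak conservation at a level `N'` divisible by `N`. -/
theorem jrk_seam (N : ℕ) [NeZero N] {ℓ : ℕ} [Fact ℓ.Prime] (N' : ℕ) [NeZero N'] (hNN' : N ∣ N')
    (hℓN' : ¬ ℓ ∣ N') (A : ValuationSubring Qb) (hA : A.LiesOverPrime ℓ)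
    (hlvl : haveI := hki_hasPrincipalDivisors N'
      ∀ E : Divisor Qb ↥(modularFunctionFieldBar N), jrRed A (jBar N) E = 0 →
        jrRed A (jBar N') (Divisor.pullbackAlong (lvlIncl N N' hNN')
          (lvlIncl_isIntegral N N' hNN') E) = 0)
    (hmain : ∀ y : ↥(grO A hA N' hℓN'), grRes A hA N' hℓN' y ≠ 0 →
      ∀ D : Divisor Qb ↥(modularFunctionFieldBar N'),
        (∀ P : Place Qb ↥(modularFunctionFieldBar N'),
          D P = P.ord (y : ↥(modularFunctionFieldBar N'))) →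
        jrRed A (jBar N') D = 0 →
        ∃ a : IsLocalRing.ResidueField A, grRes A hA N' hℓN' y =
          algebraMap (IsLocalRing.ResidueField A)
            (LaurentSeries (IsLocalRing.ResidueField A)) a)
    (Y : ↥(modularFunctionFieldBar N)) (hY : (Y : LaurentSeries Qb) ∈ grV A)
    (hρ : grRho A ⟨_, hY⟩ ≠ 0)
    (E : Divisor Qb ↥(modularFunctionFieldBar N)) (hE : ∀ P, E P = P.ord Y)
    (hcE : Finsupp.mapDomain (jrCls A (jBar N)) E = 0) :
    ∃ cb : IsLocalRing.ResidueField A, grRho A ⟨_, hY⟩ =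
      algebraMap (IsLocalRing.ResidueField A) (LaurentSeries (IsLocalRing.ResidueField A)) cb := by
  haveI := hki_hasPrincipalDivisors N'
  have hmem : lvlIncl N N' hNN' Y ∈ grO A hA N' hℓN' := by
    show ((lvlIncl N N' hNN' Y : ↥(modularFunctionFieldBar N')) : LaurentSeries Qb) ∈ grV A
    rw [coe_lvlIncl]
    exact hY
  have hres : grRes A hA N' hℓN' ⟨_, hmem⟩ = grRho A ⟨_, hY⟩ := by
    rw [grRes_apply]
    congr 1
  obtain ⟨a, ha⟩ := hmain ⟨_, hmem⟩ (by rw [hres]; exact hρ)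
    (Divisor.pullbackAlong (lvlIncl N N' hNN') (lvlIncl_isIntegral N N' hNN') E)
    (fun P => by
      rw [Divisor.pullbackAlong_apply, hE, ← Place.ord_restrictAlong])
    (hlvl E (by rw [jrRed_apply]; exact hcE))
  exact ⟨a, by rw [← hres]; exact ha⟩


/-- (K3AB) from its three inputs: the level-raising statement, the packaged charts and (F3). -/
theorem jrk_k3ab_of (N : ℕ) [NeZero N] {ℓ : ℕ} (hℓ : ℓ.Prime) (hℓN : ¬ ℓ ∣ N)
    (A : ValuationSubring Qb) (hA : A.LiesOverPrime ℓ)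
    (hlvl : ∀ (N' : ℕ) [NeZero N'] (hNN' : N ∣ N'), ¬ ℓ ∣ N' →
      haveI := hki_hasPrincipalDivisors N'
      ∀ E : Divisor Qb ↥(modularFunctionFieldBar N), jrRed A (jBar N) E = 0 →
        jrRed A (jBar N') (Divisor.pullbackAlong (lvlIncl N N' hNN')
          (lvlIncl_isIntegral N N' hNN') E) = 0)
    (hchart : haveI : Fact ℓ.Prime := ⟨hℓ⟩
      ∀ (M : ℕ) [NeZero M] (hℓM : ¬ ℓ ∣ M) {a2 : ℕ} (H : HauptRec a2 ℓ) (ha2 : a2 ∣ M)
        (c0 c1 : Qb), c0 ∈ A → c1 ∈ A → smi2U A (c0 - c1) → smi2U A (aeval c0 H.Qrad) →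
        smi2U A (aeval c1 H.Qrad) →
        ∃ ht : c0rT M H ha2 c0 c1 ∈ grO A hA M hℓM,
          JrkChart A (grO A hA M hℓM) (rmiRho A hA M hℓM) (c0rT M H ha2 c0 c1)
            (rmiRho A hA M hℓM ⟨_, ht⟩))
    (hF3 : ∀ (M : ℕ) [NeZero M] {a2 : ℕ} (H : HauptRec a2 ℓ) (ha2 : a2 ∣ M) (c0 c1 : Qb),
      c0 ∈ A → c1 ∈ A → (aeval c0 H.Q)⁻¹ ∈ A → aeval c0 H.Q ≠ 0 →
      ∀ x ∈ jrIC (jrPoly A (c0rT M H ha2 c0 c1)), x ∈ jrOZ A (jBar M)) :
    ∀ (Y : ↥(modularFunctionFieldBar N)) (hY : (Y : LaurentSeries Qb) ∈ grV A),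
      Y ≠ 0 → grRho A ⟨_, hY⟩ ≠ 0 →
      ∀ E : Divisor Qb ↥(modularFunctionFieldBar N), (∀ P, E P = P.ord Y) →
        Finsupp.mapDomain (jrCls A (jBar N)) E = 0 →
        ∃ cb : IsLocalRing.ResidueField A, grRho A ⟨_, hY⟩ =
          algebraMap (IsLocalRing.ResidueField A)
            (LaurentSeries (IsLocalRing.ResidueField A)) cb := by
  intro Y hY _ hρ E hE hcE
  haveI : Fact ℓ.Prime := ⟨hℓ⟩
  obtain ⟨a2, ha2, ⟨H⟩⟩ := hp9_exists_hauptRec ℓ
  have ha20 : a2 ≠ 0 := by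
    rcases ha2 with rfl | rfl <;> norm_num
  haveI : NeZero (N * a2) := ⟨mul_ne_zero (NeZero.ne N) ha20⟩
  have hℓN' : ¬ ℓ ∣ N * a2 := fun h =>
    (hℓ.dvd_mul.mp h).elim hℓN H.not_dvd
  obtain ⟨c0, c1, hc0, hc1, h01, hq0, hq1⟩ := smi2_choice (K := Qb) H A
  have hc : c0 ≠ c1 := fun h => h01.2.1 (by rw [h, sub_self])
  have h10 : smi2U A (c1 - c0) := by
    have := smi2U_neg h01
    rwa [neg_sub] at this
  have hQ0 := smi2_Q_unit H A hc0 hq0
  have hQ1 := smi2_Q_unit H A hc1 hq1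
  obtain ⟨ht₀, hC₀⟩ := hchart (N * a2) hℓN' H (dvd_mul_left a2 N) c0 c1 hc0 hc1 h01 hq0 hq1
  obtain ⟨ht₁, hC₁⟩ := hchart (N * a2) hℓN' H (dvd_mul_left a2 N) c1 c0 hc1 hc0 h10 hq1 hq0
  refine jrk_seam N (N * a2) (dvd_mul_right N a2) hℓN' A hA
    (hlvl (N * a2) (dvd_mul_right N a2) hℓN') ?_ Y hY hρ E hE hcE
  intro y hy D hD hcD
  exact jrk_main_of (N * a2) hℓN' H (dvd_mul_left a2 N) A hA c0 c1 hc0 hc1 hc h01.2.2 ht₀ ht₁
    hC₀ hC₁
    (hF3 (N * a2) H (dvd_mul_left a2 N) c0 c1 hc0 hc1 hQ0.2.2 hQ0.2.1)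
    (hF3 (N * a2) H (dvd_mul_left a2 N) c1 c0 hc1 hc0 hQ1.2.2 hQ1.2.1) y hy D hD hcD

end Fermat.Agent.S37
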