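import Mathlib

/-!
# S37, J-rings (finding 136), package JR-ABS, part 1: separation of characters

`O` a commutative ring, `k` an infinite field, `π : A' →+* k` a surjective ring hom and
`ι : A' →+* O`.  A *character* is a ring hom `χ : O →+* k` with `χ ∘ ι = π` (so it is surjective
and determined by its kernel).

`jr_crt_mult`: two finitely supported multiplicity functions `D E` on characters with
`∏ χ(g)^(D χ) = ∏ χ(g)^(E χ)` for all `g : O` are equal.
-/

set_option autoImplicit false

namespace Fermat.Agent.S37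

open Polynomial

section Crt

variable {A' O k : Type*} [CommRing A'] [CommRing O] [Field k]

/-- a character compatible with `π` is determined by its kernel -/
theorem jr_char_eq_of_ker_eq (ι : A' →+* O) (π : A' →+* k) (hπ : Function.Surjective π)
    (χ χ' : O →+* k) (hχ : χ.comp ι = π) (hχ' : χ'.comp ι = π)
    (hker : RingHom.ker χ = RingHom.ker χ') : χ = χ' := by
  ext x
  obtain ⟨a, ha⟩ := hπ (χ x)
  have h1 : x - ι a ∈ RingHom.ker χ := by
    rw [RingHom.mem_ker, map_sub, sub_eq_zero, ← ha, ← hχ]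
    rfl
  rw [hker, RingHom.mem_ker, map_sub, sub_eq_zero] at h1
  rw [h1, ← ha, ← hχ']
  rfl

theorem jr_char_surjective (ι : A' →+* O) (π : A' →+* k) (hπ : Function.Surjective π)
    (χ : O →+* k) (hχ : χ.comp ι = π) : Function.Surjective χ := by
  intro c
  obtain ⟨a, ha⟩ := hπ c
  exact ⟨ι a, by rw [← ha, ← hχ]; rfl⟩

/-- CRT for finitely many characters: prescribe the value at one of them, `1` at the others. -/
theorem jr_crt_exists (ι : A' →+* O) (π : A' →+* k) (hπ : Function.Surjective π)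
    (T : Finset (O →+* k)) (hT : ∀ χ ∈ T, χ.comp ι = π) (χ₀ : O →+* k) (hχ₀ : χ₀ ∈ T) (c : k) :
    ∃ g : O, χ₀ g = c ∧ ∀ χ ∈ T, χ ≠ χ₀ → χ g = 1 := by
  classical
  let I : T → Ideal O := fun χ => RingHom.ker (χ : O →+* k)
  have hmax : ∀ χ : T, (I χ).IsMaximal := fun χ =>
    RingHom.ker_isMaximal_of_surjective _ (jr_char_surjective ι π hπ _ (hT χ χ.2))
  have hcop : Pairwise (Function.onFun IsCoprime I) := by
    intro χ χ' hne
    refine Ideal.isCoprime_of_isMaximal ?_
    intro heq
    apply hne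
    exact Subtype.ext (jr_char_eq_of_ker_eq ι π hπ _ _ (hT χ χ.2) (hT χ' χ'.2) heq)
  obtain ⟨a, ha⟩ := hπ c
  obtain ⟨g, hg⟩ := Ideal.pi_quotient_surjective hcop
    (fun χ => if (χ : O →+* k) = χ₀ then Ideal.Quotient.mk (I χ) (ι a) else 1)
  have key : ∀ χ : T, (χ : O →+* k) g = if (χ : O →+* k) = χ₀ then c else 1 := by
    intro χ
    have h1 := hg χ
    by_cases h : (χ : O →+* k) = χ₀
    · rw [if_pos h] at h1 ⊢
      have h2 : g - ι a ∈ I χ := by
        rw [← Ideal.Quotient.eq]
        exact h1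
      have h3 : (χ : O →+* k) (g - ι a) = 0 := h2
      rw [map_sub, sub_eq_zero] at h3
      rw [h3, ← ha, ← hT χ χ.2]
      rfl
    · rw [if_neg h] at h1 ⊢
      have h2 : g - 1 ∈ I χ := by
        rw [← Ideal.Quotient.eq]
        exact h1
      have h3 : (χ : O →+* k) (g - 1) = 0 := h2
      rw [map_sub, sub_eq_zero, map_one] at h3
      exact h3
  refine ⟨g, ?_, fun χ hχ hne => ?_⟩
  · have := key ⟨χ₀, hχ₀⟩
    rwa [if_pos rfl] at this
  · have := key ⟨χ, hχ⟩
    rwa [if_neg hne] at this

/-- `c ^ a = c ^ b` for all `c` in an infinite field forces `a = b`. -/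
theorem jr_pow_eq_pow [Infinite k] {a b : ℕ} (h : ∀ c : k, c ^ a = c ^ b) : a = b := by
  have h1 : (X ^ a : k[X]) = X ^ b := by
    apply Polynomial.eq_of_infinite_eval_eq
    have : {x : k | eval x (X ^ a : k[X]) = eval x (X ^ b : k[X])} = Set.univ := by
      ext x
      simp [h x]
    rw [this]
    exact Set.infinite_univ
  have h2 := congrArg Polynomial.natDegree h1
  rwa [natDegree_X_pow, natDegree_X_pow] at h2

/-- **Separation of characters.** -/
theorem jr_crt_mult [Infinite k] (ι : A' →+* O) (π : A' →+* k) (hπ : Function.Surjective π)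
    (D E : (O →+* k) →₀ ℕ) (hD : ∀ χ ∈ D.support, χ.comp ι = π)
    (hE : ∀ χ ∈ E.support, χ.comp ι = π)
    (h : ∀ g : O, D.prod (fun χ n => χ g ^ n) = E.prod (fun χ n => χ g ^ n)) : D = E := by
  classical
  ext χ₀
  set T := D.support ∪ E.support with hTdef
  have hT : ∀ χ ∈ T, χ.comp ι = π := by
    intro χ hχ
    rcases Finset.mem_union.mp hχ with h1 | h1
    · exact hD χ h1
    · exact hE χ h1
  by_cases hχ₀ : χ₀ ∈ T
  · apply jr_pow_eq_pow (k := k)
    intro c
    obtain ⟨g, hg0, hg1⟩ := jr_crt_exists ι π hπ T hT χ₀ hχ₀ c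
    have hval : ∀ (G : (O →+* k) →₀ ℕ), G.support ⊆ T →
        G.prod (fun χ n => χ g ^ n) = c ^ G χ₀ := by
      intro G hG
      rw [Finsupp.prod_of_support_subset G hG _ (fun χ _ => pow_zero _)]
      rw [Finset.prod_eq_single χ₀]
      · rw [hg0]
      · intro χ hχ hne
        rw [hg1 χ hχ hne, one_pow]
      · intro hn
        exact absurd hχ₀ hn
    rw [← hval D Finset.subset_union_left, ← hval E Finset.subset_union_right]
    exact h g
  · have h1 : χ₀ ∉ D.support := fun hh => hχ₀ (Finset.mem_union_left _ hh)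
    have h2 : χ₀ ∉ E.support := fun hh => hχ₀ (Finset.mem_union_right _ hh)
    rw [Finsupp.notMem_support_iff] at h1 h2
    rw [h1, h2]

end Crt

end Fermat.Agent.S37
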