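import Mathlib
import Fermat.Agent.S37.JRingInst
import Fermat.Agent.S37.JRingCrt
import Fermat.Agent.S37.Pairing

/-!
# S37, J-rings (finding 136), package JR-LVL, abstract part: raising the level

`K` algebraically closed of characteristic zero, `F ⊆ F'` function fields over `K` (instance
form), all places of degree one, `A : ValuationSubring K` with infinite residue field, `j : F`.

`jrla_main_abs`: if the norm `F' → F` maps the J-rings of `F'` (for `j`) into the J-rings of `F`,
then the reduction map is compatible with pullback of divisors: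
`jrRed A j E = 0 → jrRed A j (Divisor.pullback F' E) = 0`.

Steps:
* `jrla_mapDomain_factor` : a homomorphism on divisors whose value on a point only depends on the
  class of the point kills the divisors with trivial image in the free group on the classes;
* `jrla_regY_iff` : the regions are compatible with restriction of places;
* `jrla_prod_eq` : `∏_{w ∣ P} res (g(w))^e(w ∣ P) = res ((N g)(P))` (the local norm formula);
* `jrla_fiber_sum_eq` : separation of characters: the fibres of the classes over two places with
  the same character are the same (with multiplicities).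
-/

set_option autoImplicit false

noncomputable section

open AlgebraicCurve

namespace Fermat.Agent.S37

/-- A homomorphism on `α →₀ ℤ` whose value on `single a 1` only depends on `f a` factors through
`Finsupp.mapDomain f`. -/
theorem jrla_mapDomain_factor {α β G : Type*} [AddCommGroup G] (f : α → β)
    (Ψ : (α →₀ ℤ) →+ G)
    (h : ∀ a a', f a = f a' → Ψ (Finsupp.single a 1) = Ψ (Finsupp.single a' 1))
    (E : α →₀ ℤ) (hE : Finsupp.mapDomain f E = 0) : Ψ E = 0 := by
  classical
  let Θ : β → G := fun b => if hb : ∃ a, f a = b then Ψ (Finsupp.single hb.choose 1) else 0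
  let L : (β →₀ ℤ) →+ G := Finsupp.liftAddHom (fun b => zmultiplesHom G (Θ b))
  have hΨ : Ψ = L.comp (Finsupp.mapDomain.addMonoidHom f) := by
    apply Finsupp.addHom_ext
    intro a n
    have h1 : (Finsupp.single a n : α →₀ ℤ) = n • Finsupp.single a 1 := by
      rw [Finsupp.smul_single, smul_eq_mul, mul_one]
    have hex : ∃ a', f a' = f a := ⟨a, rfl⟩
    have h2 : Θ (f a) = Ψ (Finsupp.single a 1) := by
      show (if hb : ∃ a', f a' = f a then Ψ (Finsupp.single hb.choose 1) else 0) = _
      rw [dif_pos hex]
      exact h _ _ hex.choose_spec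
    show Ψ (Finsupp.single a n) = L (Finsupp.mapDomain f (Finsupp.single a n))
    rw [Finsupp.mapDomain_single]
    show _ = Finsupp.liftAddHom (fun b => zmultiplesHom G (Θ b)) (Finsupp.single (f a) n)
    rw [Finsupp.liftAddHom_apply_single, zmultiplesHom_apply, h2, h1, map_zsmul]
  rw [hΨ]
  show L (Finsupp.mapDomain f E) = 0
  rw [hE, map_zero]

section Abs

variable {K F F' : Type*} [Field K] [Field F] [Field F']
  [Algebra K F] [Algebra K F'] [Algebra F F'] [IsScalarTower K F F'] [Algebra.IsIntegral F F']

/-- The regions are compatible with restriction of places. -/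
theorem jrla_regY_iff (A : ValuationSubring K) (j : F) (w : Place K F') :
    jrRegY A (algebraMap F F' j) w ↔ jrRegY A j (w.restrict F) :=
  exists_congr fun b => (e0HasVal_restrict w j (b : K)).symm

end Abs

section Norm

variable {K F F' : Type*} [Field K] [IsAlgClosed K] [CharZero K] [Field F] [Field F']
  [Algebra K F] [Algebra K F'] [Algebra F F'] [IsScalarTower K F F'] [Algebra.IsIntegral F F']
  [HasPrincipalDivisors K F'] [FundamentalIdentity K F F']

/-- The local norm formula, for residues of values. -/
theorem jrla_prod_eq (A : ValuationSubring K) (P : Place K F) (hP : P.deg = 1)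
    (hF' : ∀ w : Place K F', w.deg = 1) (g : F')
    (X : Place K F' → IsLocalRing.ResidueField A)
    (hX : ∀ w ∈ P.fiber F', ∃ c : A, RdmVal w g (c : K) ∧ X w = IsLocalRing.residue A c)
    (a : A) (ha : RdmVal P (Algebra.norm F g) (a : K)) :
    ∏ w ∈ P.fiber F', X w ^ w.ramificationIndex F = IsLocalRing.residue A a := by
  classical
  let c : Place K F' → A := fun w => if hw : w ∈ P.fiber F' then (hX w hw).choose else 0
  have hc : ∀ w ∈ P.fiber F', RdmVal w g (c w : K) ∧ X w = IsLocalRing.residue A (c w) := by
    intro w hw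
    have : c w = (hX w hw).choose := dif_pos hw
    rw [this]
    exact (hX w hw).choose_spec
  have h1 : e0HasVal P (Algebra.norm F g)
      (∏ w ∈ P.fiber F', (c w : K) ^ w.ramificationIndex F) :=
    e0_norm_val P hP (fun w _ => hF' w) g (fun w => (c w : K)) (fun w hw => (hc w hw).1)
  have h2 : (a : K) = ∏ w ∈ P.fiber F', (c w : K) ^ w.ramificationIndex F :=
    e0HasVal_unique P ha h1
  have h3 : a = ∏ w ∈ P.fiber F', c w ^ w.ramificationIndex F := by
    apply Subtype.ext
    rw [h2]
    have := map_prod A.subtype (fun w => c w ^ w.ramificationIndex F) (P.fiber F')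
    simp only [map_pow, ValuationSubring.subtype_apply] at this
    exact this.symm
  rw [h3, map_prod]
  refine Finset.prod_congr rfl (fun w hw => ?_)
  rw [map_pow, (hc w hw).2]

/-- Separation of characters over two places with the same character. -/
theorem jrla_fiber_sum_eq {C : Type*} (A : ValuationSubring K)
    [Infinite (IsLocalRing.ResidueField A)] (O : Subring F) (O' : Subring F')
    (hconst : ∀ a : A, algebraMap K F' (a : K) ∈ O')
    (hn : ∀ g ∈ O', Algebra.norm F g ∈ O)
    (mk : (O' →+* IsLocalRing.ResidueField A) → C) (cls' : Place K F' → C)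
    (P P' : Place K F) (hP : P.deg = 1) (hP' : P'.deg = 1) (hF' : ∀ w : Place K F', w.deg = 1)
    (hval : ∀ x ∈ O, ∃ a : A, RdmVal P x (a : K))
    (hval' : ∀ x ∈ O, ∃ a : A, RdmVal P' x (a : K))
    (heq : ∀ x ∈ O, ∀ a a' : A, RdmVal P x (a : K) → RdmVal P' x (a' : K) →
      IsLocalRing.residue A a = IsLocalRing.residue A a')
    (hcls : ∀ w : Place K F', w.restrict F = P ∨ w.restrict F = P' →
      ∃ χ : O' →+* IsLocalRing.ResidueField A,
        (∀ x : O', ∃ c : A, RdmVal w (x : F') (c : K) ∧ χ x = IsLocalRing.residue A c) ∧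
          cls' w = mk χ) :
    ∑ w ∈ P.fiber F', Finsupp.single (cls' w) (w.ramificationIndex F : ℤ)
      = ∑ w ∈ P'.fiber F', Finsupp.single (cls' w) (w.ramificationIndex F : ℤ) := by
  classical
  by_cases hne : Nonempty (O' →+* IsLocalRing.ResidueField A)
  · -- the characters of the places above `P` and `P'`
    let X : Place K F' → (O' →+* IsLocalRing.ResidueField A) := fun w =>
      if hw : w.restrict F = P ∨ w.restrict F = P' then (hcls w hw).choose
      else Classical.choice hne
    have hX : ∀ w : Place K F', w.restrict F = P ∨ w.restrict F = P' →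
        (∀ x : O', ∃ c : A, RdmVal w (x : F') (c : K) ∧ X w x = IsLocalRing.residue A c) ∧
          cls' w = mk (X w) := by
      intro w hw
      have : X w = (hcls w hw).choose := dif_pos hw
      rw [this]
      exact (hcls w hw).choose_spec
    -- the divisors of characters
    let D : Place K F → ((O' →+* IsLocalRing.ResidueField A) →₀ ℕ) := fun Q =>
      ∑ w ∈ Q.fiber F', Finsupp.single (X w) (w.ramificationIndex F)
    let ι : A →+* O' := ((algebraMap K F').comp A.subtype).codRestrict O' hconst
    have hι : ∀ w : Place K F', w.restrict F = P ∨ w.restrict F = P' →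
        (X w).comp ι = IsLocalRing.residue A := by
      intro w hw
      ext a
      obtain ⟨c, hc, hχ⟩ := (hX w hw).1 (ι a)
      have h1 : (c : K) = (a : K) := e0HasVal_unique w hc (e0HasVal_const w (a : K))
      have h2 : c = a := Subtype.ext h1
      show X w (ι a) = _
      rw [hχ, h2]
    have hsupp : ∀ Q : Place K F, (Q = P ∨ Q = P') → ∀ χ ∈ (D Q).support,
        χ.comp ι = IsLocalRing.residue A := by
      intro Q hQ χ hχ
      have h1 := Finsupp.support_finsetSum (s := Q.fiber F')
        (f := fun w => Finsupp.single (X w) (w.ramificationIndex F)) hχ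
      obtain ⟨w, hw, hw2⟩ := Finset.mem_biUnion.mp h1
      have h2 : χ = X w := Finset.mem_singleton.mp (Finsupp.support_single_subset hw2)
      rw [h2]
      refine hι w ?_
      rw [Place.mem_fiber.mp hw]
      exact hQ
    have hprod : ∀ (Q : Place K F) (g : O'),
        (D Q).prod (fun χ n => χ g ^ n) = ∏ w ∈ Q.fiber F', X w g ^ w.ramificationIndex F := by
      intro Q g
      show (∑ w ∈ Q.fiber F', Finsupp.single (X w) (w.ramificationIndex F)).prod
        (fun χ n => χ g ^ n) = _
      rw [← Finsupp.prod_finsetSum_index (fun _ => pow_zero _) (fun _ _ _ => pow_add _ _ _)]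
      refine Finset.prod_congr rfl (fun w _ => ?_)
      exact Finsupp.prod_single_index
        (h := fun (χ : O' →+* IsLocalRing.ResidueField A) n => χ g ^ n) (pow_zero _)
    have hD : D P = D P' := by
      refine jr_crt_mult ι (IsLocalRing.residue A) IsLocalRing.residue_surjective (D P) (D P')
        (hsupp P (Or.inl rfl)) (hsupp P' (Or.inr rfl)) (fun g => ?_)
      rw [hprod, hprod]
      obtain ⟨a, ha⟩ := hval _ (hn g g.2)
      obtain ⟨a', ha'⟩ := hval' _ (hn g g.2)
      rw [jrla_prod_eq A P hP hF' (g : F') (fun w => X w g)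
          (fun w hw => (hX w (Or.inl (Place.mem_fiber.mp hw))).1 g) a ha,
        jrla_prod_eq A P' hP' hF' (g : F') (fun w => X w g)
          (fun w hw => (hX w (Or.inr (Place.mem_fiber.mp hw))).1 g) a' ha']
      exact heq _ (hn g g.2) a a' ha ha'
    -- transport to the classes
    let Φ : ((O' →+* IsLocalRing.ResidueField A) →₀ ℕ) →+ (C →₀ ℤ) :=
      (Finsupp.mapDomain.addMonoidHom mk).comp
        (Finsupp.mapRange.addMonoidHom (Nat.castAddMonoidHom ℤ))
    have hΦ : ∀ Q : Place K F, (Q = P ∨ Q = P') →
        Φ (D Q) = ∑ w ∈ Q.fiber F', Finsupp.single (cls' w) (w.ramificationIndex F : ℤ) := by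
      intro Q hQ
      show Φ (∑ w ∈ Q.fiber F', Finsupp.single (X w) (w.ramificationIndex F)) = _
      rw [map_sum]
      refine Finset.sum_congr rfl (fun w hw => ?_)
      have hw' : w.restrict F = P ∨ w.restrict F = P' := by
        rw [Place.mem_fiber.mp hw]
        exact hQ
      show Finsupp.mapDomain mk (Finsupp.mapRange (Nat.castAddMonoidHom ℤ) (map_zero _)
        (Finsupp.single (X w) (w.ramificationIndex F))) = _
      rw [Finsupp.mapRange_single, Finsupp.mapDomain_single, (hX w hw').2]
      rfl
    rw [← hΦ P (Or.inl rfl), ← hΦ P' (Or.inr rfl), hD]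
  · -- no character at all: both fibres are empty
    have hempty : ∀ Q : Place K F, (Q = P ∨ Q = P') → Q.fiber F' = ∅ := by
      intro Q hQ
      rw [Finset.eq_empty_iff_forall_notMem]
      intro w hw
      have hw' : w.restrict F = P ∨ w.restrict F = P' := by
        rw [Place.mem_fiber.mp hw]
        exact hQ
      obtain ⟨χ, -, -⟩ := hcls w hw'
      exact hne ⟨χ⟩
    rw [hempty P (Or.inl rfl), hempty P' (Or.inr rfl)]

/-- **Raising the level (abstract form).** If the norm maps the J-rings of `F'` into the J-rings
of `F`, then the reduction map is compatible with the pullback of divisors. -/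
theorem jrla_main_abs (hF : ∀ P : Place K F, P.deg = 1) (hF' : ∀ w : Place K F', w.deg = 1)
    (A : ValuationSubring K) [Infinite (IsLocalRing.ResidueField A)] (j : F)
    (hnY : ∀ g ∈ jrOY A (algebraMap F F' j), Algebra.norm F g ∈ jrOY A j)
    (hnZ : ∀ g ∈ jrOZ A (algebraMap F F' j), Algebra.norm F g ∈ jrOZ A j)
    (E : Divisor K F) (hE : jrRed A j E = 0) :
    jrRed A (algebraMap F F' j) (Divisor.pullback F' E) = 0 := by
  refine jrla_mapDomain_factor (jrCls A j)
    ((jrRed A (algebraMap F F' j)).comp (Divisor.pullback F')) ?_ E hE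
  intro P P' hcls
  show jrRed A (algebraMap F F' j) (Divisor.pullback F' (Finsupp.single P 1))
    = jrRed A (algebraMap F F' j) (Divisor.pullback F' (Finsupp.single P' 1))
  rw [Divisor.pullback_single, Divisor.pullback_single, map_sum, map_sum]
  simp only [jrRed_single, one_mul]
  obtain ⟨hreg, hring, hres⟩ := jrCls_eq_imp hcls
  have hb : ∀ Q : Place K F, Function.Bijective (algebraMap K Q.ResidueField) :=
    fun Q => jr_bij_of_deg Q (hF Q)
  have hb' : ∀ w : Place K F', Function.Bijective (algebraMap K w.ResidueField) :=
    fun w => jr_bij_of_deg w (hF' w)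
  by_cases hY : jrRegY A j P
  · -- the region `Y`
    have hY' : jrRegY A j P' := hreg.mp hY
    rw [jrRing_of_regY hY] at hres
    refine jrla_fiber_sum_eq A (jrOY A j) (jrOY A (algebraMap F F' j))
      (fun a => jr_const_mem_jrOY _ a) hnY
      (fun χ => jrClsOf A True (jrOY A (algebraMap F F' j)) χ) (jrCls A (algebraMap F F' j)) P P'
      (hF P) (hF P') hF'
      (fun x hx => jr_exists_val_Y A j P (hb P) hY hx)
      (fun x hx => jr_exists_val_Y A j P' (hb P') hY' hx) hres ?_
    intro w hw
    have hwY : jrRegY A (algebraMap F F' j) w := by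
      rw [jrla_regY_iff]
      rcases hw with hw | hw
      · rw [hw]; exact hY
      · rw [hw]; exact hY'
    exact ⟨jrChiY A (algebraMap F F' j) w (hb' w) hwY,
      jrChiY_spec A (algebraMap F F' j) w (hb' w) hwY,
      jrCls_eq_Y A (algebraMap F F' j) w (hb' w) hwY⟩
  · -- the region `Z`
    have hY' : ¬ jrRegY A j P' := fun h => hY (hreg.mpr h)
    rw [jrRing_of_not_regY hY] at hres
    refine jrla_fiber_sum_eq A (jrOZ A j) (jrOZ A (algebraMap F F' j))
      (fun a => jr_const_mem_jrOZ _ a) hnZ
      (fun χ => jrClsOf A False (jrOZ A (algebraMap F F' j)) χ) (jrCls A (algebraMap F F' j)) P P'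
      (hF P) (hF P') hF'
      (fun x hx => jr_exists_val_Z A j P (hb P) hY hx)
      (fun x hx => jr_exists_val_Z A j P' (hb P') hY' hx) hres ?_
    intro w hw
    have hwY : ¬ jrRegY A (algebraMap F F' j) w := by
      rw [jrla_regY_iff]
      rcases hw with hw | hw
      · rw [hw]; exact hY
      · rw [hw]; exact hY'
    exact ⟨jrChiZ A (algebraMap F F' j) w (hb' w) hwY,
      jrChiZ_spec A (algebraMap F F' j) w (hb' w) hwY,
      jrCls_eq_Z A (algebraMap F F' j) w (hb' w) hwY⟩

end Norm

end Fermat.Agent.S37
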