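import Mathlib
import Fermat.Agent.S37.JRingLvlAux
import Fermat.Agent.S37.LevelUp
import Fermat.Agent.S18.IfaceRed

/-!
# S37, J-rings (finding 136), package JR-LVL: raising the level

`jrl_main`: for `N ∣ N'` the reduction map `jrRed` (the map induced on divisors by the classes
of the points modulo a valuation subring `A` of `ℚ̄`) is compatible with the pull-back of
divisors along the inclusion `F_N → F_{N'}` of the function fields of `X₀(N)`, `X₀(N')`:
`jrRed A (jBar N) E = 0 → jrRed A (jBar N') (pull-back of E) = 0`.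

* `jrl_norm_Y`, `jrl_norm_Z` (abstract, instance form): the norm `F' → F` maps the J-rings of
  `F'` into the J-rings of `F` (norms of integral elements are integral; `A[j]` and `Λ(j⁻¹)` of
  `F'` are the images of those of `F`);
* `jrl_main_of_hom` : the instantiation of `jrla_main_abs` (the abstract statement, file
  `JRingLvlAux`) at an integral `ℚ̄`-embedding `φ : F_N → F_{N'}` with `φ j = j`;
* `jrl_main` : the case `φ = lvlIncl N N' h`.
-/

set_option autoImplicit false
set_option linter.style.haveILetI false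
set_option linter.unusedVariables false

open AlgebraicCurve ModularCurve

namespace Fermat.Agent.S37

local notation "Qb" => AlgebraicClosure ℚ

section Norm

variable {K : Type*} [Field K] (A : ValuationSubring K) {F F' : Type*} [Field F] [Field F']
  [Algebra K F] [Algebra K F'] [Algebra F F'] [IsScalarTower K F F']

/-- Transport of `jrEval` along `F → F'`. -/
theorem jrl_eval (y : F) (p : Polynomial A) :
    algebraMap F F' (jrEval A y p) = jrEval A (algebraMap F F' y) p := by
  unfold jrEval
  simp only [Polynomial.coe_eval₂RingHom]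
  rw [Polynomial.hom_eval₂]
  congr 1
  ext a
  simp only [RingHom.comp_apply]
  exact (IsScalarTower.algebraMap_apply K F F' _).symm

/-- `A[φ y] ⊆ φ(A[y])`. -/
theorem jrl_poly_le (y : F) :
    jrPoly A (algebraMap F F' y) ≤ (jrPoly A y).map (algebraMap F F') := by
  intro x hx
  obtain ⟨p, rfl⟩ := mem_jrPoly.mp hx
  exact ⟨jrEval A y p, mem_jrPoly.mpr ⟨p, rfl⟩, jrl_eval A y p⟩

/-- `Λ(φ y) ⊆ φ(Λ(y))`. -/
theorem jrl_lam_le (y : F) :
    jrLam A (algebraMap F F' y) ≤ (jrLam A y).map (algebraMap F F') := by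
  unfold jrLam
  rw [Subring.closure_le]
  rintro x (hx | ⟨s, hs, rfl⟩)
  · obtain ⟨z, hz, rfl⟩ := jrl_poly_le A y hx
    exact ⟨z, Subring.subset_closure (Or.inl hz), rfl⟩
  · refine ⟨(jrEval A y s)⁻¹, Subring.subset_closure (Or.inr ⟨s, hs, rfl⟩), ?_⟩
    rw [map_inv₀, jrl_eval]

omit [Algebra K F] [Algebra K F'] [IsScalarTower K F F'] in
/-- Norms of elements integral over `S' ⊆ φ(S)` are integral over `S`. -/
theorem jrl_norm_mem (S : Subring F) (S' : Subring F')
    (hS' : S' ≤ S.map (algebraMap F F')) {g : F'} (hg : g ∈ jrIC S') :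
    Algebra.norm F g ∈ jrIC S := by
  rw [mem_jrIC] at hg ⊢
  obtain ⟨p, hpm, hp⟩ := hg
  let e : ↥S →+* F' := (algebraMap F F').comp S.subtype
  have hlift : p.map (algebraMap ↥S' F') ∈ Polynomial.lifts e := by
    rw [Polynomial.lifts_iff_coeff_lifts]
    intro n
    rw [Polynomial.coeff_map]
    obtain ⟨s, hs, hse⟩ := hS' (p.coeff n).2
    exact ⟨⟨s, hs⟩, hse⟩
  obtain ⟨q, hq, -, hqm⟩ := Polynomial.lifts_and_degree_eq_and_monic hlift (hpm.map _)
  letI : Algebra ↥S F' := e.toAlgebra
  haveI : IsScalarTower ↥S F F' := IsScalarTower.of_algebraMap_eq (fun x => rfl)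
  have hint : IsIntegral ↥S g := by
    refine ⟨q, hqm, ?_⟩
    show Polynomial.eval₂ e g q = 0
    rw [← Polynomial.eval_map, hq, Polynomial.eval_map]
    exact hp
  exact Algebra.isIntegral_norm F hint

/-- (L-a), region `Y`: the norm maps the J-ring of `F'` into the J-ring of `F`. -/
theorem jrl_norm_Y (j : F) (g : F') (hg : g ∈ jrOY A (algebraMap F F' j)) :
    Algebra.norm F g ∈ jrOY A j :=
  jrl_norm_mem _ _ (jrl_poly_le A j) hg

/-- (L-a), region `Z`. -/
theorem jrl_norm_Z (j : F) (g : F') (hg : g ∈ jrOZ A (algebraMap F F' j)) :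
    Algebra.norm F g ∈ jrOZ A j := by
  have h : jrLam A (algebraMap F F' j)⁻¹ ≤ (jrLam A j⁻¹).map (algebraMap F F') := by
    rw [← map_inv₀]
    exact jrl_lam_le A j⁻¹
  exact jrl_norm_mem _ _ h hg

end Norm

/-- General form of `jrl_main`: any integral `ℚ̄`-embedding of the function fields carrying `j`
to `j`. -/
theorem jrl_main_of_hom (N N' : ℕ) [NeZero N] [NeZero N']
    (φ : ↥(modularFunctionFieldBar N) →ₐ[Qb] ↥(modularFunctionFieldBar N'))
    (hφ : φ.toRingHom.IsIntegral)
    (hj : φ (Fermat.Agent.S24.jBar N) = Fermat.Agent.S24.jBar N')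
    [HasPrincipalDivisors Qb ↥(modularFunctionFieldBar N')]
    (A : ValuationSubring Qb) (E : Divisor Qb ↥(modularFunctionFieldBar N))
    (hE : jrRed A (Fermat.Agent.S24.jBar N) E = 0) :
    jrRed A (Fermat.Agent.S24.jBar N') (Divisor.pullbackAlong φ hφ E) = 0 := by
  letI := algebraAlong φ
  haveI := isScalarTower_along φ
  haveI := isIntegral_along φ hφ
  haveI : FundamentalIdentity Qb ↥(modularFunctionFieldBar N) ↥(modularFunctionFieldBar N') :=
    hki_fundamentalIdentityAlong N N' φ hφ
  haveI : IsAlgClosed (IsLocalRing.ResidueField A) := Fermat.Agent.S18.ifr_residue_isAlgClosed A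
  have h := jrla_main_abs (K := Qb) (F := ↥(modularFunctionFieldBar N))
    (F' := ↥(modularFunctionFieldBar N'))
    (fun P => hki_deg_eq_one P (hki_residue N P)) (fun w => hki_deg_eq_one w (hki_residue N' w))
    A (Fermat.Agent.S24.jBar N) (fun g hg => jrl_norm_Y A _ g hg) (fun g hg => jrl_norm_Z A _ g hg)
    E hE
  rw [← hj]
  exact h

/-- **JR-LVL**: the reduction map is compatible with the pull-back of divisors from level `N`
to level `N'`, `N ∣ N'`. -/
theorem jrl_main (N N' : ℕ) [NeZero N] [NeZero N'] (hNN' : N ∣ N') {ℓ : ℕ} [Fact ℓ.Prime]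
    (hℓN' : ¬ ℓ ∣ N') (A : ValuationSubring Qb) (hA : A.LiesOverPrime ℓ)
    [HasPrincipalDivisors Qb ↥(modularFunctionFieldBar N')]
    (E : Divisor Qb ↥(modularFunctionFieldBar N))
    (hE : jrRed A (Fermat.Agent.S24.jBar N) E = 0) :
    jrRed A (Fermat.Agent.S24.jBar N')
      (Divisor.pullbackAlong (lvlIncl N N' hNN') (hki_isIntegral N N' (lvlIncl N N' hNN')) E)
        = 0 := by
  refine jrl_main_of_hom N N' (lvlIncl N N' hNN') _ ?_ A E hE
  have h := lvlIncl_jBar_inv N N' hNN'
  rw [map_inv₀] at h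
  exact inv_injective h

end Fermat.Agent.S37
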