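import Mathlib
import Fermat.Prelude.Def_AlgebraicCurve_DivisorClassGroup
import Fermat.Agent.S24.SumFormulaBase
import Fermat.Agent.S37.RedMapDefs
import Fermat.Agent.S37.RedMapAbs
import Fermat.Agent.S37.RedMapChart
import Fermat.Agent.S37.RedMapLe
import Fermat.Agent.S37.RedMapAsm

/-!
# S37, package REDMAP: conservation of the divisor under reduction, one chart

`rdm_cons`: for a unit `y` of the Gauss valuation ring `V` (`ρ y ≠ 0`), the order of the residue
`ρ y` at a closed point `w` of the special chart `Spec B` is the sum of the orders of `y` at the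
places of the generic fibre which specialize to `w` in the chart `(t, O)`.

It is the combination of the inequality `rdm_cons_le` (`RedMapLe.lean`) with the fibre-count
assembly `rdma_cons_of_le` (`RedMapAsm.lean`).
-/

set_option autoImplicit false

noncomputable section

open AlgebraicCurve IsDedekindDomain

namespace Fermat.Agent.S37

open Fermat.Agent.S24

section Cons

variable {K : Type*} [Field K] {A : ValuationSubring K}
variable {F : Type*} [Field F] [Algebra K F]
variable {κ : Type*} [Field κ] [Algebra (IsLocalRing.ResidueField A) κ]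
variable {V : ValuationSubring F} {ρ : V →+* κ} {t : F} {O : Subring F}
variable {B : Subalgebra (IsLocalRing.ResidueField A) κ}
variable [IsDedekindDomain B] [IsFractionRing B κ]

/-- **Conservation of the divisor under reduction, one chart.** -/
theorem rdm_cons (G : RdmGauss A V ρ) (C : RdmChart A V ρ t O B)
    (ht : Transcendental (IsLocalRing.ResidueField A) (ρ ⟨t, C.le t C.t_mem⟩))
    (hres : ∀ (P : Place K F) (x : F), 0 ≤ P.ord x → ∃ c : K, RdmVal P x c)
    (hfin : ∀ f : F, f ≠ 0 → (Function.support fun P : Place K F => P.ord f).Finite)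
    (n : ℕ)
    (hfibF : ∀ α : A, ∑ᶠ P ∈ {P : Place K F | 0 < P.ord (t - algebraMap K F (α : K))},
      P.ord (t - algebraMap K F (α : K)) = (n : ℤ))
    (hfibκ : ∀ c : IsLocalRing.ResidueField A, ∃ S : Finset (HeightOneSpectrum B),
      (∀ w, w ∈ S ↔ ∀ b : B, (b : κ) = ρ ⟨t, C.le t C.t_mem⟩ -
        algebraMap (IsLocalRing.ResidueField A) κ c → b ∈ w.asIdeal) ∧
      (n : ℤ) ≤ ∑ w ∈ S, (Place.ofHeightOneSpectrum (K := IsLocalRing.ResidueField A) (F := κ) w).ord
        (ρ ⟨t, C.le t C.t_mem⟩ - algebraMap (IsLocalRing.ResidueField A) κ c))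
    (y : V) (hy : ρ y ≠ 0) (w : HeightOneSpectrum B) :
    (Place.ofHeightOneSpectrum (K := IsLocalRing.ResidueField A) (F := κ) w).ord (ρ y) =
      ∑ᶠ P ∈ {P : Place K F | RdmTo A V ρ t O P
        (Place.ofHeightOneSpectrum (K := IsLocalRing.ResidueField A) (F := κ) w)},
        P.ord (y : F) :=
  rdma_cons_of_le G C ht hres hfin n hfibF hfibκ
    (fun a ha w => rdm_cons_le G C ht hres hfin a ha w) y hy w

end Cons

end Fermat.Agent.S37
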