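import Mathlib
import Fermat.Prelude.Def_AlgebraicCurve_DivisorClassGroup
import Fermat.Agent.S24.SumFormulaBase

/-!
# S37, package REDMAP, leaf [FI]: the fibre sum on a Dedekind chart (any characteristic)

`k` an algebraically closed field, `B ⊆ κ` a Dedekind `k`-subalgebra with fraction field `κ`,
`u ∈ B` transcendental over `k`, and `B` free of rank `d` over `k[u]` (basis `β`).  Then

* every maximal ideal of `B` has residue field `k` (`rdm_fibre_degree_one`);
* for every `c : k` the zeros of `u - c` on the chart, counted with multiplicity, add up to `d`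
  (`rdm_fibre_sum`).

This is the characteristic-free version of `sf_finsum_ord_zeroPlaces_sub` of S24.
-/

set_option autoImplicit false
set_option linter.style.haveILetI false

open Polynomial AlgebraicCurve IsDedekindDomain

namespace Fermat.Agent.S37

/-- If every element of `S` is congruent modulo `q` to an element of `R`, the inertia degree of
`q` is one. -/
theorem rdm_inertiaDeg_eq_one_of_surjective {R S : Type*} [CommRing R] [CommRing S] [Algebra R S]
    (p : Ideal R) (q : Ideal S) [q.LiesOver p] [hp : p.IsMaximal] [q.IsMaximal]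
    (h : ∀ b : S, ∃ a : R, b - algebraMap R S a ∈ q) : q.inertiaDeg R = 1 := by
  rw [Ideal.inertiaDeg_eq_of_isMaximal p q]
  have hsurj : Function.Surjective (algebraMap (R ⧸ p) (S ⧸ q)) := by
    intro w
    obtain ⟨b, rfl⟩ := Ideal.Quotient.mk_surjective w
    obtain ⟨a, ha⟩ := h b
    refine ⟨Ideal.Quotient.mk _ a, ?_⟩
    rw [Ideal.Quotient.algebraMap_mk_of_liesOver]
    symm
    rw [Ideal.Quotient.eq]
    exact ha
  have hinj : Function.Injective (algebraMap (R ⧸ p) (S ⧸ q)) :=
    FaithfulSMul.algebraMap_injective _ _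
  have : Nontrivial (R ⧸ p) := Ideal.Quotient.nontrivial_iff.mpr hp.ne_top
  have e := LinearEquiv.ofBijective (Algebra.linearMap (R ⧸ p) (S ⧸ q)) ⟨hinj, hsurj⟩
  rw [← e.finrank_eq, Module.finrank_self]

section chart

variable {k κ : Type*} [Field k] [Field κ] [Algebra k κ] (B : Subalgebra k κ)

/-- The `k[X]`-algebra structure on `B` given by `X ↦ u`. -/
noncomputable abbrev rdmPolyAlgebra (u : κ) (huB : u ∈ B) : Algebra (Polynomial k) B :=
  (aeval (⟨u, huB⟩ : B)).toRingHom.toAlgebra

theorem rdm_algebraMap_poly (u : κ) (huB : u ∈ B) (p : Polynomial k) :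
    letI := rdmPolyAlgebra B u huB
    ((algebraMap (Polynomial k) B p : B) : κ) = aeval u p := by
  letI := rdmPolyAlgebra B u huB
  show ((aeval (⟨u, huB⟩ : B) p : B) : κ) = aeval u p
  have h := Subalgebra.aeval_coe B (⟨u, huB⟩ : B) p
  exact h.symm

theorem rdm_smul_poly (u : κ) (huB : u ∈ B) (p : Polynomial k) (b : B) :
    letI := rdmPolyAlgebra B u huB
    ((p • b : B) : κ) = aeval u p * (b : κ) := by
  letI := rdmPolyAlgebra B u huB
  rw [Algebra.smul_def]
  show ((algebraMap (Polynomial k) B p : B) : κ) * (b : κ) = _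
  rw [rdm_algebraMap_poly]

theorem rdm_isScalarTower (u : κ) (huB : u ∈ B) :
    letI := rdmPolyAlgebra B u huB
    IsScalarTower k (Polynomial k) B := by
  letI := rdmPolyAlgebra B u huB
  refine IsScalarTower.of_algebraMap_eq fun a => ?_
  apply Subtype.ext
  rw [rdm_algebraMap_poly]
  simp

/-- The basis of `B` over `k[X]` given by the family `β`. -/
noncomputable def rdmBasis (u : κ) (huB : u ∈ B) {d : ℕ} (β : Fin d → κ) (hβ : ∀ i, β i ∈ B)
    (hli : ∀ p : Fin d → Polynomial k, ∑ i, aeval u (p i) * β i = 0 → ∀ i, p i = 0)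
    (hspan : ∀ b ∈ B, ∃ p : Fin d → Polynomial k, b = ∑ i, aeval u (p i) * β i) :
    letI := rdmPolyAlgebra B u huB
    Module.Basis (Fin d) (Polynomial k) B := by
  letI := rdmPolyAlgebra B u huB
  refine Module.Basis.mk (v := fun i => (⟨β i, hβ i⟩ : B)) ?_ ?_
  · rw [Fintype.linearIndependent_iff]
    intro g hg
    apply hli g
    have h1 := congrArg (fun b : B => (b : κ)) hg
    simp only [ZeroMemClass.coe_zero] at h1
    rw [← h1, AddSubmonoidClass.coe_finsetSum]
    refine Finset.sum_congr rfl fun i _ => ?_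
    rw [rdm_smul_poly]
  · intro b _
    obtain ⟨p, hp⟩ := hspan b b.2
    have hb : b = ∑ i, p i • (⟨β i, hβ i⟩ : B) := by
      apply Subtype.ext
      rw [hp, AddSubmonoidClass.coe_finsetSum]
      refine Finset.sum_congr rfl fun i _ => ?_
      rw [rdm_smul_poly]
    rw [hb]
    exact Submodule.sum_mem _ fun i _ =>
      Submodule.smul_mem _ _ (Submodule.subset_span (Set.mem_range_self i))

theorem rdm_finite_poly (u : κ) (huB : u ∈ B) {d : ℕ} (β : Fin d → κ) (hβ : ∀ i, β i ∈ B)
    (hspan : ∀ b ∈ B, ∃ p : Fin d → Polynomial k, b = ∑ i, aeval u (p i) * β i) :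
    letI := rdmPolyAlgebra B u huB
    Module.Finite (Polynomial k) B := by
  classical
  letI := rdmPolyAlgebra B u huB
  refine ⟨⟨Finset.univ.image (fun i => (⟨β i, hβ i⟩ : B)), ?_⟩⟩
  rw [eq_top_iff]
  intro b _
  obtain ⟨p, hp⟩ := hspan b b.2
  have hb : b = ∑ i, p i • (⟨β i, hβ i⟩ : B) := by
    apply Subtype.ext
    rw [hp, AddSubmonoidClass.coe_finsetSum]
    refine Finset.sum_congr rfl fun i _ => ?_
    rw [rdm_smul_poly]
  rw [hb]
  refine Submodule.sum_mem _ fun i _ => Submodule.smul_mem _ _ (Submodule.subset_span ?_)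
  simp

/-- **Degree one.** Every maximal ideal of the chart ring `B` has residue field `k`. -/
theorem rdm_fibre_degree_one [IsAlgClosed k] [IsDedekindDomain B] (u : κ) (huB : u ∈ B) {d : ℕ}
    (β : Fin d → κ) (hβ : ∀ i, β i ∈ B)
    (hspan : ∀ b ∈ B, ∃ p : Fin d → Polynomial k, b = ∑ i, aeval u (p i) * β i)
    (w : HeightOneSpectrum B) (b : B) : ∃ c : k, b - algebraMap k B c ∈ w.asIdeal := by
  letI := rdmPolyAlgebra B u huB
  haveI : IsScalarTower k (Polynomial k) B := rdm_isScalarTower B u huB
  haveI : Module.Finite (Polynomial k) B := rdm_finite_poly B u huB β hβ hspan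
  haveI : Algebra.FiniteType k B :=
    Algebra.FiniteType.trans (S := Polynomial k) inferInstance inferInstance
  haveI := w.isMaximal
  letI : Field (B ⧸ w.asIdeal) := Ideal.Quotient.field _
  haveI : Module.Finite k (B ⧸ w.asIdeal) := finite_of_finite_type_of_isJacobsonRing k _
  obtain ⟨c, hc⟩ := (IsAlgClosed.algebraMap_bijective_of_isIntegral (k := k)
    (K := B ⧸ w.asIdeal)).2 (Ideal.Quotient.mk _ b)
  refine ⟨c, ?_⟩
  rw [← Ideal.Quotient.eq]
  exact hc.symm

/-- **[FI] Fibre sum.** On a Dedekind chart `B`, free of rank `d` over `k[u]`, the zeros of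
`u - c` counted with multiplicity add up to `d`. -/
theorem rdm_fibre_sum [IsAlgClosed k] [IsDedekindDomain B] [IsFractionRing B κ] (u : κ)
    (huB : u ∈ B) (hu : Transcendental k u) {d : ℕ} (β : Fin d → κ) (hβ : ∀ i, β i ∈ B)
    (hli : ∀ p : Fin d → Polynomial k, ∑ i, aeval u (p i) * β i = 0 → ∀ i, p i = 0)
    (hspan : ∀ b ∈ B, ∃ p : Fin d → Polynomial k, b = ∑ i, aeval u (p i) * β i) (c : k) :
    ∃ S : Finset (HeightOneSpectrum B),
      (∀ w : HeightOneSpectrum B, w ∈ S ↔ (⟨u, huB⟩ - algebraMap k B c : B) ∈ w.asIdeal) ∧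
      ∑ w ∈ S, (Place.ofHeightOneSpectrum (K := k) (F := κ) w).ord (u - algebraMap k κ c) = d := by
  classical
  letI := rdmPolyAlgebra B u huB
  haveI : IsScalarTower k (Polynomial k) B := rdm_isScalarTower B u huB
  let bas := rdmBasis B u huB β hβ hli hspan
  haveI : Module.Free (Polynomial k) B := Module.Free.of_basis bas
  haveI : Module.Finite (Polynomial k) B := Module.Finite.of_basis bas
  have hrank : Module.finrank (Polynomial k) B = d := by
    rw [Module.finrank_eq_card_basis bas, Fintype.card_fin]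
  obtain ⟨g, hg⟩ : ∃ g : B, g = ⟨u, huB⟩ - algebraMap k B c := ⟨_, rfl⟩
  have hgcoe : (g : κ) = u - algebraMap k κ c := by rw [hg]; rfl
  have hg0 : g ≠ 0 := by
    intro h0
    apply hu
    refine ⟨X - C c, X_sub_C_ne_zero c, ?_⟩
    have := congrArg (fun b : B => (b : κ)) h0
    simp only [ZeroMemClass.coe_zero] at this
    rw [hgcoe] at this
    simpa using this
  have hgmap : algebraMap (Polynomial k) B (X - C c) = g := by
    apply Subtype.ext
    rw [rdm_algebraMap_poly, hgcoe]
    simp
  obtain ⟨p, hp⟩ : ∃ p : Ideal (Polynomial k), p = Ideal.span {X - C c} := ⟨_, rfl⟩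
  haveI hpmax : p.IsMaximal := by
    rw [hp]
    exact PrincipalIdealRing.isMaximal_of_irreducible (irreducible_X_sub_C c)
  have hmap : p.map (algebraMap (Polynomial k) B) = Ideal.span {g} := by
    rw [hp, Ideal.map_span, Set.image_singleton, hgmap]
  have hmap0 : p.map (algebraMap (Polynomial k) B) ≠ ⊥ := by
    rw [hmap, Ne, Ideal.span_singleton_eq_bot]
    exact hg0
  have hsum := Ideal.sum_ramification_inertia_eq_finrank p B
  have hmem : ∀ q : p.primesOver B, g ∈ q.1 := by
    intro q
    have h1 : X - C c ∈ p := by rw [hp]; exact Ideal.subset_span rfl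
    have h2 : p = q.1.under (Polynomial k) := q.2.2.over
    rw [h2] at h1
    rw [← hgmap]
    exact h1
  let e : p.primesOver B → HeightOneSpectrum B := fun q =>
    ⟨q.1, q.2.1, fun h => hg0 (by have h3 := hmem q; rw [h] at h3; exact h3)⟩
  have he : Function.Injective e := by
    intro q q' h
    apply Subtype.ext
    exact congrArg HeightOneSpectrum.asIdeal h
  refine ⟨Finset.univ.image e, ?_, ?_⟩
  · intro w
    rw [← hg]
    constructor
    · intro hw
      obtain ⟨q, -, rfl⟩ := Finset.mem_image.mp hw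
      exact hmem q
    · intro hw
      have hle : p ≤ w.asIdeal.under (Polynomial k) := by
        rw [hp, Ideal.span_le, Set.singleton_subset_iff]
        show algebraMap (Polynomial k) B (X - C c) ∈ w.asIdeal
        rw [hgmap]
        exact hw
      have hlies : w.asIdeal.LiesOver p :=
        ⟨hpmax.eq_of_le (Ideal.comap_ne_top _ w.isPrime.ne_top) hle⟩
      exact Finset.mem_image.mpr ⟨⟨w.asIdeal, w.isPrime, hlies⟩, Finset.mem_univ _, rfl⟩
  · rw [Finset.sum_image (fun a _ b _ h => he h), ← hrank, ← hsum]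
    push_cast
    refine Finset.sum_congr rfl fun q _ => ?_
    rw [Fermat.Agent.S24.sf_ord_ofHeightOneSpectrum, ← hgcoe]
    have h1 : (e q).valuation κ (g : κ) = (e q).intValuation g :=
      (e q).valuation_of_algebraMap (K := κ) g
    rw [h1, HeightOneSpectrum.intValuation_eq_exp_neg_multiplicity _ hg0, WithZero.log_exp,
      neg_neg]
    have h2 := Ideal.IsDedekindDomain.ramificationIdx_eq_multiplicity p q.1 hmap0
    have h3 : q.1.inertiaDeg (Polynomial k) = 1 := by
      refine rdm_inertiaDeg_eq_one_of_surjective p q.1 fun b => ?_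
      obtain ⟨a, ha⟩ := rdm_fibre_degree_one B u huB β hβ hspan (e q) b
      refine ⟨C a, ?_⟩
      have h4 : algebraMap (Polynomial k) B (C a) = algebraMap k B a :=
        (IsScalarTower.algebraMap_apply k (Polynomial k) B a).symm
      rw [h4]
      exact ha
    rw [h2, hmap, h3, Nat.cast_one, mul_one]

/-- `rdm_fibre_sum` with the membership condition spelled through the coercion to `κ`
(the shape of the hypothesis `hfibκ` of `rdm_cons`). -/
theorem rdm_fibre_sum_coe [IsAlgClosed k] [IsDedekindDomain B] [IsFractionRing B κ] (u : κ)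
    (huB : u ∈ B) (hu : Transcendental k u) {d : ℕ} (β : Fin d → κ) (hβ : ∀ i, β i ∈ B)
    (hli : ∀ p : Fin d → Polynomial k, ∑ i, aeval u (p i) * β i = 0 → ∀ i, p i = 0)
    (hspan : ∀ b ∈ B, ∃ p : Fin d → Polynomial k, b = ∑ i, aeval u (p i) * β i) (c : k) :
    ∃ S : Finset (HeightOneSpectrum B),
      (∀ w : HeightOneSpectrum B, w ∈ S ↔
        ∀ b : B, (b : κ) = u - algebraMap k κ c → b ∈ w.asIdeal) ∧
      ∑ w ∈ S, (Place.ofHeightOneSpectrum (K := k) (F := κ) w).ord (u - algebraMap k κ c) = d := by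
  obtain ⟨S, hS, hsum⟩ := rdm_fibre_sum B u huB hu β hβ hli hspan c
  refine ⟨S, fun w => ?_, hsum⟩
  rw [hS w]
  constructor
  · intro h b hb
    have : b = (⟨u, huB⟩ - algebraMap k B c : B) := Subtype.ext hb
    rw [this]
    exact h
  · intro h
    exact h _ rfl

end chart

end Fermat.Agent.S37
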