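import Mathlib
import Fermat.Agent.S24.SumFormula
import Fermat.Agent.S24.SumFormulaA4
import Fermat.Agent.S18.ValExt
import Fermat.Agent.S18.SMAbs
import Fermat.Agent.S37.RedMapAbs
import Fermat.Agent.S37.RedConsFib

/-!
# S37, package REDMAP-INST, part 2: the chart attached to a coordinate (abstract part)

Setting of `RedMapDefs`: `K` algebraically closed of characteristic zero, `A` a valuation subring
of `K` with residue field `k`, `F / K` a function field, `V` a valuation subring of `F` with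
residue map `ρ : V →+* κ` (`RdmGauss A V ρ`), and a coordinate `t ∈ V` whose residue `u = ρ t` is
transcendental over `k`.

* `rmiEv A t : A[X] →+* F`, `X ↦ t`;  `RmiInt A t x` : `x` is integral over `A[t]`;
* `rmiO K V t` : the chart ring (elements of `V` regular wherever `t` is regular);
* `rmiB k u` : the integral closure of `k[u]` in `κ`, as a `k`-subalgebra;
* `rmi_mem_O_iff` : `rmiO K V t` = the elements of `V` integral over `A[t]`;
* `rmi_chart` : the structure `RdmChart A V ρ t (rmiO K V t) (rmiB k u)`;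
* `rmi_isDedekindDomain`, `rmi_isFractionRing`, `rmi_hres`, `rmi_hfibF`, `rmi_hfibK` : the
  remaining hypotheses of the conservation theorem.
-/

set_option autoImplicit false
set_option linter.style.haveILetI false

noncomputable section

open AlgebraicCurve IsDedekindDomain Polynomial
open scoped IntermediateField
open scoped IntermediateField.algebraAdjoinAdjoin

namespace Fermat.Agent.S37

open Fermat.Agent.S24 Fermat.Agent.S18

/-! ### Generalities on integral elements of ring homomorphisms -/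

section RingHomInt

/-- Integrality for `g ∘ φ` and for `g` agree when `φ` is surjective. -/
theorem rmi_isIntegralElem_comp_iff {S R T : Type*} [CommRing S] [CommRing R] [CommRing T]
    [Nontrivial R] (φ : S →+* R) (hφ : Function.Surjective φ) (g : R →+* T) (b : T) :
    (g.comp φ).IsIntegralElem b ↔ g.IsIntegralElem b := by
  constructor
  · rintro ⟨p, hp, hpb⟩
    refine ⟨p.map φ, hp.map φ, ?_⟩
    rw [eval₂_map]
    exact hpb
  · rintro ⟨p, hp, hpb⟩
    have hl : p ∈ Polynomial.lifts φ := by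
      rw [Polynomial.lifts_iff_coeff_lifts]
      intro n
      exact hφ _
    obtain ⟨q, hq, -, hqm⟩ := Polynomial.lifts_and_degree_eq_and_monic hl hp
    refine ⟨q, hqm, ?_⟩
    rw [← eval₂_map, hq]
    exact hpb

/-- An integral element of a ring homomorphism is integral over its range. -/
theorem rmi_isIntegral_range {S T : Type*} [CommRing S] [CommRing T] (f : S →+* T) (b : T)
    (h : f.IsIntegralElem b) : IsIntegral f.range b := by
  obtain ⟨p, hp, hpb⟩ := h
  refine ⟨p.map f.rangeRestrict, hp.map _, ?_⟩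
  rw [eval₂_map]
  exact hpb

end RingHomInt

/-! ### The definitions -/

section Defs

variable {K : Type*} [Field K] (A : ValuationSubring K) {F : Type*} [Field F] [Algebra K F]

/-- The ring homomorphism `A[X] → F`, `X ↦ t`. -/
def rmiEv (t : F) : (↥A)[X] →+* F :=
  Polynomial.eval₂RingHom ((algebraMap K F).comp A.subtype) t

/-- `x` is integral over `A[t]`. -/
def RmiInt (t x : F) : Prop := (rmiEv A t).IsIntegralElem x

theorem rmiEv_apply (t : F) (Q : (↥A)[X]) : rmiEv A t Q = aeval t (Q.map A.subtype) := by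
  rw [aeval_def, eval₂_map]
  rfl

theorem rmiEv_C (t : F) (a : A) : rmiEv A t (C a) = algebraMap K F (a : K) := by
  simp [rmiEv]

theorem rmiEv_X (t : F) : rmiEv A t X = t := by
  simp [rmiEv]

theorem rmiEv_eq_comp (t : F) :
    rmiEv A t = ((aeval t : K[X] →ₐ[K] F) : K[X] →+* F).comp (mapRingHom A.subtype) := by
  refine RingHom.ext fun Q => ?_
  rw [rmiEv_apply]
  rfl

/-- `RmiInt` in the spelling of `smq_main`. -/
theorem rmiInt_iff (t x : F) :
    RmiInt A t x ↔
      (((aeval t : K[X] →ₐ[K] F) : K[X] →+* F).comp (mapRingHom A.subtype)).IsIntegralElem x := by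
  rw [RmiInt, rmiEv_eq_comp]

/-- The image of `A[X]` lies in every subring containing `A` and `t`. -/
theorem rmiEv_mem (t : F) (S : Subring F) (hc : ∀ a : A, algebraMap K F (a : K) ∈ S)
    (ht : t ∈ S) (Q : (↥A)[X]) : rmiEv A t Q ∈ S := by
  show eval₂ ((algebraMap K F).comp A.subtype) t Q ∈ S
  rw [eval₂_eq_sum_range]
  exact S.sum_mem fun i _ => S.mul_mem (hc _) (S.pow_mem ht i)

variable (K) in
/-- The chart ring of the coordinate `t`: the elements of `V` which are regular at all places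
where `t` is regular. -/
def rmiO (V : ValuationSubring F) (t : F) : Subring F where
  carrier := {x | x ∈ V ∧ ∀ P : Place K F, 0 ≤ P.ord t → 0 ≤ P.ord x}
  mul_mem' := by
    rintro x y ⟨hx, hx'⟩ ⟨hy, hy'⟩
    refine ⟨V.mul_mem _ _ hx hy, fun P hP => ?_⟩
    rw [sf_ord_nonneg_iff]
    exact mul_mem ((sf_ord_nonneg_iff P x).mp (hx' P hP)) ((sf_ord_nonneg_iff P y).mp (hy' P hP))
  one_mem' := ⟨V.one_mem, fun P _ => by rw [sf_ord_nonneg_iff]; exact one_mem _⟩
  add_mem' := by
    rintro x y ⟨hx, hx'⟩ ⟨hy, hy'⟩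
    refine ⟨V.add_mem _ _ hx hy, fun P hP => ?_⟩
    rw [sf_ord_nonneg_iff]
    exact add_mem ((sf_ord_nonneg_iff P x).mp (hx' P hP)) ((sf_ord_nonneg_iff P y).mp (hy' P hP))
  zero_mem' := ⟨V.zero_mem, fun P _ => by rw [sf_ord_nonneg_iff]; exact zero_mem _⟩
  neg_mem' := by
    rintro x ⟨hx, hx'⟩
    refine ⟨V.neg_mem _ hx, fun P hP => ?_⟩
    rw [sf_ord_nonneg_iff]
    exact neg_mem ((sf_ord_nonneg_iff P x).mp (hx' P hP))

theorem mem_rmiO {V : ValuationSubring F} {t x : F} :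
    x ∈ rmiO K V t ↔ x ∈ V ∧ ∀ P : Place K F, 0 ≤ P.ord t → 0 ≤ P.ord x := Iff.rfl

end Defs

section DefB

variable (k : Type*) {κ : Type*} [Field k] [Field κ] [Algebra k κ]

/-- The integral closure of `k[u]` in `κ`, as a `k`-subalgebra of `κ`. -/
def rmiB (u : κ) : Subalgebra k κ :=
  (integralClosure (Algebra.adjoin k {u}) κ).restrictScalars k

variable {k}

theorem mem_rmiB {u b : κ} : b ∈ rmiB k u ↔ IsIntegral (Algebra.adjoin k {u}) b := Iff.rfl

/-- Integrality over `k[u]`, in terms of the evaluation homomorphism `k[X] → κ`. -/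
theorem rmi_isIntegral_adjoin_iff (u b : κ) :
    IsIntegral (Algebra.adjoin k {u}) b ↔
      ((aeval u : k[X] →ₐ[k] κ) : k[X] →+* κ).IsIntegralElem b := by
  have h1 : ((aeval u : k[X] →ₐ[k] κ) : k[X] →+* κ) =
      (algebraMap (Algebra.adjoin k {u}) κ).comp ((sfEval k u : k[X] →ₐ[k] sfR k u) : k[X] →+* _) := by
    refine RingHom.ext fun p => ?_
    rfl
  rw [h1]
  exact (rmi_isIntegralElem_comp_iff _ (sfEval_surjective k u) _ b).symm

theorem mem_rmiB_iff {u b : κ} :
    b ∈ rmiB k u ↔ ((aeval u : k[X] →ₐ[k] κ) : k[X] →+* κ).IsIntegralElem b :=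
  rmi_isIntegral_adjoin_iff u b

theorem rmi_self_mem_rmiB (u : κ) : u ∈ rmiB k u := by
  rw [mem_rmiB]
  exact isIntegral_algebraMap (R := Algebra.adjoin k {u}) (A := κ)
    (x := ⟨u, Algebra.subset_adjoin (Set.mem_singleton u)⟩)

theorem rmi_aeval_mem_rmiB (u : κ) (p : k[X]) : aeval u p ∈ rmiB k u := by
  have h : aeval u p = ((aeval (⟨u, rmi_self_mem_rmiB u⟩ : rmiB k u) p : rmiB k u) : κ) :=
    Subalgebra.aeval_coe (rmiB k u) ⟨u, rmi_self_mem_rmiB u⟩ p
  rw [h]
  exact Subtype.property _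

end DefB

/-! ### The Gauss valuation ring and the coordinate -/

section Gauss

variable {K : Type*} [Field K] {A : ValuationSubring K} {F : Type*} [Field F] [Algebra K F]
variable {κ : Type*} [Field κ] [Algebra (IsLocalRing.ResidueField A) κ]
variable {V : ValuationSubring F} {ρ : V →+* κ} {t : F}

/-- The lift of `rmiEv A t` to `V`. -/
def rmiEvV (G : RdmGauss A V ρ) (htV : t ∈ V) : (↥A)[X] →+* V :=
  Polynomial.eval₂RingHom (rdmC G) ⟨t, htV⟩

theorem rmiEvV_coe (G : RdmGauss A V ρ) (htV : t ∈ V) (Q : (↥A)[X]) :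
    ((rmiEvV G htV Q : V) : F) = rmiEv A t Q := by
  have h := Polynomial.hom_eval₂ Q (rdmC G) V.subtype ⟨t, htV⟩
  have h1 : V.subtype.comp (rdmC G) = (algebraMap K F).comp A.subtype :=
    RingHom.ext fun a => rfl
  rw [h1] at h
  exact h

theorem rmi_subtype_comp_evV (G : RdmGauss A V ρ) (htV : t ∈ V) :
    V.subtype.comp (rmiEvV G htV) = rmiEv A t :=
  RingHom.ext fun Q => rmiEvV_coe G htV Q

theorem rmi_rho_evV (G : RdmGauss A V ρ) (htV : t ∈ V) (Q : (↥A)[X]) :
    ρ (rmiEvV G htV Q) = aeval (ρ ⟨t, htV⟩) (Q.map (IsLocalRing.residue A)) := by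
  have h := Polynomial.hom_eval₂ Q (rdmC G) ρ ⟨t, htV⟩
  have h1 : ρ.comp (rdmC G) =
      (algebraMap (IsLocalRing.ResidueField A) κ).comp (IsLocalRing.residue A) :=
    RingHom.ext fun a => rdm_rho_C G a
  rw [h1] at h
  rw [aeval_def, eval₂_map]
  exact h

/-- **Gauss lemma**: a polynomial over `K` whose value at `t` lies in `V` has coefficients in
`A`. -/
theorem rmi_poly_mem (G : RdmGauss A V ρ) (htV : t ∈ V)
    (htr : Transcendental (IsLocalRing.ResidueField A) (ρ ⟨t, htV⟩)) (P : K[X])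
    (hP : aeval t P ∈ V) : ∃ Q : (↥A)[X], Q.map A.subtype = P := by
  by_cases hP0 : P = 0
  · exact ⟨0, by rw [hP0, Polynomial.map_zero]⟩
  obtain ⟨c, Q, hc, hPQ, hQ⟩ := sma_exists_primitive A (IsLocalRing.residue A) P hP0
  have hρ : ρ (rmiEvV G htV Q) ≠ 0 := by
    rw [rmi_rho_evV]
    intro h0
    exact hQ ((transcendental_iff.mp htr) _ h0)
  have hinv := rdm_inv_mem G _ hρ
  rw [rmiEvV_coe] at hinv
  have hne := rdm_ne_zero G _ hρ
  rw [rmiEvV_coe] at hne
  have h1 : algebraMap K F c = aeval t P * (rmiEv A t Q)⁻¹ := by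
    rw [hPQ, map_mul, aeval_C, ← rmiEv_apply, mul_assoc, mul_inv_cancel₀ hne, mul_one]
  have hcV : algebraMap K F c ∈ V := by
    rw [h1]
    exact V.mul_mem _ _ hP hinv
  have hcA := (rdm_const_mem_iff G c).mp hcV
  exact ⟨C ⟨c, hcA⟩ * Q, by rw [Polynomial.map_mul, Polynomial.map_C, hPQ]; rfl⟩

/-- An element integral over `A[t]` lies in every valuation subring containing `A` and `t`. -/
theorem rmiInt_mem_valuationSubring (W : ValuationSubring F)
    (hc : ∀ a : A, algebraMap K F (a : K) ∈ W) (ht : t ∈ W) (x : F) (hx : RmiInt A t x) :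
    x ∈ W := by
  letI : Algebra (↥A)[X] F := (rmiEv A t).toAlgebra
  exact valext_mem_of_isIntegral W (S := (↥A)[X])
    (fun s => rmiEv_mem A t W.toSubring hc ht s) x hx

/-- An element integral over `A[t]` is regular wherever `t` is regular. -/
theorem rmiInt_ord_nonneg (x : F) (hx : RmiInt A t x) (P : Place K F) (hP : 0 ≤ P.ord t) :
    0 ≤ P.ord x := by
  rw [sf_ord_nonneg_iff] at hP ⊢
  exact rmiInt_mem_valuationSubring P.toValuationSubring (fun a => P.algebraMap_mem' _) hP x hx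

theorem rmiInt_mem_V (G : RdmGauss A V ρ) (htV : t ∈ V) (x : F) (hx : RmiInt A t x) : x ∈ V :=
  rmiInt_mem_valuationSubring V G.mem htV x hx

theorem rmiInt_ev (Q : (↥A)[X]) : RmiInt A t (rmiEv A t Q) :=
  (rmiEv A t).isIntegralElem_map

theorem rmiInt_add {x y : F} (hx : RmiInt A t x) (hy : RmiInt A t y) : RmiInt A t (x + y) :=
  RingHom.IsIntegralElem.add _ hx hy

theorem rmiInt_mul {x y : F} (hx : RmiInt A t x) (hy : RmiInt A t y) : RmiInt A t (x * y) :=
  RingHom.IsIntegralElem.mul _ hx hy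

theorem rmiInt_zero : RmiInt A t (0 : F) := by
  have h := rmiInt_ev (A := A) (t := t) 0
  rwa [map_zero] at h

theorem rmiInt_sum {ι : Type*} (s : Finset ι) (f : ι → F) (hf : ∀ i ∈ s, RmiInt A t (f i)) :
    RmiInt A t (∑ i ∈ s, f i) := by
  classical
  induction s using Finset.induction_on with
  | empty => simpa using rmiInt_zero (A := A) (t := t)
  | insert a s ha ih =>
    rw [Finset.sum_insert ha]
    exact rmiInt_add (hf a (Finset.mem_insert_self a s))
      (ih fun i hi => hf i (Finset.mem_insert_of_mem hi))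

/-- The residue of an element integral over `A[t]` is integral over `k[u]`. -/
theorem rmiInt_rho (G : RdmGauss A V ρ) (htV : t ∈ V) (x : V) (hx : RmiInt A t (x : F)) :
    ((aeval (ρ ⟨t, htV⟩) : (IsLocalRing.ResidueField A)[X] →ₐ[IsLocalRing.ResidueField A] κ) :
      (IsLocalRing.ResidueField A)[X] →+* κ).IsIntegralElem (ρ x) := by
  obtain ⟨p, hp, hpx⟩ := hx
  refine ⟨p.map (mapRingHom (IsLocalRing.residue A)), hp.map _, ?_⟩
  rw [eval₂_map]
  have h1 : ((aeval (ρ ⟨t, htV⟩) :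
      (IsLocalRing.ResidueField A)[X] →ₐ[IsLocalRing.ResidueField A] κ) :
      (IsLocalRing.ResidueField A)[X] →+* κ).comp (mapRingHom (IsLocalRing.residue A)) =
      ρ.comp (rmiEvV G htV) := by
    refine RingHom.ext fun Q => ?_
    exact (rmi_rho_evV G htV Q).symm
  rw [h1, ← Polynomial.hom_eval₂]
  have h2 : eval₂ (rmiEvV G htV) x p = 0 := by
    apply Subtype.ext
    have h3 := Polynomial.hom_eval₂ p (rmiEvV G htV) V.subtype x
    rw [rmi_subtype_comp_evV] at h3
    exact h3.trans hpx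
  rw [h2, map_zero]

/-- An element of `V` which is integral over `K[t]` is integral over `A[t]`, provided `V` is the
only valuation subring of `F` with its trace on `K(t)`. -/
theorem rmiInt_of_isIntegral (G : RdmGauss A V ρ) (htV : t ∈ V)
    (htr : Transcendental (IsLocalRing.ResidueField A) (ρ ⟨t, htV⟩))
    [Algebra.IsAlgebraic ↥K⟮t⟯ F]
    (huniq : ∀ O' : ValuationSubring F,
      (∀ y : ↥K⟮t⟯, algebraMap ↥K⟮t⟯ F y ∈ O' ↔ algebraMap ↥K⟮t⟯ F y ∈ V) → O' = V)
    (x : F) (hx : x ∈ V) (hint : IsIntegral (sfR K t) x) : RmiInt A t x := by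
  letI alg1 : Algebra (↥A)[X] (sfR K t) :=
    (((sfEval K t : K[X] →ₐ[K] sfR K t) : K[X] →+* sfR K t).comp
      (mapRingHom A.subtype)).toAlgebra
  letI alg2 : Algebra (↥A)[X] F := (rmiEv A t).toAlgebra
  haveI : IsScalarTower (↥A)[X] (sfR K t) F := IsScalarTower.of_algebraMap_eq fun Q => by
    show rmiEv A t Q = ((sfEval K t (Q.map A.subtype) : sfR K t) : F)
    rw [rmiEv_apply]
    rfl
  exact valext_integral (R := sfR K t) (L := ↥K⟮t⟯) V huniq (R₀ := (↥A)[X]) (fun r hr => by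
    obtain ⟨P, rfl⟩ := sfEval_surjective K t r
    obtain ⟨Q, hQ⟩ := rmi_poly_mem G htV htr P hr
    exact ⟨Q, by
      show sfEval K t (Q.map A.subtype) = _
      rw [hQ]⟩) x hx hint

/-- An element which is regular wherever `t` is regular is integral over `K[t]`. -/
theorem rmi_isIntegral_of_reg [CharZero K] [FiniteDimensional ↥K⟮t⟯ F] (x : F)
    (h : ∀ P : Place K F, 0 ≤ P.ord t → 0 ≤ P.ord x) : IsIntegral (sfR K t) x := by
  have h1 : ∀ w : HeightOneSpectrum (sfB K t), w.valuation F x ≤ 1 := fun w => by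
    have hw : 0 ≤ (sfPlace K t w).ord t :=
      sfPlace_ord_nonneg t w (algebraMap (sfR K t) (sfB K t) (sfX K t))
    exact (sf_mem_ofHeightOneSpectrum_iff (K := K) w x).mp ((sf_ord_nonneg_iff _ x).mp (h _ hw))
  obtain ⟨b, hb⟩ := HeightOneSpectrum.mem_integers_of_valuation_le_one F x h1
  rw [← hb]
  exact b.2

/-- The chart ring consists of the elements of `V` which are integral over `A[t]`. -/
theorem rmi_mem_O_iff [CharZero K] [FiniteDimensional ↥K⟮t⟯ F] (G : RdmGauss A V ρ)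
    (htV : t ∈ V) (htr : Transcendental (IsLocalRing.ResidueField A) (ρ ⟨t, htV⟩))
    (huniq : ∀ O' : ValuationSubring F,
      (∀ y : ↥K⟮t⟯, algebraMap ↥K⟮t⟯ F y ∈ O' ↔ algebraMap ↥K⟮t⟯ F y ∈ V) → O' = V)
    (x : F) : x ∈ rmiO K V t ↔ x ∈ V ∧ RmiInt A t x := by
  constructor
  · rintro ⟨hx, hreg⟩
    exact ⟨hx, rmiInt_of_isIntegral G htV htr huniq x hx (rmi_isIntegral_of_reg x hreg)⟩
  · rintro ⟨hx, hint⟩
    exact ⟨hx, fun P hP => rmiInt_ord_nonneg x hint P hP⟩

/-- Degree-one places: every function regular at a place has a value there. -/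
theorem rmi_hres [IsAlgClosed K] (t : F) [Algebra.IsAlgebraic ↥K⟮t⟯ F] (P : Place K F) (x : F)
    (hx : 0 ≤ P.ord x) : ∃ c : K, RdmVal P x c := by
  have hx' : x ∈ P.toValuationSubring := (sf_ord_nonneg_iff P x).mp hx
  obtain ⟨c, hc⟩ := (place_residue_bijective P t).2
    (IsLocalRing.residue P.toValuationSubring ⟨x, hx'⟩)
  exact ⟨c, (rdmVal_iff P x c).mpr ⟨hx', hc.symm⟩⟩

/-- An element integral over `A[t]` has a value in `A` at every place where `t` has a value in
`A`. -/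
theorem rmi_val [IsAlgClosed K] [Algebra.IsAlgebraic ↥K⟮t⟯ F] (x : F) (hx : RmiInt A t x)
    (P : Place K F) (c : A) (hc : RdmVal P t (c : K)) : ∃ ξ : A, RdmVal P x (ξ : K) := by
  obtain ⟨htW, htres⟩ := (rdmVal_iff P t (c : K)).mp hc
  have hxW : x ∈ P.toValuationSubring :=
    rmiInt_mem_valuationSubring P.toValuationSubring (fun a => P.algebraMap_mem' _) htW x hx
  obtain ⟨ξ, hξ⟩ := (place_residue_bijective P t).2
    (IsLocalRing.residue P.toValuationSubring ⟨x, hxW⟩)
  obtain ⟨p, hp, hpx⟩ := hx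
  let cW : A →+* P.toValuationSubring :=
    ((algebraMap K F).comp A.subtype).codRestrict P.toValuationSubring.toSubring
      (fun a => P.algebraMap_mem' _)
  let ψ : (↥A)[X] →+* P.toValuationSubring := Polynomial.eval₂RingHom cW ⟨t, htW⟩
  have hψ : P.toValuationSubring.subtype.comp ψ = rmiEv A t := by
    refine RingHom.ext fun Q => ?_
    have h := Polynomial.hom_eval₂ Q cW P.toValuationSubring.subtype ⟨t, htW⟩
    have h1 : P.toValuationSubring.subtype.comp cW = (algebraMap K F).comp A.subtype :=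
      RingHom.ext fun a => rfl
    rw [h1] at h
    exact h
  have h2 : eval₂ ψ (⟨x, hxW⟩ : P.toValuationSubring) p = 0 := by
    apply Subtype.ext
    have h3 := Polynomial.hom_eval₂ p ψ P.toValuationSubring.subtype ⟨x, hxW⟩
    rw [hψ] at h3
    exact h3.trans hpx
  have h4 := congrArg (IsLocalRing.residue P.toValuationSubring) h2
  rw [Polynomial.hom_eval₂, map_zero, ← hξ] at h4
  have h5 : (IsLocalRing.residue P.toValuationSubring).comp ψ =
      (algebraMap K P.ResidueField).comp (A.subtype.comp (Polynomial.evalRingHom c)) := by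
    apply Polynomial.ringHom_ext
    · intro a
      have e1 : ψ (C a) = cW a := by simp [ψ]
      rw [RingHom.comp_apply, e1, RingHom.comp_apply, RingHom.comp_apply, coe_evalRingHom,
        eval_C]
      rfl
    · have e1 : ψ X = ⟨t, htW⟩ := by simp [ψ]
      rw [RingHom.comp_apply, e1, RingHom.comp_apply, RingHom.comp_apply, coe_evalRingHom,
        eval_X]
      exact htres
  rw [h5, ← Polynomial.hom_eval₂] at h4
  have h6 : eval₂ (A.subtype.comp (Polynomial.evalRingHom c)) ξ p = 0 := (map_eq_zero _).mp h4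
  have h7 : IsIntegral A ξ :=
    ⟨p.map (Polynomial.evalRingHom c), hp.map _, by rw [eval₂_map]; exact h6⟩
  have hξA : ξ ∈ A := valext_mem_of_isIntegral A (S := A) (fun s => s.2) ξ h7
  exact ⟨⟨ξ, hξA⟩, (rdmVal_iff P x ξ).mpr ⟨hxW, hξ.symm⟩⟩

/-- **The chart of the coordinate `t`.** -/
theorem rmi_chart [IsAlgClosed K] [CharZero K] [FiniteDimensional ↥K⟮t⟯ F] (G : RdmGauss A V ρ)
    (htV : t ∈ V) (htr : Transcendental (IsLocalRing.ResidueField A) (ρ ⟨t, htV⟩))
    (huniq : ∀ O' : ValuationSubring F,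
      (∀ y : ↥K⟮t⟯, algebraMap ↥K⟮t⟯ F y ∈ O' ↔ algebraMap ↥K⟮t⟯ F y ∈ V) → O' = V)
    (hlift : ∀ b : κ, ((aeval (ρ ⟨t, htV⟩) :
        (IsLocalRing.ResidueField A)[X] →ₐ[IsLocalRing.ResidueField A] κ) :
        (IsLocalRing.ResidueField A)[X] →+* κ).IsIntegralElem b →
      ∃ x : V, RmiInt A t (x : F) ∧ ρ x = b) :
    RdmChart A V ρ t (rmiO K V t) (rmiB (IsLocalRing.ResidueField A) (ρ ⟨t, htV⟩)) where
  le := fun x hx => hx.1
  const := fun c => ⟨G.mem c, fun P _ => by rw [sf_ord_algebraMap]⟩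
  t_mem := ⟨htV, fun P hP => hP⟩
  reg := fun x hx P hP => hx.2 P hP
  val := fun x hx P ⟨c, hc⟩ => rmi_val x ((rmi_mem_O_iff G htV htr huniq x).mp hx).2 P c hc
  sat := fun z hz h => ⟨hz, h⟩
  image := fun b => by
    rw [mem_rmiB_iff]
    constructor
    · intro hb
      obtain ⟨x, hx, hxb⟩ := hlift b hb
      exact ⟨x, (rmi_mem_O_iff G htV htr huniq x).mpr ⟨x.2, hx⟩, hxb⟩
    · rintro ⟨x, hx, rfl⟩
      exact rmiInt_rho G htV x ((rmi_mem_O_iff G htV htr huniq x).mp hx).2

/-! ### The basis of the chart (SM) and its consequences -/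

variable (A V ρ t) in
/-- **(SM) for the chart `t`**: `n` elements of `V`, integral over `A[t]`, whose residues are
`k[u]`-independent and span the integral closure of `k[u]` in `κ`. -/
def RmiSM (htV : t ∈ V) (n : ℕ) : Prop :=
  ∃ b : Fin n → V, (∀ i, RmiInt A t (b i : F)) ∧
    (∀ g : Fin n → (IsLocalRing.ResidueField A)[X],
      ∑ i, aeval (ρ ⟨t, htV⟩) (g i) * ρ (b i) = 0 → ∀ i, g i = 0) ∧
    (∀ y : κ, ((aeval (ρ ⟨t, htV⟩) :
        (IsLocalRing.ResidueField A)[X] →ₐ[IsLocalRing.ResidueField A] κ) :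
        (IsLocalRing.ResidueField A)[X] →+* κ).IsIntegralElem y →
      ∃ g : Fin n → (IsLocalRing.ResidueField A)[X],
        y = ∑ i, aeval (ρ ⟨t, htV⟩) (g i) * ρ (b i))

/-- (SM) gives the lifting hypothesis of `rmi_chart`. -/
theorem rmi_lift_of_SM (G : RdmGauss A V ρ) (htV : t ∈ V) {n : ℕ}
    (hSM : RmiSM A V ρ t htV n) (y : κ)
    (hy : ((aeval (ρ ⟨t, htV⟩) :
        (IsLocalRing.ResidueField A)[X] →ₐ[IsLocalRing.ResidueField A] κ) :
        (IsLocalRing.ResidueField A)[X] →+* κ).IsIntegralElem y) :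
    ∃ x : V, RmiInt A t (x : F) ∧ ρ x = y := by
  obtain ⟨b, hb, -, hspan⟩ := hSM
  obtain ⟨g, hg⟩ := hspan y hy
  have hl : ∀ i, ∃ Q : (↥A)[X], Q.map (IsLocalRing.residue A) = g i := fun i =>
    Polynomial.map_surjective _ IsLocalRing.residue_surjective (g i)
  choose Q hQ using hl
  refine ⟨∑ i, rmiEvV G htV (Q i) * b i, ?_, ?_⟩
  · rw [AddSubmonoidClass.coe_finsetSum]
    refine rmiInt_sum _ _ fun i _ => ?_
    rw [MulMemClass.coe_mul, rmiEvV_coe]
    exact rmiInt_mul (rmiInt_ev (Q i)) (hb i)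
  · rw [map_sum, hg]
    refine Finset.sum_congr rfl fun i _ => ?_
    rw [map_mul, rmi_rho_evV, hQ]

/-- (SM) gives a `k[u]`-basis of the chart ring `rmiB k u`. -/
theorem rmi_basis_of_SM (G : RdmGauss A V ρ) (htV : t ∈ V) {n : ℕ}
    (hSM : RmiSM A V ρ t htV n) :
    ∃ β : Fin n → κ, (∀ i, β i ∈ rmiB (IsLocalRing.ResidueField A) (ρ ⟨t, htV⟩)) ∧
      (∀ p : Fin n → (IsLocalRing.ResidueField A)[X],
        ∑ i, aeval (ρ ⟨t, htV⟩) (p i) * β i = 0 → ∀ i, p i = 0) ∧
      (∀ b ∈ rmiB (IsLocalRing.ResidueField A) (ρ ⟨t, htV⟩),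
        ∃ p : Fin n → (IsLocalRing.ResidueField A)[X],
          b = ∑ i, aeval (ρ ⟨t, htV⟩) (p i) * β i) := by
  obtain ⟨b, hb, hli, hspan⟩ := hSM
  exact ⟨fun i => ρ (b i), fun i => mem_rmiB_iff.mpr (rmiInt_rho G htV (b i) (hb i)), hli,
    fun y hy => hspan y (mem_rmiB_iff.mp hy)⟩

/-- Every element of `V` has a multiple by some `Q(t)`, `Q ∈ A[X]` of nonzero reduction, which is
integral over `A[t]`. -/
theorem rmi_exists_mul_int (G : RdmGauss A V ρ) (htV : t ∈ V)
    (htr : Transcendental (IsLocalRing.ResidueField A) (ρ ⟨t, htV⟩))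
    [Algebra.IsAlgebraic ↥K⟮t⟯ F]
    (huniq : ∀ O' : ValuationSubring F,
      (∀ y : ↥K⟮t⟯, algebraMap ↥K⟮t⟯ F y ∈ O' ↔ algebraMap ↥K⟮t⟯ F y ∈ V) → O' = V)
    (x : V) :
    ∃ Q : (↥A)[X], Q.map (IsLocalRing.residue A) ≠ 0 ∧ RmiInt A t (rmiEv A t Q * (x : F)) := by
  have halg : IsAlgebraic (sfR K t) (x : F) :=
    (IsFractionRing.isAlgebraic_iff (sfR K t) ↥K⟮t⟯ F).mpr (Algebra.IsAlgebraic.isAlgebraic _)
  obtain ⟨D0, hD0, hD0int⟩ := halg.exists_integral_multiple
  obtain ⟨P0, rfl⟩ := sfEval_surjective K t D0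
  have hP0 : P0 ≠ 0 := fun h => hD0 (by rw [h, map_zero])
  obtain ⟨c, Q, hc, hPQ, hQ⟩ := sma_exists_primitive A (IsLocalRing.residue A) P0 hP0
  refine ⟨Q, hQ, rmiInt_of_isIntegral G htV htr huniq _ ?_ ?_⟩
  · have h1 := (rmiEvV G htV Q * x).2
    rwa [MulMemClass.coe_mul, rmiEvV_coe] at h1
  · have h1 : rmiEv A t Q * (x : F) =
        algebraMap (sfR K t) F (algebraMap K (sfR K t) c⁻¹) * (sfEval K t P0 • (x : F)) := by
      rw [Algebra.smul_def, ← mul_assoc]
      congr 1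
      show rmiEv A t Q = algebraMap K F c⁻¹ * aeval t P0
      rw [hPQ, map_mul, aeval_C, ← mul_assoc, ← map_mul, inv_mul_cancel₀ hc, map_one, one_mul,
        rmiEv_apply]
    rw [h1]
    exact IsIntegral.mul isIntegral_algebraMap hD0int

/-- The fraction field of the chart ring is the residue field `κ`. -/
theorem rmi_isFractionRing (G : RdmGauss A V ρ) (htV : t ∈ V)
    (htr : Transcendental (IsLocalRing.ResidueField A) (ρ ⟨t, htV⟩))
    [Algebra.IsAlgebraic ↥K⟮t⟯ F]
    (huniq : ∀ O' : ValuationSubring F,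
      (∀ y : ↥K⟮t⟯, algebraMap ↥K⟮t⟯ F y ∈ O' ↔ algebraMap ↥K⟮t⟯ F y ∈ V) → O' = V)
    (hsurj : Function.Surjective ρ) :
    IsFractionRing (rmiB (IsLocalRing.ResidueField A) (ρ ⟨t, htV⟩)) κ := by
  refine IsFractionRing.of_field (rmiB (IsLocalRing.ResidueField A) (ρ ⟨t, htV⟩)) κ fun z => ?_
  obtain ⟨x, rfl⟩ := hsurj z
  obtain ⟨Q, hQ, hint⟩ := rmi_exists_mul_int G htV htr huniq x
  have hs0 : aeval (ρ ⟨t, htV⟩) (Q.map (IsLocalRing.residue A)) ≠ 0 := fun h0 =>
    hQ ((transcendental_iff.mp htr) _ h0)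
  have hmem : rmiEv A t Q * (x : F) ∈ V := rmiInt_mem_V G htV _ hint
  have hρ : ρ ⟨rmiEv A t Q * (x : F), hmem⟩ =
      aeval (ρ ⟨t, htV⟩) (Q.map (IsLocalRing.residue A)) * ρ x := by
    have e : (⟨rmiEv A t Q * (x : F), hmem⟩ : V) = rmiEvV G htV Q * x :=
      Subtype.ext (by rw [MulMemClass.coe_mul, rmiEvV_coe])
    rw [e, map_mul, rmi_rho_evV]
  refine ⟨⟨ρ ⟨rmiEv A t Q * (x : F), hmem⟩, mem_rmiB_iff.mpr (rmiInt_rho G htV _ hint)⟩,
    ⟨aeval (ρ ⟨t, htV⟩) (Q.map (IsLocalRing.residue A)), rmi_aeval_mem_rmiB _ _⟩, ?_⟩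
  show ρ x = ρ ⟨rmiEv A t Q * (x : F), hmem⟩ / aeval (ρ ⟨t, htV⟩) (Q.map (IsLocalRing.residue A))
  rw [hρ, mul_div_cancel_left₀ _ hs0]

end Gauss

/-! ### The chart ring is a Dedekind domain; fibre sums -/

section Dedekind

variable {k κ : Type*} [Field k] [Field κ] [Algebra k κ]

/-- The chart ring `rmiB k u` is a Dedekind domain as soon as it is a finitely generated
`k[u]`-module with fraction field `κ`. -/
theorem rmi_isDedekindDomain (u : κ) {d : ℕ} (β : Fin d → κ) (hβ : ∀ i, β i ∈ rmiB k u)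
    (hspan : ∀ b ∈ rmiB k u, ∃ p : Fin d → k[X], b = ∑ i, aeval u (p i) * β i)
    [IsFractionRing (rmiB k u) κ] : IsDedekindDomain (rmiB k u) := by
  have huB := rmi_self_mem_rmiB (k := k) u
  letI := rdmPolyAlgebra (rmiB k u) u huB
  haveI : Module.Finite k[X] (rmiB k u) := rdm_finite_poly (rmiB k u) u huB β hβ hspan
  have hval : ∀ p : k[X], ((algebraMap k[X] (rmiB k u) p : rmiB k u) : κ) = aeval u p :=
    rdm_algebraMap_poly (rmiB k u) u huB
  haveI hint : Algebra.IsIntegral k[X] (rmiB k u) := ⟨fun b => by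
    obtain ⟨p, hp, hpb⟩ := mem_rmiB_iff.mp b.2
    refine ⟨p, hp, ?_⟩
    apply Subtype.ext
    have h3 := Polynomial.hom_eval₂ p (algebraMap k[X] (rmiB k u)) (rmiB k u).val.toRingHom b
    have h4 : ((rmiB k u).val.toRingHom).comp (algebraMap k[X] (rmiB k u)) =
        ((aeval u : k[X] →ₐ[k] κ) : k[X] →+* κ) := RingHom.ext fun q => hval q
    rw [h4] at h3
    exact h3.trans hpb⟩
  refine (isDedekindDomain_iff _ κ).mpr ⟨inferInstance, ?_, ?_, ?_⟩
  · have h1 : IsNoetherian k[X] (rmiB k u) := isNoetherian_of_isNoetherianRing_of_finite k[X] _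
    exact isNoetherian_of_tower k[X] h1
  · exact Ring.DimensionLEOne.of_isIntegral k[X] (rmiB k u)
  · intro x hx
    letI : Algebra k[X] κ := ((aeval u : k[X] →ₐ[k] κ) : k[X] →+* κ).toAlgebra
    haveI : IsScalarTower k[X] (rmiB k u) κ :=
      IsScalarTower.of_algebraMap_eq fun q => (hval q).symm
    have h5 : IsIntegral k[X] x := isIntegral_trans (R := k[X]) (A := rmiB k u) x hx
    exact ⟨⟨x, mem_rmiB_iff.mpr h5⟩, rfl⟩

/-- The fibre sums on the chart ring (hypothesis `hfibκ` of the conservation theorem). -/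
theorem rmi_hfibK [IsAlgClosed k] (u : κ) (hu : Transcendental k u) {d : ℕ} (β : Fin d → κ)
    (hβ : ∀ i, β i ∈ rmiB k u)
    (hli : ∀ p : Fin d → k[X], ∑ i, aeval u (p i) * β i = 0 → ∀ i, p i = 0)
    (hspan : ∀ b ∈ rmiB k u, ∃ p : Fin d → k[X], b = ∑ i, aeval u (p i) * β i)
    [IsDedekindDomain (rmiB k u)] [IsFractionRing (rmiB k u) κ] (c : k) :
    ∃ S : Finset (HeightOneSpectrum (rmiB k u)),
      (∀ w : HeightOneSpectrum (rmiB k u), w ∈ S ↔
        ∀ b : rmiB k u, (b : κ) = u - algebraMap k κ c → b ∈ w.asIdeal) ∧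
      (d : ℤ) ≤ ∑ w ∈ S,
        (Place.ofHeightOneSpectrum (K := k) (F := κ) w).ord (u - algebraMap k κ c) := by
  obtain ⟨S, hS, hsum⟩ :=
    rdm_fibre_sum_coe (rmiB k u) u (rmi_self_mem_rmiB u) hu β hβ hli hspan c
  exact ⟨S, hS, hsum.ge⟩

end Dedekind

section Fibre

variable {K : Type*} [Field K] {F : Type*} [Field F] [Algebra K F]

/-- The fibre sums of the coordinate on the generic fibre (hypothesis `hfibF`). -/
theorem rmi_hfibF [IsAlgClosed K] [CharZero K] (t : F) (ht : Transcendental K t)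
    [FiniteDimensional ↥K⟮t⟯ F] (α : K) :
    ∑ᶠ P ∈ {P : Place K F | 0 < P.ord (t - algebraMap K F α)},
      P.ord (t - algebraMap K F α) = (Module.finrank ↥K⟮t⟯ F : ℤ) :=
  sf_finsum_ord_zeroPlaces_sub ht α

/-- Finiteness of the divisor of a nonzero function (hypothesis `hfin`). -/
theorem rmi_hfin [IsAlgClosed K] [CharZero K] (t : F) (ht : Transcendental K t)
    [FiniteDimensional ↥K⟮t⟯ F] (f : F) (hf : f ≠ 0) :
    (Function.support fun P : Place K F => P.ord f).Finite :=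
  ord_support_finite t ht f hf

end Fibre

end Fermat.Agent.S37
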