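import Mathlib
import Fermat.Agent.S18.GaussChart
import Fermat.Agent.S18.IfaceRed
import Fermat.Agent.S37.RedMapInstGauss
import Fermat.Agent.S37.RedMapInstChart
import Fermat.Agent.S37.RedMapCons
import Fermat.Agent.S37.JRingDefs

/-!
# S37, package REDMAP-INST, part 3: the charts of the level-`M` function field

Setting of `GaussChart`: `K` algebraically closed over `ℚ`, `A` a valuation subring of `K` over
a prime `ℓ ∤ M`, `H : HauptRec a2 ℓ`, and the chart coordinate `t = (h - c1) / (h - c0)`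
(`cinstU H K c0 c1`) in the level-`M` function field `F`, with `c0, c1 ∈ A`, `c0 - c1` a unit.

Input: the conclusion of `smq_main` (S18, package SMQ) for the coordinate `t`, as the
proposition `RmiSMQ A hA M hℓM t htV n`.

Output (`rmi_chart_main`): the chart `(rmiO K grO t, rmiB k t̄)` is an `RdmChart`, its special
fibre ring is a Dedekind domain with fraction field the residue field, the chart ring is integral
over `A[t]`, and the divisor of every Gauss unit is conserved under reduction on this chart.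
-/

set_option autoImplicit false
set_option linter.style.haveILetI false

noncomputable section

open AlgebraicCurve ModularCurve IsDedekindDomain Polynomial
open scoped IntermediateField

namespace Fermat.Agent.S37

open Fermat.Agent.S18 Fermat.Agent.S24 Fermat.Agent.S28

section Level

variable {K : Type*} [Field K] [Algebra ℚ K] (A : ValuationSubring K) {ℓ : ℕ} [Fact ℓ.Prime]
  (hA : A.LiesOverPrime ℓ) (M : ℕ) [NeZero M] (hℓM : ¬ ℓ ∣ M)

/-- The inclusion of the residue field of the Gauss valuation ring into `k((q))`. -/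
def rmiKappaVal : ↥(rmiKappa A hA M hℓM) →ₐ[IsLocalRing.ResidueField A]
    LaurentSeries (IsLocalRing.ResidueField A) :=
  (rmiKappa A hA M hℓM).toSubalgebra.val

theorem rmiKappaVal_apply (z : ↥(rmiKappa A hA M hℓM)) :
    rmiKappaVal A hA M hℓM z = (z : LaurentSeries (IsLocalRing.ResidueField A)) := rfl

theorem rmiKappaVal_rho (x : ↥(grO A hA M hℓM)) :
    rmiKappaVal A hA M hℓM (rmiRho A hA M hℓM x) = grRes A hA M hℓM x := rfl

theorem rmiKappaVal_injective : Function.Injective (rmiKappaVal A hA M hℓM) :=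
  Subtype.val_injective

/-- The residue of an inverse is the inverse of the residue. -/
theorem rmiRho_inv (x : ↥(laurentBaseChange K (modularFunctionFieldFull M)))
    (hx : x ∈ grO A hA M hℓM) (hx' : x⁻¹ ∈ grO A hA M hℓM) :
    rmiRho A hA M hℓM ⟨x⁻¹, hx'⟩ = (rmiRho A hA M hℓM ⟨x, hx⟩)⁻¹ := by
  by_cases h0 : x = 0
  · subst h0
    have e1 : (⟨(0 : ↥(laurentBaseChange K (modularFunctionFieldFull M)))⁻¹, hx'⟩ :
        ↥(grO A hA M hℓM)) = 0 := Subtype.ext inv_zero
    have e2 : (⟨(0 : ↥(laurentBaseChange K (modularFunctionFieldFull M))), hx⟩ :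
        ↥(grO A hA M hℓM)) = 0 := rfl
    rw [e1, e2, map_zero, inv_zero]
  · have h1 : (⟨x, hx⟩ : ↥(grO A hA M hℓM)) * ⟨x⁻¹, hx'⟩ = 1 :=
      Subtype.ext (mul_inv_cancel₀ h0)
    have h2 := congrArg (rmiRho A hA M hℓM) h1
    rw [map_mul, map_one] at h2
    exact eq_inv_of_mul_eq_one_right h2

/-- Transcendence of a residue, transported from `k((q))` to the residue field. -/
theorem rmi_transcendental (x : ↥(grO A hA M hℓM))
    (h : Transcendental (IsLocalRing.ResidueField A) (grRes A hA M hℓM x)) :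
    Transcendental (IsLocalRing.ResidueField A) (rmiRho A hA M hℓM x) := fun halg =>
  h (halg.algHom (rmiKappaVal A hA M hℓM))

/-- **The conclusion of `smq_main`** for the coordinate `t` (a basis of `n` elements): elements
`b i` of the Gauss valuation ring, integral over `A[t]`, whose residues are `k[t̄]`-independent
and span the residues which are integral over `k[t̄]`. -/
def RmiSMQ (t : ↥(laurentBaseChange K (modularFunctionFieldFull M)))
    (htV : t ∈ grO A hA M hℓM) (n : ℕ) : Prop :=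
  ∃ (b : Fin n → ↥(laurentBaseChange K (modularFunctionFieldFull M)))
    (hb : ∀ i, b i ∈ grO A hA M hℓM),
    (∀ i, (((aeval t : K[X] →ₐ[K] ↥(laurentBaseChange K (modularFunctionFieldFull M))) :
      K[X] →+* ↥(laurentBaseChange K (modularFunctionFieldFull M))).comp
        (mapRingHom A.subtype)).IsIntegralElem (b i)) ∧
    (∀ g : Fin n → (IsLocalRing.ResidueField A)[X],
      ∑ i, aeval (grRes A hA M hℓM ⟨t, htV⟩) (g i) * grRes A hA M hℓM ⟨b i, hb i⟩ = 0 →
        ∀ i, g i = 0) ∧
    (∀ y : ↥(grO A hA M hℓM),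
      ((aeval (grRes A hA M hℓM ⟨t, htV⟩) : (IsLocalRing.ResidueField A)[X] →ₐ[
        IsLocalRing.ResidueField A] LaurentSeries (IsLocalRing.ResidueField A)) :
        (IsLocalRing.ResidueField A)[X] →+*
          LaurentSeries (IsLocalRing.ResidueField A)).IsIntegralElem (grRes A hA M hℓM y) →
      ∃ g : Fin n → (IsLocalRing.ResidueField A)[X],
        grRes A hA M hℓM y =
          ∑ i, aeval (grRes A hA M hℓM ⟨t, htV⟩) (g i) * grRes A hA M hℓM ⟨b i, hb i⟩)

theorem rmi_aeval_coe (u : ↥(rmiKappa A hA M hℓM)) (p : (IsLocalRing.ResidueField A)[X]) :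
    rmiKappaVal A hA M hℓM (aeval u p) = aeval (rmiKappaVal A hA M hℓM u) p :=
  (Polynomial.aeval_algHom_apply (rmiKappaVal A hA M hℓM) u p).symm

/-- The conclusion of `smq_main` gives the abstract (SM) of `RedMapInstChart`. -/
theorem rmi_SM_of_SMQ (t : ↥(laurentBaseChange K (modularFunctionFieldFull M)))
    (htV : t ∈ grO A hA M hℓM) (n : ℕ) (h : RmiSMQ A hA M hℓM t htV n) :
    RmiSM A (grO A hA M hℓM) (rmiRho A hA M hℓM) t htV n := by
  obtain ⟨b, hb, hint, hli, hspan⟩ := h
  have hsum : ∀ g : Fin n → (IsLocalRing.ResidueField A)[X],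
      rmiKappaVal A hA M hℓM (∑ i, aeval (rmiRho A hA M hℓM ⟨t, htV⟩) (g i) *
        rmiRho A hA M hℓM ⟨b i, hb i⟩) =
      ∑ i, aeval (grRes A hA M hℓM ⟨t, htV⟩) (g i) * grRes A hA M hℓM ⟨b i, hb i⟩ := by
    intro g
    rw [map_sum]
    refine Finset.sum_congr rfl fun i _ => ?_
    rw [map_mul, rmi_aeval_coe]
    rfl
  refine ⟨fun i => ⟨b i, hb i⟩, fun i => (rmiInt_iff A t (b i)).mpr (hint i), ?_, ?_⟩
  · intro g hg
    apply hli g
    rw [← hsum g, hg, map_zero]
  · intro y hy
    obtain ⟨x, rfl⟩ := rmiRho_surjective A hA M hℓM y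
    have hy' : ((aeval (grRes A hA M hℓM ⟨t, htV⟩) : (IsLocalRing.ResidueField A)[X] →ₐ[
        IsLocalRing.ResidueField A] LaurentSeries (IsLocalRing.ResidueField A)) :
        (IsLocalRing.ResidueField A)[X] →+*
          LaurentSeries (IsLocalRing.ResidueField A)).IsIntegralElem (grRes A hA M hℓM x) := by
      obtain ⟨p, hp, hpy⟩ := hy
      refine ⟨p, hp, ?_⟩
      have h3 := Polynomial.hom_eval₂ p
        ((aeval (rmiRho A hA M hℓM ⟨t, htV⟩) : (IsLocalRing.ResidueField A)[X] →ₐ[
          IsLocalRing.ResidueField A] ↥(rmiKappa A hA M hℓM)) :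
          (IsLocalRing.ResidueField A)[X] →+* ↥(rmiKappa A hA M hℓM))
        ((rmiKappaVal A hA M hℓM : ↥(rmiKappa A hA M hℓM) →ₐ[IsLocalRing.ResidueField A]
          LaurentSeries (IsLocalRing.ResidueField A)) :
          ↥(rmiKappa A hA M hℓM) →+* LaurentSeries (IsLocalRing.ResidueField A))
        (rmiRho A hA M hℓM x)
      rw [hpy, map_zero] at h3
      have h4 : ((rmiKappaVal A hA M hℓM : ↥(rmiKappa A hA M hℓM) →ₐ[IsLocalRing.ResidueField A]
          LaurentSeries (IsLocalRing.ResidueField A)) :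
          ↥(rmiKappa A hA M hℓM) →+* LaurentSeries (IsLocalRing.ResidueField A)).comp
          ((aeval (rmiRho A hA M hℓM ⟨t, htV⟩) : (IsLocalRing.ResidueField A)[X] →ₐ[
          IsLocalRing.ResidueField A] ↥(rmiKappa A hA M hℓM)) :
          (IsLocalRing.ResidueField A)[X] →+* ↥(rmiKappa A hA M hℓM)) =
          ((aeval (grRes A hA M hℓM ⟨t, htV⟩) : (IsLocalRing.ResidueField A)[X] →ₐ[
            IsLocalRing.ResidueField A] LaurentSeries (IsLocalRing.ResidueField A)) :
            (IsLocalRing.ResidueField A)[X] →+* LaurentSeries (IsLocalRing.ResidueField A)) :=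
        RingHom.ext fun q => rmi_aeval_coe A hA M hℓM _ q
      rw [h4] at h3
      exact h3.symm
    obtain ⟨g, hg⟩ := hspan x hy'
    refine ⟨g, rmiKappaVal_injective A hA M hℓM ?_⟩
    rw [hsum g, ← hg]
    rfl

end Level

section Chart

variable {K : Type*} [Field K] [Algebra ℚ K] (A : ValuationSubring K) {ℓ : ℕ} [Fact ℓ.Prime]
  (hA : A.LiesOverPrime ℓ) (M : ℕ) [NeZero M] (hℓM : ¬ ℓ ∣ M) {a2 : ℕ} (H : HauptRec a2 ℓ)
  {c0 c1 : K}

/-- The residue of the chart coordinate is transcendental over the residue field. -/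
theorem rmi_htr (hc0 : c0 ∈ A) (hc1 : c1 ∈ A) (hc : c0 ≠ c1) (h01 : (c0 - c1)⁻¹ ∈ A)
    (t : ↥(laurentBaseChange K (modularFunctionFieldFull M)))
    (ht : (t : LaurentSeries K) = cinstU H K c0 c1) (htV : t ∈ grO A hA M hℓM) :
    Transcendental (IsLocalRing.ResidueField A) (rmiRho A hA M hℓM ⟨t, htV⟩) :=
  rmi_transcendental A hA M hℓM ⟨t, htV⟩
    (gch_transcendental A hA M hℓM H hc0 hc1 hc h01 t ht htV)

omit [Fact (Nat.Prime ℓ)] [NeZero M] in
/-- The chart coordinate is transcendental over `K`. -/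
theorem rmi_ht (hc : c0 ≠ c1) (t : ↥(laurentBaseChange K (modularFunctionFieldFull M)))
    (ht : (t : LaurentSeries K) = cinstU H K c0 c1) : Transcendental K t := fun halg =>
  cinstU_transcendental H K c0 c1 hc
    (ht ▸ halg.algHom (laurentBaseChange K (modularFunctionFieldFull M)).val)

/-- The chart ring of the coordinate `t` is integral over `A[t]`, in the J-ring spelling. -/
theorem rmi_O_le_jrIC (hc0 : c0 ∈ A) (hc1 : c1 ∈ A) (hc : c0 ≠ c1) (h01 : (c0 - c1)⁻¹ ∈ A)
    (t : ↥(laurentBaseChange K (modularFunctionFieldFull M)))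
    (ht : (t : LaurentSeries K) = cinstU H K c0 c1)
    (x : ↥(laurentBaseChange K (modularFunctionFieldFull M)))
    (hx : x ∈ rmiO K (grO A hA M hℓM) t) : x ∈ jrIC (jrPoly A t) := by
  haveI : CharZero K := algebraRat.charZero K
  have htV := gch_mem A hA M hℓM H hc0 hc1 t ht
  obtain ⟨-, -, hfd, -, -, -⟩ := gch_hind A hA M hℓM H hc0 hc1 hc h01 t ht htV
  haveI := hfd
  exact rmi_isIntegral_range _ _ ((rmi_mem_O_iff (rmi_gauss A hA M hℓM) htV
    (rmi_htr A hA M hℓM H hc0 hc1 hc h01 t ht htV) (gch_unique A hA M hℓM H hc t ht) x).mp hx).2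

/-- **The chart of the coordinate `t = (h - c1) / (h - c0)` at level `M`**, from the conclusion
of `smq_main`: the chart structure, the Dedekind property of the special fibre ring, integrality
of the chart ring over `A[t]` and of the special fibre ring over `k[t̄]`, and conservation of the
divisor of a Gauss unit under reduction. -/
theorem rmi_chart_main [IsAlgClosed K] (hc0 : c0 ∈ A) (hc1 : c1 ∈ A) (hc : c0 ≠ c1)
    (h01 : (c0 - c1)⁻¹ ∈ A) (t : ↥(laurentBaseChange K (modularFunctionFieldFull M)))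
    (ht : (t : LaurentSeries K) = cinstU H K c0 c1) (htV : t ∈ grO A hA M hℓM)
    (hSM : RmiSMQ A hA M hℓM t htV (psi M / psi a2)) :
    ∃ (_ : IsDedekindDomain (rmiB (IsLocalRing.ResidueField A) (rmiRho A hA M hℓM ⟨t, htV⟩)))
      (_ : IsFractionRing (rmiB (IsLocalRing.ResidueField A) (rmiRho A hA M hℓM ⟨t, htV⟩))
        ↥(rmiKappa A hA M hℓM)),
      RdmChart A (grO A hA M hℓM) (rmiRho A hA M hℓM) t (rmiO K (grO A hA M hℓM) t)
        (rmiB (IsLocalRing.ResidueField A) (rmiRho A hA M hℓM ⟨t, htV⟩)) ∧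
      (∀ x ∈ rmiO K (grO A hA M hℓM) t, x ∈ jrIC (jrPoly A t)) ∧
      (∀ b ∈ rmiB (IsLocalRing.ResidueField A) (rmiRho A hA M hℓM ⟨t, htV⟩),
        IsIntegral (Algebra.adjoin (IsLocalRing.ResidueField A) {rmiRho A hA M hℓM ⟨t, htV⟩}) b) ∧
      ∀ y : ↥(grO A hA M hℓM), rmiRho A hA M hℓM y ≠ 0 →
        ∀ w : HeightOneSpectrum
            (rmiB (IsLocalRing.ResidueField A) (rmiRho A hA M hℓM ⟨t, htV⟩)),
          (Place.ofHeightOneSpectrum (K := IsLocalRing.ResidueField A)
            (F := ↥(rmiKappa A hA M hℓM)) w).ord (rmiRho A hA M hℓM y) =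
          ∑ᶠ P ∈ {P : Place K ↥(laurentBaseChange K (modularFunctionFieldFull M)) |
            RdmTo A (grO A hA M hℓM) (rmiRho A hA M hℓM) t (rmiO K (grO A hA M hℓM) t) P
              (Place.ofHeightOneSpectrum (K := IsLocalRing.ResidueField A)
                (F := ↥(rmiKappa A hA M hℓM)) w)},
            P.ord (y : ↥(laurentBaseChange K (modularFunctionFieldFull M))) := by
  haveI : CharZero K := algebraRat.charZero K
  obtain ⟨-, -, hfd, -, -, -⟩ := gch_hind A hA M hℓM H hc0 hc1 hc h01 t ht htV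
  haveI := hfd
  haveI halg : Algebra.IsAlgebraic ↥K⟮t⟯ ↥(laurentBaseChange K (modularFunctionFieldFull M)) :=
    Algebra.IsAlgebraic.of_finite _ _
  have G := rmi_gauss A hA M hℓM
  have htr := rmi_htr A hA M hℓM H hc0 hc1 hc h01 t ht htV
  have htK := rmi_ht M H hc t ht
  have huniq := gch_unique A hA M hℓM H hc t ht
  have hSM' := rmi_SM_of_SMQ A hA M hℓM t htV _ hSM
  have C := rmi_chart G htV htr huniq (rmi_lift_of_SM G htV hSM')
  obtain ⟨β, hβ, hli, hspan⟩ := rmi_basis_of_SM G htV hSM'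
  haveI hfr : IsFractionRing (rmiB (IsLocalRing.ResidueField A) (rmiRho A hA M hℓM ⟨t, htV⟩))
      ↥(rmiKappa A hA M hℓM) :=
    rmi_isFractionRing G htV htr huniq (rmiRho_surjective A hA M hℓM)
  haveI hded : IsDedekindDomain
      (rmiB (IsLocalRing.ResidueField A) (rmiRho A hA M hℓM ⟨t, htV⟩)) :=
    rmi_isDedekindDomain _ β hβ hspan
  haveI : IsAlgClosed (IsLocalRing.ResidueField A) := ifr_residue_isAlgClosed A
  refine ⟨hded, hfr, C, ?_, fun b hb => hb, ?_⟩
  · intro x hx
    exact rmi_isIntegral_range _ _ ((rmi_mem_O_iff G htV htr huniq x).mp hx).2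
  · have hres : ∀ (P : Place K ↥(laurentBaseChange K (modularFunctionFieldFull M)))
        (x : ↥(laurentBaseChange K (modularFunctionFieldFull M))), 0 ≤ P.ord x →
        ∃ c : K, RdmVal P x c := fun P x hx => rmi_hres t P x hx
    have hfin : ∀ f : ↥(laurentBaseChange K (modularFunctionFieldFull M)), f ≠ 0 →
        (Function.support fun P : Place K ↥(laurentBaseChange K (modularFunctionFieldFull M)) =>
          P.ord f).Finite := fun f hf => rmi_hfin t htK f hf
    have hfibF : ∀ α : A, ∑ᶠ P ∈ {P : Place K ↥(laurentBaseChange K (modularFunctionFieldFull M)) |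
        0 < P.ord (t - algebraMap K _ (α : K))}, P.ord (t - algebraMap K _ (α : K)) =
          ((psi M / psi a2 : ℕ) : ℤ) := fun α => by
      rw [rmi_hfibF t htK (α : K), gch_finrank A hA M hℓM H hc t ht]
    have hfibK := rmi_hfibK (rmiRho A hA M hℓM ⟨t, htV⟩) htr β hβ hli hspan
    intro y hy w
    exact rdm_cons G C htr hres hfin (psi M / psi a2) hfibF hfibK y hy w

variable (K) in
/-- **The chart package** for a coordinate `t` of the level-`M` function field and an element
`u` of the residue field (in the applications `u = t̄` or `u = t̄⁻¹`... see `rmi_chart_pkg`,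
`rmi_chart_pkg_inv`): a chart `(O, B)` in the sense of `RdmChart`, with `B` a Dedekind domain
with fraction field the residue field, `O` integral over `A[t]`, `B` integral over `k[u]`, and
conservation of the divisor of every Gauss unit under reduction. -/
def RmiChartPkg (t : ↥(laurentBaseChange K (modularFunctionFieldFull M)))
    (u : ↥(rmiKappa A hA M hℓM)) : Prop :=
  ∃ (O : Subring ↥(laurentBaseChange K (modularFunctionFieldFull M)))
    (B : Subalgebra (IsLocalRing.ResidueField A) ↥(rmiKappa A hA M hℓM))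
    (_ : IsDedekindDomain B) (_ : IsFractionRing B ↥(rmiKappa A hA M hℓM)),
    RdmChart A (grO A hA M hℓM) (rmiRho A hA M hℓM) t O B ∧
    (∀ x ∈ O, x ∈ jrIC (jrPoly A t)) ∧
    (∀ b ∈ B, IsIntegral (Algebra.adjoin (IsLocalRing.ResidueField A) {u}) b) ∧
    ∀ y : ↥(grO A hA M hℓM), rmiRho A hA M hℓM y ≠ 0 → ∀ w : HeightOneSpectrum B,
      (Place.ofHeightOneSpectrum (K := IsLocalRing.ResidueField A)
        (F := ↥(rmiKappa A hA M hℓM)) w).ord (rmiRho A hA M hℓM y) =
      ∑ᶠ P ∈ {P : Place K ↥(laurentBaseChange K (modularFunctionFieldFull M)) |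
        RdmTo A (grO A hA M hℓM) (rmiRho A hA M hℓM) t O P
          (Place.ofHeightOneSpectrum (K := IsLocalRing.ResidueField A)
            (F := ↥(rmiKappa A hA M hℓM)) w)},
        P.ord (y : ↥(laurentBaseChange K (modularFunctionFieldFull M)))

/-- The chart package of the coordinate `t = (h - c1) / (h - c0)`, with `u = t̄`. -/
theorem rmi_chart_pkg [IsAlgClosed K] (hc0 : c0 ∈ A) (hc1 : c1 ∈ A) (hc : c0 ≠ c1)
    (h01 : (c0 - c1)⁻¹ ∈ A) (t : ↥(laurentBaseChange K (modularFunctionFieldFull M)))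
    (ht : (t : LaurentSeries K) = cinstU H K c0 c1) (htV : t ∈ grO A hA M hℓM)
    (hSM : RmiSMQ A hA M hℓM t htV (psi M / psi a2)) :
    RmiChartPkg K A hA M hℓM t (rmiRho A hA M hℓM ⟨t, htV⟩) := by
  obtain ⟨h1, h2, h3⟩ := rmi_chart_main A hA M hℓM H hc0 hc1 hc h01 t ht htV hSM
  exact ⟨_, _, h1, h2, h3⟩

/-- The chart package of the inverse coordinate `t⁻¹ = (h - c0) / (h - c1)`, with `u = t̄⁻¹`. -/
theorem rmi_chart_pkg_inv [IsAlgClosed K] (hc0 : c0 ∈ A) (hc1 : c1 ∈ A) (hc : c0 ≠ c1)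
    (h01 : (c0 - c1)⁻¹ ∈ A) (t : ↥(laurentBaseChange K (modularFunctionFieldFull M)))
    (ht : (t : LaurentSeries K) = cinstU H K c0 c1) (htV : t ∈ grO A hA M hℓM)
    (htV' : t⁻¹ ∈ grO A hA M hℓM)
    (hSM : RmiSMQ A hA M hℓM t⁻¹ htV' (psi M / psi a2)) :
    RmiChartPkg K A hA M hℓM t⁻¹ (rmiRho A hA M hℓM ⟨t, htV⟩)⁻¹ := by
  have ht' : ((t⁻¹ : ↥(laurentBaseChange K (modularFunctionFieldFull M))) : LaurentSeries K) =
      cinstU H K c1 c0 := by
    rw [← cinstU_inv, ← ht]
    rfl
  have h10 : (c1 - c0)⁻¹ ∈ A := by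
    have e : (c1 - c0)⁻¹ = -(c0 - c1)⁻¹ := by rw [← neg_sub, inv_neg]
    rw [e]
    exact A.neg_mem _ h01
  have h := rmi_chart_pkg A hA M hℓM H hc1 hc0 hc.symm h10 t⁻¹ ht' htV' hSM
  rwa [rmiRho_inv A hA M hℓM t htV htV'] at h

end Chart

end Fermat.Agent.S37
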