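import Mathlib
import Fermat.Agent.S37.JRingK3
import Fermat.Agent.S37.JRingLvl
import Fermat.Agent.S37.JRingChartZ
import Fermat.Agent.S37.RedMapInstMain
import Fermat.Agent.S18.SMQ

/-!
# S37, package JR-K3AB: weak conservation for the J-ring class map

`jrc_k3ab`: for a prime `ℓ ∤ N` and a valuation subring `A` of `ℚ̄` over `ℓ`, a Gauss unit `Y`
of the function field of `X₀(N)` whose divisor `E` satisfies `(jrCls)_* E = 0` has a constant
Gauss residue.  This is hypothesis (K3ab) of `s37_redDiv_of_classMap`.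

Assembly: `jrk_k3ab_of` (`JRingK3.lean`) with
* the level-raising statement `jrl_main` (`JRingLvl.lean`),
* the chart package `rmi_chart_pkg` (`RedMapInstMain.lean`) applied to `smq_main` (S18),
* the chart-in-`O_Z` statement `jrcz_le` (`JRingChartZ.lean`).
-/

set_option autoImplicit false
set_option linter.style.haveILetI false

open AlgebraicCurve ModularCurve Polynomial
open Fermat.Agent.S18 Fermat.Agent.S24

namespace Fermat.Agent.S37

local notation "Qb" => AlgebraicClosure ℚ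

/-- The packaged chart of the coordinate `(h - c1) / (h - c0)` at a level `M` divisible by `a2`
and prime to `ℓ`. -/
theorem jrk_chart (M : ℕ) [NeZero M] {ℓ : ℕ} [Fact ℓ.Prime] (hℓM : ¬ ℓ ∣ M) {a2 : ℕ}
    (H : HauptRec a2 ℓ) (ha2 : a2 ∣ M) (A : ValuationSubring Qb) (hA : A.LiesOverPrime ℓ)
    (c0 c1 : Qb) (hc0 : c0 ∈ A) (hc1 : c1 ∈ A) (h01 : smi2U A (c0 - c1))
    (hq0 : smi2U A (aeval c0 H.Qrad)) :
    ∃ ht : c0rT M H ha2 c0 c1 ∈ grO A hA M hℓM,
      JrkChart A (grO A hA M hℓM) (rmiRho A hA M hℓM) (c0rT M H ha2 c0 c1)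
        (rmiRho A hA M hℓM ⟨_, ht⟩) := by
  have hc : c0 ≠ c1 := fun h => h01.2.1 (by rw [h, sub_self])
  obtain ⟨htV, hsmq⟩ := smq_main M hℓM H ha2 A hA c0 c1 hc0 hc1 h01.2.2 hc hq0.2.2 hq0.2.1
    (c0rT M H ha2 c0 c1) rfl
  exact ⟨htV, rmi_chart_pkg A hA M hℓM H hc0 hc1 hc h01.2.2 (c0rT M H ha2 c0 c1) rfl htV hsmq⟩

/-- **(K3AB)**: weak conservation for the J-ring class map at level `N`, `ℓ ∤ N`. -/
theorem jrc_k3ab (N : ℕ) [NeZero N] {ℓ : ℕ} (hℓ : ℓ.Prime) (hℓN : ¬ ℓ ∣ N)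
    (A : ValuationSubring Qb) (hA : A.LiesOverPrime ℓ) :
    ∀ (Y : ↥(modularFunctionFieldBar N)) (hY : (Y : LaurentSeries Qb) ∈ Fermat.Agent.S18.grV A),
      Y ≠ 0 → Fermat.Agent.S18.grRho A ⟨_, hY⟩ ≠ 0 →
      ∀ E : Divisor Qb ↥(modularFunctionFieldBar N), (∀ P, E P = P.ord Y) →
        Finsupp.mapDomain (jrCls A (Fermat.Agent.S24.jBar N)) E = 0 →
        ∃ cb : IsLocalRing.ResidueField A, Fermat.Agent.S18.grRho A ⟨_, hY⟩ =
          algebraMap (IsLocalRing.ResidueField A)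
            (LaurentSeries (IsLocalRing.ResidueField A)) cb :=
  haveI : Fact ℓ.Prime := ⟨hℓ⟩
  jrk_k3ab_of N hℓ hℓN A hA
    (fun N' _ hNN' hℓN' =>
      haveI := hki_hasPrincipalDivisors N'
      fun E hE => jrl_main N N' hNN' hℓN' A hA E hE)
    (fun M _ hℓM _ H ha2 c0 c1 hc0 hc1 h01 hq0 _ =>
      jrk_chart M hℓM H ha2 A hA c0 c1 hc0 hc1 h01 hq0)
    (fun M _ _ H ha2 c0 c1 hc0 hc1 hq0 hq0' x hx =>
      jrcz_le M H ha2 A c0 c1 hc0 hc1 hq0 hq0' x hx)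

end Fermat.Agent.S37
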