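import Mathlib
import Fermat.Prelude.Def_HeckeGalois_EichlerShimura

/-!
# S37, package FORMAL: the formal reduction

For a module `J` over the abstract Hecke algebra with a compatible action of a Galois group
`L ≃ₐ[K] L`, a valuation subring `A` of `L` and a prime `ℓ`, let `S` be the subgroup of `J`
generated by all `σ • x - x` (`σ` in the inertia group of `A`) and all
`σ • σ • x - T_ℓ • (σ • x) + ℓ • x` (`σ` a Frobenius element at `A`).  Then `J' := J ⧸ S`, the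
quotient map and the map induced by one Frobenius element form a specialization datum as soon as
`S` meets the `p`-power torsion of `J` trivially and a Frobenius element exists.
-/

set_option autoImplicit false
set_option linter.unusedSectionVars false

namespace Fermat.Agent.S37

open ModularCurve

section Frob

variable {K L : Type*} [Field K] [Field L] [Algebra K L]

/-- Two Frobenius elements at `A` differ by an element of the inertia group. -/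
theorem s37f_inv_mul_mem_inertia {A : ValuationSubring L} {ℓ : ℕ} {σ τ : L ≃ₐ[K] L}
    (hσ : A.IsFrobeniusAt σ ℓ) (hτ : A.IsFrobeniusAt τ ℓ) :
    σ⁻¹ * τ ∈ A.inertiaSubgroupIn K := by
  obtain ⟨hσD, hσ'⟩ := hσ
  obtain ⟨hτD, hτ'⟩ := hτ
  refine Subgroup.mem_map.mpr
    ⟨(⟨σ, hσD⟩ : A.decompositionSubgroup K)⁻¹ * ⟨τ, hτD⟩, ?_, rfl⟩
  rw [ValuationSubring.inertiaSubgroup, MonoidHom.mem_ker]
  ext x
  change ((⟨σ, hσD⟩ : A.decompositionSubgroup K)⁻¹ * ⟨τ, hτD⟩) • x = x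
  rw [mul_smul, hτ' x, inv_smul_eq_iff, hσ' x]

/-- The inertia group is stable under conjugation by elements of the decomposition group. -/
theorem s37f_conj_mem_inertia {A : ValuationSubring L} {σ τ : L ≃ₐ[K] L}
    (hσ : σ ∈ A.decompositionSubgroup K) (hτ : τ ∈ A.inertiaSubgroupIn K) :
    σ * τ * σ⁻¹ ∈ A.inertiaSubgroupIn K := by
  obtain ⟨t, ht, rfl⟩ := Subgroup.mem_map.mp hτ
  refine Subgroup.mem_map.mpr
    ⟨(⟨σ, hσ⟩ : A.decompositionSubgroup K) * t * (⟨σ, hσ⟩ : A.decompositionSubgroup K)⁻¹, ?_, rfl⟩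
  rw [ValuationSubring.inertiaSubgroup] at ht ⊢
  exact (MonoidHom.normal_ker _).conj_mem t ht _

/-- A conjugate of a Frobenius element by a Frobenius element is a Frobenius element. -/
theorem s37f_conj_isFrobeniusAt {A : ValuationSubring L} {ℓ : ℕ} {σ τ : L ≃ₐ[K] L}
    (hσ : A.IsFrobeniusAt σ ℓ) (hτ : A.IsFrobeniusAt τ ℓ) :
    A.IsFrobeniusAt (σ * τ * σ⁻¹) ℓ := by
  obtain ⟨hσD, hσ'⟩ := hσ
  obtain ⟨hτD, hτ'⟩ := hτ
  have hD : σ * τ * σ⁻¹ ∈ A.decompositionSubgroup K :=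
    (A.decompositionSubgroup K).mul_mem ((A.decompositionSubgroup K).mul_mem hσD hτD)
      ((A.decompositionSubgroup K).inv_mem hσD)
  refine ⟨hD, fun x => ?_⟩
  have e : (⟨σ * τ * σ⁻¹, hD⟩ : A.decompositionSubgroup K)
      = ⟨σ, hσD⟩ * ⟨τ, hτD⟩ * (⟨σ, hσD⟩ : A.decompositionSubgroup K)⁻¹ := rfl
  rw [e, mul_smul, mul_smul, hτ', smul_pow', smul_inv_smul]

end Frob

section Quot

variable (K : Type*) {L : Type*} [Field K] [Field L] [Algebra K L]
variable (J : Type) [AddCommGroup J] [Module HeckeAlg J]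
  [DistribMulAction (L ≃ₐ[K] L) J] [SMulCommClass (L ≃ₐ[K] L) HeckeAlg J]
variable (A : ValuationSubring L) (ℓ : ℕ) (hℓ : ℓ.Prime)

/-- The generators of the subgroup `S`. -/
def s37Gens : Set J :=
  {y | ∃ σ ∈ A.inertiaSubgroupIn K, ∃ x : J, y = σ • x - x} ∪
  {y | ∃ σ : L ≃ₐ[K] L, A.IsFrobeniusAt σ ℓ ∧
    ∃ x : J, y = σ • σ • x - heckeGen ⟨ℓ, hℓ⟩ • (σ • x) + ℓ • x}

/-- The subgroup `S` generated by the inertia and Frobenius relations. -/
def s37S : AddSubgroup J := AddSubgroup.closure (s37Gens K J A ℓ hℓ)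

variable {K J A ℓ hℓ}

theorem s37f_inertia_mem {σ : L ≃ₐ[K] L} (hσ : σ ∈ A.inertiaSubgroupIn K) (x : J) :
    σ • x - x ∈ s37S K J A ℓ hℓ :=
  AddSubgroup.subset_closure (Or.inl ⟨σ, hσ, x, rfl⟩)

theorem s37f_frob_mem {σ : L ≃ₐ[K] L} (hσ : A.IsFrobeniusAt σ ℓ) (x : J) :
    σ • σ • x - heckeGen ⟨ℓ, hℓ⟩ • (σ • x) + ℓ • x ∈ s37S K J A ℓ hℓ :=
  AddSubgroup.subset_closure (Or.inr ⟨σ, hσ, x, rfl⟩)

/-- An additive map killing the generators kills `S`. -/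
theorem s37f_map_eq_zero {M : Type*} [AddCommGroup M] (red : J →+ M)
    (h1 : ∀ σ ∈ A.inertiaSubgroupIn K, ∀ x : J, red (σ • x) = red x)
    (h2 : ∀ σ : L ≃ₐ[K] L, A.IsFrobeniusAt σ ℓ → ∀ x : J,
      red (σ • σ • x - heckeGen ⟨ℓ, hℓ⟩ • (σ • x) + ℓ • x) = 0)
    {x : J} (hx : x ∈ s37S K J A ℓ hℓ) : red x = 0 := by
  induction hx using AddSubgroup.closure_induction with
  | mem y hy =>
    rcases hy with ⟨σ, hσ, x, rfl⟩ | ⟨σ, hσ, x, rfl⟩
    · rw [map_sub, h1 σ hσ x, sub_self]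
    · exact h2 σ hσ x
  | zero => exact map_zero red
  | add y z _ _ hy hz => rw [map_add, hy, hz, add_zero]
  | neg y _ hy => rw [map_neg, hy, neg_zero]

/-- `S` is stable under the Hecke algebra. -/
theorem s37f_hecke_mem (T : HeckeAlg) {x : J} (hx : x ∈ s37S K J A ℓ hℓ) :
    T • x ∈ s37S K J A ℓ hℓ := by
  induction hx using AddSubgroup.closure_induction with
  | mem y hy =>
    rcases hy with ⟨σ, hσ, x, rfl⟩ | ⟨σ, hσ, x, rfl⟩
    · have e : T • (σ • x - x) = σ • (T • x) - T • x := by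
        rw [smul_sub, smul_comm σ T x]
      rw [e]
      exact s37f_inertia_mem hσ _
    · have h1 : σ • σ • (T • x) = T • (σ • σ • x) := by
        rw [smul_comm σ T x, smul_comm σ T (σ • x)]
      have h2 : heckeGen ⟨ℓ, hℓ⟩ • (σ • (T • x)) = T • (heckeGen ⟨ℓ, hℓ⟩ • (σ • x)) := by
        rw [smul_comm σ T x, smul_comm (heckeGen ⟨ℓ, hℓ⟩) T (σ • x)]
      have h3 : ℓ • (T • x) = T • (ℓ • x) := smul_comm ℓ T x
      have e : T • (σ • σ • x - heckeGen ⟨ℓ, hℓ⟩ • (σ • x) + ℓ • x)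
          = σ • σ • (T • x) - heckeGen ⟨ℓ, hℓ⟩ • (σ • (T • x)) + ℓ • (T • x) := by
        rw [h1, h2, h3, ← smul_sub, ← smul_add]
      rw [e]
      exact s37f_frob_mem hσ _
  | zero => rw [smul_zero]; exact AddSubgroup.zero_mem _
  | add y z _ _ hy hz => rw [smul_add]; exact AddSubgroup.add_mem _ hy hz
  | neg y _ hy => rw [smul_neg]; exact AddSubgroup.neg_mem _ hy

/-- `S` is stable under every Frobenius element. -/
theorem s37f_galois_mem {σ₀ : L ≃ₐ[K] L} (h₀ : A.IsFrobeniusAt σ₀ ℓ) {x : J}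
    (hx : x ∈ s37S K J A ℓ hℓ) : σ₀ • x ∈ s37S K J A ℓ hℓ := by
  induction hx using AddSubgroup.closure_induction with
  | mem y hy =>
    rcases hy with ⟨σ, hσ, x, rfl⟩ | ⟨σ, hσ, x, rfl⟩
    · have k1 : (σ₀ * σ * σ₀⁻¹) • (σ₀ • x) = σ₀ • (σ • x) := by
        rw [smul_smul, inv_mul_cancel_right, mul_smul]
      have e : σ₀ • (σ • x - x) = (σ₀ * σ * σ₀⁻¹) • (σ₀ • x) - σ₀ • x := by
        rw [k1, smul_sub]
      rw [e]
      exact s37f_inertia_mem (s37f_conj_mem_inertia h₀.mem_decompositionSubgroup hσ) _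
    · have k1 : (σ₀ * σ * σ₀⁻¹) • (σ₀ • x) = σ₀ • (σ • x) := by
        rw [smul_smul, inv_mul_cancel_right, mul_smul]
      have k2 : (σ₀ * σ * σ₀⁻¹) • (σ₀ • (σ • x)) = σ₀ • (σ • σ • x) := by
        rw [smul_smul, inv_mul_cancel_right, mul_smul]
      have h2 : σ₀ • (heckeGen ⟨ℓ, hℓ⟩ • (σ • x)) = heckeGen ⟨ℓ, hℓ⟩ • (σ₀ • (σ • x)) :=
        smul_comm σ₀ (heckeGen ⟨ℓ, hℓ⟩) (σ • x)
      have h3 : σ₀ • (ℓ • x) = ℓ • (σ₀ • x) := smul_comm σ₀ ℓ x
      have e : σ₀ • (σ • σ • x - heckeGen ⟨ℓ, hℓ⟩ • (σ • x) + ℓ • x)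
          = (σ₀ * σ * σ₀⁻¹) • (σ₀ * σ * σ₀⁻¹) • (σ₀ • x)
            - heckeGen ⟨ℓ, hℓ⟩ • ((σ₀ * σ * σ₀⁻¹) • (σ₀ • x)) + ℓ • (σ₀ • x) := by
        rw [k1, k2, smul_add, smul_sub, h2, h3]
      rw [e]
      exact s37f_frob_mem (s37f_conj_isFrobeniusAt h₀ hσ) _
  | zero => rw [smul_zero]; exact AddSubgroup.zero_mem _
  | add y z _ _ hy hz => rw [smul_add]; exact AddSubgroup.add_mem _ hy hz
  | neg y _ hy => rw [smul_neg]; exact AddSubgroup.neg_mem _ hy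

variable (K J A ℓ hℓ)

/-- `S` as a Hecke submodule. -/
def s37Sub : Submodule HeckeAlg J where
  carrier := s37S K J A ℓ hℓ
  add_mem' := fun ha hb => AddSubgroup.add_mem _ ha hb
  zero_mem' := AddSubgroup.zero_mem _
  smul_mem' := fun T _ hx => s37f_hecke_mem T hx

theorem s37f_mem_sub_iff (x : J) : x ∈ s37Sub K J A ℓ hℓ ↔ x ∈ s37S K J A ℓ hℓ := Iff.rfl

/-- The action of a Galois element as a Hecke-linear map. -/
def s37Gal (σ : L ≃ₐ[K] L) : J →ₗ[HeckeAlg] J where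
  toFun x := σ • x
  map_add' := smul_add σ
  map_smul' T x := smul_comm σ T x

variable {K J A ℓ hℓ}

/-- The formal reduction: if a Frobenius element exists and `S` meets the `p`-power torsion
trivially, then `J ⧸ S` is a specialization. -/
theorem s37f_exists (p : ℕ) {σ₀ : L ≃ₐ[K] L} (h₀ : A.IsFrobeniusAt σ₀ ℓ)
    (hinj : ∀ x : J, x ∈ s37S K J A ℓ hℓ → (∃ n : ℕ, p ^ n • x = 0) → x = 0) :
    ∃ (J' : Type) (_ : AddCommGroup J') (_ : Module HeckeAlg J') (sp : J →+ J')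
      (F : J' →+ J'),
      IsSpecialization (K := K) p J J' A ℓ sp F ∧ SpecialFibreRelation J' ℓ hℓ F := by
  have hmap : s37Sub K J A ℓ hℓ ≤ (s37Sub K J A ℓ hℓ).comap (s37Gal K J σ₀) :=
    fun x hx => s37f_galois_mem h₀ hx
  refine ⟨J ⧸ s37Sub K J A ℓ hℓ, inferInstance, inferInstance,
    (s37Sub K J A ℓ hℓ).mkQ.toAddMonoidHom,
    (Submodule.mapQ _ _ (s37Gal K J σ₀) hmap).toAddMonoidHom, ⟨?_, ?_, ?_, ?_⟩, ?_⟩
  · intro T x
    exact map_smul (s37Sub K J A ℓ hℓ).mkQ T x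
  · intro σ hσ x
    change Submodule.Quotient.mk (σ • x) = Submodule.Quotient.mk x
    rw [Submodule.Quotient.eq]
    exact s37f_inertia_mem hσ x
  · intro σ hσ x
    change Submodule.Quotient.mk (σ • x) = Submodule.Quotient.mk (σ₀ • x)
    rw [Submodule.Quotient.eq]
    have e : σ • x - σ₀ • x = σ₀ • ((σ₀⁻¹ * σ) • x - x) := by
      rw [smul_sub, smul_smul, mul_inv_cancel_left]
    rw [e]
    exact s37f_galois_mem h₀ (s37f_inertia_mem (s37f_inv_mul_mem_inertia h₀ hσ) x)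
  · intro x hx hsp
    have hsp' : Submodule.Quotient.mk (p := s37Sub K J A ℓ hℓ) x = 0 := hsp
    rw [Submodule.Quotient.mk_eq_zero] at hsp'
    exact hinj x hsp' hx
  · intro y
    obtain ⟨x, rfl⟩ := Submodule.Quotient.mk_surjective _ y
    change Submodule.Quotient.mk (σ₀ • σ₀ • x) - heckeGen ⟨ℓ, hℓ⟩ • Submodule.Quotient.mk (σ₀ • x)
      + ℓ • Submodule.Quotient.mk x = 0
    rw [← Submodule.Quotient.mk_smul, ← Submodule.Quotient.mk_sub]
    have e : ℓ • (Submodule.Quotient.mk x : J ⧸ s37Sub K J A ℓ hℓ)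
        = Submodule.Quotient.mk (ℓ • x) := by
      rw [← Nat.cast_smul_eq_nsmul HeckeAlg, ← Nat.cast_smul_eq_nsmul HeckeAlg,
        Submodule.Quotient.mk_smul]
    rw [e, ← Submodule.Quotient.mk_add, Submodule.Quotient.mk_eq_zero]
    exact s37f_frob_mem h₀ x

/-- Abstract form of the formal reduction. -/
theorem s37f_specializationExists (N p : ℕ)
    (hfrob : ∀ ℓ : ℕ, ℓ.Prime → ¬ ℓ ∣ N * p → ∀ A : ValuationSubring L, A.LiesOverPrime ℓ →
      ∃ σ : L ≃ₐ[K] L, A.IsFrobeniusAt σ ℓ)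
    (hinj : ∀ (ℓ : ℕ) (hℓ : ℓ.Prime), ¬ ℓ ∣ N * p → ∀ A : ValuationSubring L,
      A.LiesOverPrime ℓ → ∀ x : J, x ∈ s37S K J A ℓ hℓ → (∃ n : ℕ, p ^ n • x = 0) → x = 0) :
    SpecializationExists (K := K) (L := L) N p J := by
  intro ℓ hℓ hNp A hA
  obtain ⟨σ₀, h₀⟩ := hfrob ℓ hℓ hNp A hA
  exact s37f_exists p h₀ (hinj ℓ hℓ hNp A hA)

end Quot

end Fermat.Agent.S37
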