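import Mathlib
import Fermat.Prelude.Def_ModularCurve_HeckeModule
import Fermat.Agent.S37.Formal
import Fermat.Agent.S37.Frob

/-!
# S37, package FORMAL: the formal reduction, instantiated for `JZero N`

`s37_formal_S`: it suffices that the subgroup `S` (inertia and Frobenius relations) meets the
`p`-power torsion trivially.  `s37_formal`: it suffices to have, for every `ℓ` and `A`, an additive
map `red` out of `JZero N` which is invariant under inertia, kills the Frobenius relations
(written with `heckeOperatorBar`) and is injective on the `p`-power torsion.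
-/

set_option autoImplicit false
set_option linter.style.haveILetI false

namespace Fermat.Agent.S37

open ModularCurve

/-- The frozen statement from the triviality of `S ∩ (p-power torsion)`. -/
theorem s37_formal_S (N p : ℕ) [NeZero N] :
    letI := heckeModuleBar N
    ∀ (_ : SMulCommClass (AlgebraicClosure ℚ ≃ₐ[ℚ] AlgebraicClosure ℚ) HeckeAlg (JZero N)),
      (∀ (ℓ : ℕ) (hℓ : ℓ.Prime), ¬ ℓ ∣ N * p →
        ∀ A : ValuationSubring (AlgebraicClosure ℚ), A.LiesOverPrime ℓ →
          ∀ x : JZero N, x ∈ s37S ℚ (JZero N) A ℓ hℓ → (∃ n : ℕ, p ^ n • x = 0) → x = 0) →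
      SpecializationExists (K := ℚ) (L := AlgebraicClosure ℚ) N p (JZero N) := by
  letI := heckeModuleBar N
  intro _ hinj
  exact s37f_specializationExists N p
    (fun ℓ hℓ _ A hA => s37_exists_frobenius ℓ hℓ A hA) hinj

/-- The frozen statement from reduction maps. -/
theorem s37_formal (N p : ℕ) [NeZero N] (hcomm : HeckeOperatorsCommuteBar N)
    (hred : ∀ (ℓ : ℕ) (hℓ : ℓ.Prime), ¬ ℓ ∣ N * p →
      ∀ A : ValuationSubring (AlgebraicClosure ℚ), A.LiesOverPrime ℓ →
        ∃ (M : Type) (_ : AddCommGroup M) (red : JZero N →+ M),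
          (∀ σ ∈ A.inertiaSubgroupIn ℚ, ∀ x : JZero N, red (σ • x) = red x) ∧
          (∀ σ : AlgebraicClosure ℚ ≃ₐ[ℚ] AlgebraicClosure ℚ, A.IsFrobeniusAt σ ℓ →
            ∀ x : JZero N,
              red (σ • σ • x - heckeOperatorBar N ⟨ℓ, hℓ⟩ (σ • x) + ℓ • x) = 0) ∧
          (∀ x : JZero N, (∃ n : ℕ, p ^ n • x = 0) → red x = 0 → x = 0)) :
    letI := heckeModuleBar N
    ∀ (_ : SMulCommClass (AlgebraicClosure ℚ ≃ₐ[ℚ] AlgebraicClosure ℚ) HeckeAlg (JZero N)),
      SpecializationExists (K := ℚ) (L := AlgebraicClosure ℚ) N p (JZero N) := by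
  letI := heckeModuleBar N
  intro _
  refine s37f_specializationExists N p
    (fun ℓ hℓ _ A hA => s37_exists_frobenius ℓ hℓ A hA) ?_
  intro ℓ hℓ hNp A hA x hx htors
  obtain ⟨M, _, red, h1, h2, h3⟩ := hred ℓ hℓ hNp A hA
  refine h3 x htors (s37f_map_eq_zero red h1 ?_ hx)
  intro σ hσ y
  have e : (heckeGen ⟨ℓ, hℓ⟩ : HeckeAlg) • (σ • y) = heckeOperatorBar N ⟨ℓ, hℓ⟩ (σ • y) :=
    heckeModuleBar_heckeGen_smul hcomm ⟨ℓ, hℓ⟩ (σ • y)
  rw [e]
  exact h2 σ hσ y

end Fermat.Agent.S37
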