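import Mathlib
import Fermat.Prelude.Def_ModularCurve_HeckeModule
import Fermat.Agent.S37.FormalQ

/-!
# S37, package MAIN/GLUE: from a reduction datum on divisors to the frozen statement

`S37RedDiv N ℓ hℓ A` is the single geometric input (besides `HeckeInputsAlong`): an additive map
`R` from the divisors of `X₀(N)` over `ℚ̄` to some abelian group such that

* (I1) `R (σ • D) = R D` for `σ` in the inertia group of `A`;
* (I2) `R (T_ℓ P) = R (σ P) + ℓ • R (σ⁻¹ P)` for every Frobenius element `σ` at `A` and every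
  place `P` (Eichler–Shimura, in a form which does not mention the special fibre);
* (I3) if `D` has degree `0`, its class has prime order `q ≠ ℓ` and `R D = 0`, then the class
  of `D` is trivial.

`s37_hred_of_redDiv` turns this (with `HeckeInputsAlong`) into the hypothesis of `s37_formal`,
and `s37_of_redDiv` is the frozen statement from the two inputs.
-/

set_option autoImplicit false
set_option linter.style.haveILetI false

namespace Fermat.Agent.S37

open ModularCurve AlgebraicCurve

/-- The reduction datum on divisors (see the module docstring). -/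
def S37RedDiv (N : ℕ) [NeZero N] (ℓ : ℕ) (hℓ : ℓ.Prime)
    (A : ValuationSubring (AlgebraicClosure ℚ)) : Prop :=
  haveI : NeZero ℓ := ⟨hℓ.ne_zero⟩
  ∃ (G : Type) (_ : AddCommGroup G)
    (R : Divisor (AlgebraicClosure ℚ) (modularFunctionFieldBar N) →+ G),
    (∀ σ ∈ A.inertiaSubgroupIn ℚ,
      ∀ D : Divisor (AlgebraicClosure ℚ) (modularFunctionFieldBar N),
        R (arithmeticGalois (modularFunctionFieldFull N) σ • D) = R D) ∧
    (∀ (hα : HeckeAlphaBarIntegral (AlgebraicClosure ℚ) N ℓ)
       (hβ : HeckeBetaBarIntegral (AlgebraicClosure ℚ) N ℓ)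
       (_ : HasPrincipalDivisors (AlgebraicClosure ℚ)
          (laurentBaseChange (AlgebraicClosure ℚ) (modularFunctionFieldFull (N * ℓ)))),
       ∀ σ : AlgebraicClosure ℚ ≃ₐ[ℚ] AlgebraicClosure ℚ, A.IsFrobeniusAt σ ℓ →
         ∀ P : Place (AlgebraicClosure ℚ) (modularFunctionFieldBar N),
           R (heckeDivBar hα hβ (Finsupp.single P 1)) =
             R (Finsupp.single (arithmeticGalois (modularFunctionFieldFull N) σ • P) 1)
               + ℓ • R (Finsupp.single
                  (arithmeticGalois (modularFunctionFieldFull N) σ⁻¹ • P) 1)) ∧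
    (∀ (D : Divisor.degZero (K := AlgebraicClosure ℚ) (F := modularFunctionFieldBar N))
       (q : ℕ), q.Prime → q ≠ ℓ → q • Pic0.mk D = 0 →
         R (D : Divisor (AlgebraicClosure ℚ) (modularFunctionFieldBar N)) = 0 → Pic0.mk D = 0)

section Aux

variable {K F : Type*} [Field K] [Field F] [Algebra K F]

/-- An additive map on divisors which vanishes on the places vanishes. -/
theorem s37m_eq_zero_of_single {G : Type*} [AddCommGroup G] (Ψ : Divisor K F →+ G)
    (h : ∀ P : Place K F, Ψ (Finsupp.single P 1) = 0) (D : Divisor K F) : Ψ D = 0 := by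
  have : Ψ = 0 := by
    refine Finsupp.addHom_ext fun P n => ?_
    have e : (Finsupp.single P n : Divisor K F) = n • Finsupp.single P 1 := by
      rw [Finsupp.smul_single, smul_eq_mul, mul_one]
    rw [e, map_zsmul, h P, smul_zero, AddMonoidHom.zero_apply]
  rw [this, AddMonoidHom.zero_apply]

/-- In an additive group: a nonzero element killed by `m ≠ 0` has a multiple of prime order
dividing `m`. -/
theorem s37m_prime_order {G : Type*} [AddCommGroup G] (m : ℕ) (hm : m ≠ 0) (z : G) (hz : z ≠ 0)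
    (hmz : m • z = 0) :
    ∃ q : ℕ, q.Prime ∧ q ∣ m ∧ ∃ k : ℕ, k • z ≠ 0 ∧ q • (k • z) = 0 := by
  have hd : addOrderOf z ∣ m := addOrderOf_dvd_of_nsmul_eq_zero hmz
  have hd0 : addOrderOf z ≠ 0 := fun h => hm (by rw [h] at hd; exact zero_dvd_iff.mp hd)
  have hd1 : addOrderOf z ≠ 1 := fun h => hz (AddMonoid.addOrderOf_eq_one_iff.mp h)
  obtain ⟨k, hk⟩ := Nat.minFac_dvd (addOrderOf z)
  have hq := Nat.minFac_prime hd1
  refine ⟨(addOrderOf z).minFac, hq, (Nat.minFac_dvd _).trans hd, k, ?_, ?_⟩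
  · intro h0
    have h1 : addOrderOf z ∣ k := addOrderOf_dvd_of_nsmul_eq_zero h0
    have hk0 : k ≠ 0 := by
      rintro rfl
      rw [mul_zero] at hk
      exact hd0 hk
    have h2 : addOrderOf z ≤ k := Nat.le_of_dvd (Nat.pos_of_ne_zero hk0) h1
    have h3 : k < addOrderOf z := by
      calc k = 1 * k := (one_mul k).symm
        _ < (addOrderOf z).minFac * k :=
          Nat.mul_lt_mul_of_pos_right hq.one_lt (Nat.pos_of_ne_zero hk0)
        _ = addOrderOf z := hk.symm
    omega
  · rw [← mul_nsmul', ← hk]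
    exact addOrderOf_nsmul_eq_zero z

end Aux

section Hecke

variable {N ℓ : ℕ} [NeZero N] [NeZero ℓ]

set_option synthInstance.maxHeartbeats 400000 in
/-- `heckeOperatorBar` on the class of a divisor, given the Hecke inputs. -/
theorem s37m_heckeOperatorBar_mk (hℓ : ℓ.Prime)
    (hα : HeckeAlphaBarIntegral (AlgebraicClosure ℚ) N ℓ)
    (hβ : HeckeBetaBarIntegral (AlgebraicClosure ℚ) N ℓ)
    [HasPrincipalDivisors (AlgebraicClosure ℚ)
      (laurentBaseChange (AlgebraicClosure ℚ) (modularFunctionFieldFull (N * ℓ)))]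
    (hFI : FundamentalIdentityAlong (AlgebraicClosure ℚ) (heckeBetaBar (AlgebraicClosure ℚ) N ℓ) hβ)
    (hfin : FiniteAlong (AlgebraicClosure ℚ) (heckeAlphaBar (AlgebraicClosure ℚ) N ℓ))
    (hN : NormFormulaAlong (AlgebraicClosure ℚ) (heckeAlphaBar (AlgebraicClosure ℚ) N ℓ) hfin)
    (D : Divisor.degZero (K := AlgebraicClosure ℚ) (F := modularFunctionFieldBar N)) :
    heckeOperatorBar N ⟨ℓ, hℓ⟩ (Pic0.mk D) =
      Pic0.mk (Pic0.degZeroCorrespondence (heckeBetaBar (AlgebraicClosure ℚ) N ℓ)
        (heckeAlphaBar (AlgebraicClosure ℚ) N ℓ) hβ hα hFI D) := by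
  have h := heckeOperatorAlong_eq hα hβ hFI hfin hN
  exact congrArg (fun f : JZero N →+ JZero N => f (Pic0.mk D)) h

end Hecke

section Frob

variable {N : ℕ}

/-- The Galois action on the class of a divisor. -/
theorem s37m_galois_smul_mk (σ : AlgebraicClosure ℚ ≃ₐ[ℚ] AlgebraicClosure ℚ)
    (D : Divisor.degZero (K := AlgebraicClosure ℚ) (F := modularFunctionFieldBar N)) :
    σ • (Pic0.mk D : JZero N) =
      Pic0.mk (SemilinearAut.degZeroSMulHom (arithmeticGalois (modularFunctionFieldFull N) σ) D) :=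
  rfl

end Frob

set_option synthInstance.maxHeartbeats 400000 in
set_option maxHeartbeats 1000000 in
/-- From a reduction datum on divisors and `HeckeInputsAlong` to the hypothesis of
`s37_formal` (for one prime `ℓ` and one place `A`). -/
theorem s37_hred_of_redDiv (N p : ℕ) [NeZero N] (ℓ : ℕ) (hℓ : ℓ.Prime) (hℓp : ¬ ℓ ∣ N * p)
    (A : ValuationSubring (AlgebraicClosure ℚ))
    (hH : haveI : NeZero ℓ := ⟨hℓ.ne_zero⟩; HeckeInputsAlong (AlgebraicClosure ℚ) N ℓ)
    (hR : S37RedDiv N ℓ hℓ A) :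
    ∃ (M : Type) (_ : AddCommGroup M) (red : JZero N →+ M),
      (∀ σ ∈ A.inertiaSubgroupIn ℚ, ∀ x : JZero N, red (σ • x) = red x) ∧
      (∀ σ : AlgebraicClosure ℚ ≃ₐ[ℚ] AlgebraicClosure ℚ, A.IsFrobeniusAt σ ℓ →
        ∀ x : JZero N,
          red (σ • σ • x - heckeOperatorBar N ⟨ℓ, hℓ⟩ (σ • x) + ℓ • x) = 0) ∧
      (∀ x : JZero N, (∃ n : ℕ, p ^ n • x = 0) → red x = 0 → x = 0) := by
  haveI : NeZero ℓ := ⟨hℓ.ne_zero⟩
  obtain ⟨G, _, R, hI1, hI2, hI3⟩ := hR
  obtain ⟨hα, hβ, hP, hfin, hFI, hN⟩ := hH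
  haveI := hP
  -- the kernel of the reduction on classes
  let Rz : Divisor.degZero (K := AlgebraicClosure ℚ) (F := modularFunctionFieldBar N) →+ G :=
    R.comp (Divisor.degZero (K := AlgebraicClosure ℚ) (F := modularFunctionFieldBar N)).subtype
  let S' : AddSubgroup (JZero N) := Rz.ker.map (QuotientAddGroup.mk' _)
  have hS' : ∀ D : Divisor.degZero (K := AlgebraicClosure ℚ) (F := modularFunctionFieldBar N),
      R (D : Divisor (AlgebraicClosure ℚ) (modularFunctionFieldBar N)) = 0 →
        Pic0.mk D ∈ S' := fun D hD => ⟨D, hD, rfl⟩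
  have hS'' : ∀ x ∈ S', ∃ D : Divisor.degZero (K := AlgebraicClosure ℚ)
      (F := modularFunctionFieldBar N),
      R (D : Divisor (AlgebraicClosure ℚ) (modularFunctionFieldBar N)) = 0 ∧ Pic0.mk D = x := by
    rintro x ⟨D, hD, rfl⟩
    exact ⟨D, hD, rfl⟩
  refine ⟨JZero N ⧸ S', inferInstance, QuotientAddGroup.mk' S', ?_, ?_, ?_⟩
  · -- inertia
    intro σ hσ x
    obtain ⟨D, rfl⟩ := Pic0.mk_surjective x
    rw [QuotientAddGroup.mk'_apply, QuotientAddGroup.mk'_apply, QuotientAddGroup.eq,
      s37m_galois_smul_mk]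
    have e : -Pic0.mk (SemilinearAut.degZeroSMulHom
          (arithmeticGalois (modularFunctionFieldFull N) σ) D) + Pic0.mk D
        = Pic0.mk (-SemilinearAut.degZeroSMulHom
          (arithmeticGalois (modularFunctionFieldFull N) σ) D + D) := rfl
    rw [e]
    refine hS' _ ?_
    rw [AddSubgroup.coe_add, AddSubgroup.coe_neg, SemilinearAut.coe_degZeroSMulHom, map_add,
      map_neg, hI1 σ hσ, neg_add_cancel]
  · -- Frobenius
    intro σ hσ x
    obtain ⟨D, rfl⟩ := Pic0.mk_surjective x
    rw [s37m_galois_smul_mk, s37m_galois_smul_mk,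
      s37m_heckeOperatorBar_mk hℓ hα hβ hFI hfin hN]
    have e : ∀ D₁ D₂ D₃ : Divisor.degZero (K := AlgebraicClosure ℚ)
        (F := modularFunctionFieldBar N),
        (Pic0.mk D₁ - Pic0.mk D₂ + ℓ • Pic0.mk D₃ : JZero N) = Pic0.mk (D₁ - D₂ + ℓ • D₃) :=
      fun _ _ _ => rfl
    rw [e, QuotientAddGroup.mk'_apply, QuotientAddGroup.eq_zero_iff]
    refine hS' _ ?_
    -- the identity on all divisors
    let sm : Divisor (AlgebraicClosure ℚ) (modularFunctionFieldBar N) →+
        Divisor (AlgebraicClosure ℚ) (modularFunctionFieldBar N) :=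
      DistribSMul.toAddMonoidHom _ (arithmeticGalois (modularFunctionFieldFull N) σ)
    let Ψ : Divisor (AlgebraicClosure ℚ) (modularFunctionFieldBar N) →+ G :=
      (R.comp (sm.comp sm)) - (R.comp ((heckeDivBar hα hβ).comp sm)) + ℓ • R
    have hΨ : ∀ E, Ψ E = 0 := by
      refine s37m_eq_zero_of_single Ψ fun P => ?_
      show R (arithmeticGalois (modularFunctionFieldFull N) σ •
            arithmeticGalois (modularFunctionFieldFull N) σ • Finsupp.single P 1)
          - R (heckeDivBar hα hβ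
            (arithmeticGalois (modularFunctionFieldFull N) σ • Finsupp.single P 1))
          + ℓ • R (Finsupp.single P 1) = 0
      rw [SemilinearAut.smul_single, SemilinearAut.smul_single,
        hI2 hα hβ hP σ hσ (arithmeticGalois (modularFunctionFieldFull N) σ • P),
        map_inv, inv_smul_smul]
      abel
    have h0 := hΨ (D : Divisor (AlgebraicClosure ℚ) (modularFunctionFieldBar N))
    refine Eq.trans ?_ h0
    show R (arithmeticGalois (modularFunctionFieldFull N) σ •
            arithmeticGalois (modularFunctionFieldFull N) σ •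
              (D : Divisor (AlgebraicClosure ℚ) (modularFunctionFieldBar N))
          - heckeDivBar hα hβ (arithmeticGalois (modularFunctionFieldFull N) σ •
              (D : Divisor (AlgebraicClosure ℚ) (modularFunctionFieldBar N)))
          + ℓ • (D : Divisor (AlgebraicClosure ℚ) (modularFunctionFieldBar N)))
        = R (arithmeticGalois (modularFunctionFieldFull N) σ •
            arithmeticGalois (modularFunctionFieldFull N) σ •
              (D : Divisor (AlgebraicClosure ℚ) (modularFunctionFieldBar N)))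
          - R (heckeDivBar hα hβ (arithmeticGalois (modularFunctionFieldFull N) σ •
              (D : Divisor (AlgebraicClosure ℚ) (modularFunctionFieldBar N))))
          + ℓ • R (D : Divisor (AlgebraicClosure ℚ) (modularFunctionFieldBar N))
    rw [map_add, map_sub, map_nsmul]
  · -- injectivity on the `p`-power torsion
    rintro x ⟨n, hn⟩ hx
    rw [QuotientAddGroup.mk'_apply, QuotientAddGroup.eq_zero_iff] at hx
    by_contra hx0
    have hp0 : p ^ n ≠ 0 := by
      refine pow_ne_zero n ?_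
      rintro rfl
      exact hℓp (by rw [mul_zero]; exact dvd_zero ℓ)
    obtain ⟨q, hq, hqm, k, hk0, hqk⟩ := s37m_prime_order (p ^ n) hp0 x hx0 hn
    have hqℓ : q ≠ ℓ := by
      rintro rfl
      exact hℓp ((hq.dvd_of_dvd_pow hqm).mul_left N)
    obtain ⟨D, hD, hDx⟩ := hS'' (k • x) (S'.nsmul_mem hx k)
    rw [← hDx] at hk0 hqk
    exact hk0 (hI3 D q hq hqℓ hqk hD)

/-- **The frozen statement S37 from the two geometric inputs**: `HeckeInputsAlong` and a
reduction datum on divisors for every prime `ℓ ∤ N` and every place `A` above `ℓ`. -/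
theorem s37_of_redDiv (N p : ℕ) [NeZero N] (hcomm : HeckeOperatorsCommuteBar N)
    (hH : ∀ (ℓ : ℕ) (hℓ : ℓ.Prime), ¬ ℓ ∣ N →
      haveI : NeZero ℓ := ⟨hℓ.ne_zero⟩; HeckeInputsAlong (AlgebraicClosure ℚ) N ℓ)
    (hR : ∀ (ℓ : ℕ) (hℓ : ℓ.Prime), ¬ ℓ ∣ N →
      ∀ A : ValuationSubring (AlgebraicClosure ℚ), A.LiesOverPrime ℓ → S37RedDiv N ℓ hℓ A) :
    letI := heckeModuleBar N
    ∀ (_ : SMulCommClass (AlgebraicClosure ℚ ≃ₐ[ℚ] AlgebraicClosure ℚ) HeckeAlg (JZero N)),
      SpecializationExists (K := ℚ) (L := AlgebraicClosure ℚ) N p (JZero N) :=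
  s37_formal N p hcomm fun ℓ hℓ hℓp A hA =>
    have hℓN : ¬ ℓ ∣ N := fun h => hℓp (h.mul_right p)
    s37_hred_of_redDiv N p ℓ hℓ hℓp A (hH ℓ hℓ hℓN) (hR ℓ hℓ hℓN A hA)

end Fermat.Agent.S37
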