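import Mathlib
import Fermat.Agent.S18.NormalizeConst
import Fermat.Agent.S18.GaussAll
import Fermat.Agent.S37.HeckeDeg
import Fermat.Agent.S37.Main

/-!
# S37, package JR-TOR: the torsion step (K3c) and the class-map form of the reduction datum

* `jrt_exists_gauss_unit`: if `q • [D] = 0` then `q • D` is the divisor of a Gauss unit `Y`.
* `jrt_torsion`: (K3) from weak conservation.  Let `c` be any map on the places of `X₀(N)` such
  that a Gauss unit whose divisor has total multiplicity `0` on every fibre of `c` has a constant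
  Gauss residue.  Then a class `[D]` of prime order `q ≠ ℓ` with `c_* D = 0` is trivial (by the
  S18 chain `nrm_const_pic`, under the core statement `hcore` of S18).
* `s37_redDiv_of_classMap`: the reduction datum `S37RedDiv` of `Main.lean` from a class map `c`
  satisfying (K1) inertia invariance, (K2) the pointwise Eichler–Shimura congruence and
  (K3ab) weak conservation.
-/

set_option autoImplicit false
set_option linter.style.haveILetI false

namespace Fermat.Agent.S37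

open ModularCurve AlgebraicCurve Fermat.Agent.S18

local notation "Qb" => AlgebraicClosure ℚ

/-- If `q • [D] = 0` then `q • D` is the divisor of a Gauss unit of the function field. -/
theorem jrt_exists_gauss_unit (N : ℕ) [NeZero N] {ℓ : ℕ} (hℓ : ℓ ≠ 0)
    (A : ValuationSubring Qb) (hA : A.LiesOverPrime ℓ)
    (D : Divisor.degZero (K := Qb) (F := ↥(modularFunctionFieldBar N))) (q : ℕ)
    (hqD : q • Pic0.mk D = 0) :
    ∃ Y : ↥(modularFunctionFieldBar N), Y ≠ 0 ∧
      (∀ P : Place Qb ↥(modularFunctionFieldBar N),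
        P.ord Y = q * (D : Divisor Qb ↥(modularFunctionFieldBar N)) P) ∧
      ∃ hY : (Y : LaurentSeries Qb) ∈ grV A, grRho A ⟨_, hY⟩ ≠ 0 := by
  have h1 : q • (D : Divisor Qb ↥(modularFunctionFieldBar N)) ∈
      Divisor.principal (K := Qb) (F := ↥(modularFunctionFieldBar N)) := by
    have h2 : Pic0.mk (q • D) = 0 := hqD
    have h3 := (QuotientAddGroup.eq_zero_iff _).mp h2
    rw [AddSubgroup.mem_addSubgroupOf] at h3
    simpa using h3
  obtain ⟨Y₀, hY₀, hord⟩ := h1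
  obtain ⟨c, u, hc, hu, hxu⟩ := gra_decomp A hℓ hA N (Y₀ : LaurentSeries Qb) Y₀.2
    (fun h => hY₀ (Subtype.ext h))
  have hc' : algebraMap Qb ↥(modularFunctionFieldBar N) c ≠ 0 := (map_ne_zero _).mpr hc
  have hcoe : (((algebraMap Qb ↥(modularFunctionFieldBar N) c)⁻¹ * Y₀ :
      ↥(modularFunctionFieldBar N)) : LaurentSeries Qb) = (u : LaurentSeries Qb) := by
    have h4 : (((algebraMap Qb ↥(modularFunctionFieldBar N) c)⁻¹ * Y₀ :
        ↥(modularFunctionFieldBar N)) : LaurentSeries Qb) =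
        (algebraMap Qb (LaurentSeries Qb) c)⁻¹ * (Y₀ : LaurentSeries Qb) := rfl
    rw [h4, hxu, inv_mul_cancel_left₀ ((map_ne_zero _).mpr hc)]
  refine ⟨(algebraMap Qb ↥(modularFunctionFieldBar N) c)⁻¹ * Y₀,
    mul_ne_zero (inv_ne_zero hc') hY₀, fun P => ?_, ?_⟩
  · rw [P.ord_mul (inv_ne_zero hc') hY₀, P.ord_inv, Fermat.Agent.S24.sf_ord_algebraMap, neg_zero,
      zero_add, ← hord P, Finsupp.smul_apply, nsmul_eq_mul]
  · have hmem : (((algebraMap Qb ↥(modularFunctionFieldBar N) c)⁻¹ * Y₀ :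
        ↥(modularFunctionFieldBar N)) : LaurentSeries Qb) ∈ grV A := by
      rw [hcoe]
      exact u.2
    refine ⟨hmem, ?_⟩
    have h5 : (⟨_, hmem⟩ : grV A) = u := Subtype.ext hcoe
    rw [h5]
    exact hu

/-- **(K3)**: no prime-to-`ℓ` torsion in the kernel of a class map with weak conservation. -/
theorem jrt_torsion (N : ℕ) [NeZero N] {ℓ : ℕ} (hℓ : ℓ.Prime)
    (A : ValuationSubring Qb) (hA : A.LiesOverPrime ℓ)
    (hcore : ∀ p : ℕ, p.Prime → p ≠ ℓ → ∃ N' : ℕ, N' ≠ 0 ∧ N ∣ N' ∧ ¬ ℓ ∣ N' ∧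
      ∃ T : Finset Qb, ∀ (K0 : IntermediateField ℚ Qb) [FiniteDimensional ℚ K0],
        (∀ c ∈ T, c ∈ K0) → nrmCoreStmt ↥K0 (A.comap (algebraMap ↥K0 Qb)) N' p)
    {C : Type*} (c : Place Qb ↥(modularFunctionFieldBar N) → C)
    (hK3 : ∀ (Y : ↥(modularFunctionFieldBar N)) (hY : (Y : LaurentSeries Qb) ∈ grV A),
      Y ≠ 0 → grRho A ⟨_, hY⟩ ≠ 0 →
      ∀ E : Divisor Qb ↥(modularFunctionFieldBar N), (∀ P, E P = P.ord Y) →
        Finsupp.mapDomain c E = 0 →
        ∃ cb : IsLocalRing.ResidueField A, grRho A ⟨_, hY⟩ =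
          algebraMap (IsLocalRing.ResidueField A) (LaurentSeries (IsLocalRing.ResidueField A)) cb)
    (D : Divisor.degZero (K := Qb) (F := ↥(modularFunctionFieldBar N))) (q : ℕ)
    (hq : q.Prime) (hqℓ : q ≠ ℓ) (hqD : q • Pic0.mk D = 0)
    (hD : Finsupp.mapDomain c (D : Divisor Qb ↥(modularFunctionFieldBar N)) = 0) :
    Pic0.mk D = 0 := by
  haveI : Fact ℓ.Prime := ⟨hℓ⟩
  obtain ⟨Y, hY0, hord, hY, hYne⟩ := jrt_exists_gauss_unit N hℓ.ne_zero A hA D q hqD
  obtain ⟨cb, hcb⟩ := hK3 Y hY hY0 hYne (q • (D : Divisor Qb ↥(modularFunctionFieldBar N)))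
    (fun P => by rw [hord P, Finsupp.smul_apply, nsmul_eq_mul])
    (by rw [Finsupp.mapDomain_smul, hD, smul_zero])
  have hcb0 : cb ≠ 0 := by
    rintro rfl
    exact hYne (by rw [hcb, map_zero])
  obtain ⟨N', hN'0, hNN', hℓN', hc⟩ := hcore q hq hqℓ
  haveI : NeZero N' := ⟨hN'0⟩
  exact nrm_const_pic N N' hNN' hq hqℓ A hA hℓN' hc D Y hY0 hord hY cb hcb0 hcb

/-- **The reduction datum from a class map.**  `c` is any map on the places of `X₀(N)` with
(K1) `c (σ P) = c P` for `σ` in the inertia group, (K2) the pointwise Eichler–Shimura congruence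
`c_* (T_ℓ P) = [c (σ P)] + ℓ [c (σ⁻¹ P)]` for Frobenius elements `σ`, and (K3ab) weak
conservation. -/
theorem s37_redDiv_of_classMap (N : ℕ) [NeZero N] (ℓ : ℕ) (hℓ : ℓ.Prime)
    (A : ValuationSubring Qb) (hA : A.LiesOverPrime ℓ)
    (hcore : ∀ p : ℕ, p.Prime → p ≠ ℓ → ∃ N' : ℕ, N' ≠ 0 ∧ N ∣ N' ∧ ¬ ℓ ∣ N' ∧
      ∃ T : Finset Qb, ∀ (K0 : IntermediateField ℚ Qb) [FiniteDimensional ℚ K0],
        (∀ c ∈ T, c ∈ K0) → nrmCoreStmt ↥K0 (A.comap (algebraMap ↥K0 Qb)) N' p)
    {C : Type} (c : Place Qb ↥(modularFunctionFieldBar N) → C)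
    (hK1 : ∀ σ ∈ A.inertiaSubgroupIn ℚ, ∀ P : Place Qb ↥(modularFunctionFieldBar N),
      c (arithmeticGalois (modularFunctionFieldFull N) σ • P) = c P)
    (hK2 : haveI : NeZero ℓ := ⟨hℓ.ne_zero⟩
      ∀ σ : Qb ≃ₐ[ℚ] Qb, A.IsFrobeniusAt σ ℓ →
        ∀ P : Place Qb ↥(modularFunctionFieldBar N),
          Finsupp.mapDomain c (hkdT N ℓ (Finsupp.single P 1)) =
            Finsupp.single (c (arithmeticGalois (modularFunctionFieldFull N) σ • P)) 1
              + Finsupp.single (c (arithmeticGalois (modularFunctionFieldFull N) σ⁻¹ • P))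
                (ℓ : ℤ))
    (hK3 : ∀ (Y : ↥(modularFunctionFieldBar N)) (hY : (Y : LaurentSeries Qb) ∈ grV A),
      Y ≠ 0 → grRho A ⟨_, hY⟩ ≠ 0 →
      ∀ E : Divisor Qb ↥(modularFunctionFieldBar N), (∀ P, E P = P.ord Y) →
        Finsupp.mapDomain c E = 0 →
        ∃ cb : IsLocalRing.ResidueField A, grRho A ⟨_, hY⟩ =
          algebraMap (IsLocalRing.ResidueField A)
            (LaurentSeries (IsLocalRing.ResidueField A)) cb) :
    S37RedDiv N ℓ hℓ A := by
  haveI : NeZero ℓ := ⟨hℓ.ne_zero⟩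
  refine ⟨C →₀ ℤ, inferInstance, Finsupp.mapDomain.addMonoidHom c, ?_, ?_, ?_⟩
  · intro σ hσ D
    rw [Finsupp.mapDomain.addMonoidHom_apply, Finsupp.mapDomain.addMonoidHom_apply,
      SemilinearAut.divisor_smul_def, ← Finsupp.mapDomain_comp]
    exact Finsupp.mapDomain_congr fun P _ => hK1 σ hσ P
  · intro hα hβ hP σ hσ P
    rw [Finsupp.mapDomain.addMonoidHom_apply, Finsupp.mapDomain.addMonoidHom_apply,
      Finsupp.mapDomain.addMonoidHom_apply, Finsupp.mapDomain_single, Finsupp.mapDomain_single,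
      Finsupp.smul_single, nsmul_eq_mul, mul_one]
    exact hK2 σ hσ P
  · intro D q hq hqℓ hqD hD
    exact jrt_torsion N hℓ A hA hcore c hK3 D q hq hqℓ hqD hD

end Fermat.Agent.S37
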