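import Mathlib

/-!
# ES-POS: the positivity engine for the Eichler--Shimura congruence on divisors

Abstract setting (no function fields):

* `X`, `Y` are sets of places (characteristic `0` and characteristic `ℓ`), `r : X → Y` the
  reduction map, `dX`, `dY` the degree maps on divisors;
* `T` is a positive correspondence on `Div X`, `Ψ` a correspondence on `Div Y`, both multiplying
  degrees by `n`;
* `Pr` is a set of divisors (principal divisors of units of the Gauss valuation) on which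
  `r_* T = Ψ r_*` is known.

`esp_ref` : a reference divisor `W` whose translates `Z c` (`Z c - W ∈ Pr`, `Z c ≥ 0`) can be moved
away from every point after applying `Ψ r_*` satisfies `r_* T W = Ψ r_* W`.

`esp_main` : if through every place `P₀` and for every `y : Y` there is a divisor
`P₀ + Z' - N W ∈ Pr` with `Z' ≥ 0` and `Ψ r_* Z'` not containing `y`, then
`r_* T P₀ = Ψ (r P₀)` for every place, hence `r_* T = Ψ r_*` on all divisors (`esp_all`).
-/

set_option autoImplicit false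

namespace Fermat.Agent.S37

open Finsupp

section aux

variable {X Y : Type*}

/-- A divisor is the sum of its points with multiplicities. -/
theorem esp_eq_sum (D : X →₀ ℤ) :
    D = ∑ P ∈ D.support, D P • Finsupp.single P (1 : ℤ) := by
  conv_lhs => rw [← Finsupp.sum_single D]
  rw [Finsupp.sum]
  refine Finset.sum_congr rfl fun P _ => ?_
  rw [Finsupp.smul_single, smul_eq_mul, mul_one]

theorem esp_hom_apply (T : (X →₀ ℤ) →+ (Y →₀ ℤ)) (D : X →₀ ℤ) (y : Y) :
    T D y = ∑ P ∈ D.support, D P * T (Finsupp.single P 1) y := by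
  conv_lhs => rw [esp_eq_sum D]
  rw [map_sum, Finsupp.finsetSum_apply]
  refine Finset.sum_congr rfl fun P _ => ?_
  rw [map_zsmul, Finsupp.smul_apply, smul_eq_mul]

/-- A positive correspondence maps effective divisors to effective divisors. -/
theorem esp_hom_nonneg (T : (X →₀ ℤ) →+ (Y →₀ ℤ))
    (hT : ∀ P y, 0 ≤ T (Finsupp.single P 1) y) (D : X →₀ ℤ) (hD : ∀ P, 0 ≤ D P) (y : Y) :
    0 ≤ T D y := by
  rw [esp_hom_apply]
  exact Finset.sum_nonneg fun P _ => mul_nonneg (hD P) (hT P y)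

theorem esp_mapDomain_nonneg (r : X → Y) (D : X →₀ ℤ) (hD : ∀ P, 0 ≤ D P) (y : Y) :
    0 ≤ Finsupp.mapDomain r D y := by
  have h := esp_hom_nonneg (Finsupp.mapDomain.addMonoidHom r) (fun P y => ?_) D hD y
  · exact h
  · show 0 ≤ Finsupp.mapDomain r (Finsupp.single P 1) y
    classical
    rw [Finsupp.mapDomain_single, Finsupp.single_apply]
    split_ifs <;> norm_num

theorem esp_hom_deg (d : (X →₀ ℤ) →+ ℤ) (D : X →₀ ℤ) :
    d D = ∑ P ∈ D.support, D P * d (Finsupp.single P 1) := by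
  conv_lhs => rw [esp_eq_sum D]
  rw [map_sum]
  refine Finset.sum_congr rfl fun P _ => ?_
  rw [map_zsmul, smul_eq_mul]

/-- An effective divisor of degree `0` is `0` (all places have positive degree). -/
theorem esp_eq_zero_of_nonneg (d : (Y →₀ ℤ) →+ ℤ) (hd : ∀ Q, 0 < d (Finsupp.single Q 1))
    (E : Y →₀ ℤ) (hE : ∀ y, 0 ≤ E y) (h0 : d E = 0) : E = 0 := by
  rw [esp_hom_deg] at h0
  have h1 := (Finset.sum_eq_zero_iff_of_nonneg
    (fun Q _ => mul_nonneg (hE Q) (hd Q).le)).mp h0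
  ext y
  by_cases hy : y ∈ E.support
  · have h2 := h1 y hy
    rcases mul_eq_zero.mp h2 with h | h
    · rw [h]; rfl
    · exact absurd h (hd y).ne'
  · rw [Finsupp.notMem_support_iff.mp hy]; rfl

end aux

section engine

variable {X Y : Type*} (r : X → Y)
  (dX : (X →₀ ℤ) →+ ℤ) (dY : (Y →₀ ℤ) →+ ℤ)
  (T : (X →₀ ℤ) →+ (X →₀ ℤ)) (Ψ : (Y →₀ ℤ) →+ (Y →₀ ℤ)) (n : ℤ)
  (Pr : Set (X →₀ ℤ))

/-- **Reference divisors.** If `W` has translates `Z c ≥ 0` (`Z c - W ∈ Pr`) such that every point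
`y` is missed by `Ψ r_* (Z c)` for some `c`, then `r_* T W = Ψ r_* W`. -/
theorem esp_ref
    (hr : ∀ D, dY (Finsupp.mapDomain r D) = dX D)
    (hTd : ∀ D, dX (T D) = n * dX D) (hΨd : ∀ E, dY (Ψ E) = n * dY E)
    (hdY : ∀ Q, 0 < dY (Finsupp.single Q 1))
    (hT : ∀ P x, 0 ≤ T (Finsupp.single P 1) x)
    (hPr : ∀ D ∈ Pr, Finsupp.mapDomain r (T D) = Ψ (Finsupp.mapDomain r D))
    (W : X →₀ ℤ) {ι : Type*} (Z : ι → X →₀ ℤ) (hZ : ∀ c P, 0 ≤ Z c P)
    (hZW : ∀ c, Z c - W ∈ Pr)
    (hmiss : ∀ y : Y, ∃ c, Ψ (Finsupp.mapDomain r (Z c)) y = 0) :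
    Finsupp.mapDomain r (T W) = Ψ (Finsupp.mapDomain r W) := by
  have key : ∀ c, Finsupp.mapDomain r (T (Z c)) - Ψ (Finsupp.mapDomain r (Z c)) =
      Finsupp.mapDomain r (T W) - Ψ (Finsupp.mapDomain r W) := by
    intro c
    have h := hPr _ (hZW c)
    rw [map_sub, Finsupp.mapDomain_sub, Finsupp.mapDomain_sub, map_sub] at h
    rw [sub_eq_sub_iff_add_eq_add]
    rw [sub_eq_iff_eq_add] at h
    rw [h]
    abel
  have hnn : ∀ y, 0 ≤ (Finsupp.mapDomain r (T W) - Ψ (Finsupp.mapDomain r W)) y := by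
    intro y
    obtain ⟨c, hc⟩ := hmiss y
    rw [← key c, Finsupp.sub_apply, hc, sub_zero]
    exact esp_mapDomain_nonneg r _ (esp_hom_nonneg T hT (Z c) (hZ c)) y
  have hdeg : dY (Finsupp.mapDomain r (T W) - Ψ (Finsupp.mapDomain r W)) = 0 := by
    rw [map_sub, hr, hTd, hΨd, hr, sub_self]
  exact sub_eq_zero.mp (esp_eq_zero_of_nonneg dY hdY _ hnn hdeg)

/-- **Main engine.** If through every place `P₀` and for every `y : Y` there is a divisor
`P₀ + Z' - N • W ∈ Pr` with `Z' ≥ 0` and `Ψ r_* Z'` missing `y`, and the reference divisor `W`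
satisfies the congruence, then `r_* T P₀ = Ψ (r P₀)` for every place `P₀`. -/
theorem esp_main
    (hr : ∀ D, dY (Finsupp.mapDomain r D) = dX D)
    (hTd : ∀ D, dX (T D) = n * dX D) (hΨd : ∀ E, dY (Ψ E) = n * dY E)
    (hdY : ∀ Q, 0 < dY (Finsupp.single Q 1))
    (hT : ∀ P x, 0 ≤ T (Finsupp.single P 1) x)
    (hPr : ∀ D ∈ Pr, Finsupp.mapDomain r (T D) = Ψ (Finsupp.mapDomain r D))
    (W : X →₀ ℤ) (hW : Finsupp.mapDomain r (T W) = Ψ (Finsupp.mapDomain r W))
    (hnice : ∀ (P₀ : X) (y : Y), ∃ (Z' : X →₀ ℤ) (N : ℤ), (∀ P, 0 ≤ Z' P) ∧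
      Finsupp.single P₀ 1 + Z' - N • W ∈ Pr ∧ Ψ (Finsupp.mapDomain r Z') y = 0)
    (P₀ : X) :
    Finsupp.mapDomain r (T (Finsupp.single P₀ 1)) = Ψ (Finsupp.single (r P₀) 1) := by
  have hle : ∀ y, 0 ≤ (Ψ (Finsupp.single (r P₀) 1) -
      Finsupp.mapDomain r (T (Finsupp.single P₀ 1))) y := by
    intro y
    obtain ⟨Z', N, hZ', hmem, hy⟩ := hnice P₀ y
    have h := hPr _ hmem
    rw [map_sub, map_add, map_zsmul, Finsupp.mapDomain_sub, Finsupp.mapDomain_add,
      Finsupp.mapDomain_sub, Finsupp.mapDomain_add, Finsupp.mapDomain_single,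
      map_sub, map_add] at h
    have h1 : Finsupp.mapDomain r (N • T W) = N • Finsupp.mapDomain r (T W) :=
      map_zsmul (Finsupp.mapDomain.addMonoidHom r) N (T W)
    have h2 : Finsupp.mapDomain r (N • W) = N • Finsupp.mapDomain r W :=
      map_zsmul (Finsupp.mapDomain.addMonoidHom r) N W
    rw [h1, h2, map_zsmul, hW] at h
    have h3 : Finsupp.mapDomain r (T (Finsupp.single P₀ 1)) + Finsupp.mapDomain r (T Z') =
        Ψ (Finsupp.single (r P₀) 1) + Ψ (Finsupp.mapDomain r Z') := by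
      have := sub_left_injective h
      exact this
    have h4 := DFunLike.congr_fun h3 y
    rw [Finsupp.add_apply, Finsupp.add_apply, hy, add_zero] at h4
    rw [Finsupp.sub_apply, ← h4]
    have h5 := esp_mapDomain_nonneg r _ (esp_hom_nonneg T hT Z' hZ') y
    linarith
  have hdeg : dY (Ψ (Finsupp.single (r P₀) 1) -
      Finsupp.mapDomain r (T (Finsupp.single P₀ 1))) = 0 := by
    rw [map_sub, hr, hTd, hΨd, ← Finsupp.mapDomain_single, hr, sub_self]
  exact (sub_eq_zero.mp (esp_eq_zero_of_nonneg dY hdY _ hle hdeg)).symm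

/-- The congruence for all places gives the congruence for all divisors. -/
theorem esp_all
    (h : ∀ P₀ : X, Finsupp.mapDomain r (T (Finsupp.single P₀ 1)) = Ψ (Finsupp.single (r P₀) 1))
    (D : X →₀ ℤ) :
    Finsupp.mapDomain r (T D) = Ψ (Finsupp.mapDomain r D) := by
  have h1 : ((Finsupp.mapDomain.addMonoidHom r).comp T) D =
      (Ψ.comp (Finsupp.mapDomain.addMonoidHom r)) D := by
    congr 1
    refine Finsupp.addHom_ext fun P m => ?_
    have hm : Finsupp.single P m = m • Finsupp.single P (1 : ℤ) := by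
      rw [Finsupp.smul_single, smul_eq_mul, mul_one]
    rw [hm, map_zsmul, map_zsmul]
    congr 1
    show Finsupp.mapDomain r (T (Finsupp.single P 1)) =
      Ψ (Finsupp.mapDomain r (Finsupp.single P 1))
    rw [h P, Finsupp.mapDomain_single]
  exact h1

end engine

end Fermat.Agent.S37
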