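import Fermat.Agent.S37.Torsion
import Fermat.Agent.S37.JRingDefs
import Fermat.Agent.S37.JRingGal2
import Fermat.Agent.S37.JRingESK2
import Fermat.Agent.S37.JRingK3Main
import Fermat.Agent.S37.Hcore
import Fermat.Agent.S18.SMInstMain

/-!
# S37, by-product: the Eichler–Shimura relation on torsion points of `J₀(N)`

For a prime `ℓ ∤ N`, a valuation subring `A` of `ℚ̄` above `ℓ` and a torsion point `x` of
`J₀(N) = Pic⁰` of the function field of `X₀(N)` over `ℚ̄`, of order prime to `ℓ`: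

* `est_inertia`: the inertia group of `A` fixes `x`;
* `est_frobenius`: every Frobenius element `σ` of `A` satisfies
  `σ (σ x) - T_ℓ (σ x) + ℓ x = 0`.

No commutativity hypothesis on the Hecke operators is needed.  `est_red` is the reduction datum
of the proof of S37 (for one prime and one place).
-/

set_option autoImplicit false
set_option linter.style.haveILetI false

open ModularCurve AlgebraicCurve

namespace Fermat.Agent.S37

local notation "Qb" => AlgebraicClosure ℚ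

/-- The reduction datum at a prime `ℓ ∤ N m` and a place `A` above `ℓ`: an additive map `red`
on `J₀(N)`, invariant under inertia, killing `σ² - T_ℓ σ + ℓ` for Frobenius elements `σ`, and
injective on the `m`-power torsion. -/
theorem est_red (N m : ℕ) [NeZero N] (ℓ : ℕ) (hℓ : ℓ.Prime) (hℓm : ¬ ℓ ∣ N * m)
    (A : ValuationSubring Qb) (hA : A.LiesOverPrime ℓ) :
    ∃ (M : Type) (_ : AddCommGroup M) (red : JZero N →+ M),
      (∀ σ ∈ A.inertiaSubgroupIn ℚ, ∀ x : JZero N, red (σ • x) = red x) ∧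
      (∀ σ : Qb ≃ₐ[ℚ] Qb, A.IsFrobeniusAt σ ℓ →
        ∀ x : JZero N,
          red (σ • σ • x - heckeOperatorBar N ⟨ℓ, hℓ⟩ (σ • x) + ℓ • x) = 0) ∧
      (∀ x : JZero N, (∃ n : ℕ, m ^ n • x = 0) → red x = 0 → x = 0) := by
  haveI : NeZero ℓ := ⟨hℓ.ne_zero⟩
  haveI : Fact ℓ.Prime := ⟨hℓ⟩
  have hN : ¬ ℓ ∣ N := fun h => hℓm (h.mul_right m)
  exact s37_hred_of_redDiv N m ℓ hℓ hℓm A (hki_heckeInputsAlong N ℓ)
    (s37_redDiv_of_classMap N ℓ hℓ A hA
      (s37_hcore_of_SMInst N hℓ hN A hA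
        (fun N' _ _ H ha2 hℓN' => Fermat.Agent.S18.sminst_main N' hℓN' H ha2 A hA))
      (jrCls A (Fermat.Agent.S24.jBar N)) (jrg_k1 N hℓ hN A hA) (jres_K2 N ℓ hℓ hN A hA)
      (jrc_k3ab N hℓ hN A hA))

/-- The inertia group at a prime `ℓ ∤ N` fixes the torsion points of order prime to `ℓ`. -/
theorem est_inertia (N m : ℕ) [NeZero N] (ℓ : ℕ) (hℓ : ℓ.Prime) (hℓm : ¬ ℓ ∣ N * m)
    (A : ValuationSubring Qb) (hA : A.LiesOverPrime ℓ) (σ : Qb ≃ₐ[ℚ] Qb)
    (hσ : σ ∈ A.inertiaSubgroupIn ℚ) (x : JZero N) (hx : m • x = 0) : σ • x = x := by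
  obtain ⟨M, _, red, hI, -, hinj⟩ := est_red N m ℓ hℓ hℓm A hA
  have h1 : m • (σ • x) = 0 := by
    have h0 := map_nsmul (DistribSMul.toAddMonoidHom (JZero N) σ) m x
    rw [hx, map_zero] at h0
    exact h0.symm
  have h := hinj (σ • x - x) ⟨1, by rw [pow_one, nsmul_sub, h1, hx, sub_zero]⟩
    (by rw [map_sub, hI σ hσ x, sub_self])
  exact sub_eq_zero.mp h

/-- **The Eichler–Shimura relation on torsion points**: a Frobenius element `σ` at a prime
`ℓ ∤ N` satisfies `σ² - T_ℓ σ + ℓ = 0` on the torsion points of order prime to `ℓ`. -/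
theorem est_frobenius (N m : ℕ) [NeZero N] (ℓ : ℕ) (hℓ : ℓ.Prime) (hℓm : ¬ ℓ ∣ N * m)
    (A : ValuationSubring Qb) (hA : A.LiesOverPrime ℓ) (σ : Qb ≃ₐ[ℚ] Qb)
    (hσ : A.IsFrobeniusAt σ ℓ) (x : JZero N) (hx : m • x = 0) :
    σ • σ • x - heckeOperatorBar N ⟨ℓ, hℓ⟩ (σ • x) + ℓ • x = 0 := by
  obtain ⟨M, _, red, -, hF, hinj⟩ := est_red N m ℓ hℓ hℓm A hA
  refine hinj _ ⟨1, ?_⟩ (hF σ hσ x)
  have hσm : ∀ y : JZero N, m • y = 0 → m • (σ • y) = 0 := fun y hy => by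
    have h0 := map_nsmul (DistribSMul.toAddMonoidHom (JZero N) σ) m y
    rw [hy, map_zero] at h0
    exact h0.symm
  have h1 : m • (σ • x) = 0 := hσm x hx
  have h2 : m • (σ • σ • x) = 0 := hσm _ h1
  have h3 : m • heckeOperatorBar N ⟨ℓ, hℓ⟩ (σ • x) = 0 := by
    rw [← map_nsmul, h1, map_zero]
  have h4 : m • (ℓ • x) = 0 := by rw [nsmul_left_comm, hx, nsmul_zero]
  rw [pow_one, nsmul_add, nsmul_sub, h2, h3, h4, sub_zero, add_zero]

end Fermat.Agent.S37
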