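import Fermat.Agent.S37.JRingES3
import Fermat.Agent.S37.JRingN
import Fermat.Agent.S37.ModEq
import Fermat.Agent.S37.HeckeIn

/-!
# S37 / JR-K2: the region `Y` is stable under the Hecke correspondence

The two fields `norm` and `stab` of `JresRegion` for the region `Y = {P : j(P) ∈ A}` and its
J-ring `O_Y` = integral closure of `A[j]`, from the modular equation (`α j` is integral over
`A[β j]`).
-/

set_option autoImplicit false

open AlgebraicCurve

namespace Fermat.Agent.S37

section Abs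

variable {K F F' : Type*} [Field K] [Field F] [Field F'] [Algebra K F] [Algebra K F']

/-- `ψ r` is integral over `φ(A[j])` for all `r ∈ A[j]` as soon as `ψ j` is. -/
theorem jresy_hint (A : ValuationSubring K) (φ ψ : F →ₐ[K] F') (j : F)
    (hint : IsIntegral ((jrPoly A j).map (φ : F →+* F')) (ψ j)) :
    ∀ r ∈ jrPoly A j, IsIntegral ((jrPoly A j).map (φ : F →+* F')) (ψ r) := by
  have key : ∀ p : Polynomial A,
      IsIntegral ((jrPoly A j).map (φ : F →+* F')) (ψ (jrEval A j p)) := by
    intro p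
    induction p using Polynomial.induction_on with
    | C a =>
      rw [jrEval_C, AlgHom.commutes, ← AlgHom.commutes φ]
      exact isIntegral_algebraMap (R := (jrPoly A j).map (φ : F →+* F'))
        (x := ⟨φ (algebraMap K F a), Subring.mem_map.mpr ⟨_, jr_const_mem_jrPoly j a, rfl⟩⟩)
    | add p q hp hq =>
      rw [map_add, map_add]
      exact hp.add hq
    | monomial n a ih =>
      rw [pow_succ, ← mul_assoc, map_mul, jrEval_X, map_mul]
      exact ih.mul hint
  intro r hr
  obtain ⟨p, rfl⟩ := mem_jrPoly.mp hr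
  exact key p

/-- `T^*`-stability of `O_Y`, abstract form. -/
theorem jresy_norm_abs (A : ValuationSubring K) (φ ψ : F →ₐ[K] F') (j : F)
    (hint : IsIntegral ((jrPoly A j).map (φ : F →+* F')) (ψ j)) :
    ∀ x ∈ jrOY A j, e0Norm φ (ψ x) ∈ jrOY A j :=
  fun x hx => jres_norm_isIntegral φ ψ (jrPoly A j) (jresy_hint A φ ψ j hint) x hx

/-- values of the elements of `φ(A[j])` at a place where `φ j` has a value in `A` -/
theorem jresy_val_poly (A : ValuationSubring K) (φ : F →ₐ[K] F') (j : F) (w : Place K F')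
    (b : A) (hb : RdmVal w (φ j) (b : K)) :
    ∀ r ∈ (jrPoly A j).map (φ : F →+* F'), ∃ a : A, RdmVal w r (a : K) := by
  have key : ∀ p : Polynomial A, RdmVal w (φ (jrEval A j p)) ((p.eval b : A) : K) := by
    intro p
    induction p using Polynomial.induction_on with
    | C a =>
      rw [jrEval_C, AlgHom.commutes, Polynomial.eval_C]
      exact e0HasVal_const w _
    | add p q hp hq =>
      rw [map_add, map_add, Polynomial.eval_add]
      exact e0HasVal_add w hp hq
    | monomial n a ih =>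
      rw [pow_succ, ← mul_assoc, map_mul, jrEval_X, map_mul, Polynomial.eval_mul,
        Polynomial.eval_X]
      exact e0HasVal_mul w ih hb
  intro r hr
  obtain ⟨r₀, hr₀, rfl⟩ := Subring.mem_map.mp hr
  obtain ⟨p, rfl⟩ := mem_jrPoly.mp hr₀
  exact ⟨_, key p⟩

/-- Stability of the region `Y` along the fibres of the correspondence, abstract form. -/
theorem jresy_stab_abs (A : ValuationSubring K) (φ ψ : F →ₐ[K] F')
    (hφ : φ.toRingHom.IsIntegral) (hψ : ψ.toRingHom.IsIntegral) (j : F)
    (hint : IsIntegral ((jrPoly A j).map (φ : F →+* F')) (ψ j))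
    (hF' : ∀ w : Place K F', w.deg = 1) (P : Place K F) (hP : jrRegY A j P)
    (w : Place K F') (hw : w.restrictAlong φ hφ = P) :
    jrRegY A j (w.restrictAlong ψ hψ) := by
  obtain ⟨b, hb⟩ := hP
  rw [← hw] at hb
  have hb' : RdmVal w (φ j) (b : K) := (e0HasVal_restrictAlong φ hφ w j b).mp hb
  obtain ⟨a, ha⟩ := jres_val_of_isIntegral A w (hF' w) _ (jresy_val_poly A φ j w b hb') (ψ j) hint
  exact ⟨a, (e0HasVal_restrictAlong ψ hψ w j a).mpr ha⟩

end Abs

end Fermat.Agent.S37

namespace Fermat.Agent.S37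

open ModularCurve Fermat.Agent.S24

section LevelN

variable (N ℓ : ℕ) [NeZero N] [NeZero ℓ]

local notation "Qb" => AlgebraicClosure ℚ

/-- `α j` is integral over `β(A[j])` -/
theorem jresy_hint_N (hℓ : ℓ.Prime) (hN : ¬ ℓ ∣ N) (A : ValuationSubring Qb) :
    @IsIntegral ↥((jrPoly A (jBar N)).map
        ((heckeBetaBar Qb N ℓ : ↥(modularFunctionFieldBar N) →ₐ[Qb]
          ↥(modularFunctionFieldBar (N * ℓ))) : ↥(modularFunctionFieldBar N) →+*
          ↥(modularFunctionFieldBar (N * ℓ))))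
      ↥(modularFunctionFieldBar (N * ℓ)) _ _ (Algebra.ofSubsemiring _)
      (heckeAlphaBar Qb N ℓ (jBar N)) :=
  meq_alpha_isIntegral N ℓ hℓ hN _ (Subring.mem_map.mpr ⟨_, jr_self_mem_jrPoly _, rfl⟩)

/-- **`T^*`-stability of `O_Y`** at level `N`: field `norm` of `JresRegion` for the region `Y`. -/
theorem jresy_norm (hℓ : ℓ.Prime) (hN : ¬ ℓ ∣ N) (A : ValuationSubring Qb) :
    ∀ x ∈ jrOY A (jBar N),
      e0Norm (heckeBetaBar Qb N ℓ) (heckeAlphaBar Qb N ℓ x) ∈ jrOY A (jBar N) :=
  jresy_norm_abs A (heckeBetaBar Qb N ℓ) (heckeAlphaBar Qb N ℓ) (jBar N)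
    (jresy_hint_N N ℓ hℓ hN A)

/-- **Stability of the region `Y`** along the fibres of the Hecke correspondence: field `stab`
of `JresRegion` for the region `Y`. -/
theorem jresy_stab (hℓ : ℓ.Prime) (hN : ¬ ℓ ∣ N) (A : ValuationSubring Qb)
    (hβ : (heckeBetaBar Qb N ℓ).toRingHom.IsIntegral)
    (hα : (heckeAlphaBar Qb N ℓ).toRingHom.IsIntegral) :
    ∀ P ∈ {P : Place Qb ↥(modularFunctionFieldBar N) | jrRegY A (jBar N) P},
      ∀ w : Place Qb ↥(modularFunctionFieldBar (N * ℓ)),
        w.restrictAlong (heckeBetaBar Qb N ℓ) hβ = P →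
          w.restrictAlong (heckeAlphaBar Qb N ℓ) hα ∈
            {P : Place Qb ↥(modularFunctionFieldBar N) | jrRegY A (jBar N) P} :=
  fun P hP w hw => jresy_stab_abs A (heckeBetaBar Qb N ℓ) (heckeAlphaBar Qb N ℓ) hβ hα (jBar N)
    (jresy_hint_N N ℓ hℓ hN A) (fun w => hki_deg_eq_one w (hki_residue (N * ℓ) w)) P hP w hw

end LevelN

end Fermat.Agent.S37
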