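import Fermat.Agent.S37.JRingESY
import Fermat.Agent.S37.JRingZ2

/-!
# S37 / JR-K2: the region `Z` is stable under the Hecke correspondence

The two fields `norm` and `stab` of `JresRegion` for the region `Z = {P : j(P) ∉ A}` and its
J-ring `O_Z` = integral closure of `Λ(j⁻¹)`, from the modular equation (`β j` is integral over
`A[α j]`) and the package JR-Z.
-/

set_option autoImplicit false

open AlgebraicCurve

namespace Fermat.Agent.S37

section Abs

variable {K F F' : Type*} [Field K] [Field F] [Field F'] [Algebra K F] [Algebra K F']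

/-- `jrEval` commutes with algebra homomorphisms. -/
theorem jresz_eval_map (A : ValuationSubring K) (φ : F →ₐ[K] F') (y : F) (p : Polynomial A) :
    φ (jrEval A y p) = jrEval A (φ y) p := by
  induction p using Polynomial.induction_on with
  | C a => rw [jrEval_C, jrEval_C, AlgHom.commutes]
  | add p q hp hq => rw [map_add, map_add, map_add, hp, hq]
  | monomial n a ih =>
    have e : (Polynomial.C a * Polynomial.X ^ (n + 1) : Polynomial A) =
        (Polynomial.C a * Polynomial.X ^ n) * Polynomial.X := by rw [pow_succ, mul_assoc]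
    rw [e, map_mul (jrEval A y), map_mul (jrEval A (φ y)), jrEval_X, jrEval_X, map_mul φ, ih]

/-- the image of `A[y]` is `A[φ y]` -/
theorem jresz_poly_map (A : ValuationSubring K) (φ : F →ₐ[K] F') (y : F) :
    (jrPoly A y).map (φ : F →+* F') = jrPoly A (φ y) := by
  ext x
  constructor
  · intro hx
    obtain ⟨r, hr, rfl⟩ := Subring.mem_map.mp hx
    obtain ⟨p, rfl⟩ := mem_jrPoly.mp hr
    exact mem_jrPoly.mpr ⟨p, (jresz_eval_map A φ y p).symm⟩
  · intro hx
    obtain ⟨p, rfl⟩ := mem_jrPoly.mp hx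
    exact Subring.mem_map.mpr ⟨_, mem_jrPoly.mpr ⟨p, rfl⟩, jresz_eval_map A φ y p⟩

/-- the image of `Λ(y)` is `Λ(φ y)` -/
theorem jresz_lam_map (A : ValuationSubring K) (φ : F →ₐ[K] F') (y : F) :
    (jrLam A y).map (φ : F →+* F') = jrLam A (φ y) := by
  apply le_antisymm
  · rw [Subring.map_le_iff_le_comap]
    refine Subring.closure_le.mpr ?_
    rintro x (hx | ⟨s, hs, rfl⟩)
    · obtain ⟨p, rfl⟩ := mem_jrPoly.mp hx
      show φ (jrEval A y p) ∈ jrLam A (φ y)
      rw [jresz_eval_map]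
      exact jrPoly_le_jrLam _ (mem_jrPoly.mpr ⟨p, rfl⟩)
    · show φ (jrEval A y s)⁻¹ ∈ jrLam A (φ y)
      rw [map_inv₀, jresz_eval_map]
      exact jr_inv_mem_jrLam _ s hs
  · refine Subring.closure_le.mpr ?_
    rintro x (hx | ⟨s, hs, rfl⟩)
    · obtain ⟨p, rfl⟩ := mem_jrPoly.mp hx
      exact Subring.mem_map.mpr ⟨_, jrPoly_le_jrLam _ (mem_jrPoly.mpr ⟨p, rfl⟩),
        jresz_eval_map A φ y p⟩
    · refine Subring.mem_map.mpr ⟨_, jr_inv_mem_jrLam y s hs, ?_⟩
      show φ (jrEval A y s)⁻¹ = _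
      rw [map_inv₀, jresz_eval_map]

/-- `ψ r` is integral over `φ(Λ(j⁻¹))` for all `r ∈ Λ(j⁻¹)` as soon as `φ j` is integral over
`A[ψ j]`. -/
theorem jresz_hint (A : ValuationSubring K) (φ ψ : F →ₐ[K] F') (j : F) (hj : j ≠ 0)
    (hne : ∀ s : Polynomial A, IsUnit (s.coeff 0) → jrEval A (φ j)⁻¹ s ≠ 0)
    (hint : IsIntegral (jrPoly A (ψ j)) (φ j)) :
    ∀ r ∈ jrLam A j⁻¹, IsIntegral ((jrLam A j⁻¹).map (φ : F →+* F')) (ψ r) := by
  intro r hr
  have hφj : φ j ≠ 0 := by
    rw [Ne, map_eq_zero_iff φ (φ : F →+* F').injective]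
    exact hj
  have h1 : ψ r ∈ jrLam A (ψ j)⁻¹ := by
    rw [← map_inv₀, ← jresz_lam_map]
    exact Subring.mem_map.mpr ⟨r, hr, rfl⟩
  have h2 : ψ r ∈ jrIC (jrLam A (φ j)⁻¹) := jrz_le A (ψ j) (φ j) hφj hne hint h1
  rw [← map_inv₀, ← jresz_lam_map] at h2
  exact h2

/-- `T^*`-stability of `O_Z`, abstract form. -/
theorem jresz_norm_abs (A : ValuationSubring K) (φ ψ : F →ₐ[K] F') (j : F) (hj : j ≠ 0)
    (hne : ∀ s : Polynomial A, IsUnit (s.coeff 0) → jrEval A (φ j)⁻¹ s ≠ 0)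
    (hint : IsIntegral (jrPoly A (ψ j)) (φ j)) :
    ∀ x ∈ jrOZ A j, e0Norm φ (ψ x) ∈ jrOZ A j :=
  fun x hx => jres_norm_isIntegral φ ψ (jrLam A j⁻¹) (jresz_hint A φ ψ j hj hne hint) x hx

/-- Stability of the region `Z` along the fibres of the correspondence, abstract form. -/
theorem jresz_stab_abs (A : ValuationSubring K) (φ ψ : F →ₐ[K] F')
    (hφ : φ.toRingHom.IsIntegral) (hψ : ψ.toRingHom.IsIntegral) (j : F) (hj : j ≠ 0)
    (hint : IsIntegral (jrPoly A (ψ j)) (φ j))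
    (hF' : ∀ w : Place K F', w.deg = 1) (P : Place K F) (hP : ¬ jrRegY A j P)
    (w : Place K F') (hw : w.restrictAlong φ hφ = P) :
    ¬ jrRegY A j (w.restrictAlong ψ hψ) := by
  have hφj : φ j ≠ 0 := by
    rw [Ne, map_eq_zero_iff φ (φ : F →+* F').injective]
    exact hj
  have hψj : ψ j ≠ 0 := by
    rw [Ne, map_eq_zero_iff ψ (ψ : F →+* F').injective]
    exact hj
  have h1 : ¬ jrRegY A (φ j) w := by
    rintro ⟨b, hb⟩
    exact hP ⟨b, by rw [← hw]; exact (e0HasVal_restrictAlong φ hφ w j b).mpr hb⟩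
  have h2 := jrz_not_regY_of_deg A w (hF' w) (ψ j) (φ j) hψj hφj hint h1
  rintro ⟨a, ha⟩
  exact h2 ⟨a, (e0HasVal_restrictAlong ψ hψ w j a).mp ha⟩

end Abs

end Fermat.Agent.S37

namespace Fermat.Agent.S37

open ModularCurve Fermat.Agent.S24

section LevelN

variable (N ℓ : ℕ) [NeZero N] [NeZero ℓ]

local notation "Qb" => AlgebraicClosure ℚ

/-- `β j` is integral over `A[α j]` -/
theorem jresz_hint_N (A : ValuationSubring Qb) :
    @IsIntegral ↥(jrPoly A (heckeAlphaBar Qb N ℓ (jBar N)))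
      ↥(modularFunctionFieldBar (N * ℓ)) _ _ (Algebra.ofSubsemiring _)
      (heckeBetaBar Qb N ℓ (jBar N)) :=
  meq_beta_isIntegral N ℓ _ (jr_self_mem_jrPoly _)

theorem jresz_jBar_ne_zero : jBar N ≠ 0 := by
  intro h
  have := transcendental_jBar' (N := N)
  rw [h] at this
  exact this (isAlgebraic_zero)

/-- the non-vanishing hypothesis of JR-Z for `(β j)⁻¹` -/
theorem jresz_hne_N (A : ValuationSubring Qb) :
    ∀ s : Polynomial A, IsUnit (s.coeff 0) →
      jrEval A (heckeBetaBar Qb N ℓ (jBar N))⁻¹ s ≠ 0 := by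
  refine jrz_ne_of_transcendental A _ (sf_transcendental_inv ?_)
  intro halg
  exact transcendental_jBar' (N := N)
    ((isAlgebraic_algHom_iff (heckeBetaBar Qb N ℓ)
      (heckeBetaBar Qb N ℓ : ↥(modularFunctionFieldBar N) →+*
        ↥(modularFunctionFieldBar (N * ℓ))).injective).mp halg)

/-- **`T^*`-stability of `O_Z`** at level `N`: field `norm` of `JresRegion` for the region `Z`. -/
theorem jresz_norm (A : ValuationSubring Qb) :
    ∀ x ∈ jrOZ A (jBar N),
      e0Norm (heckeBetaBar Qb N ℓ) (heckeAlphaBar Qb N ℓ x) ∈ jrOZ A (jBar N) :=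
  jresz_norm_abs A (heckeBetaBar Qb N ℓ) (heckeAlphaBar Qb N ℓ) (jBar N)
    (jresz_jBar_ne_zero N) (jresz_hne_N N ℓ A) (jresz_hint_N N ℓ A)

/-- **Stability of the region `Z`** along the fibres of the Hecke correspondence: field `stab`
of `JresRegion` for the region `Z`. -/
theorem jresz_stab (A : ValuationSubring Qb)
    (hβ : (heckeBetaBar Qb N ℓ).toRingHom.IsIntegral)
    (hα : (heckeAlphaBar Qb N ℓ).toRingHom.IsIntegral) :
    ∀ P ∈ {P : Place Qb ↥(modularFunctionFieldBar N) | ¬ jrRegY A (jBar N) P},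
      ∀ w : Place Qb ↥(modularFunctionFieldBar (N * ℓ)),
        w.restrictAlong (heckeBetaBar Qb N ℓ) hβ = P →
          w.restrictAlong (heckeAlphaBar Qb N ℓ) hα ∈
            {P : Place Qb ↥(modularFunctionFieldBar N) | ¬ jrRegY A (jBar N) P} :=
  fun P hP w hw => jresz_stab_abs A (heckeBetaBar Qb N ℓ) (heckeAlphaBar Qb N ℓ) hβ hα (jBar N)
    (jresz_jBar_ne_zero N) (jresz_hint_N N ℓ A)
    (fun w => hki_deg_eq_one w (hki_residue (N * ℓ) w)) P hP w hw

end LevelN

end Fermat.Agent.S37
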