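import Mathlib

/-!
# S37 JR-LVL, formal step (K3a)

A purely formal lemma on `Finsupp.mapDomain`: a divisor whose push-forward along a class map `c`
vanishes is killed by every additive map which does not distinguish points of the same class.
-/

namespace Fermat.Agent.S37

/-- An additive map `Φ` on `α →₀ ℤ` which takes the same value on `single a 1` and `single a' 1`
whenever `c a = c a'` factors through `Finsupp.mapDomain c`. -/
theorem jrlf_factor {α β G : Type*} [AddCommGroup G] (c : α → β) (Φ : (α →₀ ℤ) →+ G)
    (hΦ : ∀ a a', c a = c a' → Φ (Finsupp.single a 1) = Φ (Finsupp.single a' 1)) :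
    ∃ Ψ : (β →₀ ℤ) →+ G, ∀ E : α →₀ ℤ, Φ E = Ψ (Finsupp.mapDomain c E) := by
  classical
  by_cases hα : Nonempty α
  · have := hα
    let s : β → α := fun b => if h : ∃ a, c a = b then h.choose else Classical.arbitrary α
    have hs : ∀ a, c (s (c a)) = c a := by
      intro a
      have h : ∃ a', c a' = c a := ⟨a, rfl⟩
      simp only [s, dif_pos h]
      exact h.choose_spec
    refine ⟨Φ.comp (Finsupp.mapDomain.addMonoidHom s), fun E => ?_⟩
    induction E using Finsupp.induction_linear with
    | zero => simp
    | add f g hf hg =>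
      rw [map_add, hf, hg, Finsupp.mapDomain_add, map_add]
    | single a n =>
      rw [Finsupp.mapDomain_single, AddMonoidHom.comp_apply, Finsupp.mapDomain.addMonoidHom_apply,
        Finsupp.mapDomain_single]
      have h1 : ∀ x : α, (Finsupp.single x n : α →₀ ℤ) = n • Finsupp.single x (1 : ℤ) := by
        intro x
        rw [Finsupp.smul_single, smul_eq_mul, mul_one]
      rw [h1 a, h1 (s (c a)), map_zsmul, map_zsmul, hΦ a (s (c a)) (hs a).symm]
  · have : IsEmpty α := not_nonempty_iff.mp hα
    refine ⟨0, fun E => ?_⟩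
    have : E = 0 := Subsingleton.elim _ _
    subst this
    simp

/-- **Formal step of (K3a)**: if `Finsupp.mapDomain c E = 0` and the additive map `Φ` does not
distinguish points with the same class, then `Φ E = 0`. -/
theorem jrlf_map_eq_zero {α β G : Type*} [AddCommGroup G] (c : α → β) (Φ : (α →₀ ℤ) →+ G)
    (hΦ : ∀ a a', c a = c a' → Φ (Finsupp.single a 1) = Φ (Finsupp.single a' 1))
    (E : α →₀ ℤ) (hE : Finsupp.mapDomain c E = 0) : Φ E = 0 := by
  obtain ⟨Ψ, hΨ⟩ := jrlf_factor c Φ hΦ
  rw [hΨ E, hE, map_zero]

end Fermat.Agent.S37
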