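import Mathlib
import Fermat.Agent.S37.JRingDefs
import Fermat.Agent.S37.JRingCrt

/-!
# S37 JR-LVL: the multiplicity step of (K3a) in class form

Two finite families of characters `χ i`, `χ' i'` of a subring `O ⊆ F'` (all restricting to the
residue map on the constants of `A`) with multiplicities `e`, `e'` such that
`∏ χ i (g) ^ e i = ∏ χ' i' (g) ^ e' i'` for all `g : O` define the same multiset of classes
`jrClsOf A b O (χ i)`.
-/

set_option autoImplicit false

noncomputable section

open AlgebraicCurve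

namespace Fermat.Agent.S37

/-- The product attached to a finite sum of single characters. -/
theorem jrlm_prod {O k : Type*} [CommRing O] [Field k] {ι : Type*} (s : Finset ι) (e : ι → ℕ)
    (χ : ι → O →+* k) (g : O) :
    (∑ i ∈ s, Finsupp.single (χ i) (e i)).prod (fun ψ n => ψ g ^ n) = ∏ i ∈ s, χ i g ^ e i := by
  classical
  rw [← Finsupp.prod_finsetSum_index (h := fun (ψ : O →+* k) (n : ℕ) => ψ g ^ n)
    (fun _ => pow_zero _) (fun _ _ _ => pow_add _ _ _)]
  refine Finset.prod_congr rfl fun i _ => ?_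
  exact Finsupp.prod_single_index (h := fun (ψ : O →+* k) (n : ℕ) => ψ g ^ n) (pow_zero _)

/-- Members of the support of a finite sum of singles. -/
theorem jrlm_support {X : Type*} {ι : Type*} (s : Finset ι) (e : ι → ℕ) (χ : ι → X) (ψ : X)
    (hψ : ψ ∈ (∑ i ∈ s, Finsupp.single (χ i) (e i)).support) : ∃ i ∈ s, χ i = ψ := by
  classical
  have h1 := Finsupp.support_finsetSum (s := s) (f := fun i => Finsupp.single (χ i) (e i)) hψ
  rw [Finset.mem_biUnion] at h1
  obtain ⟨i, hi, hi'⟩ := h1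
  have h2 := Finsupp.support_single_subset hi'
  rw [Finset.mem_singleton] at h2
  exact ⟨i, hi, h2.symm⟩

/-- **Multiplicity step of (K3a), class form.** -/
theorem jrlm_main {K : Type*} [Field K] (A : ValuationSubring K)
    [Infinite (IsLocalRing.ResidueField A)] {F' : Type*} [Field F'] [Algebra K F'] (b : Prop)
    (O : Subring F') (hO : ∀ a : A, algebraMap K F' (a : K) ∈ O) {ι ι' : Type*}
    (s : Finset ι) (s' : Finset ι') (e : ι → ℕ) (e' : ι' → ℕ)
    (χ : ι → O →+* IsLocalRing.ResidueField A) (χ' : ι' → O →+* IsLocalRing.ResidueField A)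
    (hχ : ∀ i ∈ s, ∀ a : A, χ i ⟨_, hO a⟩ = IsLocalRing.residue A a)
    (hχ' : ∀ i ∈ s', ∀ a : A, χ' i ⟨_, hO a⟩ = IsLocalRing.residue A a)
    (h : ∀ g : O, ∏ i ∈ s, χ i g ^ e i = ∏ i ∈ s', χ' i g ^ e' i) :
    ∑ i ∈ s, Finsupp.single (jrClsOf A b O (χ i)) (e i : ℤ) =
      ∑ i ∈ s', Finsupp.single (jrClsOf A b O (χ' i)) (e' i : ℤ) := by
  classical
  let ιA : A →+* O := ((algebraMap K F').comp A.subtype).codRestrict O hO
  let π : A →+* IsLocalRing.ResidueField A := IsLocalRing.residue A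
  have hπ : Function.Surjective π := IsLocalRing.residue_surjective
  have hD : ∀ ψ ∈ (∑ i ∈ s, Finsupp.single (χ i) (e i)).support, ψ.comp ιA = π := by
    intro ψ hψ
    obtain ⟨i, hi, rfl⟩ := jrlm_support s e χ ψ hψ
    ext a
    exact hχ i hi a
  have hE : ∀ ψ ∈ (∑ i ∈ s', Finsupp.single (χ' i) (e' i)).support, ψ.comp ιA = π := by
    intro ψ hψ
    obtain ⟨i, hi, rfl⟩ := jrlm_support s' e' χ' ψ hψ
    ext a
    exact hχ' i hi a
  have hDE : (∑ i ∈ s, Finsupp.single (χ i) (e i)) = ∑ i ∈ s', Finsupp.single (χ' i) (e' i) :=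
    jr_crt_mult ιA π hπ _ _ hD hE (fun g => by rw [jrlm_prod, jrlm_prod, h g])
  -- transport to classes
  let Θ : ((O →+* IsLocalRing.ResidueField A) →₀ ℕ) →+
      (Prop × Set (F' × IsLocalRing.ResidueField A) →₀ ℤ) :=
    (Finsupp.mapDomain.addMonoidHom
      (fun ψ : O →+* IsLocalRing.ResidueField A => jrClsOf A b O ψ)).comp
      (Finsupp.mapRange.addMonoidHom (Nat.castAddMonoidHom ℤ))
  have hΘ : ∀ (ψ : O →+* IsLocalRing.ResidueField A) (n : ℕ),
      Θ (Finsupp.single ψ n) = Finsupp.single (jrClsOf A b O ψ) (n : ℤ) := by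
    intro ψ n
    simp only [Θ, AddMonoidHom.comp_apply, Finsupp.mapRange.addMonoidHom_apply,
      Finsupp.mapRange_single, Finsupp.mapDomain.addMonoidHom_apply, Finsupp.mapDomain_single,
      Nat.coe_castAddMonoidHom]
  have h1 := congrArg Θ hDE
  rw [map_sum, map_sum] at h1
  simpa only [hΘ] using h1

end Fermat.Agent.S37
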