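import Mathlib
import Fermat.Agent.S37.JRingInst

/-!
# S37, J-rings (finding 136): semilinear automorphisms

`σF : F ≃+* F` lying over `σK : K ≃+* K` (`hσ`), with `σK A = A` (`hA`).

* `jrs_poly_mem`, `jrs_lam_mem`, `jrs_ic_mem`, `jrs_OY_mem`, `jrs_OZ_mem`: the rings `A[y]`,
  `Λ(y)`, integral closures and the J-rings are transported (stable when `σF j = j`);
* `jrs_val`, `jrs_val_iff`: transport of values between places `P`, `Q` with
  `Q.ord (σF f) = P.ord f` (i.e. `Q = σ • P`);
* `jrs_regY`, `jrs_ring`: the regions and the J-ring of the region are stable;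
* `jrs_cls_eq`: **(K1)**, generic form: if `σK` induces the identity on the residue field of `A`
  and `σF⁻¹ x - x` is a Gauss non-unit for the elements of the J-ring, then `σ • P` and `P` have
  the same class.
-/

set_option autoImplicit false

noncomputable section

open AlgebraicCurve

namespace Fermat.Agent.S37

section Semi

variable {K : Type*} [Field K] (A : ValuationSubring K) {F : Type*} [Field F] [Algebra K F]
  (σF : F ≃+* F) (σK : K ≃+* K)
  (hσ : ∀ c : K, σF (algebraMap K F c) = algebraMap K F (σK c))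
  (hA : ∀ c : K, σK c ∈ A ↔ c ∈ A)

/-- The restriction of `σK` to `A`. -/
def jrsA : A →+* A :=
  (σK.toRingHom.comp A.subtype).codRestrict A.toSubring (fun a => (hA a).mpr a.2)

theorem jrsA_coe (a : A) : ((jrsA A σK hA a : A) : K) = σK (a : K) := rfl

include hσ in
theorem jrs_symm_hσ (c : K) : σF.symm (algebraMap K F c) = algebraMap K F (σK.symm c) := by
  rw [RingEquiv.symm_apply_eq, hσ, RingEquiv.apply_symm_apply]

include hA in
theorem jrs_symm_hA (c : K) : σK.symm c ∈ A ↔ c ∈ A := by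
  rw [← hA (σK.symm c), RingEquiv.apply_symm_apply]

include hσ in
theorem jrs_eval (y : F) (p : Polynomial A) :
    σF (jrEval A y p) = jrEval A (σF y) (p.map (jrsA A σK hA)) := by
  have h1 : jrEval A y p = Polynomial.eval₂ ((algebraMap K F).comp A.subtype) y p := rfl
  have h2 : jrEval A (σF y) (p.map (jrsA A σK hA))
      = Polynomial.eval₂ ((algebraMap K F).comp A.subtype) (σF y) (p.map (jrsA A σK hA)) := rfl
  rw [h1, h2, Polynomial.eval₂_map]
  have h3 := Polynomial.hom_eval₂ p ((algebraMap K F).comp A.subtype) σF.toRingHom y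
  have h4 : σF.toRingHom.comp ((algebraMap K F).comp A.subtype)
      = ((algebraMap K F).comp A.subtype).comp (jrsA A σK hA) := by
    ext a
    exact hσ (a : K)
  rw [h4] at h3
  exact h3

include hσ hA in
theorem jrs_poly_mem {y x : F} (hx : x ∈ jrPoly A y) : σF x ∈ jrPoly A (σF y) := by
  obtain ⟨p, rfl⟩ := mem_jrPoly.mp hx
  exact mem_jrPoly.mpr ⟨p.map (jrsA A σK hA), (jrs_eval A σF σK hσ hA y p).symm⟩

include hσ hA in
theorem jrs_lam_mem {y x : F} (hx : x ∈ jrLam A y) : σF x ∈ jrLam A (σF y) := by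
  have hle : jrLam A y ≤ (jrLam A (σF y)).comap σF.toRingHom := by
    refine Subring.closure_le.mpr ?_
    rintro z (hz | ⟨s, hs, rfl⟩)
    · exact jrPoly_le_jrLam _ (jrs_poly_mem A σF σK hσ hA hz)
    · show σF ((jrEval A y s)⁻¹) ∈ jrLam A (σF y)
      rw [map_inv₀, jrs_eval A σF σK hσ hA]
      refine jr_inv_mem_jrLam _ _ ?_
      rw [Polynomial.coeff_map]
      exact hs.map (jrsA A σK hA)
  exact hle hx

/-- Integral closures are transported. -/
theorem jrs_ic_mem (R R' : Subring F) (h : ∀ x ∈ R, σF x ∈ R') {x : F} (hx : x ∈ jrIC R) :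
    σF x ∈ jrIC R' := by
  rw [mem_jrIC] at hx ⊢
  let φ : R →+* R' := (σF.toRingHom.comp R.subtype).codRestrict R' (fun x => h x x.2)
  exact hx.map_of_comp_eq φ σF.toRingHom (by ext; rfl)

include hσ hA in
theorem jrs_OY_mem' {j x : F} (hx : x ∈ jrOY A j) : σF x ∈ jrOY A (σF j) :=
  jrs_ic_mem σF _ _ (fun _ h => jrs_poly_mem A σF σK hσ hA h) hx

include hσ hA in
theorem jrs_OZ_mem' {j x : F} (hx : x ∈ jrOZ A j) : σF x ∈ jrOZ A (σF j) := by
  have h := jrs_ic_mem σF (jrLam A j⁻¹) (jrLam A (σF j⁻¹))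
    (fun _ h => jrs_lam_mem A σF σK hσ hA h) hx
  rw [map_inv₀] at h
  exact h

include hσ hA in
/-- The J-ring `jrOY` is stable under a semilinear automorphism fixing `j` and `A`. -/
theorem jrs_OY_mem {j x : F} (hj : σF j = j) (hx : x ∈ jrOY A j) : σF x ∈ jrOY A j := by
  have h := jrs_OY_mem' A σF σK hσ hA hx
  rwa [hj] at h

include hσ hA in
/-- The J-ring `jrOZ` is stable under a semilinear automorphism fixing `j` and `A`. -/
theorem jrs_OZ_mem {j x : F} (hj : σF j = j) (hx : x ∈ jrOZ A j) : σF x ∈ jrOZ A j := by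
  have h := jrs_OZ_mem' A σF σK hσ hA hx
  rwa [hj] at h

include hσ hA in
theorem jrs_OY_symm_mem {j x : F} (hj : σF j = j) (hx : x ∈ jrOY A j) :
    σF.symm x ∈ jrOY A j :=
  jrs_OY_mem A σF.symm σK.symm (jrs_symm_hσ σF σK hσ) (jrs_symm_hA A σK hA)
    (by rw [RingEquiv.symm_apply_eq, hj]) hx

include hσ hA in
theorem jrs_OZ_symm_mem {j x : F} (hj : σF j = j) (hx : x ∈ jrOZ A j) :
    σF.symm x ∈ jrOZ A j :=
  jrs_OZ_mem A σF.symm σK.symm (jrs_symm_hσ σF σK hσ) (jrs_symm_hA A σK hA)
    (by rw [RingEquiv.symm_apply_eq, hj]) hx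

section Places

variable (P Q : Place K F) (hPQ : ∀ f : F, Q.ord (σF f) = P.ord f)

include hσ hPQ in
/-- Transport of values: `(σ x)(σ P) = σ (x(P))`. -/
theorem jrs_val {x : F} {c : K} (h : RdmVal P x c) : RdmVal Q (σF x) (σK c) := by
  rcases h with h | h
  · left
    rw [h, hσ]
  · right
    rw [← hσ, ← map_sub, hPQ]
    exact h

include hσ hPQ in
theorem jrs_val_iff {x : F} {c : K} : RdmVal Q (σF x) (σK c) ↔ RdmVal P x c := by
  refine ⟨fun h => ?_, jrs_val σF σK hσ P Q hPQ⟩
  rcases h with h | h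
  · left
    rw [← hσ] at h
    exact σF.injective h
  · right
    rw [← hσ, ← map_sub, hPQ] at h
    exact h

include hσ hA hPQ in
/-- The region `Y` is stable. -/
theorem jrs_regY {j : F} (hj : σF j = j) : jrRegY A j Q ↔ jrRegY A j P := by
  constructor
  · rintro ⟨b, hb⟩
    refine ⟨⟨σK.symm (b : K), (jrs_symm_hA A σK hA _).mpr b.2⟩, ?_⟩
    have h1 : RdmVal Q (σF j) (σK (σK.symm (b : K))) := by
      rw [hj, RingEquiv.apply_symm_apply]
      exact hb
    exact (jrs_val_iff σF σK hσ P Q hPQ).mp h1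
  · rintro ⟨b, hb⟩
    refine ⟨⟨σK (b : K), (hA _).mpr b.2⟩, ?_⟩
    have h1 := jrs_val σF σK hσ P Q hPQ hb
    rwa [hj] at h1

include hσ hA hPQ in
/-- The J-ring of the region is stable. -/
theorem jrs_ring {j : F} (hj : σF j = j) : jrRing A j Q = jrRing A j P := by
  by_cases hP : jrRegY A j P
  · rw [jrRing_of_regY hP, jrRing_of_regY ((jrs_regY A σF σK hσ hA P Q hPQ hj).mpr hP)]
  · rw [jrRing_of_not_regY hP,
      jrRing_of_not_regY (fun h => hP ((jrs_regY A σF σK hσ hA P Q hPQ hj).mp h))]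

include hσ hA in
theorem jrs_ring_symm_mem {j x : F} (hj : σF j = j) (hx : x ∈ jrRing A j P) :
    σF.symm x ∈ jrRing A j P := by
  by_cases hP : jrRegY A j P
  · rw [jrRing_of_regY hP] at hx ⊢
    exact jrs_OY_symm_mem A σF σK hσ hA hj hx
  · rw [jrRing_of_not_regY hP] at hx ⊢
    exact jrs_OZ_symm_mem A σF σK hσ hA hj hx

include hσ hA in
theorem jrs_ring_mem {j x : F} (hj : σF j = j) (hx : x ∈ jrRing A j P) :
    σF x ∈ jrRing A j P := by
  by_cases hP : jrRegY A j P
  · rw [jrRing_of_regY hP] at hx ⊢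
    exact jrs_OY_mem A σF σK hσ hA hj hx
  · rw [jrRing_of_not_regY hP] at hx ⊢
    exact jrs_OZ_mem A σF σK hσ hA hj hx

include hσ hA hPQ in
/-- **(K1), generic form.** If `σK` induces the identity on the residue field of `A`, the J-rings
have the integrality property with respect to `VG`, and `σF⁻¹ x - x` is a non-unit of `VG` for
every `x` in the J-ring of the region of `P`, then `Q = σ P` and `P` have the same class. -/
theorem jrs_cls_eq {j : F} (hj : σF j = j)
    (hbijP : Function.Bijective (algebraMap K P.ResidueField))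
    (hbijQ : Function.Bijective (algebraMap K Q.ResidueField))
    (hres : ∀ a : A, IsLocalRing.residue A ⟨σK (a : K), (hA _).mpr a.2⟩ = IsLocalRing.residue A a)
    (VG : ValuationSubring F) (hintY : JrInt A VG (jrOY A j)) (hintZ : JrInt A VG (jrOZ A j))
    (hG : ∀ x ∈ jrRing A j P, σF.symm x - x ∈ VG.nonunits) :
    jrCls A j Q = jrCls A j P := by
  have hring := jrs_ring A σF σK hσ hA P Q hPQ hj
  refine jrCls_eq_of_forall (jrs_regY A σF σK hσ hA P Q hPQ hj)
    (fun x hx => jr_exists_val A j Q hbijQ hx) (fun x hx => jr_exists_val A j P hbijP hx) ?_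
  intro x hx a a' ha ha'
  rw [hring] at hx
  -- `y = σ⁻¹ x` has the value `b = σ⁻¹ a` at `P`
  have hy : σF.symm x ∈ jrRing A j P := jrs_ring_symm_mem A σF σK hσ hA P hj hx
  set b : A := ⟨σK.symm (a : K), (jrs_symm_hA A σK hA _).mpr a.2⟩ with hb
  have h1 : RdmVal Q (σF (σF.symm x)) (σK (b : K)) := by
    rw [RingEquiv.apply_symm_apply]
    show RdmVal Q x (σK (σK.symm (a : K)))
    rw [RingEquiv.apply_symm_apply]
    exact ha
  have h2 : RdmVal P (σF.symm x) (b : K) := (jrs_val_iff σF σK hσ P Q hPQ).mp h1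
  have h3 : RdmVal P (σF.symm x - x) (((b - a' : A) : A) : K) := e0HasVal_sub P h2 ha'
  have h4 : IsLocalRing.residue A (b - a') = 0 :=
    jr_int A j P hbijP VG hintY hintZ (sub_mem hy hx) (hG x hx) (b - a') h3
  rw [map_sub, sub_eq_zero] at h4
  rw [← h4, ← hres b]
  congr 1
  exact Subtype.ext (σK.apply_symm_apply (a : K)).symm

end Places

end Semi

end Fermat.Agent.S37
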