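import Mathlib
import Fermat.Agent.S18.IfaceNormal
import Fermat.Agent.S18.IfaceRed
import Fermat.Agent.S18.NormalizeDesc

/-!
# S37, package JR-TOR (ends of (K3c)): torsion classes and Gauss units

`Qb = ℚ̄`, `F_N = modularFunctionFieldBar N`, `A : ValuationSubring ℚ̄` over `ℓ ∤ N`.

* `jrte_gauss_unit`: if `q • [D] = 0` in `Pic⁰`, then `q D = div Y` for a Gauss unit `Y ∈ F_N`.
* `jrte_conclude`: if `q D = div Y`, `Y` a Gauss unit of `F_N` whose Gauss residue is a (nonzero)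
  constant, and the core statement holds at a level `N'` (`N ∣ N'`, `ℓ ∤ N'`), then `[D] = 0`.

All names are prefixed `jrte_`.
-/

set_option autoImplicit false
set_option synthInstance.maxHeartbeats 400000

open ModularCurve AlgebraicCurve
open scoped IntermediateField

namespace Fermat.Agent.S37

open Fermat.Agent.S18

local notation "Qb" => AlgebraicClosure ℚ

/-- A torsion class is `q⁻¹ div Y` for a Gauss unit `Y`. -/
theorem jrte_gauss_unit (N : ℕ) [NeZero N] {ℓ : ℕ} [Fact ℓ.Prime] (hℓN : ¬ ℓ ∣ N)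
    (A : ValuationSubring Qb) (hA : A.LiesOverPrime ℓ) (q : ℕ)
    (D : Divisor.degZero (K := Qb) (F := ↥(modularFunctionFieldBar N)))
    (hqD : q • Pic0.mk D = 0) :
    ∃ Y : ↥(modularFunctionFieldBar N), Y ≠ 0 ∧
      (∀ P : Place Qb ↥(modularFunctionFieldBar N),
        P.ord Y = q * (D : Divisor Qb ↥(modularFunctionFieldBar N)) P) ∧
      ∃ hY : (Y : LaurentSeries Qb) ∈ grV A, grRho A ⟨_, hY⟩ ≠ 0 := by
  -- `q • D` is principal
  have h1 : q • (D : Divisor Qb ↥(modularFunctionFieldBar N)) ∈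
      Divisor.principal (K := Qb) (F := ↥(modularFunctionFieldBar N)) := by
    have h2 : Pic0.mk (q • D) = 0 := hqD
    have h3 := (QuotientAddGroup.eq_zero_iff _).mp h2
    rw [AddSubgroup.mem_addSubgroupOf] at h3
    simpa using h3
  obtain ⟨Y₀, hY₀, hdiv⟩ := h1
  have hY₀' : (Y₀ : LaurentSeries Qb) ≠ 0 := fun h0 => hY₀ (Subtype.ext h0)
  obtain ⟨c, u, hc, hu, hYcu⟩ := gr_exists_unit A hA N hℓN (Y₀ : LaurentSeries Qb) Y₀.2 hY₀'
  -- the unit part lies in the function field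
  have hcF : algebraMap Qb (LaurentSeries Qb) c ∈ modularFunctionFieldBar N :=
    (modularFunctionFieldBar N).algebraMap_mem c
  have hc' : algebraMap Qb (LaurentSeries Qb) c ≠ 0 := by
    rw [Ne, map_eq_zero]
    exact hc
  have huF : (u : LaurentSeries Qb) ∈ modularFunctionFieldBar N := by
    have h4 : (u : LaurentSeries Qb) = (algebraMap Qb (LaurentSeries Qb) c)⁻¹ * Y₀ := by
      rw [hYcu, ← mul_assoc, inv_mul_cancel₀ hc', one_mul]
    rw [h4]
    exact mul_mem (inv_mem hcF) Y₀.2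
  have hu0 : (⟨(u : LaurentSeries Qb), huF⟩ : ↥(modularFunctionFieldBar N)) ≠ 0 := by
    intro h0
    apply hu
    have h0' : (u : LaurentSeries Qb) = 0 :=
      congrArg (fun x : ↥(modularFunctionFieldBar N) => (x : LaurentSeries Qb)) h0
    have : u = 0 := Subtype.ext h0'
    rw [this, map_zero]
  refine ⟨⟨(u : LaurentSeries Qb), huF⟩, hu0, fun P => ?_, u.2, hu⟩
  have h5 : Y₀ = algebraMap Qb ↥(modularFunctionFieldBar N) c * ⟨(u : LaurentSeries Qb), huF⟩ :=
    Subtype.ext hYcu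
  have hcF0 : algebraMap Qb ↥(modularFunctionFieldBar N) c ≠ 0 := by
    rw [Ne, map_eq_zero]
    exact hc
  have h6 := hdiv P
  rw [h5, P.ord_mul hcF0 hu0, Fermat.Agent.S24.sf_ord_algebraMap, zero_add] at h6
  rw [← h6, Finsupp.smul_apply, nsmul_eq_mul]

/-- If `q D = div Y` with `Y` a Gauss unit whose residue is a nonzero constant, then `[D] = 0`
(given the core statement at an auxiliary level `N'`). -/
theorem jrte_conclude (N N' : ℕ) [NeZero N] [NeZero N'] (hNN' : N ∣ N') {ℓ q : ℕ} [Fact ℓ.Prime]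
    (hq : q.Prime) (hqℓ : q ≠ ℓ) (A : ValuationSubring Qb) (hA : A.LiesOverPrime ℓ)
    (hℓN' : ¬ ℓ ∣ N')
    (hcore : ∃ T : Finset Qb, ∀ (K0 : IntermediateField ℚ Qb) [FiniteDimensional ℚ K0],
      (∀ c ∈ T, c ∈ K0) → nrmCoreStmt ↥K0 (A.comap (algebraMap ↥K0 Qb)) N' q)
    (D : Divisor.degZero (K := Qb) (F := ↥(modularFunctionFieldBar N)))
    (Y : ↥(modularFunctionFieldBar N)) (hY0 : Y ≠ 0)
    (hord : ∀ P : Place Qb ↥(modularFunctionFieldBar N),
      P.ord Y = q * (D : Divisor Qb ↥(modularFunctionFieldBar N)) P)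
    (hY : (Y : LaurentSeries Qb) ∈ grV A) (c : IsLocalRing.ResidueField A) (hc : c ≠ 0)
    (hYc : grRho A ⟨_, hY⟩ =
      algebraMap (IsLocalRing.ResidueField A) (LaurentSeries (IsLocalRing.ResidueField A)) c) :
    Pic0.mk D = 0 := by
  obtain ⟨z, hz⟩ := ifn_exists_pow_eq A c hq.pos
  obtain ⟨μ, rfl⟩ := IsLocalRing.residue_surjective z
  have hz0 : IsLocalRing.residue A μ ≠ 0 := by
    intro h0
    rw [h0, zero_pow hq.ne_zero] at hz
    exact hc hz.symm
  -- the constant `μ` as an element of the function field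
  set g' : ↥(modularFunctionFieldBar N) := algebraMap Qb ↥(modularFunctionFieldBar N) (μ : Qb)
    with hg'
  have hg'V : (g' : LaurentSeries Qb) ∈ grV A := gr_algebraMap_mem A μ
  have hg'r : grRho A ⟨_, hg'V⟩ =
      algebraMap (IsLocalRing.ResidueField A) (LaurentSeries (IsLocalRing.ResidueField A))
        (IsLocalRing.residue A μ) := grRho_algebraMap A μ
  have hgne : grRho A ⟨_, hg'V⟩ ≠ 0 := by
    rw [hg'r, Ne, map_eq_zero]
    exact hz0
  have hg0 : g' ≠ 0 := by
    intro h0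
    apply hgne
    have h0' : (g' : LaurentSeries Qb) = 0 :=
      congrArg (fun x : ↥(modularFunctionFieldBar N) => (x : LaurentSeries Qb)) h0
    have : (⟨(g' : LaurentSeries Qb), hg'V⟩ : grV A) = 0 := Subtype.ext h0'
    rw [this, map_zero]
  have hYg : grRho A ⟨_, hY⟩ = grRho A ⟨_, hg'V⟩ ^ q := by
    rw [hYc, hg'r, ← map_pow, hz]
  obtain ⟨g, hg⟩ := nrm_main' N N' hNN' hq hqℓ A hA hℓN' hcore Y g' hY0 hg0
    (fun P => ⟨_, hord P⟩) hY hg'V hgne hYg
  exact ifr_conclude D q hq.ne_zero Y g hY0 hord 1 (by rw [map_one, one_mul, hg])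

end Fermat.Agent.S37
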