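import Fermat.Agent.S37.TwoVal
import Fermat.Agent.S37.HeckeDeg
import Fermat.Agent.S37.JRingGal
import Fermat.Agent.S37.FrobSeries

/-!
# S37, package JR-K2, field `tv` of `JresRegion`

For a Frobenius element `σ` at `A` (over `ℓ ∤ N`) and a Gauss-integral `x` of the level-`N`
function field, the element `T^* x = N_{F_{Nℓ}/β F_N}(α x)` is congruent to
`(σ x) · (σ⁻¹ x)^ℓ` modulo the maximal ideal of the Gauss valuation ring (`jrtv_main`).

Inputs: the norm-residue formula `tv_norm_frob_of_finrank` (two valuations), the degree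
`hkd_finrankAlong_beta`, the equivariance of the Gauss residue map under the decomposition
group (`jrg_grRho_frobenius`) and `x ^ ℓ = (s̄ x)(q^ℓ)` (`tvf_pow_char`).
-/

set_option autoImplicit false

open AlgebraicCurve ModularCurve Fermat.Agent.S18

namespace Fermat.Agent.S37

section

local notation "Qb" => AlgebraicClosure ℚ

variable (N ℓ : ℕ) [NeZero N] [Fact ℓ.Prime] (hℓN : ¬ ℓ ∣ N)
  (A : ValuationSubring Qb) (hA : A.LiesOverPrime ℓ)

/-- Gauss residue of `σ x` for a Frobenius element `σ`: the coefficientwise Frobenius of the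
Gauss residue of `x`. -/
theorem jrtv_grRes_frob [CharP (IsLocalRing.ResidueField A) ℓ] (σ : Qb ≃ₐ[ℚ] Qb)
    (hσ : A.IsFrobeniusAt σ ℓ) (x : ↥(modularFunctionFieldBar N)) (hx : x ∈ grO A hA N hℓN) :
    ∃ h : arithmeticGalois (modularFunctionFieldFull N) σ • x ∈ grO A hA N hℓN,
      grRes A hA N hℓN ⟨_, h⟩
        = coeffMap (frobenius (IsLocalRing.ResidueField A) ℓ) (grRes A hA N hℓN ⟨x, hx⟩) := by
  obtain ⟨h, hρ⟩ := jrg_grRho_frobenius ℚ A ℓ hσ ⟨(x : LaurentSeries Qb), hx⟩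
  exact ⟨h, hρ⟩

/-- Gauss residue of `σ⁻¹ x` for a Frobenius element `σ`: its `ℓ`-th power is the Gauss residue
of `x` evaluated at `q^ℓ`. -/
theorem jrtv_grRes_frob_inv [CharP (IsLocalRing.ResidueField A) ℓ] (σ : Qb ≃ₐ[ℚ] Qb)
    (hσ : A.IsFrobeniusAt σ ℓ) (x : ↥(modularFunctionFieldBar N)) (hx : x ∈ grO A hA N hℓN) :
    ∃ h : (arithmeticGalois (modularFunctionFieldFull N) σ)⁻¹ • x ∈ grO A hA N hℓN,
      grRes A hA N hℓN ⟨_, h⟩ ^ ℓ
        = qExpand (IsLocalRing.ResidueField A) ℓ (grRes A hA N hℓN ⟨x, hx⟩) := by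
  have hσD := hσ.mem_decompositionSubgroup
  have h2 : (arithmeticGalois (modularFunctionFieldFull N) σ)⁻¹ • x ∈ grO A hA N hℓN :=
    jrg_grO_inv_smul_of_mem A hA N hℓN hσD hx
  refine ⟨h2, ?_⟩
  obtain ⟨h3, hρ⟩ := jrtv_grRes_frob N ℓ hℓN A hA σ hσ _ h2
  have hback : arithmeticGalois (modularFunctionFieldFull N) σ •
      ((arithmeticGalois (modularFunctionFieldFull N) σ)⁻¹ • x) = x := smul_inv_smul _ _
  have h4 : grRes A hA N hℓN ⟨_, h3⟩ = grRes A hA N hℓN ⟨x, hx⟩ := by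
    congr 1
    exact Subtype.ext hback
  rw [tvf_pow_char ℓ, ← hρ, h4]

/-- an element of the Gauss valuation ring whose residue is `b̄ · c̄ ^ n` differs from `b · c ^ n`
by a non-unit -/
theorem jrtv_sub_mem {a b c : ↥(modularFunctionFieldBar N)} (ha : a ∈ grO A hA N hℓN)
    (hb : b ∈ grO A hA N hℓN) (hc : c ∈ grO A hA N hℓN) (n : ℕ)
    (h : grRes A hA N hℓN ⟨a, ha⟩
      = grRes A hA N hℓN ⟨b, hb⟩ * grRes A hA N hℓN ⟨c, hc⟩ ^ n) :
    a - b * c ^ n ∈ (grO A hA N hℓN).nonunits := by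
  have hd : a - b * c ^ n ∈ grO A hA N hℓN :=
    (grO A hA N hℓN).sub_mem ha ((grO A hA N hℓN).mul_mem _ _ hb ((grO A hA N hℓN).pow_mem hc n))
  refine (gr_mem_nonunits_iff_grRes A hA N hℓN ⟨_, hd⟩).mpr ?_
  have hsplit : (⟨_, hd⟩ : ↥(grO A hA N hℓN)) = ⟨a, ha⟩ - ⟨b, hb⟩ * ⟨c, hc⟩ ^ n := rfl
  rw [hsplit, map_sub, map_mul, map_pow, h, sub_self]

/-- **Field `tv`**: `T^* x ≡ (σ x) (σ⁻¹ x)^ℓ` modulo the Gauss maximal ideal, for a Frobenius
element `σ` and a Gauss-integral `x`. -/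
theorem jrtv_main [NeZero ℓ] (σ : Qb ≃ₐ[ℚ] Qb) (hσ : A.IsFrobeniusAt σ ℓ)
    (x : ↥(modularFunctionFieldBar N)) (hx : x ∈ grO A hA N hℓN) :
    e0Norm (heckeBetaBar Qb N ℓ) (heckeAlphaBar Qb N ℓ x)
      - (arithmeticGalois (modularFunctionFieldFull N) σ • x)
        * ((arithmeticGalois (modularFunctionFieldFull N) σ)⁻¹ • x) ^ ℓ
      ∈ (grO A hA N hℓN).nonunits := by
  have hchar : CharP (IsLocalRing.ResidueField A) ℓ := grc_charP A ℓ hA
  have hℓp : ℓ.Prime := Fact.out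
  obtain ⟨hN, hres⟩ := tv_norm_frob_of_finrank N ℓ A hA hℓN
    (hkd_finrankAlong_beta N hℓp hℓN) x hx
  obtain ⟨h1, hρ1⟩ := jrtv_grRes_frob N ℓ hℓN A hA σ hσ x hx
  obtain ⟨h2, hρ2⟩ := jrtv_grRes_frob_inv N ℓ hℓN A hA σ hσ x hx
  exact jrtv_sub_mem N ℓ hℓN A hA hN h1 h2 ℓ (by rw [hρ1, hρ2]; exact hres)

end

end Fermat.Agent.S37
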