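import Mathlib
import Fermat.Prelude.Def_AlgebraicCurve_DivisorPushPull
import Fermat.Agent.S24.SumFormulaBase

/-!
# S37, LEVELUP: the abstract Kummer step

`F'/F` a finite extension of function fields over an algebraically closed field `K` of
characteristic zero, satisfying the norm formula for divisors.  If some place `w₀` of `F'` of
degree one has ramification index over `F` bigger than half the degree, then every `g : F'`
with `g ^ p ∈ F` (`p` prime) whose `p`-th power has order divisible by `p` at the place below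
`w₀` already lies in `F`.

No intermediate fields and no theory of unramified extensions are used: the norm of
`x = g / t ^ k - c` (`c` the residue of `g / t ^ k` at `w₀`) is `(± (c ^ p - u)) ^ (n / p)`, and the
norm formula at the place below `w₀` gives `e(w₀) ≤ n / p`.
-/

set_option autoImplicit false

open AlgebraicCurve Polynomial IntermediateField

namespace Fermat.Agent.S37

open Fermat.Agent.S24

section residue

variable {K F : Type*} [Field K] [Field F] [Algebra K F]

/-- At a place of degree one every element of the valuation ring has a residue constant. -/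
theorem lvl_exists_residue (w : Place K F) (hdeg : w.deg = 1) (y : F)
    (hy : y ∈ w.toValuationSubring) :
    ∃ c : K, y = algebraMap K F c ∨ 0 < w.ord (y - algebraMap K F c) := by
  have h1 : Module.finrank K w.ResidueField = 1 := hdeg
  have hbot : (⊥ : Subalgebra K w.ResidueField) = ⊤ := Subalgebra.bot_eq_top_of_finrank_eq_one h1
  have hsurj : Function.Surjective (algebraMap K w.ResidueField) :=
    Algebra.surjective_algebraMap_iff.mpr hbot.symm
  obtain ⟨c, hc⟩ := hsurj (IsLocalRing.residue _ ⟨y, hy⟩)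
  refine ⟨c, ?_⟩
  have hmem : ((⟨y, hy⟩ : w.toValuationSubring) - algebraMap K w.toValuationSubring c)
      ∈ IsLocalRing.maximalIdeal w.toValuationSubring := by
    rw [← IsLocalRing.residue_eq_zero_iff, map_sub, ← hc, sub_eq_zero]
    rfl
  rcases (sf_mem_maximalIdeal_iff_ord w _).mp hmem with h | h
  · left
    have h2 := congrArg Subtype.val h
    have h3 : y - algebraMap K F c = 0 := h2
    exact sub_eq_zero.mp h3
  · right
    exact h

theorem lvl_ord_pow (w : Place K F) (f : F) (n : ℕ) : w.ord (f ^ n) = n * w.ord f := by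
  rw [← zpow_natCast, w.ord_zpow]

theorem lvl_ord_const_mul (w : Place K F) (c : K) (hc : c ≠ 0) (f : F) :
    w.ord (algebraMap K F c * f) = w.ord f := by
  rcases eq_or_ne f 0 with rfl | hf
  · simp
  rw [w.ord_mul ((_root_.map_ne_zero _).mpr hc) hf, sf_ord_algebraMap, zero_add]

end residue

section kummer

variable {K F F' : Type*} [Field K] [Field F] [Field F'] [Algebra K F] [Algebra K F']
  [Algebra F F'] [IsScalarTower K F F']

/-- **Abstract Kummer step of LEVELUP.** -/
theorem lvl_kummer_mem [IsAlgClosed K] [CharZero K] [FiniteDimensional F F']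
    [HasPrincipalDivisors K F'] (hN : Divisor.PushforwardNormFormula K F F')
    (w₀ : Place K F') (hdeg : w₀.deg = 1)
    (he : Module.finrank F F' < 2 * w₀.ramificationIndex F)
    (p : ℕ) (hp : p.Prime) (g : F') (hg : g ≠ 0) (Y : F) (hY : g ^ p = algebraMap F F' Y)
    (hord : (p : ℤ) ∣ (w₀.restrict F).ord Y) :
    g ∈ Set.range (algebraMap F F') := by
  classical
  by_contra hgF
  have hp0 : p ≠ 0 := hp.ne_zero
  have hpZ : (p : ℤ) ≠ 0 := by exact_mod_cast hp0
  obtain ⟨v₀, hv₀⟩ : ∃ v : Place K F, v = w₀.restrict F := ⟨_, rfl⟩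
  rw [← hv₀] at hord
  have he0 : 0 < w₀.ramificationIndex F := w₀.ramificationIndex_pos
  have hinj : Function.Injective (algebraMap F F') := (algebraMap F F').injective
  -- a uniformizer of `v₀`
  obtain ⟨π, hπ⟩ := IsDiscreteValuationRing.exists_irreducible v₀.toValuationSubring
  obtain ⟨t, ht⟩ : ∃ t : F, t = (π : F) := ⟨_, rfl⟩
  have ht1 : v₀.ord t = 1 := by rw [ht]; exact v₀.ord_coe_irreducible hπ
  have ht0 : t ≠ 0 := by
    rintro rfl
    rw [Place.ord_zero] at ht1
    exact zero_ne_one ht1
  obtain ⟨k, hk⟩ := hord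
  have hY0 : Y ≠ 0 := by
    rintro rfl
    rw [map_zero] at hY
    exact hg (pow_eq_zero_iff hp0 |>.mp hY)
  have htk0 : t ^ k ≠ 0 := zpow_ne_zero k ht0
  -- normalisation
  obtain ⟨u, hu⟩ : ∃ u : F, u = Y * ((t ^ k)⁻¹) ^ p := ⟨_, rfl⟩
  obtain ⟨g', hg'⟩ : ∃ g' : F', g' = g * (algebraMap F F' (t ^ k))⁻¹ := ⟨_, rfl⟩
  have hg'p : g' ^ p = algebraMap F F' u := by
    rw [hg', hu, mul_pow, hY, map_mul, map_pow, map_inv₀]
  have hu0 : u ≠ 0 := by
    rw [hu]
    exact mul_ne_zero hY0 (pow_ne_zero _ (inv_ne_zero htk0))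
  have hordu : v₀.ord u = 0 := by
    rw [hu, v₀.ord_mul hY0 (pow_ne_zero _ (inv_ne_zero htk0)), lvl_ord_pow, v₀.ord_inv,
      v₀.ord_zpow, ht1, hk]
    ring
  have hg'F : g' ∉ Set.range (algebraMap F F') := by
    rintro ⟨b, hb⟩
    apply hgF
    refine ⟨b * t ^ k, ?_⟩
    rw [map_mul, hb, hg', mul_assoc, inv_mul_cancel₀ ((_root_.map_ne_zero _).mpr htk0), mul_one]
  -- `g'` is a unit at every place above `v₀`
  have hunit : ∀ w : Place K F', w.restrict F = v₀ → w.ord g' = 0 := by
    intro w hw
    have h1 : w.ord (g' ^ p) = p * w.ord g' := lvl_ord_pow w g' p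
    have h2 : w.ord (algebraMap F F' u) = w.ramificationIndex F * (w.restrict F).ord u :=
      w.ord_restrict u
    rw [hg'p, h2, hw, hordu, mul_zero] at h1
    exact (mul_eq_zero.mp h1.symm).resolve_left hpZ
  have hw0g' : w₀.ord g' = 0 := hunit w₀ hv₀.symm
  have hg'mem : g' ∈ w₀.toValuationSubring := (sf_ord_nonneg_iff w₀ g').mp (by omega)
  -- the residue constant
  obtain ⟨c, hc⟩ := lvl_exists_residue w₀ hdeg g' hg'mem
  have hcF : algebraMap K F' c = algebraMap F F' (algebraMap K F c) :=
    IsScalarTower.algebraMap_apply K F F' c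
  have hc' : 0 < w₀.ord (g' - algebraMap K F' c) := by
    rcases hc with hc | hc
    · exfalso
      apply hg'F
      exact ⟨algebraMap K F c, by rw [hc, hcF]⟩
    · exact hc
  have hc0 : c ≠ 0 := by
    rintro rfl
    rw [map_zero, sub_zero] at hc'
    omega
  obtain ⟨a, ha⟩ : ∃ a : F, a = algebraMap K F c := ⟨_, rfl⟩
  obtain ⟨x, hx⟩ : ∃ x : F', x = g' - algebraMap F F' a := ⟨_, rfl⟩
  have hxc : x = g' - algebraMap K F' c := by rw [hx, ha, hcF]
  have hxpos : 0 < w₀.ord x := by rw [hxc]; exact hc'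
  have hx0 : x ≠ 0 := by
    rintro h
    rw [h, Place.ord_zero] at hxpos
    exact lt_irrefl _ hxpos
  -- `u` is not a `p`-th power in `F`
  have hroot : ∀ b : F, b ^ p ≠ u := by
    intro b hb
    have hb0 : b ≠ 0 := by
      rintro rfl
      rw [zero_pow hp0] at hb
      exact hu0 hb.symm
    have hb0' : algebraMap F F' b ≠ 0 := (_root_.map_ne_zero _).mpr hb0
    have h1 : (g' * (algebraMap F F' b)⁻¹) ^ p = 1 := by
      rw [mul_pow, hg'p, ← hb, map_pow, inv_pow, mul_inv_cancel₀ (pow_ne_zero _ hb0')]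
    have halg : IsAlgebraic K (g' * (algebraMap F F' b)⁻¹) := by
      refine ⟨X ^ p - C 1, X_pow_sub_C_ne_zero hp.pos 1, ?_⟩
      rw [map_sub, map_pow, aeval_X, aeval_C, map_one, h1, sub_self]
    obtain ⟨z, hz⟩ := minpoly.mem_range_of_degree_eq_one K _
      (IsAlgClosed.degree_eq_one_of_irreducible K (minpoly.irreducible halg.isIntegral))
    apply hg'F
    refine ⟨algebraMap K F z * b, ?_⟩
    rw [map_mul, ← IsScalarTower.algebraMap_apply K F F', hz, mul_assoc,
      inv_mul_cancel₀ hb0', mul_one]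
  -- minimal polynomials
  have hirr : Irreducible (X ^ p - C u : F[X]) := X_pow_sub_C_irreducible_of_prime hp hroot
  have hmon : (X ^ p - C u : F[X]).Monic := monic_X_pow_sub_C u hp0
  have hminp : minpoly F g' = X ^ p - C u := by
    symm
    apply minpoly.eq_of_irreducible_of_monic hirr _ hmon
    rw [map_sub, map_pow, aeval_X, aeval_C, hg'p, sub_self]
  have hminx : minpoly F x = (X ^ p - C u).comp (X + C a) := by
    rw [← hminp, hx]
    exact minpoly.sub_algebraMap g' a
  have hintx : IsIntegral F x := Algebra.IsIntegral.isIntegral x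
  have hnatdeg : (minpoly F x).natDegree = p := by
    rw [hminx, natDegree_comp, natDegree_X_add_C, mul_one, natDegree_X_pow_sub_C]
  have hcoeff : (minpoly F x).coeff 0 = a ^ p - u := by
    rw [hminx, coeff_zero_eq_eval_zero, eval_comp]
    simp
  -- the norm of `x`
  have hnorm : Algebra.norm F x = ((-1) ^ p * (a ^ p - u)) ^ Module.finrank F⟮x⟯ F' := by
    rw [Algebra.norm_eq_norm_adjoin F x]
    congr 1
    have h1 := Algebra.PowerBasis.norm_gen_eq_coeff_zero_minpoly
      (IntermediateField.adjoin.powerBasis hintx)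
    rw [IntermediateField.adjoin.powerBasis_gen, IntermediateField.adjoin.powerBasis_dim,
      IntermediateField.minpoly_gen, hnatdeg, hcoeff] at h1
    exact h1
  have hdegx : p * Module.finrank F⟮x⟯ F' = Module.finrank F F' := by
    rw [← Module.finrank_mul_finrank F F⟮x⟯ F', IntermediateField.adjoin.finrank hintx, hnatdeg]
  -- `u - a ^ p`
  have hua : u - a ^ p ≠ 0 := fun h => hroot a (sub_eq_zero.mp h).symm
  -- factorisation `u - a ^ p = x * q`
  obtain ⟨q, hq⟩ : ∃ q : F', q = ∑ i ∈ Finset.range p, g' ^ i * (algebraMap F F' a) ^ (p - 1 - i) :=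
    ⟨_, rfl⟩
  have hfac : algebraMap F F' (u - a ^ p) = q * x := by
    rw [hq, hx, (Commute.all g' (algebraMap F F' a)).geom_sum₂_mul, map_sub, map_pow, hg'p]
  have hamem : algebraMap F F' a ∈ w₀.toValuationSubring := by
    rw [ha, ← hcF]; exact w₀.algebraMap_mem' c
  have hqmem : q ∈ w₀.toValuationSubring := by
    rw [hq]
    exact sum_mem fun i _ => mul_mem (pow_mem hg'mem _) (pow_mem hamem _)
  -- `q` is a unit at `w₀`
  have hqunit : w₀.ord q = 0 := by
    obtain ⟨G, hG⟩ : ∃ G : w₀.toValuationSubring, G = ⟨g', hg'mem⟩ := ⟨_, rfl⟩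
    obtain ⟨A, hA⟩ : ∃ A : w₀.toValuationSubring, A = algebraMap K w₀.toValuationSubring c :=
      ⟨_, rfl⟩
    have hAcoe : (A : F') = algebraMap F F' a := by rw [hA, ha, ← hcF]; rfl
    have hGA : IsLocalRing.residue w₀.toValuationSubring G
        = IsLocalRing.residue w₀.toValuationSubring A := by
      rw [← sub_eq_zero, ← map_sub, IsLocalRing.residue_eq_zero_iff,
        sf_mem_maximalIdeal_iff_ord]
      right
      have : ((G - A : w₀.toValuationSubring) : F') = x := by
        rw [hx, ← hAcoe, hG]; rfl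
      rw [this]
      exact hxpos
    obtain ⟨Q, hQ⟩ : ∃ Q : w₀.toValuationSubring,
        Q = ∑ i ∈ Finset.range p, G ^ i * A ^ (p - 1 - i) := ⟨_, rfl⟩
    have hQcoe : (Q : F') = q := by
      rw [hQ, hq]
      push_cast
      rw [hAcoe, hG]
    have hres : IsLocalRing.residue w₀.toValuationSubring Q
        = IsLocalRing.residue w₀.toValuationSubring
            (algebraMap K w₀.toValuationSubring ((p : K) * c ^ (p - 1))) := by
      rw [hQ, map_sum]
      have : ∀ i ∈ Finset.range p,
          IsLocalRing.residue w₀.toValuationSubring (G ^ i * A ^ (p - 1 - i))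
            = IsLocalRing.residue w₀.toValuationSubring A ^ (p - 1) := by
        intro i hi
        rw [map_mul, map_pow, map_pow, hGA, ← pow_add]
        congr 1
        have := Finset.mem_range.mp hi
        omega
      rw [Finset.sum_congr rfl this, Finset.sum_const, Finset.card_range, nsmul_eq_mul, hA]
      simp only [map_mul, map_pow, map_natCast]
    have hne : IsLocalRing.residue w₀.toValuationSubring Q ≠ 0 := by
      rw [hres]
      have h2 : IsLocalRing.residue w₀.toValuationSubring
            (algebraMap K w₀.toValuationSubring ((p : K) * c ^ (p - 1)))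
          = algebraMap K w₀.ResidueField ((p : K) * c ^ (p - 1)) := rfl
      rw [h2, Ne, map_eq_zero]
      exact mul_ne_zero (Nat.cast_ne_zero.mpr hp0) (pow_ne_zero _ hc0)
    have hQunit : IsUnit Q := by
      by_contra hnu
      exact hne ((IsLocalRing.residue_eq_zero_iff _).mpr hnu)
    rw [← hQcoe]
    exact w₀.ord_coe_unit hQunit.unit
  have hq0 : q ≠ 0 := by
    rintro rfl
    rw [zero_mul, map_eq_zero] at hfac
    exact hua hfac
  -- the order of `x` at `w₀`
  obtain ⟨μ, hμ⟩ : ∃ μ : ℤ, μ = v₀.ord (u - a ^ p) := ⟨_, rfl⟩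
  have hordx : w₀.ord x = w₀.ramificationIndex F * μ := by
    have h1 := w₀.ord_restrict (F := F) (u - a ^ p)
    rw [hfac, w₀.ord_mul hq0 hx0, hqunit, zero_add, ← hv₀, ← hμ] at h1
    exact h1
  have hμpos : 0 < μ := by
    rw [hordx] at hxpos
    have he0' : (0 : ℤ) < (w₀.ramificationIndex F : ℤ) := by exact_mod_cast he0
    exact (mul_pos_iff_of_pos_left he0').mp hxpos
  -- the order of the norm at `v₀`
  have hordN : v₀.ord (Algebra.norm F x) = (Module.finrank F⟮x⟯ F' : ℤ) * μ := by
    rw [hnorm, lvl_ord_pow]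
    congr 1
    have h1 : ((-1 : F) ^ p * (a ^ p - u)) = algebraMap K F ((-1) ^ (p + 1)) * (u - a ^ p) := by
      rw [map_pow, map_neg, map_one, pow_succ]
      ring
    rw [h1, lvl_ord_const_mul v₀ _ (pow_ne_zero _ (neg_ne_zero.mpr one_ne_zero)), hμ]
  -- the norm formula at `v₀`
  obtain ⟨D, hD, -⟩ := HasPrincipalDivisors.exists_divisor (K := K) x hx0
  have hNF := hN x hx0 D hD v₀
  rw [Divisor.pushforward_apply] at hNF
  have hf1 : w₀.inertiaDeg F = 1 := by
    have h1 := w₀.deg_restrict_mul_inertiaDeg (F := F)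
    rw [hdeg] at h1
    exact Nat.eq_one_of_mul_eq_one_left h1
  have hterm : ∀ w ∈ D.support,
      (0 : ℤ) ≤ (if w.restrict F = v₀ then D w * (w.inertiaDeg F : ℤ) else 0) := by
    intro w _
    split_ifs with hw
    · refine mul_nonneg ?_ (Int.natCast_nonneg _)
      rw [hD, sf_ord_nonneg_iff, hxc]
      exact sub_mem ((sf_ord_nonneg_iff w g').mp (by rw [hunit w hw])) (w.algebraMap_mem' c)
    · exact le_rfl
  have hw₀supp : w₀ ∈ D.support := by
    rw [Finsupp.mem_support_iff, hD]
    exact hxpos.ne'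
  have hle : w₀.ord x ≤ v₀.ord (Algebra.norm F x) := by
    rw [← hNF]
    have h1 := Finset.single_le_sum hterm hw₀supp
    rw [if_pos hv₀.symm, hD, hf1, Nat.cast_one, mul_one] at h1
    exact h1
  rw [hordx, hordN] at hle
  have hle' : (w₀.ramificationIndex F : ℤ) ≤ (Module.finrank F⟮x⟯ F' : ℤ) :=
    le_of_mul_le_mul_right hle hμpos
  have hle'' : w₀.ramificationIndex F ≤ Module.finrank F⟮x⟯ F' := by exact_mod_cast hle'
  have hp2 : 2 ≤ p := hp.two_le
  have : 2 * Module.finrank F⟮x⟯ F' ≤ p * Module.finrank F⟮x⟯ F' :=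
    Nat.mul_le_mul_right _ hp2
  omega

end kummer

end Fermat.Agent.S37
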