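import Mathlib
import Fermat.Prelude.Def_AlgebraicCurve_Correspondence
import Fermat.Agent.S37.LevelUpKummer

/-!
# S37, LEVELUP: abstract properties of the pull-back on `Pic0`

For a finite extension `F'/F` of function fields over `K` (in the Prelude's `Place` language):

* `lvl_pullbackHom_smul`: the pull-back `Pic0 K F → Pic0 K F'` commutes with a pair of
  semilinear automorphisms intertwined by the inclusion;
* `lvl_pullbackHom_injective_torsion`: if some place of `F'` of degree one has ramification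
  index bigger than half the degree, the pull-back is injective on torsion classes
  (`K` algebraically closed of characteristic zero, norm formula for `F'/F`).
-/

set_option autoImplicit false

open AlgebraicCurve

namespace Fermat.Agent.S37

open Fermat.Agent.S24

section equivariance

open scoped Pointwise

variable {K F F' : Type*} [Field K] [Field F] [Field F'] [Algebra K F] [Algebra K F']
  [Algebra F F'] [IsScalarTower K F F'] [Algebra.IsIntegral F F']

theorem lvl_restrict_smul (g : SemilinearAut K F) (g' : SemilinearAut K F')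
    (h : SemilinearAut.IntertwinesAlong (algebraMap F F') g g') (w : Place K F') :
    (g' • w).restrict F = g • w.restrict F := by
  apply Place.ext
  ext f
  rw [Place.restrict_toValuationSubring, SemilinearAut.smul_toValuationSubring,
    SemilinearAut.smul_toValuationSubring, Place.restrict_toValuationSubring,
    ValuationSubring.mem_comap, ValuationSubring.mem_pointwise_smul_iff_inv_smul_mem,
    ValuationSubring.mem_pointwise_smul_iff_inv_smul_mem, ValuationSubring.mem_comap, ← h.inv f]

omit [IsScalarTower K F F'] [Algebra.IsIntegral F F'] in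
theorem lvl_ord_smul_algebraMap (g : SemilinearAut K F) (g' : SemilinearAut K F')
    (h : SemilinearAut.IntertwinesAlong (algebraMap F F') g g') (w : Place K F') (f : F) :
    (g' • w).ord (algebraMap F F' (g • f)) = w.ord (algebraMap F F' f) := by
  rw [← h f, SemilinearAut.ord_smul]

omit [IsScalarTower K F F'] [Algebra.IsIntegral F F'] in
theorem lvl_ramificationIndex_smul (g : SemilinearAut K F) (g' : SemilinearAut K F')
    (h : SemilinearAut.IntertwinesAlong (algebraMap F F') g g') (w : Place K F') :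
    (g' • w).ramificationIndex F = w.ramificationIndex F := by
  unfold Place.ramificationIndex
  congr 1
  ext n
  constructor
  · rintro ⟨hn, f, hf, hfn⟩
    refine ⟨hn, g⁻¹ • f, ?_, ?_⟩
    · intro h0
      apply hf
      have := congrArg (g • ·) h0
      simpa using this
    · rw [← hfn, ← lvl_ord_smul_algebraMap g g' h w (g⁻¹ • f), smul_inv_smul]
  · rintro ⟨hn, f, hf, hfn⟩
    refine ⟨hn, g • f, ?_, by rw [lvl_ord_smul_algebraMap g g' h, hfn]⟩
    intro h0
    apply hf
    have := congrArg (g⁻¹ • ·) h0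
    simpa using this

variable [HasPrincipalDivisors K F']

theorem lvl_pullback_smul (g : SemilinearAut K F) (g' : SemilinearAut K F')
    (h : SemilinearAut.IntertwinesAlong (algebraMap F F') g g') (D : Divisor K F) :
    Divisor.pullback F' (g • D) = g' • Divisor.pullback F' D := by
  ext w
  rw [Divisor.pullback_apply, SemilinearAut.divisor_smul_apply,
    SemilinearAut.divisor_smul_apply, Divisor.pullback_apply,
    lvl_restrict_smul g⁻¹ g'⁻¹ h.inv, lvl_ramificationIndex_smul g⁻¹ g'⁻¹ h.inv]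

/-- **LEVELUP (a), abstract form.** -/
theorem lvl_pullbackHom_smul [FundamentalIdentity K F F'] (g : SemilinearAut K F)
    (g' : SemilinearAut K F') (h : SemilinearAut.IntertwinesAlong (algebraMap F F') g g')
    (x : Pic0 K F) : Pic0.pullbackHom F' (g • x) = g' • Pic0.pullbackHom F' x := by
  obtain ⟨D, rfl⟩ := Pic0.mk_surjective x
  rw [SemilinearAut.pic0_smul_mk, Pic0.pullbackHom_mk, Pic0.pullbackHom_mk,
    SemilinearAut.pic0_smul_mk]
  congr 1
  apply Subtype.ext
  rw [Pic0.coe_pullbackDegZeroHom, SemilinearAut.coe_degZeroSMulHom,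
    SemilinearAut.coe_degZeroSMulHom, Pic0.coe_pullbackDegZeroHom]
  exact lvl_pullback_smul g g' h D

end equivariance

section torsion

theorem lvl_exists_prime_order {G : Type*} [AddCommGroup G] (m : ℕ) (hm : m ≠ 0) (z : G)
    (hz : z ≠ 0) (hmz : m • z = 0) :
    ∃ p : ℕ, p.Prime ∧ ∃ k : ℕ, k • z ≠ 0 ∧ p • (k • z) = 0 := by
  have hfin : IsOfFinAddOrder z :=
    isOfFinAddOrder_iff_nsmul_eq_zero.mpr ⟨m, Nat.pos_of_ne_zero hm, hmz⟩
  obtain ⟨n, hn⟩ : ∃ n : ℕ, n = addOrderOf z := ⟨_, rfl⟩
  have hn0 : 0 < n := by rw [hn]; exact hfin.addOrderOf_pos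
  have hn1 : n ≠ 1 := by
    intro h
    rw [hn] at h
    exact hz (AddMonoid.addOrderOf_eq_one_iff.mp h)
  have hpr : n.minFac.Prime := Nat.minFac_prime hn1
  refine ⟨n.minFac, hpr, n / n.minFac, ?_, ?_⟩
  · intro h
    have h1 : n ∣ n / n.minFac := by rw [hn] at h ⊢; exact addOrderOf_dvd_of_nsmul_eq_zero h
    have hlt : n / n.minFac < n := Nat.div_lt_self hn0 hpr.one_lt
    have hpos : 0 < n / n.minFac := Nat.div_pos (Nat.minFac_le hn0) (Nat.minFac_pos n)
    exact absurd (Nat.le_of_dvd hpos h1) (not_le.mpr hlt)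
  · rw [← mul_nsmul', Nat.mul_div_cancel' (Nat.minFac_dvd n), hn]
    exact addOrderOf_nsmul_eq_zero z

variable {K F F' : Type*} [Field K] [Field F] [Field F'] [Algebra K F] [Algebra K F']
  [Algebra F F'] [IsScalarTower K F F']

theorem lvl_pullbackHom_injective_prime [IsAlgClosed K] [CharZero K] [FiniteDimensional F F']
    [HasPrincipalDivisors K F'] [FundamentalIdentity K F F']
    (hN : Divisor.PushforwardNormFormula K F F')
    (hconst : ∀ f : F', f ≠ 0 → (∀ w : Place K F', w.ord f = 0) →
      f ∈ Set.range (algebraMap K F'))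
    (hdegF : ∀ v : Place K F, v.deg ≠ 0)
    (w₀ : Place K F') (hdeg : w₀.deg = 1)
    (he : Module.finrank F F' < 2 * w₀.ramificationIndex F)
    (p : ℕ) (hp : p.Prime) (x : Pic0 K F) (hpx : p • x = 0)
    (hx : Pic0.pullbackHom F' x = 0) : x = 0 := by
  classical
  obtain ⟨D, rfl⟩ := Pic0.mk_surjective x
  have hp0 : p ≠ 0 := hp.ne_zero
  -- `p • D` is principal
  have h1 : ((p • D : Divisor.degZero (K := K) (F := F)) : Divisor K F)
      ∈ Divisor.principal (K := K) (F := F) := by
    have h2 : Pic0.mk (p • D) = 0 := by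
      rw [← hpx]
      exact map_nsmul (QuotientAddGroup.mk' _) p D
    exact AddSubgroup.mem_addSubgroupOf.mp ((QuotientAddGroup.eq_zero_iff _).mp h2)
  obtain ⟨Y, hY0, hY⟩ := h1
  -- the pull-back of `D` is principal
  have h3 : (Pic0.pullbackDegZeroHom F' D : Divisor K F')
      ∈ Divisor.principal (K := K) (F := F') := by
    rw [Pic0.pullbackHom_mk] at hx
    exact AddSubgroup.mem_addSubgroupOf.mp ((QuotientAddGroup.eq_zero_iff _).mp hx)
  obtain ⟨g, hg0, hg⟩ := h3
  have hDY : ∀ v : Place K F, (p : ℤ) * (D : Divisor K F) v = v.ord Y := by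
    intro v
    rw [← hY v]
    simp
  have hDg : ∀ w : Place K F',
      (w.ramificationIndex F : ℤ) * (D : Divisor K F) (w.restrict F) = w.ord g := by
    intro w
    rw [← hg w, Pic0.coe_pullbackDegZeroHom, Divisor.pullback_apply]
  -- `g ^ p / Y` is a constant
  have hYF : algebraMap F F' Y ≠ 0 := (_root_.map_ne_zero _).mpr hY0
  have hord0 : ∀ w : Place K F', w.ord (g ^ p * (algebraMap F F' Y)⁻¹) = 0 := by
    intro w
    rw [w.ord_mul (pow_ne_zero _ hg0) (inv_ne_zero hYF), lvl_ord_pow, w.ord_inv,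
      w.ord_restrict Y, ← hDg w, ← hDY (w.restrict F)]
    ring
  obtain ⟨c, hc⟩ := hconst _ (mul_ne_zero (pow_ne_zero _ hg0) (inv_ne_zero hYF)) hord0
  have hc0 : c ≠ 0 := by
    rintro rfl
    rw [map_zero] at hc
    exact mul_ne_zero (pow_ne_zero _ hg0) (inv_ne_zero hYF) hc.symm
  obtain ⟨c₁, hc₁⟩ := IsAlgClosed.exists_pow_nat_eq c hp.pos
  have hc₁0 : c₁ ≠ 0 := by
    rintro rfl
    rw [zero_pow hp0] at hc₁
    exact hc0 hc₁.symm
  have hc₁F : algebraMap K F' c₁ ≠ 0 := (_root_.map_ne_zero _).mpr hc₁0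
  obtain ⟨g₁, hg₁⟩ : ∃ g₁ : F', g₁ = g * (algebraMap K F' c₁)⁻¹ := ⟨_, rfl⟩
  have hg₁0 : g₁ ≠ 0 := by rw [hg₁]; exact mul_ne_zero hg0 (inv_ne_zero hc₁F)
  have hg₁p : g₁ ^ p = algebraMap F F' Y := by
    have h4 : g ^ p = algebraMap K F' c * algebraMap F F' Y := by
      rw [hc, mul_assoc, inv_mul_cancel₀ hYF, mul_one]
    rw [hg₁, mul_pow, h4, inv_pow, ← map_pow, hc₁, mul_comm (algebraMap K F' c), mul_assoc,
      mul_inv_cancel₀ ((_root_.map_ne_zero _).mpr hc0), mul_one]
  have hg₁ord : ∀ w : Place K F', w.ord g₁ = w.ord g := by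
    intro w
    rw [hg₁, w.ord_mul hg0 (inv_ne_zero hc₁F), w.ord_inv, sf_ord_algebraMap, neg_zero, add_zero]
  -- the Kummer step
  obtain ⟨g₀, hg₀⟩ := lvl_kummer_mem hN w₀ hdeg he p hp g₁ hg₁0 Y hg₁p
    ⟨(D : Divisor K F) (w₀.restrict F), (hDY _).symm⟩
  have hg₀0 : g₀ ≠ 0 := by
    rintro rfl
    rw [map_zero] at hg₀
    exact hg₁0 hg₀.symm
  -- `D` is the divisor of `g₀`
  have hprinc : (D : Divisor K F) ∈ Divisor.principal (K := K) (F := F) := by
    refine ⟨g₀, hg₀0, fun v => ?_⟩
    have hfib : (v.fiber F').Nonempty := by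
      by_contra hemp
      rw [Finset.not_nonempty_iff_eq_empty] at hemp
      have h5 := FundamentalIdentity.sum_ramificationIndex_mul_deg (K := K) (F := F) (F' := F') v
      rw [hemp, Finset.sum_empty] at h5
      have h6 : (Module.finrank F F' : ℤ) ≠ 0 := by
        exact_mod_cast (Module.finrank_pos (R := F) (M := F')).ne'
      have h7 : (v.deg : ℤ) ≠ 0 := by exact_mod_cast hdegF v
      exact mul_ne_zero h6 h7 h5.symm
    obtain ⟨w, hw⟩ := hfib
    have hwv : w.restrict F = v := Place.mem_fiber.mp hw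
    have h8 := hDg w
    rw [hwv, ← hg₁ord w, ← hg₀, w.ord_restrict g₀, hwv] at h8
    have he0 : (w.ramificationIndex F : ℤ) ≠ 0 := by
      exact_mod_cast (w.ramificationIndex_pos (F := F)).ne'
    exact mul_left_cancel₀ he0 h8
  exact (QuotientAddGroup.eq_zero_iff _).mpr (AddSubgroup.mem_addSubgroupOf.mpr hprinc)

/-- **LEVELUP (c), abstract form.** -/
theorem lvl_pullbackHom_injective_torsion [IsAlgClosed K] [CharZero K] [FiniteDimensional F F']
    [HasPrincipalDivisors K F'] [FundamentalIdentity K F F']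
    (hN : Divisor.PushforwardNormFormula K F F')
    (hconst : ∀ f : F', f ≠ 0 → (∀ w : Place K F', w.ord f = 0) →
      f ∈ Set.range (algebraMap K F'))
    (hdegF : ∀ v : Place K F, v.deg ≠ 0)
    (w₀ : Place K F') (hdeg : w₀.deg = 1)
    (he : Module.finrank F F' < 2 * w₀.ramificationIndex F)
    (x : Pic0 K F) (m : ℕ) (hm : m ≠ 0) (hmx : m • x = 0)
    (hx : Pic0.pullbackHom F' x = 0) : x = 0 := by
  by_contra hx0
  obtain ⟨p, hp, k, hk, hpk⟩ := lvl_exists_prime_order m hm x hx0 hmx
  apply hk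
  refine lvl_pullbackHom_injective_prime hN hconst hdegF w₀ hdeg he p hp (k • x) hpk ?_
  rw [map_nsmul, hx, smul_zero]

end torsion

end Fermat.Agent.S37
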