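import Mathlib

/-!
# S37, MODEQ: abstract leaves

* `meqa_minpoly_coeff_mem`: given a full family of distinct conjugate embeddings `ψ i : F →+* Λ`
  of a finite separable extension `F / E` (all agreeing on `E` with `φ₀`), the image under `φ₀`
  of every coefficient of the minimal polynomial of `y : F` over `E` lies in every subring of `Λ`
  that contains all the conjugates `ψ i y`.
* `meqa_coeff_mem_of_series`: triangular induction.  If `J = s ^ (-m) * (1 + ...)` is a Laurent
  series with coefficients in a subring `R` and `p(J)` has coefficients in `R`, then `p` has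
  coefficients in `R`.
-/

set_option autoImplicit false

open Polynomial

namespace Fermat.Agent.S37

/-! ### Conjugate embeddings and the minimal polynomial -/

section conj

/-- A product of linear factors `X - C r` with all `r` in a subring has coefficients in that
subring. -/
theorem meqa_prod_coeff_mem {Ω : Type*} [CommRing Ω] (T : Subring Ω) (s : Multiset Ω)
    (hs : ∀ r ∈ s, r ∈ T) (k : ℕ) : ((s.map fun r => X - C r).prod).coeff k ∈ T := by
  have h1 : (s.map fun r => X - C r).prod ∈ liftsRing T.subtype := by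
    refine Subring.multiset_prod_mem _ _ ?_
    intro q hq
    rw [Multiset.mem_map] at hq
    obtain ⟨r, hr, rfl⟩ := hq
    refine Subring.sub_mem _ ?_ ?_
    · rw [← lifts_iff_liftsRing]
      exact X_mem_lifts _
    · rw [← lifts_iff_liftsRing]
      exact C_mem_lifts T.subtype ⟨r, hs r hr⟩
  rw [← lifts_iff_liftsRing, lifts_iff_coeff_lifts] at h1
  obtain ⟨t, ht⟩ := h1 k
  rw [← ht]
  exact t.2

variable {E F Λ ι : Type*} [Field E] [Field F] [Field Λ] [Algebra E F] [FiniteDimensional E F]
  [CharZero E] [Finite ι]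

/-- **Conjugates and the minimal polynomial.**  `ψ` is a full family of distinct embeddings of
`F` into `Λ` which agree with `φ₀` on `E`.  Then `φ₀` maps every coefficient of the minimal
polynomial of `y` over `E` into every subring `S` of `Λ` containing all the conjugates `ψ i y`. -/
theorem meqa_minpoly_coeff_mem (ψ : ι → F →+* Λ) (hinj : Function.Injective ψ) (φ₀ : E →+* Λ)
    (hE : ∀ i e, ψ i (algebraMap E F e) = φ₀ e) (hcard : Nat.card ι = Module.finrank E F)
    (y : F) (S : Subring Λ) (hS : ∀ i, ψ i y ∈ S) (k : ℕ) :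
    φ₀ ((minpoly E y).coeff k) ∈ S := by
  classical
  have _ := Fintype.ofFinite ι
  let Ω := AlgebraicClosure Λ
  let ψ₀ : E →+* Ω := (algebraMap Λ Ω).comp φ₀
  let _ : Algebra E Ω := ψ₀.toAlgebra
  let σ : ι → (F →ₐ[E] Ω) := fun i =>
    { toRingHom := (algebraMap Λ Ω).comp (ψ i)
      commutes' := fun e => by
        show algebraMap Λ Ω (ψ i (algebraMap E F e)) = algebraMap Λ Ω (φ₀ e)
        rw [hE] }
  have hσ : Function.Injective σ := by
    intro i i' h
    apply hinj
    refine RingHom.ext fun f => ?_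
    have := DFunLike.congr_fun h f
    exact (algebraMap Λ Ω).injective this
  have hcard' : Fintype.card (F →ₐ[E] Ω) = Module.finrank E F := AlgHom.card E F Ω
  have hbij : Function.Bijective σ := by
    rw [Fintype.bijective_iff_injective_and_card]
    exact ⟨hσ, by rw [hcard', ← hcard, Nat.card_eq_fintype_card]⟩
  -- the minimal polynomial over `Ω`
  set μ := minpoly E y with hμ
  have hmonic : (μ.map (algebraMap E Ω)).Monic :=
    (minpoly.monic (Algebra.IsIntegral.isIntegral y)).map _
  have hsplit : (μ.map (algebraMap E Ω)).Splits := IsAlgClosed.splits _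
  have hprod := hsplit.eq_prod_roots_of_monic hmonic
  have hroots : ∀ r ∈ (μ.map (algebraMap E Ω)).roots, r ∈ S.map (algebraMap Λ Ω) := by
    intro r hr
    have h1 : r ∈ μ.rootSet Ω := by
      rw [rootSet, aroots]
      exact Multiset.mem_toFinset.mpr hr
    rw [← Algebra.IsAlgebraic.range_eval_eq_rootSet_minpoly Ω y] at h1
    obtain ⟨τ, rfl⟩ := h1
    obtain ⟨i, rfl⟩ := hbij.2 τ
    exact ⟨ψ i y, hS i, rfl⟩
  have hcoeff := meqa_prod_coeff_mem (S.map (algebraMap Λ Ω)) _ hroots k
  rw [← hprod, coeff_map] at hcoeff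
  obtain ⟨s, hs, hs'⟩ := hcoeff
  have h2 : s = φ₀ (μ.coeff k) := (algebraMap Λ Ω).injective hs'
  rw [← h2]
  exact hs

end conj

/-! ### Triangular induction -/

section tri

variable {K : Type*} [Field K]

theorem meqa_order (J : LaurentSeries K) (m : ℕ)
    (hJlt : ∀ n : ℤ, n < -(m : ℤ) → J.coeff n = 0) (hJlead : J.coeff (-(m : ℤ)) = 1) :
    J ≠ 0 ∧ J.order = -(m : ℤ) ∧ J.leadingCoeff = 1 := by
  have h0 : J ≠ 0 := by
    rintro rfl
    simp at hJlead
  have h1 : J.order = -(m : ℤ) :=
    le_antisymm (HahnSeries.order_le_of_coeff_ne_zero (by rw [hJlead]; exact one_ne_zero))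
      ((HahnSeries.le_order_iff_forall h0).mpr hJlt)
  exact ⟨h0, h1, by rw [HahnSeries.leadingCoeff_eq, h1, hJlead]⟩

theorem meqa_pow_order (J : LaurentSeries K) (m : ℕ)
    (hJlt : ∀ n : ℤ, n < -(m : ℤ) → J.coeff n = 0) (hJlead : J.coeff (-(m : ℤ)) = 1) (i : ℕ) :
    (J ^ i).order = -((i * m : ℕ) : ℤ) ∧ (J ^ i).leadingCoeff = 1 := by
  obtain ⟨h0, h1, h2⟩ := meqa_order J m hJlt hJlead
  constructor
  · rw [HahnSeries.order_pow, h1]
    push_cast
    simp
  · induction i with
    | zero => simp
    | succ n ih => rw [pow_succ, HahnSeries.leadingCoeff_mul, ih, h2, one_mul]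

theorem meqa_pow_coeff_lead (J : LaurentSeries K) (m : ℕ)
    (hJlt : ∀ n : ℤ, n < -(m : ℤ) → J.coeff n = 0) (hJlead : J.coeff (-(m : ℤ)) = 1) (i : ℕ) :
    (J ^ i).coeff (-((i * m : ℕ) : ℤ)) = 1 := by
  obtain ⟨h1, h2⟩ := meqa_pow_order J m hJlt hJlead i
  rw [← h1, ← HahnSeries.leadingCoeff_eq, h2]

theorem meqa_pow_coeff_lt (J : LaurentSeries K) (m : ℕ)
    (hJlt : ∀ n : ℤ, n < -(m : ℤ) → J.coeff n = 0) (hJlead : J.coeff (-(m : ℤ)) = 1) (i : ℕ)
    (n : ℤ) (hn : n < -((i * m : ℕ) : ℤ)) : (J ^ i).coeff n = 0 := by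
  obtain ⟨h1, -⟩ := meqa_pow_order J m hJlt hJlead i
  exact HahnSeries.coeff_eq_zero_of_lt_order (by rw [h1]; exact hn)

/-- products of Laurent series with coefficients in a subring -/
theorem meqa_mul_coeff_mem (R : Subring K) (x y : LaurentSeries K) (hx : ∀ n, x.coeff n ∈ R)
    (hy : ∀ n, y.coeff n ∈ R) (n : ℤ) : (x * y).coeff n ∈ R := by
  rw [HahnSeries.coeff_mul]
  exact Subring.sum_mem _ fun ij _ => R.mul_mem (hx _) (hy _)

theorem meqa_pow_coeff_mem (R : Subring K) (J : LaurentSeries K) (hJ : ∀ n, J.coeff n ∈ R)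
    (i : ℕ) (n : ℤ) : (J ^ i).coeff n ∈ R := by
  induction i generalizing n with
  | zero =>
    rw [pow_zero, HahnSeries.coeff_one]
    split_ifs
    · exact R.one_mem
    · exact R.zero_mem
  | succ k ih =>
    rw [pow_succ]
    exact meqa_mul_coeff_mem R _ _ ih hJ n

theorem meqa_coeff_smul (c : K) (x : LaurentSeries K) (n : ℤ) :
    (algebraMap K (LaurentSeries K) c * x).coeff n = c * x.coeff n := by
  rw [LaurentSeries.algebraMap_apply, HahnSeries.C_mul_eq_smul, HahnSeries.coeff_smul, smul_eq_mul]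

/-- The coefficient of `s ^ (-(deg p) m)` in `p(J)` is the leading coefficient of `p`. -/
theorem meqa_aeval_coeff_lead (J : LaurentSeries K) (m : ℕ) (hm : 0 < m)
    (hJlt : ∀ n : ℤ, n < -(m : ℤ) → J.coeff n = 0) (hJlead : J.coeff (-(m : ℤ)) = 1) (p : K[X]) :
    (aeval J p).coeff (-((p.natDegree * m : ℕ) : ℤ)) = p.leadingCoeff := by
  rw [aeval_eq_sum_range, HahnSeries.coeff_sum, Finset.sum_eq_single p.natDegree]
  · rw [Algebra.smul_def, meqa_coeff_smul, meqa_pow_coeff_lead J m hJlt hJlead, mul_one]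
    rfl
  · intro i hi hne
    rw [Finset.mem_range] at hi
    have hlt : i < p.natDegree := lt_of_le_of_ne (Nat.lt_succ_iff.mp hi) hne
    rw [Algebra.smul_def, meqa_coeff_smul, meqa_pow_coeff_lt J m hJlt hJlead i, mul_zero]
    have : i * m < p.natDegree * m := Nat.mul_lt_mul_of_pos_right hlt hm
    omega
  · intro h
    exact absurd (Finset.mem_range.mpr (Nat.lt_succ_self _)) h

/-- **Triangular induction.**  `J = s ^ (-m) * (1 + ...)`, `m > 0`, has coefficients in the
subring `R`; if `p(J)` has coefficients in `R` then so has `p`. -/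
theorem meqa_coeff_mem_of_series (R : Subring K) (J : LaurentSeries K) (m : ℕ) (hm : 0 < m)
    (hJ : ∀ n, J.coeff n ∈ R) (hJlt : ∀ n : ℤ, n < -(m : ℤ) → J.coeff n = 0)
    (hJlead : J.coeff (-(m : ℤ)) = 1) (p : K[X]) (hp : ∀ n, (aeval J p).coeff n ∈ R) (i : ℕ) :
    p.coeff i ∈ R := by
  induction hd : p.natDegree using Nat.strong_induction_on generalizing p i with
  | _ d ih =>
    have hlead : p.leadingCoeff ∈ R := by
      rw [← meqa_aeval_coeff_lead J m hm hJlt hJlead p]
      exact hp _
    have hsplit := p.eraseLead_add_C_mul_X_pow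
    have haev : aeval J p = aeval J p.eraseLead +
        algebraMap K (LaurentSeries K) p.leadingCoeff * J ^ p.natDegree := by
      conv_lhs => rw [← hsplit]
      rw [map_add, map_mul, aeval_C, map_pow, aeval_X]
    have hp' : ∀ n, (aeval J p.eraseLead).coeff n ∈ R := by
      intro n
      have h1 := congrArg (fun x : LaurentSeries K => x.coeff n) haev
      simp only [HahnSeries.coeff_add, meqa_coeff_smul] at h1
      have h2 : (aeval J p.eraseLead).coeff n =
          (aeval J p).coeff n - p.leadingCoeff * (J ^ p.natDegree).coeff n := by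
        rw [h1]
        ring
      rw [h2]
      exact R.sub_mem (hp n) (R.mul_mem hlead (meqa_pow_coeff_mem R J hJ _ n))
    have hcoeff : ∀ i, p.eraseLead.coeff i ∈ R := by
      intro i
      rcases p.eraseLead_natDegree_lt_or_eraseLead_eq_zero with hlt | h0
      · exact ih _ (by rw [← hd]; exact hlt) p.eraseLead hp' i rfl
      · rw [h0, coeff_zero]
        exact R.zero_mem
    by_cases hi : i = p.natDegree
    · rw [hi]
      exact hlead
    · rw [← eraseLead_coeff_of_ne i hi]
      exact hcoeff i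

end tri

end Fermat.Agent.S37
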