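import Mathlib
import Fermat.Agent.S37.ModEqAbs

/-!
# S37, MODEQ (abstract part 2): regular on the affine line implies polynomial

* `meqa_mem_range_aeval`: `K` algebraically closed, `c ∈ K(x)`; if for every `a : K` there is
  a Laurent point of `F` centred at `x = a` at which `c` has nonnegative order, then `c` is a
  polynomial in `x`;
* `meqa_minpoly_coeff_polynomial`: the finite part of the integrality argument for the
  modular equation: with full Taylor families at every finite point, the coefficients of the
  minimal polynomial over `K(x)` are polynomials in `x`.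
-/

set_option autoImplicit false

open Polynomial IntermediateField

namespace Fermat.Agent.S37

section L3

variable {K F L : Type*} [Field K] [Field F] [Algebra K F] [Field L]

/-- Laurent series of nonnegative order are closed under products. -/
theorem meqa_order_mul_nonneg (u v : LaurentSeries L) (hu : 0 ≤ u.order) (hv : 0 ≤ v.order) :
    0 ≤ (u * v).order := by
  rcases eq_or_ne u 0 with rfl | hu0
  · simp
  rcases eq_or_ne v 0 with rfl | hv0
  · simp
  rw [HahnSeries.order_mul hu0 hv0]
  exact add_nonneg hu hv

/-- Laurent series of nonnegative order are closed under sums. -/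
theorem meqa_order_add_nonneg (u v : LaurentSeries L) (hu : 0 ≤ u.order) (hv : 0 ≤ v.order) :
    0 ≤ (u + v).order := by
  rcases eq_or_ne (u + v) 0 with h | h
  · rw [h]; simp
  exact le_trans (le_min hu hv) (HahnSeries.min_order_le_order_add h)

/-- A Laurent series all of whose coefficients in negative degrees vanish has nonnegative
order. -/
theorem meqa_order_nonneg_of_coeff (f : LaurentSeries L) (hf : ∀ n : ℤ, n < 0 → f.coeff n = 0) :
    0 ≤ f.order := by
  rcases eq_or_ne f 0 with h | h
  · rw [h]; simp
  by_contra hlt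
  push Not at hlt
  exact h (HahnSeries.coeff_order_eq_zero.mp (hf _ hlt))

/-- A power series has nonnegative order as a Laurent series. -/
theorem meqa_order_ofPowerSeries_nonneg (p : PowerSeries L) :
    0 ≤ (HahnSeries.ofPowerSeries ℤ L p).order := by
  apply meqa_order_nonneg_of_coeff
  intro n hn
  have h := PowerSeries.coeff_coe (R := L) (f := p) n
  rw [if_pos hn] at h
  exact h

/-- A Laurent series of positive order has vanishing constant coefficient. -/
theorem meqa_coeff_zero_of_order_pos (f : LaurentSeries L) (hf : 0 < f.order) :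
    f.coeff 0 = 0 :=
  HahnSeries.coeff_eq_zero_of_lt_order hf

/-- Polynomials in an element of nonnegative order have nonnegative order. -/
theorem meqa_order_aeval_nonneg (φ : F →+* LaurentSeries L) (x : F)
    (hconst : ∀ b : K, 0 ≤ (φ (algebraMap K F b)).order) (hx : 0 ≤ (φ x).order) (r : K[X]) :
    0 ≤ (φ (aeval x r)).order := by
  induction r using Polynomial.induction_on' with
  | add p q hp hq =>
    rw [map_add, map_add]
    exact meqa_order_add_nonneg _ _ hp hq
  | monomial n b =>
    rw [aeval_monomial, map_mul, map_pow]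
    refine meqa_order_mul_nonneg _ _ (hconst b) ?_
    induction n with
    | zero => simp
    | succ n ih =>
      rw [pow_succ]
      exact meqa_order_mul_nonneg _ _ ih hx

/-- If the image of `r(x)` has positive order at a Laurent point centred at `x = a`, then
`r(a) = 0`. -/
theorem meqa_eval_eq_zero_of_order_pos (φ : F →+* LaurentSeries L) (base : K →+* L)
    (hconst : ∀ b : K, φ (algebraMap K F b) = HahnSeries.C (base b)) (x : F) (a : K)
    (hxa : 0 < (φ (x - algebraMap K F a)).order) (r : K[X])
    (hr : 0 < (φ (aeval x r)).order) : r.eval a = 0 := by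
  have hc0 : ∀ b : K, 0 ≤ (φ (algebraMap K F b)).order := by
    intro b
    rw [hconst, HahnSeries.order_C]
  have hx : 0 ≤ (φ x).order := by
    have h1 : φ x = φ (x - algebraMap K F a) + φ (algebraMap K F a) := by
      rw [← map_add, sub_add_cancel]
    rw [h1]
    exact meqa_order_add_nonneg _ _ hxa.le (hc0 a)
  obtain ⟨q, hq⟩ := Polynomial.X_sub_C_dvd_sub_C_eval (a := a) (p := r)
  have h2 : aeval x r = algebraMap K F (r.eval a) + (x - algebraMap K F a) * aeval x q := by
    have h3 := congrArg (aeval x) hq
    simp only [map_sub, map_mul, aeval_X, aeval_C] at h3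
    rw [← h3]
    ring
  have h4 : (φ ((x - algebraMap K F a) * aeval x q)).coeff 0 = 0 := by
    rcases eq_or_ne (φ ((x - algebraMap K F a) * aeval x q)) 0 with h | h
    · rw [h]; simp
    apply HahnSeries.coeff_eq_zero_of_lt_order
    rw [map_mul] at h ⊢
    rw [HahnSeries.order_mul (left_ne_zero_of_mul h) (right_ne_zero_of_mul h)]
    have := meqa_order_aeval_nonneg φ x hc0 hx q
    omega
  have h5 : (φ (aeval x r)).coeff 0 = 0 := HahnSeries.coeff_eq_zero_of_lt_order hr
  rw [h2, map_add, HahnSeries.coeff_add, h4, add_zero, hconst, HahnSeries.C_apply,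
    HahnSeries.coeff_single_same] at h5
  exact (map_eq_zero base).mp h5

/-- **Regular everywhere on the affine line implies polynomial.**  Let `K` be algebraically
closed and `c ∈ K(x)`.  Suppose that for every `a : K` there is a Laurent point of `F`
(a ring homomorphism to Laurent series which is constant on `K`) centred at `x = a` at which
`c` has nonnegative order.  Then `c` is a polynomial in `x`. -/
theorem meqa_mem_range_aeval [IsAlgClosed K] (x c : F) (hc : c ∈ K⟮x⟯)
    (h : ∀ a : K, ∃ (φ : F →+* LaurentSeries L) (base : K →+* L),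
      (∀ b : K, φ (algebraMap K F b) = HahnSeries.C (base b)) ∧
      0 < (φ (x - algebraMap K F a)).order ∧ 0 ≤ (φ c).order) :
    ∃ p : K[X], aeval x p = c := by
  rcases eq_or_ne c 0 with rfl | hc0
  · exact ⟨0, by simp⟩
  obtain ⟨r, s, hrs⟩ := (IntermediateField.mem_adjoin_simple_iff K c).mp hc
  have hs : aeval x s ≠ 0 := by
    intro h0
    rw [h0, div_zero] at hrs
    exact hc0 hrs
  have key : ∀ (n : ℕ) (r s : K[X]), s.natDegree = n → aeval x s ≠ 0 →
      c = aeval x r / aeval x s → ∃ p : K[X], aeval x p = c := by
    intro n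
    induction n with
    | zero =>
      intro r s hn hs hrs
      obtain ⟨s0, rfl⟩ := Polynomial.natDegree_eq_zero.mp hn
      refine ⟨r * C s0⁻¹, ?_⟩
      rw [hrs, map_mul, aeval_C, aeval_C, map_inv₀, div_eq_mul_inv]
    | succ n ih =>
      intro r s hn hs hrs
      have hsdeg : s.degree ≠ 0 := by
        intro h0
        have := Polynomial.natDegree_eq_zero_iff_degree_le_zero.mpr h0.le
        omega
      obtain ⟨a, ha⟩ := IsAlgClosed.exists_root s hsdeg
      obtain ⟨s', rfl⟩ := Polynomial.dvd_iff_isRoot.mpr ha
      obtain ⟨φ, base, hconst, hxa, hcφ⟩ := h a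
      have hu : aeval x (X - C a : K[X]) = x - algebraMap K F a := by simp
      rw [map_mul, hu] at hs hrs
      have hu0 : x - algebraMap K F a ≠ 0 := left_ne_zero_of_mul hs
      have hs'0 : aeval x s' ≠ 0 := right_ne_zero_of_mul hs
      have hφ := φ.injective
      have hr : 0 < (φ (aeval x r)).order := by
        have h1 : aeval x r = c * ((x - algebraMap K F a) * aeval x s') := by
          rw [hrs, div_mul_cancel₀ _ hs]
        have hc0' : φ c ≠ 0 := (map_ne_zero φ).mpr hc0
        have hu0' : φ (x - algebraMap K F a) ≠ 0 := (map_ne_zero φ).mpr hu0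
        have hs'0' : φ (aeval x s') ≠ 0 := (map_ne_zero φ).mpr hs'0
        rw [h1, map_mul, map_mul, HahnSeries.order_mul hc0' (mul_ne_zero hu0' hs'0'),
          HahnSeries.order_mul hu0' hs'0']
        have hc0b : ∀ b : K, 0 ≤ (φ (algebraMap K F b)).order := by
          intro b
          rw [hconst, HahnSeries.order_C]
        have hx : 0 ≤ (φ x).order := by
          have h1 : φ x = φ (x - algebraMap K F a) + φ (algebraMap K F a) := by
            rw [← map_add, sub_add_cancel]
          rw [h1]
          exact meqa_order_add_nonneg _ _ hxa.le (hc0b a)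
        have := meqa_order_aeval_nonneg φ x hc0b hx s'
        omega
      have hra := meqa_eval_eq_zero_of_order_pos φ base hconst x a hxa r hr
      obtain ⟨r', rfl⟩ := Polynomial.dvd_iff_isRoot.mpr hra
      have hs'n : s'.natDegree = n := by
        have hs'ne : s' ≠ 0 := by
          rintro rfl
          simp at hs'0
        rw [Polynomial.natDegree_mul (Polynomial.X_sub_C_ne_zero a) hs'ne,
          Polynomial.natDegree_X_sub_C] at hn
        omega
      refine ih r' s' hs'n hs'0 ?_
      rw [hrs, map_mul, hu, mul_div_mul_left _ _ hu0]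
  exact key _ r s rfl hs hrs

/-- Two ring homomorphisms out of `F` which agree on `K` and at `x` agree on `K(x)`. -/
theorem meqa_eq_on_adjoin {Λ : Type*} [Field Λ] (ψ ψ' : F →+* Λ) (x : F)
    (hK : ∀ b : K, ψ (algebraMap K F b) = ψ' (algebraMap K F b)) (hx : ψ x = ψ' x)
    (e : F) (he : e ∈ K⟮x⟯) : ψ e = ψ' e := by
  obtain ⟨r, s, rfl⟩ := (IntermediateField.mem_adjoin_simple_iff K e).mp he
  have key : ∀ r : K[X], ψ (aeval x r) = ψ' (aeval x r) := by
    intro r
    induction r using Polynomial.induction_on' with
    | add p q hp hq => rw [map_add, map_add, map_add, hp, hq]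
    | monomial n b => rw [aeval_monomial, map_mul, map_mul, map_pow, map_pow, hK, hx]
  rw [map_div₀, map_div₀, key, key]

/-- **Finite part of the integrality argument.**  Let `K` be algebraically closed of
characteristic zero, `F / K(x)` finite and `y : F`.  Suppose that for every `a : K` there is a
full family (`[F : K(x)]` distinct members) of Laurent points of `F` centred at `x = a`,
constant on `K`, with a common value at `x`, at which `y` expands as a power series.  Then
every coefficient of the minimal polynomial of `y` over `K(x)` is a polynomial in `x`. -/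
theorem meqa_minpoly_coeff_polynomial [IsAlgClosed K] [CharZero K] (x y : F)
    [FiniteDimensional K⟮x⟯ F] {ι : Type*} [Finite ι]
    (hcard : Nat.card ι = Module.finrank K⟮x⟯ F)
    (h : ∀ a : K, ∃ (ψ : ι → F →+* LaurentSeries L) (base : K →+* L),
      Function.Injective ψ ∧ (∀ i (b : K), ψ i (algebraMap K F b) = HahnSeries.C (base b)) ∧
      (∀ i j, ψ i x = ψ j x) ∧ (∀ i, 0 < (ψ i (x - algebraMap K F a)).order) ∧
      (∀ i, ∃ p : PowerSeries L, ψ i y = HahnSeries.ofPowerSeries ℤ L p))
    (k : ℕ) : ∃ p : K[X], aeval x p = (((minpoly K⟮x⟯ y).coeff k : K⟮x⟯) : F) := by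
  have hι : Nonempty ι := by
    have h1 : 0 < Nat.card ι := by
      rw [hcard]
      exact Module.finrank_pos
    exact (Nat.card_pos_iff.mp h1).1
  obtain ⟨i₀⟩ := hι
  have hchar : CharZero K⟮x⟯ := charZero_of_injective_algebraMap (algebraMap K K⟮x⟯).injective
  refine meqa_mem_range_aeval (L := L) x _ ((minpoly K⟮x⟯ y).coeff k).2 (fun a => ?_)
  obtain ⟨ψ, base, hinj, hconst, hx, hxa, hy⟩ := h a
  refine ⟨ψ i₀, base, hconst i₀, hxa i₀, ?_⟩
  have hE : ∀ i (e : K⟮x⟯), ψ i (algebraMap K⟮x⟯ F e) =
      ((ψ i₀).comp (algebraMap K⟮x⟯ F)) e := by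
    intro i e
    exact meqa_eq_on_adjoin (K := K) (ψ i) (ψ i₀) x
      (fun b => by rw [hconst, hconst]) (hx i i₀) _ e.2
  have hmem := meqa_minpoly_coeff_mem ψ hinj ((ψ i₀).comp (algebraMap K⟮x⟯ F)) hE hcard y
    (HahnSeries.ofPowerSeries ℤ L).range (fun i => by
      obtain ⟨p, hp⟩ := hy i
      exact ⟨p, hp.symm⟩) k
  obtain ⟨p, hp⟩ := hmem
  have hp' : ψ i₀ (((minpoly K⟮x⟯ y).coeff k : K⟮x⟯) : F) = HahnSeries.ofPowerSeries ℤ L p :=
    hp.symm
  rw [hp']
  exact meqa_order_ofPowerSeries_nonneg p

end L3

end Fermat.Agent.S37
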