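import Fermat.Agent.S24.SumFormulaA4
import Fermat.Prelude.Def_AlgebraicCurve_Correspondence

/-!
# S37, HECKEIN part 1: norms and places in a finite extension of function fields

For a finite extension `F' / F` of function fields over an algebraically closed field `K` of
characteristic zero (all residue fields equal to `K`): the places of `F'` over a place `v` of
`F` are the primes of the integral closure of the valuation ring of `v`, and

* `hki_normFormula`: `ord_v (N_{F'/F} f) = ∑_{w ∣ v} ord_w f` in the Prelude form
  `Divisor.PushforwardNormFormula K F F'`;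
* `hki_fundamentalIdentity`: `∑_{w ∣ v} e (w ∣ v) = [F' : F]` in the Prelude form
  `FundamentalIdentity K F F'`.
-/

set_option autoImplicit false
set_option linter.unusedSectionVars false
set_option linter.unusedVariables false
set_option linter.style.haveILetI false

open AlgebraicCurve IsDedekindDomain UniqueFactorizationMonoid

namespace Fermat.Agent.S37

/-! ### Part 1: the relative norm over a maximal ideal (abstract Dedekind domains) -/

section core

variable {A B : Type*} [CommRing A] [IsDedekindDomain A] [CommRing B] [IsDedekindDomain B]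
  [Algebra A B] [Module.Finite A B] [Module.IsTorsionFree A B] [PerfectField (FractionRing A)]

/-- the multiplicity of a maximal ideal `p` in the relative norm of a prime ideal. -/
theorem hki_count_relNorm_prime (p : Ideal A) [hpm : p.IsMaximal] (hp0 : p ≠ ⊥)
    (h1 : ∀ Q : p.primesOver B, Q.1.inertiaDeg A = 1) (q : Ideal B) (hq : Prime q) :
    (normalizedFactors (Ideal.relNorm A q)).count p =
      ∑ᶠ Q : p.primesOver B, (normalizedFactors q).count Q.1 := by
  classical
  have hqp : q.IsPrime := Ideal.isPrime_of_prime hq
  have hq0 : q ≠ ⊥ := hq.ne_zero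
  have hnf : normalizedFactors q = {q} := by
    rw [normalizedFactors_irreducible hq.irreducible, normalize_eq]
  have hpP : Prime p := Ideal.prime_of_isPrime hp0 hpm.isPrime
  by_cases hlies : q.LiesOver p
  · have hqm : q.IsMaximal := hqp.isMaximal hq0
    let Q₁ : p.primesOver B := ⟨q, hqp, hlies⟩
    rw [Ideal.relNorm_eq_pow_of_isMaximal q p, h1 Q₁, pow_one,
      normalizedFactors_irreducible hpP.irreducible, normalize_eq, Multiset.count_singleton_self]
    rw [finsum_eq_single _ Q₁]
    · rw [hnf]; simp [Q₁]
    · intro Q hQ
      rw [hnf, Multiset.count_singleton, if_neg]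
      intro h; exact hQ (Subtype.ext h)
  · have hrhs : ∑ᶠ Q : p.primesOver B, (normalizedFactors q).count Q.1 = 0 := by
      apply finsum_eq_zero_of_forall_eq_zero
      intro Q
      rw [hnf, Multiset.count_singleton, if_neg]
      intro h
      exact hlies (h ▸ Q.2.2)
    rw [hrhs, Multiset.count_eq_zero]
    have hne : Ideal.relNorm A q ≠ ⊥ := by rwa [Ne, Ideal.relNorm_eq_bot_iff]
    rw [Ideal.mem_normalizedFactors_iff hne]
    rintro ⟨-, hle⟩
    have hup : (q.under A).IsPrime := inferInstance
    obtain ⟨s, hs⟩ := Ideal.exists_relNorm_eq_pow_of_isPrime q (q.under A)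
    rw [hs] at hle
    have hle' : q.under A ≤ p := hpm.isPrime.le_of_pow_le hle
    have hunder0 : q.under A ≠ ⊥ := by
      intro h0
      apply hne
      have := Ideal.relNorm_le_comap A q
      exact le_bot_iff.mp (this.trans (le_of_eq h0))
    have hmax : (q.under A).IsMaximal := hup.isMaximal hunder0
    exact hlies ⟨(hmax.eq_of_le hpm.ne_top hle').symm⟩

theorem hki_count_relNorm (p : Ideal A) [hpm : p.IsMaximal] (hp0 : p ≠ ⊥)
    (h1 : ∀ Q : p.primesOver B, Q.1.inertiaDeg A = 1) (I : Ideal B) (hI : I ≠ ⊥) :
    (normalizedFactors (Ideal.relNorm A I)).count p =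
      ∑ᶠ Q : p.primesOver B, (normalizedFactors I).count Q.1 := by
  classical
  have hfin : Finite (p.primesOver B) := inferInstance
  revert hI
  refine UniqueFactorizationMonoid.induction_on_prime I ?_ ?_ ?_
  · intro h; exact absurd rfl h
  · intro J hJ _
    have hJ1 : J = ⊤ := Ideal.isUnit_iff.mp hJ
    have h1' : normalizedFactors (⊤ : Ideal B) = 0 := by
      rw [← Ideal.one_eq_top]; exact normalizedFactors_one
    have h2 : normalizedFactors (⊤ : Ideal A) = 0 := by
      rw [← Ideal.one_eq_top]; exact normalizedFactors_one
    rw [hJ1, Ideal.relNorm_top, h1', h2]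
    simp
  · intro a q ha hq ih _
    have hq0 : q ≠ 0 := hq.ne_zero
    have hra : Ideal.relNorm A a ≠ 0 := by
      rwa [Ne, Ideal.zero_eq_bot, Ideal.relNorm_eq_bot_iff]
    have hrq : Ideal.relNorm A q ≠ 0 := by
      rwa [Ne, Ideal.zero_eq_bot, Ideal.relNorm_eq_bot_iff]
    rw [map_mul, normalizedFactors_mul hrq hra, Multiset.count_add, normalizedFactors_mul hq0 ha]
    simp only [Multiset.count_add]
    rw [finsum_add_distrib (Set.toFinite _) (Set.toFinite _),
      hki_count_relNorm_prime p hp0 h1 q hq, ih ha]

end core

/-- the order at a prime of a Dedekind domain as a multiplicity. -/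
theorem hki_log_intValuation {R : Type*} [CommRing R] [IsDedekindDomain R]
    (P : HeightOneSpectrum R) (r : R) (hr : r ≠ 0) :
    -WithZero.log (P.intValuation r) =
      ((normalizedFactors (Ideal.span {r})).count P.asIdeal : ℤ) := by
  classical
  have hI : (Ideal.span {r} : Ideal R) ≠ 0 := by
    rw [Ne, Ideal.zero_eq_bot, Ideal.span_singleton_eq_bot]; exact hr
  rw [P.intValuation_if_neg hr, WithZero.log_exp, neg_neg,
    Ideal.count_associates_factors_eq hI P.isPrime P.ne_bot]

/-! ### Part 2: the norm formula in terms of adic valuations -/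

section normval

variable {A B : Type*} [CommRing A] [IsDedekindDomain A] [CommRing B] [IsDedekindDomain B]
  [Algebra A B] [Module.Finite A B] [Module.IsTorsionFree A B] [PerfectField (FractionRing A)]
  {F F' : Type*} [Field F] [Field F'] [Algebra F F'] [FiniteDimensional F F']
  [Algebra A F] [IsFractionRing A F] [Algebra B F'] [IsFractionRing B F'] [Algebra A F']
  [IsScalarTower A F F'] [IsScalarTower A B F'] [IsIntegralClosure B A F']

/-- a prime over a nonzero prime, as a height one prime. -/
def hkiPrimeOver (P : HeightOneSpectrum A) (Q : P.asIdeal.primesOver B) : HeightOneSpectrum B :=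
  ⟨Q.1, Q.2.1, haveI := Q.2.2; Ideal.ne_bot_of_liesOver_of_ne_bot P.ne_bot Q.1⟩

@[simp] theorem hkiPrimeOver_asIdeal (P : HeightOneSpectrum A) (Q : P.asIdeal.primesOver B) :
    (hkiPrimeOver P Q).asIdeal = Q.1 := rfl

theorem hkiPrimeOver_injective (P : HeightOneSpectrum A) :
    Function.Injective (hkiPrimeOver (B := B) P) := by
  intro Q Q' h
  apply Subtype.ext
  have := congrArg HeightOneSpectrum.asIdeal h
  simpa using this

theorem hki_log_norm_coe (P : HeightOneSpectrum A)
    (h1 : ∀ Q : P.asIdeal.primesOver B, Q.1.inertiaDeg A = 1) (b : B) (hb : b ≠ 0) :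
    -WithZero.log (P.valuation F (Algebra.norm F (algebraMap B F' b))) =
      ∑ᶠ Q : P.asIdeal.primesOver B,
        -WithZero.log ((hkiPrimeOver P Q).valuation F' (algebraMap B F' b)) := by
  classical
  have hpm : P.asIdeal.IsMaximal := P.isMaximal
  set r := Algebra.intNorm A B b with hr
  have h1' : algebraMap A F r = Algebra.norm F (algebraMap B F' b) :=
    Algebra.algebraMap_intNorm (A := A) (K := F) (L := F') (B := B) b
  have hbF : algebraMap B F' b ≠ 0 := by
    rw [Ne, map_eq_zero_iff _ (IsFractionRing.injective B F')]; exact hb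
  have hr0 : r ≠ 0 := by
    intro h0
    rw [h0, map_zero] at h1'
    exact hbF (Algebra.norm_eq_zero_iff.mp h1'.symm)
  rw [← h1', P.valuation_of_algebraMap, hki_log_intValuation P r hr0]
  have h3 : Ideal.span {r} = Ideal.relNorm A (Ideal.span {b}) :=
    (Ideal.relNorm_singleton A b).symm
  have hspan : (Ideal.span {b} : Ideal B) ≠ ⊥ := by
    rw [Ne, Ideal.span_singleton_eq_bot]; exact hb
  rw [h3, hki_count_relNorm P.asIdeal P.ne_bot h1 _ hspan, finsum_eq_sum_of_fintype,
    finsum_eq_sum_of_fintype]
  push_cast
  refine Finset.sum_congr rfl fun Q _ => ?_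
  rw [(hkiPrimeOver P Q).valuation_of_algebraMap, hki_log_intValuation _ b hb]
  rfl

theorem hki_log_norm (P : HeightOneSpectrum A)
    (h1 : ∀ Q : P.asIdeal.primesOver B, Q.1.inertiaDeg A = 1) (f : F') (hf : f ≠ 0) :
    -WithZero.log (P.valuation F (Algebra.norm F f)) =
      ∑ᶠ Q : P.asIdeal.primesOver B, -WithZero.log ((hkiPrimeOver P Q).valuation F' f) := by
  classical
  have hpm : P.asIdeal.IsMaximal := P.isMaximal
  have hfin : Finite (P.asIdeal.primesOver B) := inferInstance
  obtain ⟨a, s, hs, rfl⟩ := IsFractionRing.div_surjective (A := B) f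
  have hs0 : s ≠ 0 := nonZeroDivisors.ne_zero hs
  have hsF : algebraMap B F' s ≠ 0 := by
    rw [Ne, map_eq_zero_iff _ (IsFractionRing.injective B F')]; exact hs0
  have haF : algebraMap B F' a ≠ 0 := by
    intro h
    apply hf
    rw [h, zero_div]
  have ha0 : a ≠ 0 := by
    rintro rfl
    exact haF (map_zero _)
  have hna : Algebra.norm F (algebraMap B F' a) ≠ 0 := by
    rw [Ne, Algebra.norm_eq_zero_iff]; exact haF
  have hns : Algebra.norm F (algebraMap B F' s) ≠ 0 := by
    rw [Ne, Algebra.norm_eq_zero_iff]; exact hsF
  have e1 := hki_log_norm_coe (F := F) (F' := F') P h1 a ha0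
  have e2 := hki_log_norm_coe (F := F) (F' := F') P h1 s hs0
  have e3 : ∑ᶠ Q : P.asIdeal.primesOver B,
      -WithZero.log ((hkiPrimeOver P Q).valuation F' (algebraMap B F' a / algebraMap B F' s)) =
      ∑ᶠ Q : P.asIdeal.primesOver B,
        -WithZero.log ((hkiPrimeOver P Q).valuation F' (algebraMap B F' a)) -
      ∑ᶠ Q : P.asIdeal.primesOver B,
        -WithZero.log ((hkiPrimeOver P Q).valuation F' (algebraMap B F' s)) := by
    rw [← finsum_sub_distrib (Set.toFinite _) (Set.toFinite _)]
    refine finsum_congr fun Q => ?_
    rw [map_div₀, WithZero.log_div ((Valuation.ne_zero_iff _).mpr haF)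
      ((Valuation.ne_zero_iff _).mpr hsF)]
    ring
  have hmul : Algebra.norm F (algebraMap B F' a / algebraMap B F' s) =
      Algebra.norm F (algebraMap B F' a) / Algebra.norm F (algebraMap B F' s) := by
    apply eq_div_of_mul_eq hns
    rw [← map_mul, div_mul_cancel₀ _ hsF]
  rw [e3, ← e1, ← e2, hmul, map_div₀, WithZero.log_div ((Valuation.ne_zero_iff _).mpr hna)
      ((Valuation.ne_zero_iff _).mpr hns)]
  ring

end normval

/-! ### Part 3: the places over a place `v` and the primes of the integral closure -/

section dict

variable {K F F' : Type*} [Field K] [Field F] [Field F'] [Algebra K F] [Algebra K F']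
  [Algebra F F'] [IsScalarTower K F F'] [FiniteDimensional F F']

section general

variable {B : Type*} [CommRing B] [IsDedekindDomain B] [Algebra B F'] [IsFractionRing B F']
  [Algebra K B] [IsScalarTower K B F']

/-- residues of elements of `B` at a prime with residue field `K` are constants. -/
theorem hki_exists_sub_mem (Q : HeightOneSpectrum B)
    (hres : Function.Bijective
      (algebraMap K (Place.ofHeightOneSpectrum (K := K) (F := F') Q).ResidueField)) (b : B) :
    ∃ a : K, b - algebraMap K B a ∈ Q.asIdeal := by
  set w := Place.ofHeightOneSpectrum (K := K) (F := F') Q with hw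
  have hb : algebraMap B F' b ∈ w.toValuationSubring :=
    (Fermat.Agent.S24.sf_mem_ofHeightOneSpectrum_iff (K := K) Q _).mpr (Q.valuation_le_one b)
  obtain ⟨a, ha⟩ := hres.2 (IsLocalRing.residue w.toValuationSubring ⟨algebraMap B F' b, hb⟩)
  refine ⟨a, ?_⟩
  have h1 : IsLocalRing.residue w.toValuationSubring
      (⟨algebraMap B F' b, hb⟩ - algebraMap K w.toValuationSubring a) = 0 := by
    rw [map_sub, ← ha]
    exact sub_eq_zero.mpr rfl
  rw [IsLocalRing.residue_eq_zero_iff, Fermat.Agent.S24.sf_mem_maximalIdeal_iff_ord] at h1
  rw [Fermat.Agent.S24.sf_mem_asIdeal_iff_ord (K := K) (F := F')]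
  have hcoe : algebraMap B F' (b - algebraMap K B a) =
      ((⟨algebraMap B F' b, hb⟩ - algebraMap K w.toValuationSubring a : w.toValuationSubring) :
        F') := by
    rw [map_sub, ← IsScalarTower.algebraMap_apply K B F']
    rfl
  rcases h1 with h1 | h1
  · left
    apply IsFractionRing.injective B F'
    rw [hcoe, h1, map_zero]
    rfl
  · right
    rw [hcoe]
    exact h1

end general

variable (v : Place K F) {B : Type*} [CommRing B] [IsDedekindDomain B]
  [Algebra v.toValuationSubring B] [Algebra B F'] [IsFractionRing B F']
  [IsScalarTower v.toValuationSubring B F'] [IsIntegralClosure B v.toValuationSubring F']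
  [Algebra K B] [IsScalarTower K B F']

theorem hki_algebraMap_coe (a : v.toValuationSubring) :
    algebraMap B F' (algebraMap v.toValuationSubring B a) = algebraMap F F' (a : F) := by
  rw [← IsScalarTower.algebraMap_apply v.toValuationSubring B F',
    IsScalarTower.algebraMap_apply v.toValuationSubring F F']
  rfl

theorem hki_algebraMap_const (a : K) :
    algebraMap B F' (algebraMap v.toValuationSubring B (algebraMap K v.toValuationSubring a)) =
      algebraMap B F' (algebraMap K B a) := by
  rw [hki_algebraMap_coe, ← IsScalarTower.algebraMap_apply K B F', Place.coe_algebraMap,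
    ← IsScalarTower.algebraMap_apply K F F']

/-- the place of a prime of `B` restricts to `v`. -/
theorem hki_restrict_eq (Q : HeightOneSpectrum B) :
    (Place.ofHeightOneSpectrum (K := K) (F := F') Q).restrict F = v := by
  set w := Place.ofHeightOneSpectrum (K := K) (F := F') Q with hw
  apply Place.ext
  symm
  refine ValuationSubring.eq_of_le_of_ne_top _ ?_ (w.restrict F).ne_top'
  intro a ha
  rw [Place.restrict_toValuationSubring, ValuationSubring.mem_comap]
  have h := hki_algebraMap_coe (F' := F') (B := B) v ⟨a, ha⟩
  rw [show algebraMap F F' a = algebraMap F F' ((⟨a, ha⟩ : v.toValuationSubring) : F) from rfl,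
    ← h]
  exact (Fermat.Agent.S24.sf_mem_ofHeightOneSpectrum_iff (K := K) Q _).mpr
    (Q.valuation_le_one _)

/-- every place over `v` comes from a prime of `B`. -/
theorem hki_exists_prime (w : Place K F') (hw : w.restrict F = v) :
    ∃ Q : HeightOneSpectrum B, Place.ofHeightOneSpectrum (K := K) (F := F') Q = w := by
  refine Fermat.Agent.S24.sf_exists_ofHeightOneSpectrum_eq w fun b => ?_
  have hA : ∀ a : v.toValuationSubring, algebraMap F F' (a : F) ∈ w.toValuationSubring := by
    intro a
    have h : (a : F) ∈ (w.restrict F).toValuationSubring := by rw [hw]; exact a.2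
    exact h
  let φ : v.toValuationSubring →+* w.toValuationSubring :=
    ((algebraMap F F').comp v.toValuationSubring.subtype).codRestrict
      w.toValuationSubring.toSubring hA
  have hint : IsIntegral v.toValuationSubring (algebraMap B F' b) :=
    (IsIntegralClosure.isIntegral_iff (A := B)).mpr ⟨b, rfl⟩
  have h2 : IsIntegral w.toValuationSubring (algebraMap B F' b) :=
    IsIntegral.map_of_comp_eq φ (RingHom.id F') (by
      ext a
      show algebraMap F F' (a : F) = algebraMap v.toValuationSubring F' a
      rw [IsScalarTower.algebraMap_apply v.toValuationSubring F F']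
      rfl) hint
  obtain ⟨y, hy⟩ := IsIntegrallyClosed.isIntegral_iff.mp h2
  rw [← hy]; exact y.2

variable [Module.Finite v.toValuationSubring B]

/-- every nonzero prime of `B` lies over the maximal ideal of the valuation ring of `v`. -/
theorem hki_liesOver (Q : HeightOneSpectrum B) :
    Q.asIdeal.LiesOver v.heightOneSpectrum.asIdeal := by
  have hQ := Q.isPrime
  have hup : (Q.asIdeal.under v.toValuationSubring).IsPrime := inferInstance
  have hne : Q.asIdeal.under v.toValuationSubring ≠ ⊥ := Ideal.under_ne_bot _ Q.ne_bot
  have hmax := hup.isMaximal hne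
  exact ⟨(IsLocalRing.eq_maximalIdeal hmax).symm⟩

variable [Module.IsTorsionFree v.toValuationSubring B]

theorem hki_inertiaDeg_eq_one
    (hres' : ∀ w : Place K F', Function.Bijective (algebraMap K w.ResidueField))
    (Q : v.heightOneSpectrum.asIdeal.primesOver B) : Q.1.inertiaDeg v.toValuationSubring = 1 := by
  haveI := Q.2.2
  haveI : Q.1.IsMaximal := (hkiPrimeOver v.heightOneSpectrum Q).isMaximal
  haveI : v.heightOneSpectrum.asIdeal.IsMaximal := v.heightOneSpectrum.isMaximal
  refine Fermat.Agent.S24.sf_inertiaDeg_eq_one_of_surjective v.heightOneSpectrum.asIdeal Q.1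
    fun b => ?_
  obtain ⟨a, ha⟩ := hki_exists_sub_mem (K := K) (F' := F') (hkiPrimeOver v.heightOneSpectrum Q)
    (hres' _) b
  refine ⟨algebraMap K v.toValuationSubring a, ?_⟩
  rw [IsFractionRing.injective B F' (hki_algebraMap_const (F' := F') v a)]
  exact ha

end dict

/-- the order at `v` of a norm is the sum of the orders at the places over `v` (with an abstract
model `B` of the integral closure of the valuation ring of `v`). -/
theorem hki_ord_norm_aux {K F F' : Type*} [Field K] [Field F] [Field F'] [Algebra K F]
    [Algebra K F'] [Algebra F F'] [IsScalarTower K F F'] [FiniteDimensional F F']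
    (v : Place K F) (B : Type*) [CommRing B] [IsDedekindDomain B]
    [Algebra v.toValuationSubring B] [Algebra B F'] [IsFractionRing B F']
    [IsScalarTower v.toValuationSubring B F'] [IsIntegralClosure B v.toValuationSubring F']
    [Algebra K B] [IsScalarTower K B F'] [Module.Finite v.toValuationSubring B]
    [Module.IsTorsionFree v.toValuationSubring B] [CharZero K]
    (hres' : ∀ w : Place K F', Function.Bijective (algebraMap K w.ResidueField))
    (f : F') (hf : f ≠ 0) :
    v.ord (Algebra.norm F f) = ∑ᶠ w ∈ {w : Place K F' | w.restrict F = v}, w.ord f := by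
  haveI : CharZero v.toValuationSubring :=
    charZero_of_injective_algebraMap (algebraMap K v.toValuationSubring).injective
  haveI : CharZero (FractionRing v.toValuationSubring) :=
    charZero_of_injective_algebraMap
      (IsFractionRing.injective v.toValuationSubring (FractionRing v.toValuationSubring))
  have h := hki_log_norm (F := F) (F' := F') (B := B) v.heightOneSpectrum
    (hki_inertiaDeg_eq_one v hres') f hf
  have hinj : Function.Injective (fun Q : v.heightOneSpectrum.asIdeal.primesOver B =>
      Place.ofHeightOneSpectrum (K := K) (F := F') (hkiPrimeOver v.heightOneSpectrum Q)) :=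
    Fermat.Agent.S24.sf_ofHeightOneSpectrum_injective.comp (hkiPrimeOver_injective _)
  have hrange : {w : Place K F' | w.restrict F = v} =
      Set.range (fun Q : v.heightOneSpectrum.asIdeal.primesOver B =>
        Place.ofHeightOneSpectrum (K := K) (F := F') (hkiPrimeOver v.heightOneSpectrum Q)) := by
    ext w
    constructor
    · intro hw
      obtain ⟨Q, hQ⟩ := hki_exists_prime (B := B) v w hw
      exact ⟨⟨Q.asIdeal, Q.isPrime, hki_liesOver v Q⟩, hQ⟩
    · rintro ⟨Q, rfl⟩
      exact hki_restrict_eq v _
  rw [hrange, finsum_mem_range hinj]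
  show -WithZero.log (v.heightOneSpectrum.valuation F (Algebra.norm F f)) = _
  rw [h]
  refine finsum_congr fun Q => ?_
  rw [Fermat.Agent.S24.sf_ord_ofHeightOneSpectrum]

/-! ### Part 4: the norm formula and the fundamental identity -/

section final

variable {K F F' : Type*} [Field K] [Field F] [Field F'] [Algebra K F] [Algebra K F']
  [Algebra F F'] [IsScalarTower K F F'] [FiniteDimensional F F'] [CharZero K]

/-- `ord_v (N f) = ∑_{w ∣ v} ord_w f`. -/
theorem hki_ord_norm
    (hres' : ∀ w : Place K F', Function.Bijective (algebraMap K w.ResidueField))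
    (v : Place K F) (f : F') (hf : f ≠ 0) :
    v.ord (Algebra.norm F f) = ∑ᶠ w ∈ {w : Place K F' | w.restrict F = v}, w.ord f := by
  haveI : CharZero F := charZero_of_injective_algebraMap (algebraMap K F).injective
  haveI : IsScalarTower K v.toValuationSubring F' := IsScalarTower.of_algebraMap_eq fun a => by
    rw [IsScalarTower.algebraMap_apply K F F',
      IsScalarTower.algebraMap_apply v.toValuationSubring F F']
    rfl
  haveI : Module.IsTorsionFree v.toValuationSubring F' :=
    Module.IsTorsionFree.of_smul_eq_zero fun r m h => by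
      rw [Algebra.smul_def, mul_eq_zero] at h
      rcases h with h | h
      · left
        rw [IsScalarTower.algebraMap_apply v.toValuationSubring F F', map_eq_zero] at h
        exact Subtype.ext h
      · right
        exact h
  haveI : IsDedekindDomain (integralClosure v.toValuationSubring F') :=
    integralClosure.isDedekindDomain v.toValuationSubring F F'
  haveI : IsFractionRing (integralClosure v.toValuationSubring F') F' :=
    IsIntegralClosure.isFractionRing_of_finite_extension v.toValuationSubring F F' _
  haveI : Module.Finite v.toValuationSubring (integralClosure v.toValuationSubring F') :=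
    IsIntegralClosure.finite v.toValuationSubring F F' _
  exact hki_ord_norm_aux v (integralClosure v.toValuationSubring F') hres' f hf

omit [FiniteDimensional F F'] [CharZero K] [Field F'] [Algebra K F'] [Algebra F F']
  [IsScalarTower K F F'] in
theorem hki_deg_eq_one (v : Place K F) (h : Function.Bijective (algebraMap K v.ResidueField)) :
    v.deg = 1 := by
  have e : K ≃ₗ[K] v.ResidueField := LinearEquiv.ofBijective (Algebra.linearMap K v.ResidueField) h
  rw [Place.deg, ← e.finrank_eq, Module.finrank_self]

omit [CharZero K] in
theorem hki_inertiaDeg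
    (hres : ∀ v : Place K F, Function.Bijective (algebraMap K v.ResidueField))
    (hres' : ∀ w : Place K F', Function.Bijective (algebraMap K w.ResidueField))
    (w : Place K F') : w.inertiaDeg F = 1 := by
  have h := w.deg_restrict_mul_inertiaDeg (F := F)
  rw [hki_deg_eq_one _ (hres _), hki_deg_eq_one _ (hres' _), one_mul] at h
  exact h

/-- The norm formula for the pushforward of principal divisors. -/
theorem hki_normFormula
    (hres : ∀ v : Place K F, Function.Bijective (algebraMap K v.ResidueField))
    (hres' : ∀ w : Place K F', Function.Bijective (algebraMap K w.ResidueField)) :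
    Divisor.PushforwardNormFormula K F F' := by
  classical
  intro f hf D hD v
  rw [Divisor.pushforward_apply, hki_ord_norm hres' v f hf, finsum_mem_def,
    finsum_eq_sum_of_support_subset (s := D.support)]
  · refine Finset.sum_congr rfl fun w _ => ?_
    by_cases hw : w.restrict F = v
    · rw [if_pos hw, Set.indicator_of_mem (show w ∈ {w : Place K F' | w.restrict F = v} from hw),
        hD, hki_inertiaDeg hres hres', Nat.cast_one, mul_one]
    · rw [if_neg hw,
        Set.indicator_of_notMem (show w ∉ {w : Place K F' | w.restrict F = v} from hw)]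
  · intro w hw
    rw [Function.mem_support] at hw
    rw [Finset.mem_coe, Finsupp.mem_support_iff, hD]
    intro h0
    apply hw
    rw [Set.indicator_apply]
    split_ifs
    · exact h0
    · rfl

/-- The fundamental identity `∑_{w ∣ v} e (w ∣ v) deg w = [F' : F] deg v`. -/
theorem hki_fundamentalIdentity [HasPrincipalDivisors K F']
    (hres : ∀ v : Place K F, Function.Bijective (algebraMap K v.ResidueField))
    (hres' : ∀ w : Place K F', Function.Bijective (algebraMap K w.ResidueField)) :
    FundamentalIdentity K F F' := by
  classical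
  refine ⟨fun v => ?_⟩
  obtain ⟨π, hπ⟩ := IsDiscreteValuationRing.exists_irreducible v.toValuationSubring
  have hπ0 : (π : F) ≠ 0 := by
    simpa [ne_eq, ZeroMemClass.coe_eq_zero] using hπ.ne_zero
  have hordπ : v.ord (π : F) = 1 := v.ord_coe_irreducible hπ
  have hf0 : algebraMap F F' (π : F) ≠ 0 := by
    rw [Ne, map_eq_zero]; exact hπ0
  obtain ⟨D, hD, -⟩ := HasPrincipalDivisors.exists_divisor (K := K) (algebraMap F F' (π : F)) hf0
  have hNF := hki_normFormula hres hres' (algebraMap F F' (π : F)) hf0 D hD v
  rw [Algebra.norm_algebraMap, Fermat.Agent.S24.sf_ord_pow, hordπ, mul_one,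
    Divisor.pushforward_apply] at hNF
  rw [hki_deg_eq_one v (hres v), Nat.cast_one, mul_one, ← hNF, ← Finset.sum_filter]
  have hfib : v.fiber F' = D.support.filter (fun w => w.restrict F = v) := by
    ext w
    rw [Place.mem_fiber, Finset.mem_filter, Finsupp.mem_support_iff, hD]
    constructor
    · intro hw
      refine ⟨?_, hw⟩
      rw [w.ord_restrict, hw, hordπ, mul_one]
      have := w.ramificationIndex_pos (F := F)
      omega
    · exact fun h => h.2
  rw [hfib]
  refine Finset.sum_congr rfl fun w hw => ?_
  rw [Finset.mem_filter] at hw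
  rw [hD, w.ord_restrict, hw.2, hordπ, mul_one, hki_deg_eq_one w (hres' w),
    hki_inertiaDeg hres hres']

end final

end Fermat.Agent.S37
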