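import Mathlib
import Fermat.Agent.S37.RedConsFib

/-!
# S37, package JR-CONS (REDMAP): the special-fibre side of a chart

`k` a field, `κ / k` a field, `u ∈ κ`, and `B ⊆ κ` a `k`-subalgebra which is free over `k[u]` on
a family `β` (in the application `B` is the ring of elements of `κ` integral over `k[u]`, and
`β` the reduction of an integral basis of the chart).  Then:

* `rdmb_isFractionRing` : `κ` is the fraction field of `B`;
* `rdmb_isDedekindDomain` : `B` is a Dedekind domain as soon as it is integrally closed in `κ`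
  (finite free over the PID `k[X]` + integrally closed; no separability is needed);
* `rdmb_main` : both, for `B = {y | y integral over k[u]}`, from hypotheses in the shapes
  exported by the `(SM)` package.

Together with `rdm_fibre_sum_coe` this gives all special-fibre inputs of `rdm_cons`.
-/

set_option autoImplicit false
set_option linter.style.haveILetI false

open Polynomial IsDedekindDomain

namespace Fermat.Agent.S37

section chartB

variable {k κ : Type*} [Field k] [Field κ] [Algebra k κ] (B : Subalgebra k κ)

/-- (B1) `κ` is the fraction field of `B` if every element of `κ` is a quotient of elements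
of `B`. -/
theorem rdmb_isFractionRing (hfrac : ∀ y : κ, ∃ b ∈ B, ∃ s ∈ B, s ≠ 0 ∧ y * s = b) :
    IsFractionRing B κ := by
  refine IsFractionRing.of_field B κ fun y => ?_
  obtain ⟨b, hb, s, hs, hs0, h⟩ := hfrac y
  refine ⟨⟨b, hb⟩, ⟨s, hs⟩, ?_⟩
  show y = b / s
  rw [eq_div_iff hs0]
  exact h

/-- (B2) A `k`-subalgebra of `κ` which is free of finite rank over `k[u]` and integrally closed
in its fraction field `κ` is a Dedekind domain. -/
theorem rdmb_isDedekindDomain [IsFractionRing B κ] (u : κ) (huB : u ∈ B) {d : ℕ}
    (β : Fin d → κ) (hβ : ∀ i, β i ∈ B)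
    (hli : ∀ p : Fin d → Polynomial k, ∑ i, aeval u (p i) * β i = 0 → ∀ i, p i = 0)
    (hspan : ∀ b ∈ B, ∃ p : Fin d → Polynomial k, b = ∑ i, aeval u (p i) * β i)
    (hclosed : ∀ y : κ, IsIntegral B y → y ∈ B) : IsDedekindDomain B := by
  letI := rdmPolyAlgebra B u huB
  let bas := rdmBasis B u huB β hβ hli hspan
  have hfin : Module.Finite (Polynomial k) B := Module.Finite.of_basis bas
  have hint : Algebra.IsIntegral (Polynomial k) B := Algebra.IsIntegral.of_finite (Polynomial k) B
  have h1 : IsNoetherian (Polynomial k) B :=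
    isNoetherian_of_isNoetherianRing_of_finite (Polynomial k) B
  have hnoeth : IsNoetherianRing B := isNoetherianRing_iff.mpr (isNoetherian_of_tower _ h1)
  have hdim : Ring.DimensionLEOne B := Ring.DimensionLEOne.of_isIntegral (Polynomial k) B
  have h : IsIntegrallyClosed B :=
    (isIntegrallyClosed_iff κ).mpr fun {x} hx => ⟨⟨x, hclosed x hx⟩, rfl⟩
  exact { hnoeth, hdim, h with }

/-- The elements of `κ` integral over `k[u]` (spelled with `RingHom.IsIntegralElem`) are closed
under integral dependence. -/
theorem rdmb_closed (u : κ)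
    (hB : ∀ y : κ, y ∈ B ↔ ((aeval u : Polynomial k →ₐ[k] κ) : Polynomial k →+* κ).IsIntegralElem y)
    (y : κ) (hy : IsIntegral B y) : y ∈ B := by
  have huB : u ∈ B := by
    rw [hB]
    have := ((aeval u : Polynomial k →ₐ[k] κ) : Polynomial k →+* κ).isIntegralElem_map (x := X)
    simpa using this
  letI := rdmPolyAlgebra B u huB
  letI : Algebra (Polynomial k) κ := ((aeval u : Polynomial k →ₐ[k] κ) : Polynomial k →+* κ).toAlgebra
  haveI : IsScalarTower (Polynomial k) B κ :=
    IsScalarTower.of_algebraMap_eq fun p => (rdm_algebraMap_poly B u huB p).symm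
  haveI : Algebra.IsIntegral (Polynomial k) B := by
    refine ⟨fun b => ?_⟩
    have hb : IsIntegral (Polynomial k) (b : κ) := (hB _).mp b.2
    exact (isIntegral_algebraMap_iff (B := κ) Subtype.val_injective).mp hb
  have h1 : IsIntegral (Polynomial k) y := isIntegral_trans (A := B) y hy
  exact (hB y).mpr h1

/-- **(B3)** The special-fibre side of a chart: for `B = {y ∈ κ | y integral over k[u]}` with a
`k[u]`-independent family `β ⊆ B` spanning `B`, such that `κ` is spanned by `β` over `k(u)`, `κ`
is the fraction field of `B` and `B` is a Dedekind domain. -/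
theorem rdmb_main (u : κ) (hu : Transcendental k u)
    (hB : ∀ y : κ, y ∈ B ↔ ((aeval u : Polynomial k →ₐ[k] κ) : Polynomial k →+* κ).IsIntegralElem y)
    {d : ℕ} (β : Fin d → κ) (hβ : ∀ i, β i ∈ B)
    (hli : ∀ p : Fin d → Polynomial k, ∑ i, aeval u (p i) * β i = 0 → ∀ i, p i = 0)
    (hspan : ∀ b ∈ B, ∃ p : Fin d → Polynomial k, b = ∑ i, aeval u (p i) * β i)
    (hgen : ∀ y : κ, ∃ (p : Fin d → Polynomial k) (q : Polynomial k), q ≠ 0 ∧
      aeval u q * y = ∑ i, aeval u (p i) * β i) :
    u ∈ B ∧ IsFractionRing B κ ∧ IsDedekindDomain B := by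
  have hmem : ∀ p : Polynomial k, aeval u p ∈ B := by
    intro p
    rw [hB]
    exact ((aeval u : Polynomial k →ₐ[k] κ) : Polynomial k →+* κ).isIntegralElem_map (x := p)
  have huB : u ∈ B := by simpa using hmem X
  have hfr : IsFractionRing B κ := by
    refine rdmb_isFractionRing B fun y => ?_
    obtain ⟨p, q, hq, h⟩ := hgen y
    refine ⟨∑ i, aeval u (p i) * β i, ?_, aeval u q, hmem q, ?_, ?_⟩
    · exact Subalgebra.sum_mem _ fun i _ => Subalgebra.mul_mem _ (hmem _) (hβ i)
    · intro h0
      exact hq ((injective_iff_map_eq_zero _).mp (transcendental_iff_injective.mp hu) q h0)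
    · rw [mul_comm]
      exact h
  refine ⟨huB, hfr, ?_⟩
  haveI := hfr
  exact rdmb_isDedekindDomain B u huB β hβ hli hspan (rdmb_closed B u hB)

end chartB

end Fermat.Agent.S37
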