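import Mathlib

/-!
# S37, conservation (direct route), part 1: the fibre norm formula, characteristic-free

For Dedekind domains `A ⊆ B` with `B` finite torsion-free over `A`, and a maximal ideal `p ≠ ⊥`
of `A` all of whose primes in `B` have inertia degree one, the relative norm of every prime
over `p` is `p` (no perfectness / separability hypothesis), hence the multiplicity of `p` in the
relative norm of an ideal `I` is the sum of the multiplicities in `I` of the primes over `p`.
Specialised to `A = L[X]`, `p = (X - β)`: the root multiplicity of `β` in the norm of `y`.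
-/

set_option autoImplicit false
set_option linter.style.haveILetI false
set_option linter.unusedSectionVars false

open IsDedekindDomain UniqueFactorizationMonoid Polynomial

namespace Fermat.Agent.S37

section core

variable {A B : Type*} [CommRing A] [IsDedekindDomain A] [CommRing B] [IsDedekindDomain B]
  [Algebra A B] [Module.Finite A B] [Module.IsTorsionFree A B]

/-- the exponent of `p` in the relative norm of a prime over `p` is at least one. -/
theorem rcd_relNorm_prime_exp (p : Ideal A) [hpm : p.IsMaximal]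
    (q : Ideal B) [hl : q.LiesOver p] :
    ∃ s : ℕ, 0 < s ∧ Ideal.relNorm A q = p ^ s := by
  obtain ⟨s, hs⟩ := Ideal.exists_relNorm_eq_pow_of_isPrime q p
  refine ⟨s, ?_, hs⟩
  rcases Nat.eq_zero_or_pos s with h0 | h0
  · exfalso
    rw [h0, pow_zero, Ideal.one_eq_top] at hs
    have h1 := Ideal.relNorm_le_comap A q
    rw [hs, top_le_iff] at h1
    have h2 : p = ⊤ := by
      rw [hl.over]; exact h1
    exact hpm.ne_top h2
  · exact h0

/-- if all primes over `p` have inertia degree one, the relative norm of each of them is `p`: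
from `∑ e_i s_i = [B : A] = ∑ e_i` and `s_i ≥ 1`. No separability hypothesis. -/
theorem rcd_relNorm_prime (p : Ideal A) [hpm : p.IsMaximal] (hp0 : p ≠ ⊥)
    (h1 : ∀ Q : p.primesOver B, Q.1.inertiaDeg A = 1)
    (q : Ideal B) [hq : q.IsPrime] [hl : q.LiesOver p] :
    Ideal.relNorm A q = p := by
  classical
  have hs : ∀ Q : p.primesOver B, ∃ s : ℕ, 0 < s ∧ Ideal.relNorm A Q.1 = p ^ s := by
    intro Q
    haveI := Q.2.2
    exact rcd_relNorm_prime_exp p Q.1
  choose s hs0 hsQ using hs
  have hmap := Ideal.map_algebraMap_eq_finsetProd_pow (R := B) (p := p) hp0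
  have hrel := Ideal.relNorm_algebraMap B p
  rw [hmap, map_prod, ← Finset.prod_set_coe] at hrel
  have hrel2 : ∏ Q : p.primesOver B, p ^ (s Q * Q.1.ramificationIdx A) =
      p ^ Module.finrank A B := by
    rw [← hrel]
    refine Finset.prod_congr rfl fun Q _ => ?_
    rw [map_pow, hsQ Q, pow_mul]
  rw [Finset.prod_pow_eq_pow_sum] at hrel2
  have hinj : Function.Injective (fun n : ℕ => p ^ n) := by
    apply (IsLeftCancelMulZero.mul_left_cancel_of_ne_zero hp0).pow_injective
    rw [Ideal.one_eq_top]
    exact hpm.ne_top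
  have hsum : ∑ Q : p.primesOver B, s Q * Q.1.ramificationIdx A = Module.finrank A B :=
    hinj hrel2
  have hfund := Ideal.sum_ramification_inertia_eq_finrank p B
  have hfund2 : ∑ Q : p.primesOver B, Q.1.ramificationIdx A = Module.finrank A B := by
    rw [← hfund]
    refine Finset.sum_congr rfl fun Q _ => ?_
    rw [h1 Q, mul_one]
  have hle : ∀ Q : p.primesOver B, Q.1.ramificationIdx A ≤ s Q * Q.1.ramificationIdx A :=
    fun Q => Nat.le_mul_of_pos_left _ (hs0 Q)
  have heq : ∀ Q ∈ (Finset.univ : Finset (p.primesOver B)),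
      Q.1.ramificationIdx A = s Q * Q.1.ramificationIdx A := by
    apply (Finset.sum_eq_sum_iff_of_le (fun Q _ => hle Q)).mp
    rw [hsum, hfund2]
  let Q₁ : p.primesOver B := ⟨q, hq, hl⟩
  have h3 := heq Q₁ (Finset.mem_univ _)
  have hpos : 0 < Q₁.1.ramificationIdx A := by
    haveI : Q₁.1.IsPrime := hq
    exact Ideal.ramificationIdx_pos (R := A) (q := Q₁.1)
  have hs1 : s Q₁ = 1 := by
    have : 1 * Q₁.1.ramificationIdx A = s Q₁ * Q₁.1.ramificationIdx A := by
      rw [one_mul]; exact h3
    exact (Nat.eq_of_mul_eq_mul_right hpos this).symm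
  have := hsQ Q₁
  rw [hs1, pow_one] at this
  exact this

/-- the multiplicity of a maximal ideal `p` in the relative norm of a prime ideal. -/
theorem rcd_count_relNorm_prime (p : Ideal A) [hpm : p.IsMaximal] (hp0 : p ≠ ⊥)
    (h1 : ∀ Q : p.primesOver B, Q.1.inertiaDeg A = 1) (q : Ideal B) (hq : Prime q) :
    (normalizedFactors (Ideal.relNorm A q)).count p =
      ∑ᶠ Q : p.primesOver B, (normalizedFactors q).count Q.1 := by
  classical
  have hqp : q.IsPrime := Ideal.isPrime_of_prime hq
  have hq0 : q ≠ ⊥ := hq.ne_zero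
  have hnf : normalizedFactors q = {q} := by
    rw [normalizedFactors_irreducible hq.irreducible, normalize_eq]
  have hpP : Prime p := Ideal.prime_of_isPrime hp0 hpm.isPrime
  by_cases hlies : q.LiesOver p
  · let Q₁ : p.primesOver B := ⟨q, hqp, hlies⟩
    rw [rcd_relNorm_prime p hp0 h1 q,
      normalizedFactors_irreducible hpP.irreducible, normalize_eq, Multiset.count_singleton_self]
    rw [finsum_eq_single _ Q₁]
    · rw [hnf]; simp [Q₁]
    · intro Q hQ
      rw [hnf, Multiset.count_singleton, if_neg]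
      intro h; exact hQ (Subtype.ext h)
  · have hrhs : ∑ᶠ Q : p.primesOver B, (normalizedFactors q).count Q.1 = 0 := by
      apply finsum_eq_zero_of_forall_eq_zero
      intro Q
      rw [hnf, Multiset.count_singleton, if_neg]
      intro h
      exact hlies (h ▸ Q.2.2)
    rw [hrhs, Multiset.count_eq_zero]
    have hne : Ideal.relNorm A q ≠ ⊥ := by rwa [Ne, Ideal.relNorm_eq_bot_iff]
    rw [Ideal.mem_normalizedFactors_iff hne]
    rintro ⟨-, hle⟩
    have hup : (q.under A).IsPrime := inferInstance
    obtain ⟨s, hs⟩ := Ideal.exists_relNorm_eq_pow_of_isPrime q (q.under A)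
    rw [hs] at hle
    have hle' : q.under A ≤ p := hpm.isPrime.le_of_pow_le hle
    have hunder0 : q.under A ≠ ⊥ := by
      intro h0
      apply hne
      have := Ideal.relNorm_le_comap A q
      exact le_bot_iff.mp (this.trans (le_of_eq h0))
    have hmax : (q.under A).IsMaximal := hup.isMaximal hunder0
    exact hlies ⟨(hmax.eq_of_le hpm.ne_top hle').symm⟩

/-- the multiplicity of a maximal ideal `p` in the relative norm of an ideal. -/
theorem rcd_count_relNorm (p : Ideal A) [hpm : p.IsMaximal] (hp0 : p ≠ ⊥)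
    (h1 : ∀ Q : p.primesOver B, Q.1.inertiaDeg A = 1) (I : Ideal B) (hI : I ≠ ⊥) :
    (normalizedFactors (Ideal.relNorm A I)).count p =
      ∑ᶠ Q : p.primesOver B, (normalizedFactors I).count Q.1 := by
  classical
  have hfin : Finite (p.primesOver B) := inferInstance
  revert hI
  refine UniqueFactorizationMonoid.induction_on_prime I ?_ ?_ ?_
  · intro h; exact absurd rfl h
  · intro J hJ _
    have hJ1 : J = ⊤ := Ideal.isUnit_iff.mp hJ
    have h1' : normalizedFactors (⊤ : Ideal B) = 0 := by
      rw [← Ideal.one_eq_top]; exact normalizedFactors_one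
    have h2 : normalizedFactors (⊤ : Ideal A) = 0 := by
      rw [← Ideal.one_eq_top]; exact normalizedFactors_one
    rw [hJ1, Ideal.relNorm_top, h1', h2]
    simp
  · intro a q ha hq ih _
    have hq0 : q ≠ 0 := hq.ne_zero
    have hra : Ideal.relNorm A a ≠ 0 := by
      rwa [Ne, Ideal.zero_eq_bot, Ideal.relNorm_eq_bot_iff]
    have hrq : Ideal.relNorm A q ≠ 0 := by
      rwa [Ne, Ideal.zero_eq_bot, Ideal.relNorm_eq_bot_iff]
    rw [map_mul, normalizedFactors_mul hrq hra, Multiset.count_add, normalizedFactors_mul hq0 ha]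
    simp only [Multiset.count_add]
    rw [finsum_add_distrib (Set.toFinite _) (Set.toFinite _),
      rcd_count_relNorm_prime p hp0 h1 q hq, ih ha]

/-- inertia degree one from surjectivity of the residue field map. -/
theorem rcd_inertiaDeg_eq_one (p : Ideal A) (q : Ideal B) [q.LiesOver p] [hp : p.IsMaximal]
    [q.IsMaximal] (h : ∀ b : B, ∃ a : A, b - algebraMap A B a ∈ q) : q.inertiaDeg A = 1 := by
  rw [Ideal.inertiaDeg_eq_of_isMaximal p q]
  have hsurj : Function.Surjective (algebraMap (A ⧸ p) (B ⧸ q)) := by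
    intro w
    obtain ⟨b, rfl⟩ := Ideal.Quotient.mk_surjective w
    obtain ⟨a, ha⟩ := h b
    refine ⟨Ideal.Quotient.mk _ a, ?_⟩
    rw [Ideal.Quotient.algebraMap_mk_of_liesOver]
    symm
    rw [Ideal.Quotient.eq]
    exact ha
  have hinj : Function.Injective (algebraMap (A ⧸ p) (B ⧸ q)) :=
    FaithfulSMul.algebraMap_injective _ _
  have : Nontrivial (A ⧸ p) := Ideal.Quotient.nontrivial_iff.mpr hp.ne_top
  have e := LinearEquiv.ofBijective (Algebra.linearMap (A ⧸ p) (B ⧸ q)) ⟨hinj, hsurj⟩
  rw [← e.finrank_eq, Module.finrank_self]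

end core

/-! ### the polynomial case -/

section poly

variable {L : Type*} [Field L]

/-- the multiplicity of the prime `(X - β)` in a principal ideal of `L[X]`. -/
theorem rcd_count_span_X_sub_C (N : L[X]) (hN : N ≠ 0) (β : L) :
    (normalizedFactors (Ideal.span {N})).count (Ideal.span {X - C β}) = N.rootMultiplicity β := by
  classical
  have hprime : Prime (X - C β : L[X]) := prime_X_sub_C β
  rw [Ideal.count_span_normalizedFactors_eq hN hprime,
    ← multiplicity_eq_count_normalizedFactors hprime.irreducible hN,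
    rootMultiplicity_eq_multiplicity, if_neg hN]

variable {D : Type*} [CommRing D] [IsDedekindDomain D] [Algebra L[X] D] [Module.Finite L[X] D]
  [Module.Free L[X] D]

/-- **Fibre norm formula**, characteristic-free: for a Dedekind domain `D`, finite free over
`L[X]`, all of whose residue fields are `L`, the root multiplicity of `β` in the norm of `y` is
the sum of the multiplicities of `y` at the primes of `D` over `(X - β)`. -/
theorem rcd_fnf_count
    (hres : ∀ M : Ideal D, M.IsMaximal → ∀ x : D, ∃ c : L, x - algebraMap L[X] D (C c) ∈ M)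
    (β : L) (y : D) (hy : y ≠ 0) :
    (Algebra.norm L[X] y).rootMultiplicity β =
      ∑ᶠ Q : (Ideal.span {X - C β} : Ideal L[X]).primesOver D,
        (normalizedFactors (Ideal.span {y})).count Q.1 := by
  classical
  have hprime : Prime (X - C β : L[X]) := prime_X_sub_C β
  have hp0 : (Ideal.span {X - C β} : Ideal L[X]) ≠ ⊥ := by
    rw [Ne, Ideal.span_singleton_eq_bot]; exact hprime.ne_zero
  haveI hpp : (Ideal.span {X - C β} : Ideal L[X]).IsPrime :=
    (Ideal.span_singleton_prime hprime.ne_zero).mpr hprime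
  haveI hpm : (Ideal.span {X - C β} : Ideal L[X]).IsMaximal := hpp.isMaximal hp0
  have h1 : ∀ Q : (Ideal.span {X - C β} : Ideal L[X]).primesOver D,
      Q.1.inertiaDeg L[X] = 1 := by
    intro Q
    haveI := Q.2.1
    haveI := Q.2.2
    have hQ0 : Q.1 ≠ ⊥ := Ideal.ne_bot_of_liesOver_of_ne_bot hp0 Q.1
    haveI hQm : Q.1.IsMaximal := Q.2.1.isMaximal hQ0
    refine rcd_inertiaDeg_eq_one (Ideal.span {X - C β}) Q.1 fun b => ?_
    obtain ⟨c, hc⟩ := hres Q.1 hQm b
    exact ⟨C c, hc⟩
  have hI : (Ideal.span {y} : Ideal D) ≠ ⊥ := by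
    rw [Ne, Ideal.span_singleton_eq_bot]; exact hy
  have hN : Algebra.norm L[X] y ≠ 0 := by
    rw [Ne, Algebra.norm_eq_zero_iff]; exact hy
  rw [← rcd_count_relNorm (Ideal.span {X - C β}) hp0 h1 (Ideal.span {y}) hI,
    Ideal.relNorm_singleton, Algebra.intNorm_eq_norm, rcd_count_span_X_sub_C _ hN]

end poly

/-! ### orders at height one primes -/

section ord

variable {D : Type*} [CommRing D] [IsDedekindDomain D]

/-- the order of an element of a Dedekind domain at a height one prime (`0` at `0`). -/
noncomputable def rcdOrd (M : HeightOneSpectrum D) (x : D) : ℕ :=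
  (normalizedFactors (Ideal.span {x})).count M.asIdeal

theorem rcd_span_ne_zero {x : D} (hx : x ≠ 0) : (Ideal.span {x} : Ideal D) ≠ 0 := by
  rw [Ne, Ideal.zero_eq_bot, Ideal.span_singleton_eq_bot]; exact hx

theorem rcdOrd_mul (M : HeightOneSpectrum D) {x y : D} (hx : x ≠ 0) (hy : y ≠ 0) :
    rcdOrd M (x * y) = rcdOrd M x + rcdOrd M y := by
  classical
  unfold rcdOrd
  rw [← Ideal.span_singleton_mul_span_singleton,
    normalizedFactors_mul (rcd_span_ne_zero hx) (rcd_span_ne_zero hy), Multiset.count_add]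

theorem rcdOrd_pos_iff (M : HeightOneSpectrum D) {x : D} (hx : x ≠ 0) :
    0 < rcdOrd M x ↔ x ∈ M.asIdeal := by
  classical
  unfold rcdOrd
  rw [Multiset.count_pos, Ideal.mem_normalizedFactors_iff (rcd_span_ne_zero hx),
    Ideal.span_singleton_le_iff_mem]
  exact ⟨fun h => h.2, fun h => ⟨M.isPrime, h⟩⟩

theorem rcdOrd_eq_zero_iff (M : HeightOneSpectrum D) {x : D} (hx : x ≠ 0) :
    rcdOrd M x = 0 ↔ x ∉ M.asIdeal := by
  rw [← rcdOrd_pos_iff M hx]; omega

theorem rcdOrd_zero (M : HeightOneSpectrum D) : rcdOrd M (0 : D) = 0 := by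
  classical
  unfold rcdOrd
  have : (Ideal.span {(0 : D)} : Ideal D) = 0 := by simp
  rw [this, normalizedFactors_zero]
  simp

/-- relation with the adic valuation. -/
theorem rcd_intValuation (M : HeightOneSpectrum D) {x : D} (hx : x ≠ 0) :
    M.intValuation x = WithZero.exp (-(rcdOrd M x : ℤ)) := by
  classical
  rw [M.intValuation_if_neg hx, rcdOrd,
    Ideal.count_associates_factors_eq (rcd_span_ne_zero hx) M.isPrime M.ne_bot]

/-- the primes containing a nonzero element are finite in number. -/
theorem rcd_finite_zeros {x : D} (hx : x ≠ 0) :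
    {M : HeightOneSpectrum D | x ∈ M.asIdeal}.Finite := by
  have h := Ideal.finite_factors (rcd_span_ne_zero hx)
  refine h.subset fun M hM => ?_
  simp only [Set.mem_ofPred_eq] at hM ⊢
  rw [Ideal.dvd_iff_le, Ideal.span_singleton_le_iff_mem]
  exact hM

theorem rcd_finite_support {x : D} (hx : x ≠ 0) :
    (Function.support fun M : HeightOneSpectrum D => rcdOrd M x).Finite := by
  refine (rcd_finite_zeros hx).subset fun M hM => ?_
  simp only [Function.mem_support, Set.mem_ofPred_eq] at hM ⊢
  exact (rcdOrd_pos_iff M hx).mp (Nat.pos_of_ne_zero hM)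

/-- divisibility from the orders. -/
theorem rcd_dvd_of_ord_le {x y : D} (hx : x ≠ 0) (hy : y ≠ 0)
    (h : ∀ M : HeightOneSpectrum D, rcdOrd M x ≤ rcdOrd M y) : x ∣ y := by
  classical
  have h1 : (Ideal.span {x} : Ideal D) ∣ Ideal.span {y} := by
    rw [dvd_iff_normalizedFactors_le_normalizedFactors (rcd_span_ne_zero hx)
      (rcd_span_ne_zero hy), Multiset.le_iff_count]
    intro I
    by_cases hI : I ∈ normalizedFactors (Ideal.span {x} : Ideal D)
    · have hp := (Ideal.mem_normalizedFactors_iff (rcd_span_ne_zero hx)).mp hI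
      have hI0 : I ≠ ⊥ := (prime_of_normalized_factor I hI).ne_zero
      exact h ⟨I, hp.1, hI0⟩
    · rw [Multiset.count_eq_zero_of_notMem hI]
      exact Nat.zero_le _
  rw [Ideal.dvd_iff_le, Ideal.span_singleton_le_span_singleton] at h1
  exact h1

end ord

/-! ### the fibre norm formula in height-one-spectrum form -/

section polyH

variable {L : Type*} [Field L]
variable {D : Type*} [CommRing D] [IsDedekindDomain D] [Algebra L[X] D] [Module.Finite L[X] D]
  [Module.Free L[X] D]

theorem rcd_span_X_sub_C_isMaximal (β : L) : (Ideal.span {X - C β} : Ideal L[X]).IsMaximal := by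
  have hprime : Prime (X - C β : L[X]) := prime_X_sub_C β
  have hp0 : (Ideal.span {X - C β} : Ideal L[X]) ≠ ⊥ := by
    rw [Ne, Ideal.span_singleton_eq_bot]; exact hprime.ne_zero
  exact ((Ideal.span_singleton_prime hprime.ne_zero).mpr hprime).isMaximal hp0

/-- a prime of `D` lies over `(X - β)` iff it contains `X - β`. -/
theorem rcd_liesOver_iff (β : L) (Q : Ideal D) [hQ : Q.IsPrime] :
    Q.LiesOver (Ideal.span {X - C β} : Ideal L[X]) ↔ algebraMap L[X] D (X - C β) ∈ Q := by
  haveI := rcd_span_X_sub_C_isMaximal β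
  constructor
  · intro h
    have h1 : (X - C β : L[X]) ∈ Q.under L[X] := by
      rw [← h.over]; exact Ideal.subset_span (Set.mem_singleton _)
    exact h1
  · intro h
    refine ⟨?_⟩
    have hle : (Ideal.span {X - C β} : Ideal L[X]) ≤ Q.under L[X] := by
      rw [Ideal.span_singleton_le_iff_mem]; exact h
    have hne : Q.under L[X] ≠ ⊤ := by
      have : (Q.under L[X]).IsPrime := inferInstance
      exact this.ne_top
    exact (rcd_span_X_sub_C_isMaximal β).eq_of_le hne hle

/-- **Fibre norm formula** (height-one-spectrum form). -/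
theorem rcd_fnf
    (hres : ∀ M : Ideal D, M.IsMaximal → ∀ x : D, ∃ c : L, x - algebraMap L[X] D (C c) ∈ M)
    (β : L) (y : D) (hy : y ≠ 0) :
    (Algebra.norm L[X] y).rootMultiplicity β =
      ∑ᶠ M ∈ {M : HeightOneSpectrum D | algebraMap L[X] D (X - C β) ∈ M.asIdeal},
        rcdOrd M y := by
  classical
  rw [rcd_fnf_count hres β y hy]
  have hprime : Prime (X - C β : L[X]) := prime_X_sub_C β
  have hp0 : (Ideal.span {X - C β} : Ideal L[X]) ≠ ⊥ := by
    rw [Ne, Ideal.span_singleton_eq_bot]; exact hprime.ne_zero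
  let e : {M : HeightOneSpectrum D | algebraMap L[X] D (X - C β) ∈ M.asIdeal} ≃
      (Ideal.span {X - C β} : Ideal L[X]).primesOver D :=
    { toFun := fun M => ⟨M.1.asIdeal, M.1.isPrime,
        (rcd_liesOver_iff β M.1.asIdeal (hQ := M.1.isPrime)).mpr M.2⟩
      invFun := fun Q => ⟨⟨Q.1, Q.2.1,
        haveI := Q.2.2; Ideal.ne_bot_of_liesOver_of_ne_bot hp0 Q.1⟩,
        (rcd_liesOver_iff β Q.1 (hQ := Q.2.1)).mp Q.2.2⟩
      left_inv := fun M => rfl
      right_inv := fun Q => rfl }
  rw [← finsum_set_coe_eq_finsum_mem, ← finsum_comp_equiv e]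
  rfl

end polyH

end Fermat.Agent.S37
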