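import Mathlib

/-!
# S37, conservation (direct route), part 2: Gauss's lemma and conservation on the line

`A` a valuation subring of an algebraically closed field `K`, `res : A →+* k` with kernel the
non-units.

* `rcd_gauss`: if `H ∈ A[X]` has nonzero reduction and `H * G ∈ A[X]` for `G ∈ K[X]`, then
  `G ∈ A[X]`.
* `rcd_line`: for `G ∈ A[X]` with nonzero reduction, the root multiplicity of `β` in the
  reduction of `G` is the number of roots of `G` (with multiplicity) in `A` reducing to `β`.
-/


set_option autoImplicit false

open Polynomial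

namespace Fermat.Agent.S37

section gauss

variable {K k : Type*} [Field K] [Field k] (A : ValuationSubring K) (res : A →+* k)

/-- the inverse of an element outside a valuation subring is a non-unit of it. -/
theorem rcd_inv_not_isUnit {c : K} (hc : c ∉ A) (h : c⁻¹ ∈ A) : ¬ IsUnit (⟨c⁻¹, h⟩ : A) := by
  intro hu
  obtain ⟨b, hb⟩ := hu.exists_right_inv
  have hb' : c⁻¹ * (b : K) = 1 := by
    have := congrArg Subtype.val hb
    simpa using this
  have hc0 : c ≠ 0 := by
    rintro rfl
    simp at hb'
  have : (b : K) = c := by
    field_simp at hb'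
    exact hb'
  exact hc (this ▸ b.2)

/-- **Gauss's lemma** over a valuation ring: if `H ∈ A[X]` has nonzero reduction and
`H * G ∈ A[X]` for `G ∈ K[X]`, then `G ∈ A[X]`. -/
theorem rcd_gauss (hker : ∀ a : A, res a = 0 ↔ ¬ IsUnit a) (H F : A[X]) (hH : H.map res ≠ 0)
    (G : K[X]) (hG : H.map A.subtype * G = F.map A.subtype) :
    ∃ G' : A[X], G'.map A.subtype = G := by
  classical
  by_cases hG0 : G = 0
  · exact ⟨0, by simp [hG0]⟩
  have hsupp : G.support.Nonempty := by
    rwa [Polynomial.support_nonempty]
  obtain ⟨i, hi, hmax⟩ := Finset.exists_max_image G.support (fun j => A.valuation (G.coeff j)) hsupp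
  set c := G.coeff i with hc
  have hc0 : c ≠ 0 := Polynomial.mem_support_iff.mp hi
  have hdiv : ∀ j, G.coeff j * c⁻¹ ∈ A := by
    intro j
    by_cases hj : j ∈ G.support
    · rw [← A.valuation_le_one_iff, map_mul, map_inv₀]
      have h1 := hmax j hj
      have h2 : A.valuation c ≠ 0 := (Valuation.ne_zero_iff _).mpr hc0
      rw [mul_inv_le_iff₀ (zero_lt_iff.mpr h2), one_mul]
      exact h1
    · rw [Polynomial.notMem_support_iff.mp hj, zero_mul]
      exact A.zero_mem
  by_cases hcA : c ∈ A
  · -- all coefficients in A
    have hall : ∀ j, G.coeff j ∈ A := by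
      intro j
      have : G.coeff j = (G.coeff j * c⁻¹) * c := by field_simp
      rw [this]
      exact A.mul_mem _ _ (hdiv j) hcA
    refine ⟨∑ j ∈ G.support, Polynomial.monomial j (⟨G.coeff j, hall j⟩ : A), ?_⟩
    rw [Polynomial.map_sum]
    conv_rhs => rw [G.as_sum_support]
    refine Finset.sum_congr rfl fun j _ => ?_
    rw [Polynomial.map_monomial]
    rfl
  · exfalso
    have hcinv : c⁻¹ ∈ A := (A.mem_or_inv_mem c).resolve_left hcA
    have hnu := rcd_inv_not_isUnit A hcA hcinv
    -- G' = c⁻¹ • G ∈ A[X]
    let G' : A[X] := ∑ j ∈ G.support, Polynomial.monomial j (⟨G.coeff j * c⁻¹, hdiv j⟩ : A)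
    have hG' : G'.map A.subtype = C c⁻¹ * G := by
      rw [Polynomial.map_sum]
      conv_rhs => rw [G.as_sum_support, Finset.mul_sum]
      refine Finset.sum_congr rfl fun j _ => ?_
      rw [Polynomial.map_monomial, Polynomial.C_mul_monomial]
      congr 1
      exact mul_comm _ _
    have hcoeff : G'.coeff i = 1 := by
      have h1 : (G'.map A.subtype).coeff i = 1 := by
        rw [hG', Polynomial.coeff_C_mul, ← hc, inv_mul_cancel₀ hc0]
      rw [Polynomial.coeff_map] at h1
      exact Subtype.ext h1
    have hprod : H * G' = C (⟨c⁻¹, hcinv⟩ : A) * F := by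
      apply Polynomial.map_injective A.subtype Subtype.val_injective
      rw [Polynomial.map_mul, Polynomial.map_mul, hG', Polynomial.map_C, ← hG]
      simp only [ValuationSubring.subtype_apply]
      ring
    have hred := congrArg (Polynomial.map res) hprod
    rw [Polynomial.map_mul, Polynomial.map_mul, Polynomial.map_C, (hker _).mpr hnu, map_zero,
      zero_mul] at hred
    rcases mul_eq_zero.mp hred with h | h
    · exact hH h
    · have := congrArg (fun p => p.coeff i) h
      simp only [Polynomial.coeff_map, hcoeff, map_one, Polynomial.coeff_zero] at this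
      exact one_ne_zero this

end gauss

end Fermat.Agent.S37

namespace Fermat.Agent.S37

section line

variable {K k : Type*} [Field K] [IsAlgClosed K] [Field k] (A : ValuationSubring K)
  (res : A →+* k)

open Classical in
/-- **Conservation on the line**: for `G ∈ A[X]` with nonzero reduction, the root multiplicity
of `β` in the reduction is the number of roots of `G` (with multiplicity) lying in `A` and
reducing to `β`. -/
theorem rcd_line (hker : ∀ a : A, res a = 0 ↔ ¬ IsUnit a) (β : k) :
    ∀ (n : ℕ) (G : A[X]), G.natDegree = n → G.map res ≠ 0 →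
      (G.map res).rootMultiplicity β =
        Multiset.card ((G.map A.subtype).roots.filter (fun α => ∃ h : α ∈ A, res ⟨α, h⟩ = β)) := by
  classical
  intro n
  induction n using Nat.strong_induction_on with
  | _ n ih =>
  intro G hn hG
  have hinj : Function.Injective A.subtype := Subtype.val_injective
  have hG0 : G ≠ 0 := by
    rintro rfl
    simp at hG
  have hGK0 : G.map A.subtype ≠ 0 := (Polynomial.map_ne_zero_iff hinj).mpr hG0
  by_cases hroots : (G.map A.subtype).roots = 0
  · -- constant
    rw [hroots]
    simp only [Multiset.filter_zero, Multiset.card_zero]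
    have hconst := (IsAlgClosed.roots_eq_zero_iff).mp hroots
    have hGc : G = C (G.coeff 0) := by
      apply Polynomial.map_injective A.subtype hinj
      rw [hconst, Polynomial.map_C, Polynomial.coeff_map]
    rw [hGc, Polynomial.map_C] at hG ⊢
    exact Polynomial.rootMultiplicity_C _ _
  · obtain ⟨α, hα⟩ := Multiset.exists_mem_of_ne_zero hroots
    have hαroot : (G.map A.subtype).IsRoot α := (Polynomial.mem_roots hGK0).mp hα
    set Q := (G.map A.subtype) /ₘ (X - C α) with hQ
    have hfac : (X - C α) * Q = G.map A.subtype := Polynomial.mul_divByMonic_eq_iff_isRoot.mpr hαroot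
    have hQ0 : Q ≠ 0 := by
      rintro h
      rw [h, mul_zero] at hfac
      exact hGK0 hfac.symm
    have hdegK : (G.map A.subtype).natDegree = G.natDegree :=
      Polynomial.natDegree_map_eq_of_injective hinj G
    have hdegQ : Q.natDegree + 1 = n := by
      rw [← hn, ← hdegK, ← hfac, Polynomial.natDegree_mul (Polynomial.X_sub_C_ne_zero α) hQ0,
        Polynomial.natDegree_X_sub_C, add_comm]
    have hrootsK : (G.map A.subtype).roots = α ::ₘ Q.roots := by
      rw [← hfac, Polynomial.roots_mul (by rw [hfac]; exact hGK0), Polynomial.roots_X_sub_C,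
        Multiset.singleton_add]
    by_cases hαA : α ∈ A
    · -- the root is integral
      let H : A[X] := X - C (⟨α, hαA⟩ : A)
      have hHK : H.map A.subtype = X - C α := by simp [H]
      have hHres : H.map res = X - C (res ⟨α, hαA⟩) := by simp [H]
      have hHres0 : H.map res ≠ 0 := by rw [hHres]; exact Polynomial.X_sub_C_ne_zero _
      obtain ⟨G1, hG1⟩ := rcd_gauss A res hker H G hHres0 Q (by rw [hHK, hfac])
      have hGH : G = H * G1 := by
        apply Polynomial.map_injective A.subtype hinj
        rw [Polynomial.map_mul, hHK, hG1, hfac]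
      have hG1res : G1.map res ≠ 0 := by
        intro h
        apply hG
        rw [hGH, Polynomial.map_mul, h, mul_zero]
      have hdeg1 : G1.natDegree < n := by
        have : G1.natDegree = Q.natDegree := by
          rw [← hG1, Polynomial.natDegree_map_eq_of_injective hinj]
        omega
      have ih1 := ih G1.natDegree hdeg1 G1 rfl hG1res
      have hprod0 : (X - C (res ⟨α, hαA⟩)) * G1.map res ≠ 0 :=
        mul_ne_zero (Polynomial.X_sub_C_ne_zero _) hG1res
      rw [hrootsK, hGH, Polynomial.map_mul, hHres, Polynomial.rootMultiplicity_mul hprod0,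
        Polynomial.rootMultiplicity_X_sub_C, ih1, hG1, Multiset.filter_cons]
      by_cases hβ : res ⟨α, hαA⟩ = β
      · have h1 : (∃ h : α ∈ A, res ⟨α, h⟩ = β) := ⟨hαA, hβ⟩
        rw [if_pos h1, if_pos hβ.symm, Multiset.card_add, Multiset.card_singleton]
      · have h1 : ¬ (∃ h : α ∈ A, res ⟨α, h⟩ = β) := by
          rintro ⟨h, h'⟩
          exact hβ h'
        rw [if_neg h1, if_neg (fun h => hβ h.symm), zero_add, zero_add]
    · -- the root is outside `A`: its inverse reduces to zero
      have hα0 : α ≠ 0 := by
        rintro rfl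
        exact hαA A.zero_mem
      have hγ : α⁻¹ ∈ A := (A.mem_or_inv_mem α).resolve_left hαA
      have hnu := rcd_inv_not_isUnit A hαA hγ
      let H : A[X] := 1 - C (⟨α⁻¹, hγ⟩ : A) * X
      have hHK : H.map A.subtype = C (-α⁻¹) * (X - C α) := by
        simp only [H, Polynomial.map_sub, Polynomial.map_one, Polynomial.map_mul,
          Polynomial.map_C, Polynomial.map_X, ValuationSubring.subtype_apply]
        rw [mul_sub, ← Polynomial.C_mul, neg_mul, inv_mul_cancel₀ hα0]
        simp only [Polynomial.C_neg, Polynomial.C_1, neg_mul]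
        ring
      have hHres : H.map res = 1 := by
        simp only [H, Polynomial.map_sub, Polynomial.map_one, Polynomial.map_mul,
          Polynomial.map_C, Polynomial.map_X, (hker _).mpr hnu, map_zero, zero_mul, sub_zero]
      have hHres0 : H.map res ≠ 0 := by rw [hHres]; exact one_ne_zero
      obtain ⟨G2, hG2⟩ := rcd_gauss A res hker H G hHres0 (C (-α) * Q) (by
        rw [hHK, ← hfac]
        have : C (-α⁻¹) * (X - C α) * (C (-α) * Q) = (C (-α⁻¹) * C (-α)) * ((X - C α) * Q) := by
          ring
        rw [this, ← Polynomial.C_mul, neg_mul_neg, inv_mul_cancel₀ hα0, Polynomial.C_1, one_mul])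
      have hGH : G = H * G2 := by
        apply Polynomial.map_injective A.subtype hinj
        rw [Polynomial.map_mul, hHK, hG2, ← hfac]
        have : C (-α⁻¹) * (X - C α) * (C (-α) * Q) = (C (-α⁻¹) * C (-α)) * ((X - C α) * Q) := by
          ring
        rw [this, ← Polynomial.C_mul, neg_mul_neg, inv_mul_cancel₀ hα0, Polynomial.C_1, one_mul]
      have hG2res : G2.map res = G.map res := by
        rw [hGH, Polynomial.map_mul, hHres, one_mul]
      have hnegα : (-α) ≠ 0 := neg_ne_zero.mpr hα0
      have hdeg2 : G2.natDegree < n := by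
        have : G2.natDegree = Q.natDegree := by
          rw [← Polynomial.natDegree_map_eq_of_injective hinj G2, hG2,
            Polynomial.natDegree_C_mul hnegα]
        omega
      have ih2 := ih G2.natDegree hdeg2 G2 rfl (by rw [hG2res]; exact hG)
      have h1 : ¬ (∃ h : α ∈ A, res ⟨α, h⟩ = β) := fun ⟨h, _⟩ => hαA h
      rw [hrootsK, Multiset.filter_cons, if_neg h1, zero_add, ← hG2res, ih2, hG2,
        Polynomial.roots_C_mul _ hnegα]

end line

end Fermat.Agent.S37
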