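import Mathlib

/-!
# S37, package REDMAP, leaf [P1]: factorisation of polynomials over a valuation ring

`K` an algebraically closed field, `A : ValuationSubring K`.  A polynomial `g ∈ A[X]` with
nonzero reduction factors as

`g = c * ∏ (X - α) * ∏ (1 - β X)`, `c ∈ Aˣ`, `α ∈ A`, `β ∈ 𝔪_A`

(the roots of `g` in `A`, and the inverses of the roots outside `A`).
-/

set_option autoImplicit false

open Polynomial

namespace Fermat.Agent.S37

/-- Linear factors over `K`, sorted into those with root in `A` and those with root outside. -/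
theorem rdm_linear_factors {K : Type*} [Field K] (A : ValuationSubring K) (R : Multiset K) :
    ∃ (s₁ s₂ : Multiset A) (e : K), e ≠ 0 ∧ (∀ β ∈ s₂, β ∈ IsLocalRing.maximalIdeal A) ∧
      (R.map (fun a => X - C a)).prod =
        C e * (((s₁.map fun α => X - C α).prod * (s₂.map fun β => 1 - C β * X).prod).map
          (algebraMap A K)) := by
  classical
  induction R using Multiset.induction_on with
  | empty =>
    refine ⟨0, 0, 1, one_ne_zero, by simp, by simp⟩
  | cons a R ih =>
    obtain ⟨s₁, s₂, e, he, hs₂, hprod⟩ := ih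
    by_cases ha : a ∈ A
    · refine ⟨(⟨a, ha⟩ : A) ::ₘ s₁, s₂, e, he, hs₂, ?_⟩
      rw [Multiset.map_cons, Multiset.prod_cons, hprod, Multiset.map_cons, Multiset.prod_cons]
      simp only [Polynomial.map_mul, Polynomial.map_sub, Polynomial.map_X, Polynomial.map_C]
      have h1 : algebraMap A K (⟨a, ha⟩ : A) = a := rfl
      rw [h1]
      ring
    · have ha' : a⁻¹ ∈ A := (A.mem_or_inv_mem a).resolve_left ha
      have ha0 : a ≠ 0 := fun h => ha (h ▸ A.zero_mem)
      have hnu : (⟨a⁻¹, ha'⟩ : A) ∈ IsLocalRing.maximalIdeal A := by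
        rw [IsLocalRing.mem_maximalIdeal, mem_nonunits_iff]
        intro hu
        apply ha
        obtain ⟨u, hu⟩ := hu
        have h2 : ((u⁻¹ : Aˣ) : A) * (⟨a⁻¹, ha'⟩ : A) = 1 := by rw [← hu]; exact u.inv_mul
        have h3 : (((u⁻¹ : Aˣ) : A) : K) * a⁻¹ = 1 := by
          have := congrArg (fun z : A => (z : K)) h2
          simpa using this
        have h4 : (((u⁻¹ : Aˣ) : A) : K) = a := by
          field_simp at h3
          exact h3
        rw [← h4]
        exact ((u⁻¹ : Aˣ) : A).2
      refine ⟨s₁, (⟨a⁻¹, ha'⟩ : A) ::ₘ s₂, -a * e, mul_ne_zero (neg_ne_zero.mpr ha0) he, ?_, ?_⟩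
      · intro β hβ
        rcases Multiset.mem_cons.mp hβ with rfl | hβ
        · exact hnu
        · exact hs₂ β hβ
      · rw [Multiset.map_cons, Multiset.prod_cons, hprod, Multiset.map_cons, Multiset.prod_cons]
        simp only [Polynomial.map_mul, Polynomial.map_sub, Polynomial.map_X, Polynomial.map_C,
          Polynomial.map_one]
        have h1 : algebraMap A K (⟨a⁻¹, ha'⟩ : A) = a⁻¹ := rfl
        rw [h1]
        have h2 : (X - C a : K[X]) = C (-a) * (1 - C a⁻¹ * X) := by
          rw [mul_sub, mul_one, ← mul_assoc, ← C_mul, neg_mul, mul_inv_cancel₀ ha0, C_neg, C_neg,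
            C_1]
          ring
        rw [h2, C_mul]
        ring

/-- **[P1]** A polynomial over a valuation ring `A` of an algebraically closed field, with
nonzero reduction, is a unit times a product of factors `X - α` (`α ∈ A`) and `1 - β X`
(`β ∈ 𝔪_A`). -/
theorem rdm_poly_factor {K : Type*} [Field K] [IsAlgClosed K] (A : ValuationSubring K)
    (g : Polynomial A) (hg : g.map (IsLocalRing.residue A) ≠ 0) :
    ∃ (c : A) (s₁ s₂ : Multiset A), IsUnit c ∧ (∀ β ∈ s₂, β ∈ IsLocalRing.maximalIdeal A) ∧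
      g = C c * (s₁.map fun α => X - C α).prod * (s₂.map fun β => 1 - C β * X).prod := by
  classical
  have hinj : Function.Injective (algebraMap A K) := Subtype.val_injective
  set G : K[X] := g.map (algebraMap A K) with hG
  have hg0 : g ≠ 0 := by
    rintro rfl
    exact hg (Polynomial.map_zero _)
  have hG0 : G ≠ 0 := (Polynomial.map_ne_zero_iff hinj).mpr hg0
  have hsplit : G = C G.leadingCoeff * (G.roots.map (X - C ·)).prod :=
    (IsAlgClosed.splits G).eq_prod_roots
  obtain ⟨s₁, s₂, e, he, hs₂, hprod⟩ := rdm_linear_factors A G.roots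
  obtain ⟨h, hh⟩ : ∃ h : A[X],
      h = (s₁.map fun α => X - C α).prod * (s₂.map fun β => 1 - C β * X).prod := ⟨_, rfl⟩
  rw [← hh] at hprod
  obtain ⟨c', hc'⟩ : ∃ c' : K, c' = G.leadingCoeff * e := ⟨_, rfl⟩
  have hc'0 : c' ≠ 0 := by
    rw [hc']
    exact mul_ne_zero (leadingCoeff_ne_zero.mpr hG0) he
  have hGh : G = C c' * h.map (algebraMap A K) := by
    rw [hc', C_mul, mul_assoc, ← hprod]
    exact hsplit
  -- the reduction of `h` is nonzero
  have hhbar : h.map (IsLocalRing.residue A) ≠ 0 := by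
    rw [hh, Polynomial.map_mul, Polynomial.map_multiset_prod, Polynomial.map_multiset_prod,
      Multiset.map_map, Multiset.map_map]
    refine mul_ne_zero (Multiset.prod_ne_zero ?_) (Multiset.prod_ne_zero ?_)
    · intro h0
      obtain ⟨α, -, hα⟩ := Multiset.mem_map.mp h0
      simp only [Function.comp_apply, Polynomial.map_sub, Polynomial.map_X, Polynomial.map_C] at hα
      exact X_sub_C_ne_zero _ hα
    · intro h0
      obtain ⟨β, hβ, hβ0⟩ := Multiset.mem_map.mp h0
      have hβ1 : IsLocalRing.residue A β = 0 :=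
        (IsLocalRing.residue_eq_zero_iff β).mpr (hs₂ β hβ)
      simp only [Function.comp_apply, Polynomial.map_sub, Polynomial.map_one, Polynomial.map_mul,
        Polynomial.map_X, Polynomial.map_C, hβ1, C_0, zero_mul, sub_zero] at hβ0
      exact one_ne_zero hβ0
  -- `c'` is a unit of `A`
  have key : ∃ c : A, IsUnit c ∧ (c : K) = c' := by
    rcases A.mem_or_inv_mem c' with hc | hc
    · refine ⟨⟨c', hc⟩, ?_, rfl⟩
      have h1 : g = C (⟨c', hc⟩ : A) * h := by
        apply Polynomial.map_injective _ hinj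
        rw [Polynomial.map_mul, Polynomial.map_C, ← hG, hGh]
        rfl
      by_contra hu
      have h2 : IsLocalRing.residue A (⟨c', hc⟩ : A) = 0 :=
        (IsLocalRing.residue_eq_zero_iff _).mpr hu
      apply hg
      rw [h1, Polynomial.map_mul, Polynomial.map_C, h2, C_0, zero_mul]
    · have h1 : h = C (⟨c'⁻¹, hc⟩ : A) * g := by
        apply Polynomial.map_injective _ hinj
        rw [Polynomial.map_mul, Polynomial.map_C, ← hG, hGh, ← mul_assoc, ← C_mul]
        have : (algebraMap A K) (⟨c'⁻¹, hc⟩ : A) * c' = 1 := inv_mul_cancel₀ hc'0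
        rw [this, C_1, one_mul]
      have hu : IsUnit (⟨c'⁻¹, hc⟩ : A) := by
        by_contra hu
        have h2 : IsLocalRing.residue A (⟨c'⁻¹, hc⟩ : A) = 0 :=
          (IsLocalRing.residue_eq_zero_iff _).mpr hu
        apply hhbar
        rw [h1, Polynomial.map_mul, Polynomial.map_C, h2, C_0, zero_mul]
      obtain ⟨u, hu⟩ := hu
      refine ⟨((u⁻¹ : Aˣ) : A), (u⁻¹).isUnit, ?_⟩
      have h2 : ((u⁻¹ : Aˣ) : A) * (⟨c'⁻¹, hc⟩ : A) = 1 := by rw [← hu]; exact u.inv_mul
      have h3 : (((u⁻¹ : Aˣ) : A) : K) * c'⁻¹ = 1 := by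
        have := congrArg (fun z : A => (z : K)) h2
        simpa using this
      field_simp at h3
      exact h3
  obtain ⟨c, hcu, hcc⟩ := key
  refine ⟨c, s₁, s₂, hcu, hs₂, ?_⟩
  rw [mul_assoc, ← hh]
  apply Polynomial.map_injective _ hinj
  rw [Polynomial.map_mul, Polynomial.map_C, ← hG, hGh]
  congr 2
  exact hcc.symm

end Fermat.Agent.S37
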