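import Mathlib
import Fermat.Agent.S18.PlaceDict
import Fermat.Agent.S18.Cech

/-!
# Local conservation of zeros over a discrete valuation ring

Let `R` be a local unique factorisation domain over a discrete valuation ring `A0` with
uniformiser `π` (fraction field `K0`), such that `π` is a prime element of `R` and every prime
ideal of `R` not containing `π` is principal.  Let `φ : R → κ` be a ring homomorphism with kernel
`π R` into a field `κ` carrying a place `Q` whose valuation ring contains `φ R` and whose maximal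
ideal contains the image of the maximal ideal of `R`, and assume some `g` in the maximal ideal
of `R` has `ord_Q (φ g) = 1`.

For `y = a / b` with `a, b ∈ R ∖ π R`: if every place `P0` of `Frac R` over `K0` whose valuation
ring contains `R` and at which `y` has a zero or a pole is `A0`-rational through `R`
(every element of `R` is congruent to an element of `A0` modulo the maximal ideal of `P0`), then
these places are finite in number and
`∑ ord_{P0} y = ord_Q (φ a) - ord_Q (φ b)`.
-/

set_option autoImplicit false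
set_option linter.unusedSectionVars false

open AlgebraicCurve

namespace Fermat.Agent.S37

open Fermat.Agent.S18 Fermat.Agent.S24

section basic

variable {K F : Type*} [Field K] [Field F] [Algebra K F]

theorem rcs_mem_nonunits_iff (v : Place K F) (z : F) :
    z ∈ v.toValuationSubring.nonunits ↔ z = 0 ∨ 0 < v.ord z := by
  rw [ValuationSubring.mem_nonunits_iff_exists_mem_maximalIdeal]
  constructor
  · rintro ⟨hz, hmem⟩
    rcases (sf_mem_maximalIdeal_iff_ord v ⟨z, hz⟩).mp hmem with h | h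
    · left; exact congrArg Subtype.val h
    · right; exact h
  · rintro (rfl | h)
    · exact ⟨zero_mem _, by
        have : (⟨0, zero_mem _⟩ : v.toValuationSubring) = 0 := rfl
        rw [this]; exact zero_mem _⟩
    · have hz : z ∈ v.toValuationSubring := (sf_ord_nonneg_iff v z).mp h.le
      exact ⟨hz, (sf_mem_maximalIdeal_iff_ord v ⟨z, hz⟩).mpr (Or.inr h)⟩

theorem rcs_ord_eq_zero_of_mem (v : Place K F) (z : F) (hz : z ∈ v.toValuationSubring)
    (hz' : z⁻¹ ∈ v.toValuationSubring) : v.ord z = 0 := by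
  have h1 := (sf_ord_nonneg_iff v z).mpr hz
  have h2 := (sf_ord_nonpos_iff v z).mpr hz'
  omega

theorem rcs_nonunits_add (V : ValuationSubring F) {a b : F} (ha : a ∈ V.nonunits)
    (hb : b ∈ V.nonunits) : a + b ∈ V.nonunits := by
  rw [ValuationSubring.mem_nonunits_iff] at ha hb ⊢
  exact V.valuation.map_add_lt ha hb

theorem rcs_nonunits_neg (V : ValuationSubring F) {a : F} (ha : a ∈ V.nonunits) :
    -a ∈ V.nonunits := by
  rw [ValuationSubring.mem_nonunits_iff] at ha ⊢
  rwa [V.valuation.map_neg]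

theorem rcs_nonunits_mul (V : ValuationSubring F) {a b : F} (ha : a ∈ V.nonunits)
    (hb : b ∈ V) : a * b ∈ V.nonunits := by
  rw [ValuationSubring.mem_nonunits_iff] at ha ⊢
  rw [map_mul]
  have hb' : V.valuation b ≤ 1 := (V.valuation_le_one_iff b).mpr hb
  calc V.valuation a * V.valuation b ≤ V.valuation a * 1 := by gcongr
    _ = V.valuation a := mul_one _
    _ < 1 := ha

theorem rcs_inv_one_sub_mem (V : ValuationSubring F) {a : F} (ha : a ∈ V.nonunits) :
    (1 - a)⁻¹ ∈ V := by
  rw [ValuationSubring.mem_nonunits_iff] at ha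
  have h1 : V.valuation (1 - a) = 1 := by
    have h2 : V.valuation (-a) < V.valuation (1 : F) := by
      rw [V.valuation.map_neg, V.valuation.map_one]; exact ha
    have h3 := V.valuation.map_add_eq_of_lt_left h2
    rw [V.valuation.map_one] at h3
    rw [sub_eq_add_neg]; exact h3
  rw [← V.valuation_le_one_iff, map_inv₀, h1, inv_one]

end basic

section core

variable {A0 K0 R F : Type*} [CommRing A0] [Field K0] [Algebra A0 K0]
  [CommRing R] [IsDomain R] [UniqueFactorizationMonoid R] [Algebra A0 R]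
  [Field F] [Algebra R F] [IsFractionRing R F] [Algebra K0 F] [Algebra A0 F]
  [IsScalarTower A0 R F] [IsScalarTower A0 K0 F]

/-- `Q` is the place of `Frac R` attached to the prime element `p` of `R`. -/
def rcsIsPl (p : R) (Q : Place K0 F) : Prop :=
  (∀ (x : F) (n : ℤ) (a b : R), ¬ p ∣ a → ¬ p ∣ b →
      x * algebraMap R F b = algebraMap R F p ^ n * algebraMap R F a → Q.ord x = n) ∧
    (∀ a : R, algebraMap R F a ∈ Q.toValuationSubring)

theorem rcs_hK (π : A0)
    (hK0 : ∀ c : K0, ∃ (a : A0) (n : ℕ), c * algebraMap A0 K0 π ^ n = algebraMap A0 K0 a)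
    (p : R) (hp : Prime p) (hpπ : ¬ p ∣ algebraMap A0 R π) (c : K0) :
    ∃ a b : R, ¬ p ∣ b ∧ algebraMap K0 F c * algebraMap R F b = algebraMap R F a := by
  obtain ⟨a0, n, h⟩ := hK0 c
  refine ⟨algebraMap A0 R a0, algebraMap A0 R π ^ n, fun hd => hpπ (hp.dvd_of_dvd_pow hd), ?_⟩
  rw [map_pow, ← IsScalarTower.algebraMap_apply A0 R F, ← IsScalarTower.algebraMap_apply A0 R F,
    IsScalarTower.algebraMap_apply A0 K0 F, IsScalarTower.algebraMap_apply A0 K0 F, ← h, map_mul,
    map_pow]

theorem rcs_exists_pl (π : A0)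
    (hK0 : ∀ c : K0, ∃ (a : A0) (n : ℕ), c * algebraMap A0 K0 π ^ n = algebraMap A0 K0 a)
    (p : R) (hp : Prime p) (hpπ : ¬ p ∣ algebraMap A0 R π) :
    ∃ Q : Place K0 F, rcsIsPl p Q := by
  obtain ⟨Q, h1, h2, -, -⟩ :=
    pld_place_of_prime' (K := K0) (F := F) p hp (rcs_hK π hK0 p hp hpπ)
  exact ⟨Q, h1, h2⟩

theorem rcs_pl_ord_pow (p : R) (hp : Prime p) (Q : Place K0 F) (hQ : rcsIsPl p Q) (n : ℕ)
    (x' : R) (hx' : ¬ p ∣ x') : Q.ord (algebraMap R F (p ^ n * x')) = n := by
  refine hQ.1 _ n x' 1 hx' hp.not_dvd_one ?_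
  simp [map_mul, map_pow]

theorem rcs_pl_ord_pos_iff (p : R) (hp : Prime p) (Q : Place K0 F) (hQ : rcsIsPl p Q)
    (x : R) (hx : x ≠ 0) : 0 < Q.ord (algebraMap R F x) ↔ p ∣ x := by
  obtain ⟨n, x', hx', rfl⟩ := WfDvdMonoid.max_power_factor hx hp.irreducible
  rw [rcs_pl_ord_pow p hp Q hQ n x' hx']
  constructor
  · intro h
    have hn : n ≠ 0 := by rintro rfl; simp at h
    exact Dvd.dvd.mul_right (dvd_pow_self p hn) x'
  · intro h
    rcases Nat.eq_zero_or_pos n with h0 | h0
    · exfalso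
      rw [h0, pow_zero, one_mul] at h
      exact hx' h
    · exact_mod_cast h0

theorem rcs_pl_unique (π : A0) (hπ : Prime (algebraMap A0 R π))
    (hprin : ∀ P : Ideal R, P.IsPrime → algebraMap A0 R π ∉ P → P ≠ ⊥ →
      ∃ p : R, P = Ideal.span {p})
    (P0 : Place K0 F) (hR : ∀ x : R, algebraMap R F x ∈ P0.toValuationSubring)
    (p : R) (hp : Prime p) (hord : P0.ord (algebraMap R F p) ≠ 0)
    (Q : Place K0 F) (hQ : rcsIsPl p Q) : P0 = Q := by
  have hinj : Function.Injective (algebraMap R F) := IsFractionRing.injective R F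
  let f : R →+* P0.toValuationSubring :=
    (algebraMap R F).codRestrict P0.toValuationSubring.toSubring hR
  let 𝔭 : Ideal R := (IsLocalRing.maximalIdeal P0.toValuationSubring).comap f
  have hmem : ∀ x : R, x ∈ 𝔭 ↔ (x = 0 ∨ 0 < P0.ord (algebraMap R F x)) := by
    intro x
    show f x ∈ IsLocalRing.maximalIdeal P0.toValuationSubring ↔ _
    rw [sf_mem_maximalIdeal_iff_ord]
    have h1 : (f x = 0) ↔ x = 0 := by
      constructor
      · intro h
        have h2 : algebraMap R F x = 0 := congrArg Subtype.val h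
        exact hinj (by rw [h2, map_zero])
      · rintro rfl
        exact map_zero f
    rw [h1]
    rfl
  have h𝔭prime : 𝔭.IsPrime := Ideal.comap_isPrime f _
  have hπ𝔭 : algebraMap A0 R π ∉ 𝔭 := by
    rw [hmem]
    rintro (h | h)
    · exact hπ.ne_zero h
    · rw [← IsScalarTower.algebraMap_apply A0 R F, IsScalarTower.algebraMap_apply A0 K0 F,
        sf_ord_algebraMap] at h
      exact lt_irrefl _ h
  have hp𝔭 : p ∈ 𝔭 := by
    rw [hmem]
    right
    have := (sf_ord_nonneg_iff P0 _).mpr (hR p)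
    omega
  have h𝔭bot : 𝔭 ≠ ⊥ := by
    intro h
    rw [h] at hp𝔭
    exact hp.ne_zero ((Submodule.mem_bot R).mp hp𝔭)
  obtain ⟨p', hp'⟩ := hprin 𝔭 h𝔭prime hπ𝔭 h𝔭bot
  have h𝔭p : 𝔭 = Ideal.span {p} := by
    have h1 : p' ∣ p := by
      rw [hp'] at hp𝔭
      exact Ideal.mem_span_singleton.mp hp𝔭
    obtain ⟨c, hc⟩ := h1
    rcases hp.irreducible.isUnit_or_isUnit hc with h2 | h2
    · exfalso
      apply h𝔭prime.ne_top
      rw [hp']
      exact Ideal.span_singleton_eq_top.mpr h2
    · rw [hp', hc]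
      exact (Ideal.span_singleton_mul_right_unit h2 p').symm
  have hdvd : ∀ a : R, ¬ p ∣ a → (algebraMap R F a)⁻¹ ∈ P0.toValuationSubring := by
    intro a ha
    have h1 : a ∉ 𝔭 := by
      rw [h𝔭p, Ideal.mem_span_singleton]; exact ha
    rw [hmem] at h1
    have h2 : P0.ord (algebraMap R F a) ≤ 0 := by
      by_contra h3
      exact h1 (Or.inr (not_le.mp h3))
    exact (sf_ord_nonpos_iff P0 _).mp h2
  have hle : Q.toValuationSubring ≤ P0.toValuationSubring := by
    intro z hz
    by_cases hz0 : z = 0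
    · rw [hz0]; exact zero_mem _
    obtain ⟨n, a, b, hrep⟩ := pldRep_exists (F := F)
      (fun r hr => WfDvdMonoid.max_power_factor hr hp.irreducible) hp hz0
    obtain ⟨ha, hb, e⟩ := hrep
    have hn : Q.ord z = n := hQ.1 z n a b ha hb e
    have hn0 : 0 ≤ n := hn ▸ (sf_ord_nonneg_iff Q z).mpr hz
    obtain ⟨m, rfl⟩ := Int.eq_ofNat_of_zero_le hn0
    have hbF : algebraMap R F b ≠ 0 := by
      intro h0
      have : b = 0 := hinj (by rw [h0, map_zero])
      exact hb (this ▸ dvd_zero p)
    have hz' : z = algebraMap R F p ^ m * algebraMap R F a * (algebraMap R F b)⁻¹ := by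
      rw [zpow_natCast] at e
      rw [← e]
      field_simp
    rw [hz']
    exact mul_mem (mul_mem (pow_mem (hR p) m) (hR a)) (hdvd b hb)
  exact (pld_eq_of_le hle).symm

section red

variable [IsLocalRing R] {k κ : Type*} [Field k] [Field κ] [Algebra k κ]

/-- A rational prime element reduces to a uniformiser at `Q`. -/
theorem rcs_ord_prime_eq_one (π : A0) (φ : R →+* κ) (Qb : Place k κ)
    (hφπ : φ (algebraMap A0 R π) = 0)
    (hφQ : ∀ x : R, φ x ∈ Qb.toValuationSubring)
    (hφm : ∀ x : R, ¬ IsUnit x → φ x ∈ Qb.toValuationSubring.nonunits)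
    (g : R) (hg : ¬ IsUnit g) (hg1 : Qb.ord (φ g) = 1)
    (hA0 : ∀ c : A0, ¬ IsUnit (algebraMap A0 R c) →
      algebraMap A0 R π ∣ algebraMap A0 R c)
    (p : R) (hp : Prime p) (Q : Place K0 F) (hQ : rcsIsPl p Q)
    (hratQ : ∀ x : R, ∃ c : A0,
      algebraMap R F x - algebraMap A0 F c ∈ Q.toValuationSubring.nonunits) :
    Qb.ord (φ p) = 1 := by
  have hinj : Function.Injective (algebraMap R F) := IsFractionRing.injective R F
  obtain ⟨c, hc⟩ := hratQ g
  have hx'F : algebraMap R F (g - algebraMap A0 R c) = algebraMap R F g - algebraMap A0 F c := by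
    rw [map_sub, ← IsScalarTower.algebraMap_apply]
  have hpx' : p ∣ g - algebraMap A0 R c := by
    by_cases h0 : g - algebraMap A0 R c = 0
    · rw [h0]; exact dvd_zero p
    · rw [← hx'F] at hc
      rcases (rcs_mem_nonunits_iff Q _).mp hc with h | h
      · exact absurd (hinj (by rw [h, map_zero])) h0
      · exact (rcs_pl_ord_pos_iff p hp Q hQ _ h0).mp h
  obtain ⟨r, hr⟩ := hpx'
  have hcR : ¬ IsUnit (algebraMap A0 R c) := by
    have h1 : g ∈ IsLocalRing.maximalIdeal R := hg
    have h2 : p * r ∈ IsLocalRing.maximalIdeal R :=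
      Ideal.mul_mem_right _ _ ((IsLocalRing.mem_maximalIdeal p).mpr hp.not_isUnit)
    have h3 : algebraMap A0 R c = g - p * r := by rw [← hr]; ring
    rw [h3]
    exact (IsLocalRing.mem_maximalIdeal _).mp (Ideal.sub_mem _ h1 h2)
  obtain ⟨d, hd⟩ := hA0 c hcR
  have hφg : φ g = φ p * φ r := by
    have h3 : g = p * r + algebraMap A0 R π * d := by rw [← hd, ← hr]; ring
    conv_lhs => rw [h3]
    rw [map_add, map_mul, map_mul, hφπ, zero_mul, add_zero]
  have hφg0 : φ g ≠ 0 := by
    intro h
    rw [h, Place.ord_zero] at hg1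
    exact zero_ne_one hg1
  have hφp0 : φ p ≠ 0 := left_ne_zero_of_mul (hφg ▸ hφg0)
  have hφr0 : φ r ≠ 0 := right_ne_zero_of_mul (hφg ▸ hφg0)
  have hsum : Qb.ord (φ p) + Qb.ord (φ r) = 1 := by
    rw [← Qb.ord_mul hφp0 hφr0, ← hφg, hg1]
  have h1 : 0 < Qb.ord (φ p) := by
    rcases (rcs_mem_nonunits_iff Qb _).mp (hφm p hp.not_isUnit) with h | h
    · exact absurd h hφp0
    · exact h
  have h2 : 0 ≤ Qb.ord (φ r) := (sf_ord_nonneg_iff Qb _).mpr (hφQ r)
  omega

variable (K0 R F) in
/-- The places of `Frac R` over `K0` whose valuation ring contains `R`. -/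
abbrev rcsPlR : Type _ :=
  {P0 : Place K0 F // ∀ x : R, algebraMap R F x ∈ P0.toValuationSubring}

theorem rcs_sum_elem (π : A0)
    (hK0 : ∀ c : K0, ∃ (a : A0) (n : ℕ), c * algebraMap A0 K0 π ^ n = algebraMap A0 K0 a)
    (hπ : Prime (algebraMap A0 R π))
    (hprin : ∀ P : Ideal R, P.IsPrime → algebraMap A0 R π ∉ P → P ≠ ⊥ →
      ∃ p : R, P = Ideal.span {p})
    (φ : R →+* κ) (Qb : Place k κ)
    (hφπ : φ (algebraMap A0 R π) = 0)
    (hφker : ∀ x : R, φ x = 0 → algebraMap A0 R π ∣ x)
    (hφQ : ∀ x : R, φ x ∈ Qb.toValuationSubring)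
    (hφm : ∀ x : R, ¬ IsUnit x → φ x ∈ Qb.toValuationSubring.nonunits)
    (g : R) (hg : ¬ IsUnit g) (hg1 : Qb.ord (φ g) = 1)
    (hA0 : ∀ c : A0, ¬ IsUnit (algebraMap A0 R c) →
      algebraMap A0 R π ∣ algebraMap A0 R c)
    (x : R) : x ≠ 0 → ¬ algebraMap A0 R π ∣ x →
    (∀ p : R, Prime p → p ∣ x → ∀ Q : Place K0 F, rcsIsPl p Q → ∀ z : R, ∃ c : A0,
      algebraMap R F z - algebraMap A0 F c ∈ Q.toValuationSubring.nonunits) →
    (Function.support (fun P0 : rcsPlR K0 R F => P0.1.ord (algebraMap R F x))).Finite ∧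
      ∑ᶠ P0 : rcsPlR K0 R F, P0.1.ord (algebraMap R F x) = Qb.ord (φ x) := by
  have hinj : Function.Injective (algebraMap R F) := IsFractionRing.injective R F
  induction x using UniqueFactorizationMonoid.induction_on_prime with
  | h₁ => intro h; exact absurd rfl h
  | h₂ u hu =>
    intro _ _ _
    obtain ⟨v, hv⟩ := hu.exists_right_inv
    have hinv : (algebraMap R F u)⁻¹ = algebraMap R F v := by
      apply inv_eq_of_mul_eq_one_right
      rw [← map_mul, hv, map_one]
    have hzero : ∀ P0 : rcsPlR K0 R F, P0.1.ord (algebraMap R F u) = 0 := by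
      intro P0
      exact rcs_ord_eq_zero_of_mem P0.1 _ (P0.2 u) (hinv ▸ P0.2 v)
    have hfun : (fun P0 : rcsPlR K0 R F => P0.1.ord (algebraMap R F u)) = fun _ => 0 :=
      funext hzero
    rw [hfun]
    refine ⟨by simp, ?_⟩
    rw [finsum_zero]
    symm
    have hinv' : (φ u)⁻¹ = φ v := by
      apply inv_eq_of_mul_eq_one_right
      rw [← map_mul, hv, map_one]
    exact rcs_ord_eq_zero_of_mem Qb _ (hφQ u) (hinv' ▸ hφQ v)
  | h₃ a p ha0 hp IH =>
    intro _ hπpa hrat
    have hπp : ¬ algebraMap A0 R π ∣ p := fun h => hπpa (h.mul_right a)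
    have hπa : ¬ algebraMap A0 R π ∣ a := fun h => hπpa (h.mul_left p)
    have hpπ : ¬ p ∣ algebraMap A0 R π := fun h =>
      hπp (hp.irreducible.dvd_symm hπ.irreducible h)
    obtain ⟨Q, hQ⟩ := rcs_exists_pl (F := F) π hK0 p hp hpπ
    let Q' : rcsPlR K0 R F := ⟨Q, hQ.2⟩
    have hordp : ∀ P0 : rcsPlR K0 R F, P0 ≠ Q' → P0.1.ord (algebraMap R F p) = 0 := by
      intro P0 hne
      by_contra h
      exact hne (Subtype.ext (rcs_pl_unique π hπ hprin P0.1 P0.2 p hp h Q hQ))
    have hordQ : Q.ord (algebraMap R F p) = 1 := by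
      have := rcs_pl_ord_pow p hp Q hQ 1 1 hp.not_dvd_one
      simpa using this
    obtain ⟨hfin, hsum⟩ := IH ha0 hπa (fun p' hp' hdvd => hrat p' hp' (hdvd.mul_left p))
    have hpF : algebraMap R F p ≠ 0 := fun h0 => hp.ne_zero (hinj (by rw [h0, map_zero]))
    have haF : algebraMap R F a ≠ 0 := fun h0 => ha0 (hinj (by rw [h0, map_zero]))
    have hfun : (fun P0 : rcsPlR K0 R F => P0.1.ord (algebraMap R F (p * a))) =
        fun P0 => P0.1.ord (algebraMap R F p) + P0.1.ord (algebraMap R F a) := by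
      funext P0
      rw [map_mul]
      exact P0.1.ord_mul hpF haF
    have hfinp : (Function.support
        fun P0 : rcsPlR K0 R F => P0.1.ord (algebraMap R F p)).Finite :=
      (Set.finite_singleton Q').subset (fun P0 hP0 => by
        by_contra h
        exact hP0 (hordp P0 h))
    refine ⟨?_, ?_⟩
    · rw [hfun]
      exact (hfinp.union hfin).subset (Function.support_add _ _)
    · have hφp0 : φ p ≠ 0 := fun h => hπp (hφker p h)
      have hφa0 : φ a ≠ 0 := fun h => hπa (hφker a h)
      rw [hfun, finsum_add_distrib hfinp hfin, hsum,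
        finsum_eq_single _ Q' hordp, map_mul, Qb.ord_mul hφp0 hφa0,
        rcs_ord_prime_eq_one π φ Qb hφπ hφQ hφm g hg hg1 hA0 p hp Q hQ
          (hrat p hp (dvd_mul_right p a) Q hQ)]
      exact congrArg (· + Qb.ord (φ a)) hordQ

/-- **Local conservation of zeros** in a local unique factorisation domain over a discrete
valuation ring: see the module docstring. -/
theorem rcs_loc_core (π : A0)
    (hK0 : ∀ c : K0, ∃ (a : A0) (n : ℕ), c * algebraMap A0 K0 π ^ n = algebraMap A0 K0 a)
    (hπ : Prime (algebraMap A0 R π))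
    (hprin : ∀ P : Ideal R, P.IsPrime → algebraMap A0 R π ∉ P → P ≠ ⊥ →
      ∃ p : R, P = Ideal.span {p})
    (φ : R →+* κ) (Qb : Place k κ)
    (hφπ : φ (algebraMap A0 R π) = 0)
    (hφker : ∀ x : R, φ x = 0 → algebraMap A0 R π ∣ x)
    (hφQ : ∀ x : R, φ x ∈ Qb.toValuationSubring)
    (hφm : ∀ x : R, ¬ IsUnit x → φ x ∈ Qb.toValuationSubring.nonunits)
    (g : R) (hg : ¬ IsUnit g) (hg1 : Qb.ord (φ g) = 1)
    (hA0 : ∀ c : A0, ¬ IsUnit (algebraMap A0 R c) →
      algebraMap A0 R π ∣ algebraMap A0 R c)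
    (y : F) (a b : R) (ha : ¬ algebraMap A0 R π ∣ a) (hb : ¬ algebraMap A0 R π ∣ b)
    (hy : y * algebraMap R F b = algebraMap R F a)
    (hrat : ∀ P0 : Place K0 F, (∀ x : R, algebraMap R F x ∈ P0.toValuationSubring) →
      P0.ord y ≠ 0 → ∀ z : R, ∃ c : A0,
        algebraMap R F z - algebraMap A0 F c ∈ P0.toValuationSubring.nonunits) :
    ∃ S : Finset (Place K0 F),
      (∀ P0, P0 ∈ S ↔ (∀ x : R, algebraMap R F x ∈ P0.toValuationSubring) ∧ P0.ord y ≠ 0) ∧
      ∑ P0 ∈ S, P0.ord y = Qb.ord (φ a) - Qb.ord (φ b) := by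
  have hinj : Function.Injective (algebraMap R F) := IsFractionRing.injective R F
  have ha0 : a ≠ 0 := fun h => ha (h ▸ dvd_zero _)
  have hb0 : b ≠ 0 := fun h => hb (h ▸ dvd_zero _)
  have hbF : algebraMap R F b ≠ 0 := fun h0 => hb0 (hinj (by rw [h0, map_zero]))
  have haF : algebraMap R F a ≠ 0 := fun h0 => ha0 (hinj (by rw [h0, map_zero]))
  have hy0 : y ≠ 0 := by
    rintro rfl
    rw [zero_mul] at hy
    exact haF hy.symm
  -- reduced fraction
  obtain ⟨a', ⟨b', hb'⟩, hrel, hab⟩ := IsFractionRing.exists_reduced_fraction (A := R) y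
  have hb'0 : b' ≠ 0 := nonZeroDivisors.ne_zero hb'
  have hb'F : algebraMap R F b' ≠ 0 := fun h0 => hb'0 (hinj (by rw [h0, map_zero]))
  have hy' : y * algebraMap R F b' = algebraMap R F a' := by
    rw [← hab]
    exact IsLocalization.mk'_spec F a' ⟨b', hb'⟩
  have ha'0 : a' ≠ 0 := by
    rintro rfl
    rw [map_zero] at hy'
    rcases mul_eq_zero.mp hy' with h | h
    · exact hy0 h
    · exact hb'F h
  have ha'F : algebraMap R F a' ≠ 0 := fun h0 => ha'0 (hinj (by rw [h0, map_zero]))
  have hcross : a * b' = a' * b := by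
    apply hinj
    rw [map_mul, map_mul, ← hy, ← hy']
    ring
  have hπa' : ¬ algebraMap A0 R π ∣ a' := by
    intro h
    have h1 : algebraMap A0 R π ∣ a * b' := hcross ▸ h.mul_right b
    rcases hπ.dvd_or_dvd h1 with h2 | h2
    · exact ha h2
    · exact hπ.not_isUnit (hrel h h2)
  have hπb' : ¬ algebraMap A0 R π ∣ b' := by
    intro h
    have h1 : algebraMap A0 R π ∣ a' * b := hcross ▸ h.mul_left a
    rcases hπ.dvd_or_dvd h1 with h2 | h2
    · exact hπ.not_isUnit (hrel h2 h)
    · exact hb h2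
  have hφ0 : ∀ z : R, ¬ algebraMap A0 R π ∣ z → φ z ≠ 0 := fun z hz h => hz (hφker z h)
  -- orders of `y` at places containing `R`
  have hordy : ∀ P0 : rcsPlR K0 R F,
      P0.1.ord y = P0.1.ord (algebraMap R F a') - P0.1.ord (algebraMap R F b') := by
    intro P0
    have h1 : P0.1.ord (y * algebraMap R F b') = P0.1.ord y + P0.1.ord (algebraMap R F b') :=
      P0.1.ord_mul hy0 hb'F
    rw [hy'] at h1
    omega
  -- rationality of the places of the prime factors of `a'` and `b'`
  have hratp : ∀ p : R, Prime p → (p ∣ a' ∨ p ∣ b') → ∀ Q : Place K0 F, rcsIsPl p Q →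
      ∀ z : R, ∃ c : A0, algebraMap R F z - algebraMap A0 F c ∈ Q.toValuationSubring.nonunits := by
    intro p hp hdvd Q hQ
    refine hrat Q hQ.2 ?_
    have h1 := hordy ⟨Q, hQ.2⟩
    simp only at h1
    rw [h1]
    rcases hdvd with h | h
    · have h2 : ¬ p ∣ b' := fun h' => hp.not_isUnit (hrel h h')
      have h3 := (rcs_pl_ord_pos_iff p hp Q hQ a' ha'0).mpr h
      have h4 : ¬ 0 < Q.ord (algebraMap R F b') := fun h' =>
        h2 ((rcs_pl_ord_pos_iff p hp Q hQ b' hb'0).mp h')
      have h5 := (sf_ord_nonneg_iff Q _).mpr (hQ.2 b')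
      omega
    · have h2 : ¬ p ∣ a' := fun h' => hp.not_isUnit (hrel h' h)
      have h3 := (rcs_pl_ord_pos_iff p hp Q hQ b' hb'0).mpr h
      have h4 : ¬ 0 < Q.ord (algebraMap R F a') := fun h' =>
        h2 ((rcs_pl_ord_pos_iff p hp Q hQ a' ha'0).mp h')
      have h5 := (sf_ord_nonneg_iff Q _).mpr (hQ.2 a')
      omega
  obtain ⟨hfa, hsa⟩ := rcs_sum_elem π hK0 hπ hprin φ Qb hφπ hφker hφQ hφm g hg hg1 hA0 a' ha'0
    hπa' (fun p hp hd => hratp p hp (Or.inl hd))
  obtain ⟨hfb, hsb⟩ := rcs_sum_elem π hK0 hπ hprin φ Qb hφπ hφker hφQ hφm g hg hg1 hA0 b' hb'0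
    hπb' (fun p hp hd => hratp p hp (Or.inr hd))
  have hfun : (fun P0 : rcsPlR K0 R F => P0.1.ord y) =
      fun P0 => P0.1.ord (algebraMap R F a') - P0.1.ord (algebraMap R F b') := funext hordy
  have hfy : (Function.support (fun P0 : rcsPlR K0 R F => P0.1.ord y)).Finite := by
    rw [hfun]
    exact (hfa.union hfb).subset (Function.support_sub _ _)
  have hsy : ∑ᶠ P0 : rcsPlR K0 R F, P0.1.ord y = Qb.ord (φ a) - Qb.ord (φ b) := by
    rw [hfun, finsum_sub_distrib hfa hfb, hsa, hsb]
    have h1 : Qb.ord (φ a) + Qb.ord (φ b') = Qb.ord (φ a') + Qb.ord (φ b) := by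
      rw [← Qb.ord_mul (hφ0 a ha) (hφ0 b' hπb'), ← Qb.ord_mul (hφ0 a' hπa') (hφ0 b hb),
        ← map_mul, ← map_mul, hcross]
    omega
  refine ⟨hfy.toFinset.map ⟨Subtype.val, Subtype.val_injective⟩, ?_, ?_⟩
  · intro P0
    simp only [Finset.mem_map, Set.Finite.mem_toFinset, Function.mem_support, ne_eq,
      Function.Embedding.coeFn_mk, Subtype.exists, exists_and_right, exists_eq_right]
    exact ⟨fun ⟨h1, h2⟩ => ⟨h1, h2⟩, fun ⟨h1, h2⟩ => ⟨h1, h2⟩⟩
  · rw [Finset.sum_map, ← hsy]
    symm
    apply finsum_eq_sum_of_support_subset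
    intro P0 hP0
    simpa using hP0

end red

end core

section chart

/-- **Local conservation of zeros at a closed point of a chart.**  `O` is a noetherian domain
over the discrete valuation ring `A0` (uniformiser `π`, fraction field `K0`), `n` a maximal ideal
of `O` containing the prime element `π` such that `(O / π)_n` is a principal ideal ring
(hypothesis `hloc`, cf. `cz_hloc_of_dedekind`), `φ : O → κ` a ring homomorphism with kernel `π O`,
and `Qb` a place of `κ` whose valuation ring contains `φ O`, with `φ n` in its maximal ideal and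
some `g ∈ n` with `ord (φ g) = 1`.  For `y = a / b` with `a, b ∈ O ∖ π O`, if all places `P0` of
`Frac O` over `K0` through the point `n` at which `y` has a zero or pole are `A0`-rational, then
they are finite in number and the sum of the orders of `y` at them is the order of `φ a / φ b`
at `Qb`. -/
theorem rcs_loc {A0 K0 O F k κ : Type*} [CommRing A0] [Field K0] [Algebra A0 K0]
    [CommRing O] [IsDomain O] [IsNoetherianRing O] [Algebra A0 O]
    [Field F] [Algebra O F] [IsFractionRing O F] [Algebra K0 F] [Algebra A0 F]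
    [IsScalarTower A0 O F] [IsScalarTower A0 K0 F]
    [Field k] [Field κ] [Algebra k κ]
    (π : A0)
    (hK0 : ∀ c : K0, ∃ (a : A0) (n : ℕ), c * algebraMap A0 K0 π ^ n = algebraMap A0 K0 a)
    (hA0 : ∀ c : A0, ¬ IsUnit c → π ∣ c)
    (hπ : Prime (algebraMap A0 O π)) (n : Ideal O) [hn : n.IsMaximal]
    (hπn : algebraMap A0 O π ∈ n)
    (hloc : ∀ P : Ideal O, P ≤ n → ∃ x ∈ P, ∀ y ∈ P, ∃ s, s ∉ n ∧ ∃ r r' : O,
      s * y = x * r + algebraMap A0 O π * r')
    (φ : O →+* κ) (Qb : Place k κ)
    (hφπ : φ (algebraMap A0 O π) = 0)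
    (hφker : ∀ x : O, φ x = 0 → algebraMap A0 O π ∣ x)
    (hφQ : ∀ x : O, φ x ∈ Qb.toValuationSubring)
    (hφn : ∀ x : O, x ∈ n → φ x ∈ Qb.toValuationSubring.nonunits)
    (g : O) (hg : g ∈ n) (hg1 : Qb.ord (φ g) = 1)
    (y : F) (a b : O) (ha : ¬ algebraMap A0 O π ∣ a) (hb : ¬ algebraMap A0 O π ∣ b)
    (hy : y * algebraMap O F b = algebraMap O F a)
    (hrat : ∀ P0 : Place K0 F, (∀ x : O, algebraMap O F x ∈ P0.toValuationSubring) →
      (∀ s : O, s ∉ n → (algebraMap O F s)⁻¹ ∈ P0.toValuationSubring) → P0.ord y ≠ 0 →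
      ∀ z : O, ∃ c : A0,
        algebraMap O F z - algebraMap A0 F c ∈ P0.toValuationSubring.nonunits) :
    ∃ S : Finset (Place K0 F),
      (∀ P0, P0 ∈ S ↔ (∀ x : O, algebraMap O F x ∈ P0.toValuationSubring) ∧
        (∀ s : O, s ∉ n → (algebraMap O F s)⁻¹ ∈ P0.toValuationSubring) ∧ P0.ord y ≠ 0) ∧
      ∑ P0 ∈ S, P0.ord y = Qb.ord (φ a) - Qb.ord (φ b) := by
  classical
  set τ : O := algebraMap A0 O π with hτdef
  let R := Localization.AtPrime n
  let _ : Algebra R F := IsLocalization.localizationAlgebraOfSubmonoidLe R F n.primeCompl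
    (nonZeroDivisors O) n.primeCompl_le_nonZeroDivisors
  have hOR : IsScalarTower O R F := IsLocalization.localization_isScalarTower_of_submonoid_le R F
    n.primeCompl (nonZeroDivisors O) n.primeCompl_le_nonZeroDivisors
  have : IsFractionRing R F :=
    IsFractionRing.isFractionRing_of_isDomain_of_isLocalization n.primeCompl R F
  have : IsDomain R := IsLocalization.isDomain_localization n.primeCompl_le_nonZeroDivisors
  have : IsNoetherianRing R := IsLocalization.isNoetherianRing n.primeCompl R inferInstance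
  have hA0R : ∀ c : A0, algebraMap A0 R c = algebraMap O R (algebraMap A0 O c) := fun c =>
    IsScalarTower.algebraMap_apply A0 O R c
  have hT : ∀ c : A0, algebraMap A0 F c = algebraMap R F (algebraMap A0 R c) := fun c => by
    rw [hA0R, ← IsScalarTower.algebraMap_apply O R F, ← IsScalarTower.algebraMap_apply A0 O F]
  have : IsScalarTower A0 R F := IsScalarTower.of_algebraMap_eq hT
  have hinjR : Function.Injective (algebraMap O R) :=
    IsLocalization.injective R n.primeCompl_le_nonZeroDivisors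
  have hinjRF : Function.Injective (algebraMap R F) := IsFractionRing.injective R F
  set τR : R := algebraMap O R τ with hτR
  have hτmax : τR ∈ IsLocalRing.maximalIdeal R :=
    (IsLocalization.AtPrime.to_map_mem_maximal_iff R n τ).mpr hπn
  have hτR0 : τR ≠ 0 := fun h0 => hπ.ne_zero (hinjR (by rw [← hτR, h0, map_zero]))
  have hτRprime : Prime τR := by
    have h1 : (Ideal.map (algebraMap O R) (Ideal.span {τ})).IsPrime := by
      refine IsLocalization.isPrime_of_isPrime_disjoint n.primeCompl R _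
        ((Ideal.span_singleton_prime hπ.ne_zero).mpr hπ) ?_
      refine Set.disjoint_left.mpr fun x hx hx' => hx ?_
      exact (Ideal.span_singleton_le_iff_mem _).mpr hπn hx'
    rw [Ideal.map_span, Set.image_singleton] at h1
    exact (Ideal.span_singleton_prime hτR0).mp h1
  have hP' : ∀ P : Ideal R, P.IsPrime → τR ∉ P →
      ∃ x ∈ P, P ≤ Ideal.span {x} ⊔ Ideal.span {τR} := by
    intro P hP hτP
    have hP0 : P.comap (algebraMap O R) ≤ n := by
      intro y hy
      have h1 : algebraMap O R y ∈ IsLocalRing.maximalIdeal R :=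
        IsLocalRing.le_maximalIdeal hP.ne_top hy
      exact (IsLocalization.AtPrime.to_map_mem_maximal_iff R n y).mp h1
    obtain ⟨x, hx, hxy⟩ := hloc _ hP0
    refine ⟨algebraMap O R x, hx, ?_⟩
    intro z hz
    obtain ⟨y, s', rfl⟩ := IsLocalization.exists_mk'_eq n.primeCompl z
    have hy : y ∈ P.comap (algebraMap O R) := by
      rw [Ideal.mem_comap]
      have h1 := P.mul_mem_right (algebraMap O R s') hz
      rwa [IsLocalization.mk'_spec] at h1
    obtain ⟨s, hs, r, r', hsy⟩ := hxy y hy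
    have h1 : algebraMap O R s * algebraMap O R y ∈
        Ideal.span {algebraMap O R x} ⊔ Ideal.span {τR} := by
      rw [← map_mul, hsy, map_add, map_mul, map_mul]
      exact Submodule.add_mem_sup (Ideal.mul_mem_right _ _ (Ideal.mem_span_singleton_self _))
        (Ideal.mul_mem_right _ _ (Ideal.mem_span_singleton_self _))
    have hsu : IsUnit (algebraMap O R s) := IsLocalization.map_units R (⟨s, hs⟩ : n.primeCompl)
    have h2 : algebraMap O R y ∈ Ideal.span {algebraMap O R x} ⊔ Ideal.span {τR} :=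
      (Ideal.unit_mul_mem_iff_mem _ hsu).mp h1
    have hs'u : IsUnit (algebraMap O R s') := IsLocalization.map_units R s'
    have h3 : IsLocalization.mk' R y s' * algebraMap O R s' ∈
        Ideal.span {algebraMap O R x} ⊔ Ideal.span {τR} := by
      rw [IsLocalization.mk'_spec]; exact h2
    exact (Ideal.mul_unit_mem_iff_mem _ hs'u).mp h3
  have : UniqueFactorizationMonoid R := cz_ufd τR hτmax hτRprime hP'
  have hprin : ∀ P : Ideal R, P.IsPrime → algebraMap A0 R π ∉ P → P ≠ ⊥ →
      ∃ p : R, P = Ideal.span {p} := by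
    intro P hP hτP _
    obtain ⟨x, hx, hle⟩ := hP' P hP hτP
    exact ⟨x, @cz_prime_eq_span _ _ _ _ τR hτmax P hP hτP x hx hle⟩
  -- divisibility by `τ` in `O` and in `R`
  have hnd : ∀ c : O, ¬ τ ∣ c → ¬ τR ∣ algebraMap O R c := by
    intro c hc hpc
    obtain ⟨z, hz⟩ := hpc
    obtain ⟨y', s', rfl⟩ := IsLocalization.exists_mk'_eq n.primeCompl z
    have h1 : algebraMap O R (c * s') = algebraMap O R (τ * y') := by
      rw [map_mul, hz, mul_assoc, IsLocalization.mk'_spec, map_mul]
    have h2 : c * s' = τ * y' := hinjR h1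
    rcases hπ.dvd_or_dvd (⟨y', h2⟩ : τ ∣ c * s') with h | h
    · exact hc h
    · obtain ⟨q, hq⟩ := h
      exact s'.2 (by rw [hq]; exact n.mul_mem_right _ hπn)
  -- units of `O_Q` coming from elements outside `n`
  have hφs : ∀ s : O, s ∉ n → φ s ≠ 0 ∧ (φ s)⁻¹ ∈ Qb.toValuationSubring := by
    intro s hs
    obtain ⟨t, m, hm, hsum⟩ := hn.exists_inv hs
    have h1 : φ t * φ s = 1 - φ m := by
      rw [← map_mul, ← map_one φ, ← hsum, map_add]; ring
    have hm' := hφn m hm
    have h2 : (1 - φ m)⁻¹ ∈ Qb.toValuationSubring := rcs_inv_one_sub_mem _ hm'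
    have h3 : (1 : κ) - φ m ≠ 0 := by
      intro h0
      have h4 : φ m = 1 := by linear_combination -h0
      rw [h4, ValuationSubring.mem_nonunits_iff, map_one] at hm'
      exact lt_irrefl _ hm'
    have h5 : φ s ≠ 0 := by
      intro h0
      rw [h0, mul_zero] at h1
      exact h3 h1.symm
    refine ⟨h5, ?_⟩
    have ht0 : φ t ≠ 0 := left_ne_zero_of_mul (h1 ▸ h3)
    have h6 : (φ s)⁻¹ = φ t * (1 - φ m)⁻¹ := by
      rw [← h1, mul_inv, ← mul_assoc, mul_inv_cancel₀ ht0, one_mul]
    rw [h6]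
    exact mul_mem (hφQ t) h2
  let φR : R →+* κ := IsLocalization.lift (M := n.primeCompl) (S := R) (g := φ)
    (fun s => (hφs s s.2).1.isUnit)
  have hφRO : ∀ x : O, φR (algebraMap O R x) = φ x := fun x => IsLocalization.lift_eq _ x
  have hφRmk : ∀ (x : O) (s : n.primeCompl),
      φR (IsLocalization.mk' R x s) = φ x * (φ s)⁻¹ := by
    intro x s
    have h := congrArg φR (IsLocalization.mk'_spec R x s)
    rw [map_mul, hφRO, hφRO] at h
    rw [← h, mul_inv_cancel_right₀ (hφs s s.2).1]
  have hsF0 : ∀ s : n.primeCompl, algebraMap O F (s : O) ≠ 0 := by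
    intro s h0
    have h1 : (s : O) = 0 := IsFractionRing.injective O F (by rw [h0, map_zero])
    exact s.2 (h1 ▸ n.zero_mem)
  have hmkF : ∀ (x : O) (s : n.primeCompl), algebraMap R F (IsLocalization.mk' R x s) =
      algebraMap O F x * (algebraMap O F (s : O))⁻¹ := by
    intro x s
    have h := congrArg (algebraMap R F) (IsLocalization.mk'_spec R x s)
    rw [map_mul, ← IsScalarTower.algebraMap_apply O R F,
      ← IsScalarTower.algebraMap_apply O R F] at h
    rw [← h, mul_inv_cancel_right₀ (hsF0 s)]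
  have hOP_of : ∀ P0 : Place K0 F, (∀ x : R, algebraMap R F x ∈ P0.toValuationSubring) →
      (∀ x : O, algebraMap O F x ∈ P0.toValuationSubring) ∧
      (∀ s : O, s ∉ n → (algebraMap O F s)⁻¹ ∈ P0.toValuationSubring) := by
    intro P0 hRP
    refine ⟨fun x => by rw [IsScalarTower.algebraMap_apply O R F]; exact hRP _, ?_⟩
    intro s hs
    obtain ⟨u, hu⟩ := (IsLocalization.map_units R (⟨s, hs⟩ : n.primeCompl)).exists_right_inv
    have h1 : (algebraMap O F s)⁻¹ = algebraMap R F u := by
      apply inv_eq_of_mul_eq_one_right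
      rw [IsScalarTower.algebraMap_apply O R F, ← map_mul]
      exact (congrArg (algebraMap R F) hu).trans (map_one _)
    rw [h1]
    exact hRP u
  have hRP_of : ∀ P0 : Place K0 F, (∀ x : O, algebraMap O F x ∈ P0.toValuationSubring) →
      (∀ s : O, s ∉ n → (algebraMap O F s)⁻¹ ∈ P0.toValuationSubring) →
      ∀ z : R, algebraMap R F z ∈ P0.toValuationSubring := by
    intro P0 hOP hsP z
    obtain ⟨x, s, rfl⟩ := IsLocalization.exists_mk'_eq n.primeCompl z
    rw [hmkF]
    exact mul_mem (hOP x) (hsP s s.2)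
  -- rationality for the local ring
  have hratR : ∀ P0 : Place K0 F, (∀ x : R, algebraMap R F x ∈ P0.toValuationSubring) →
      P0.ord y ≠ 0 → ∀ z : R, ∃ c : A0,
        algebraMap R F z - algebraMap A0 F c ∈ P0.toValuationSubring.nonunits := by
    intro P0 hRP hord z
    obtain ⟨hOP, hsP⟩ := hOP_of P0 hRP
    obtain ⟨x, s, rfl⟩ := IsLocalization.exists_mk'_eq n.primeCompl z
    obtain ⟨cx, hcx⟩ := hrat P0 hOP hsP hord x
    obtain ⟨cs, hcs⟩ := hrat P0 hOP hsP hord (s : O)
    have hcsu : IsUnit cs := by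
      by_contra hcu
      obtain ⟨d, hd⟩ := hA0 cs hcu
      have h1 : (s : O) - algebraMap A0 O cs ∈ n := by
        by_contra h2
        have h3 := hsP _ h2
        have h4 : algebraMap O F ((s : O) - algebraMap A0 O cs) ∈
            P0.toValuationSubring.nonunits := by
          rw [map_sub, ← IsScalarTower.algebraMap_apply A0 O F]; exact hcs
        by_cases h0 : algebraMap O F ((s : O) - algebraMap A0 O cs) = 0
        · have h5 : (s : O) - algebraMap A0 O cs = 0 :=
            IsFractionRing.injective O F (by rw [h0, map_zero])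
          exact h2 (h5 ▸ n.zero_mem)
        · rcases (rcs_mem_nonunits_iff P0 _).mp h4 with h5 | h5
          · exact h0 h5
          · have h6 := (sf_ord_nonpos_iff P0 _).mpr h3
            omega
      have h5 : algebraMap A0 O cs ∈ n := by
        rw [hd, map_mul]; exact n.mul_mem_right _ hπn
      have h6 : (s : O) ∈ n := by
        have := n.add_mem h1 h5
        simpa using this
      exact s.2 h6
    obtain ⟨u, hu⟩ := hcsu.exists_right_inv
    refine ⟨cx * u, ?_⟩
    have hu' : algebraMap A0 F cs * algebraMap A0 F u = 1 := by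
      rw [← map_mul, hu, map_one]
    have key : algebraMap O F x * (algebraMap O F (s : O))⁻¹ - algebraMap A0 F (cx * u) =
        ((algebraMap O F x - algebraMap A0 F cx) +
          (-((algebraMap O F (s : O) - algebraMap A0 F cs) * algebraMap A0 F (cx * u)))) *
          (algebraMap O F (s : O))⁻¹ := by
      have hs0 := hsF0 s
      rw [map_mul]
      field_simp
      linear_combination (-(algebraMap A0 F cx)) * hu'
    rw [hmkF, key]
    refine rcs_nonunits_mul _ (rcs_nonunits_add _ hcx (rcs_nonunits_neg _ ?_)) (hsP s s.2)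
    refine rcs_nonunits_mul _ hcs ?_
    rw [IsScalarTower.algebraMap_apply A0 O F]
    exact hOP _
  obtain ⟨S, hS, hsum⟩ := rcs_loc_core (R := R) (F := F) (K0 := K0) π hK0
    (by rw [hA0R]; exact hτRprime) hprin φR Qb
    (by rw [hA0R, hφRO]; exact hφπ)
    (by
      intro z hz
      obtain ⟨x, s, rfl⟩ := IsLocalization.exists_mk'_eq n.primeCompl z
      rw [hφRmk] at hz
      have hx : φ x = 0 := by
        rcases mul_eq_zero.mp hz with h | h
        · exact h
        · exact absurd (inv_eq_zero.mp h) (hφs s s.2).1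
      obtain ⟨x', rfl⟩ := hφker x hx
      rw [hA0R]
      exact ⟨IsLocalization.mk' R x' s, (IsLocalization.mul_mk'_eq_mk'_of_mul _ _ _).symm⟩)
    (by
      intro z
      obtain ⟨x, s, rfl⟩ := IsLocalization.exists_mk'_eq n.primeCompl z
      rw [hφRmk]
      exact mul_mem (hφQ x) (hφs s s.2).2)
    (by
      intro z hz
      obtain ⟨x, s, rfl⟩ := IsLocalization.exists_mk'_eq n.primeCompl z
      rw [hφRmk]
      have hx : x ∈ n := by
        by_contra hx
        exact hz ((IsLocalization.AtPrime.isUnit_mk'_iff R n x s).mpr hx)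
      exact rcs_nonunits_mul _ (hφn x hx) (hφs s s.2).2)
    (algebraMap O R g)
    (by
      intro hu
      exact (IsLocalization.AtPrime.isUnit_to_map_iff R n g).mp hu hg)
    (by rw [hφRO]; exact hg1)
    (by
      intro c hc
      have hcu : ¬ IsUnit c := fun h => hc (h.map (algebraMap A0 R))
      obtain ⟨d, rfl⟩ := hA0 c hcu
      rw [map_mul]
      exact dvd_mul_right _ _)
    y (algebraMap O R a) (algebraMap O R b)
    (by rw [hA0R]; exact hnd a ha) (by rw [hA0R]; exact hnd b hb)
    (by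
      rw [← IsScalarTower.algebraMap_apply O R F, ← IsScalarTower.algebraMap_apply O R F]
      exact hy)
    hratR
  refine ⟨S, ?_, ?_⟩
  · intro P0
    rw [hS]
    constructor
    · rintro ⟨hRP, hord⟩
      exact ⟨(hOP_of P0 hRP).1, (hOP_of P0 hRP).2, hord⟩
    · rintro ⟨hOP, hsP, hord⟩
      exact ⟨hRP_of P0 hOP hsP, hord⟩
  · rw [hsum, hφRO, hφRO]

end chart

end Fermat.Agent.S37
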