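import Mathlib
import Fermat.Agent.S18.SMQ
import Fermat.Agent.S18.Char0Ram
import Fermat.Agent.S37.RedMapInstMain
import Fermat.Agent.S37.JRingK3

/-!
# S37, package REDMAP-INST, part 4: the two charts at level `N'` over `ℚ̄` (final instance)

For a Hauptmodul record `H : HauptRec a2 ℓ`, a level `N'` with `a2 ∣ N'`, `ℓ ∤ N'`, a valuation
subring `A` of `ℚ̄` over `ℓ` and base points `c0, c1 ∈ A` with `c0 - c1`, `Qrad(c0)`, `Qrad(c1)`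
units of `A`: the chart packages (`RmiChartPkg`) of the coordinates
`t = (h - c1) / (h - c0)` (with `u = t̄`) and `t⁻¹ = (h - c0) / (h - c1)` (with `u = t̄⁻¹`).

This is `rmi_chart_pkg` / `rmi_chart_pkg_inv` (`RedMapInstMain`) applied to `smq_main` (S18).
-/

set_option autoImplicit false

noncomputable section

open AlgebraicCurve ModularCurve IsDedekindDomain Polynomial

namespace Fermat.Agent.S37

open Fermat.Agent.S18 Fermat.Agent.S24 Fermat.Agent.S28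

local notation "Qb" => AlgebraicClosure ℚ

/-- The chart package of a coordinate `t` with underlying series `(h - c1) / (h - c0)`. -/
theorem rmi_final_chart (N' : ℕ) [NeZero N'] {ℓ : ℕ} [Fact ℓ.Prime] (hℓN' : ¬ ℓ ∣ N') {a2 : ℕ}
    (H : HauptRec a2 ℓ) (ha2 : a2 ∣ N') (A : ValuationSubring Qb) (hA : A.LiesOverPrime ℓ)
    (c0 c1 : Qb) (hc0 : c0 ∈ A) (hc1 : c1 ∈ A) (h01 : (c0 - c1)⁻¹ ∈ A) (hc : c0 ≠ c1)
    (hq0 : (aeval c0 H.Qrad)⁻¹ ∈ A) (hq0' : aeval c0 H.Qrad ≠ 0)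
    (t : ↥(modularFunctionFieldBar N')) (ht : (t : LaurentSeries Qb) = cinstU H Qb c0 c1) :
    ∃ htV : t ∈ grO A hA N' hℓN',
      RmiChartPkg Qb A hA N' hℓN' t (rmiRho A hA N' hℓN' ⟨t, htV⟩) := by
  obtain ⟨htV, b, hb, h1, h2, h3⟩ :=
    smq_main N' hℓN' H ha2 A hA c0 c1 hc0 hc1 h01 hc hq0 hq0' t ht
  exact ⟨htV, rmi_chart_pkg A hA N' hℓN' H hc0 hc1 hc h01 t ht htV ⟨b, hb, h1, h2, h3⟩⟩

/-- **The two charts at level `N'`**: the chart packages of `t = c0rT N' H ha2 c0 c1` (with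
`u = t̄`) and of `t⁻¹ = c0rT N' H ha2 c1 c0` (with `u = t̄⁻¹`). -/
theorem rmi_final (N' : ℕ) [NeZero N'] {ℓ : ℕ} [Fact ℓ.Prime] (hℓN' : ¬ ℓ ∣ N') {a2 : ℕ}
    (H : HauptRec a2 ℓ) (ha2 : a2 ∣ N') (A : ValuationSubring Qb) (hA : A.LiesOverPrime ℓ)
    (c0 c1 : Qb) (hc0 : c0 ∈ A) (hc1 : c1 ∈ A) (h01 : (c0 - c1)⁻¹ ∈ A) (hc : c0 ≠ c1)
    (hq0 : (aeval c0 H.Qrad)⁻¹ ∈ A) (hq0' : aeval c0 H.Qrad ≠ 0)
    (hq1 : (aeval c1 H.Qrad)⁻¹ ∈ A) (hq1' : aeval c1 H.Qrad ≠ 0) :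
    ∃ htV : c0rT N' H ha2 c0 c1 ∈ grO A hA N' hℓN',
      RmiChartPkg Qb A hA N' hℓN' (c0rT N' H ha2 c0 c1)
        (rmiRho A hA N' hℓN' ⟨c0rT N' H ha2 c0 c1, htV⟩) ∧
      RmiChartPkg Qb A hA N' hℓN' (c0rT N' H ha2 c1 c0)
        (rmiRho A hA N' hℓN' ⟨c0rT N' H ha2 c0 c1, htV⟩)⁻¹ := by
  have h10 : (c1 - c0)⁻¹ ∈ A := by
    have e : (c1 - c0)⁻¹ = -(c0 - c1)⁻¹ := by rw [← neg_sub, inv_neg]
    rw [e]
    exact A.neg_mem _ h01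
  obtain ⟨htV, b, hb, h1, h2, h3⟩ :=
    smq_main N' hℓN' H ha2 A hA c0 c1 hc0 hc1 h01 hc hq0 hq0' (c0rT N' H ha2 c0 c1) rfl
  obtain ⟨htV', b', hb', h1', h2', h3'⟩ :=
    smq_main N' hℓN' H ha2 A hA c1 c0 hc1 hc0 h10 hc.symm hq1 hq1' (c0rT N' H ha2 c1 c0) rfl
  have e : c0rT N' H ha2 c1 c0 = (c0rT N' H ha2 c0 c1)⁻¹ := by
    apply Subtype.ext
    show cinstU H Qb c1 c0 = (cinstU H Qb c0 c1)⁻¹
    rw [cinstU_inv]
  refine ⟨htV, rmi_chart_pkg A hA N' hℓN' H hc0 hc1 hc h01 _ rfl htV ⟨b, hb, h1, h2, h3⟩, ?_⟩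
  have htV'' : (c0rT N' H ha2 c0 c1)⁻¹ ∈ grO A hA N' hℓN' := e ▸ htV'
  have hSM' : RmiSMQ A hA N' hℓN' (c0rT N' H ha2 c1 c0) htV' (psi N' / psi a2) :=
    ⟨b', hb', h1', h2', h3'⟩
  have htrans : ∀ (s : ↥(modularFunctionFieldBar N')) (hs : s ∈ grO A hA N' hℓN')
      (_ : RmiSMQ A hA N' hℓN' s hs (psi N' / psi a2)) (s' : ↥(modularFunctionFieldBar N'))
      (hs' : s' ∈ grO A hA N' hℓN'), s = s' → RmiSMQ A hA N' hℓN' s' hs' (psi N' / psi a2) := by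
    intro s hs h s' hs' hss
    subst hss
    exact h
  have hpk := rmi_chart_pkg_inv A hA N' hℓN' H hc0 hc1 hc h01 (c0rT N' H ha2 c0 c1) rfl htV
    htV'' (htrans _ htV' hSM' _ htV'' e)
  rw [← e] at hpk
  exact hpk

/-- **The packaged chart in the consumer shape of (K3AB)** (`JrkChart` of `JRingK3`), for the
coordinate `c0rT M H ha2 c0 c1` with `u` its residue. -/
theorem rmi_jrkChart (M : ℕ) [NeZero M] {ℓ : ℕ} [Fact ℓ.Prime] (hℓM : ¬ ℓ ∣ M) {a2 : ℕ}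
    (H : HauptRec a2 ℓ) (ha2 : a2 ∣ M) (A : ValuationSubring Qb) (hA : A.LiesOverPrime ℓ)
    (c0 c1 : Qb) (hc0 : c0 ∈ A) (hc1 : c1 ∈ A) (h01 : smi2U A (c0 - c1))
    (hq0 : smi2U A (aeval c0 H.Qrad)) (_hq1 : smi2U A (aeval c1 H.Qrad)) :
    ∃ ht : c0rT M H ha2 c0 c1 ∈ grO A hA M hℓM,
      JrkChart A (grO A hA M hℓM) (rmiRho A hA M hℓM) (c0rT M H ha2 c0 c1)
        (rmiRho A hA M hℓM ⟨_, ht⟩) := by
  have hc : c0 ≠ c1 := sub_ne_zero.mp h01.2.1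
  obtain ⟨htV, h⟩ := rmi_final_chart M hℓM H ha2 A hA c0 c1 hc0 hc1 h01.2.2 hc hq0.2.2 hq0.2.1
    (c0rT M H ha2 c0 c1) rfl
  exact ⟨htV, h⟩

end Fermat.Agent.S37
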