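import Mathlib
import Fermat.Agent.S37.RedMapInstChart
import Fermat.Agent.S37.RedMapInstGauss

/-!
# S37, package REDMAP-INST: transport of (SM) from the Gauss residue map to `rmiRho`

`smq_main` (S18) states (SM) for the chart coordinate through `grRes`, with values in
`k((q))`.  `rmj_SM` restates it through `rmiRho`, with values in the residue field `rmiKappa`,
in the form `RmiSM` consumed by the chart instance.
-/

set_option autoImplicit false

open AlgebraicCurve ModularCurve Polynomial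
open Fermat.Agent.S18

namespace Fermat.Agent.S37

local notation "Qb" => AlgebraicClosure ℚ

/-- The coercion `rmiKappa → k((q))` commutes with polynomial evaluation. -/
theorem rmj_coe_aeval {K : Type*} [Field K] [Algebra ℚ K] (A : ValuationSubring K) {ℓ : ℕ}
    [Fact ℓ.Prime] (hA : A.LiesOverPrime ℓ) (M : ℕ) [NeZero M] (hℓM : ¬ ℓ ∣ M)
    (x : ↥(grO A hA M hℓM)) (p : (IsLocalRing.ResidueField A)[X]) :
    ((aeval (rmiRho A hA M hℓM x) p : ↥(rmiKappa A hA M hℓM)) :
      LaurentSeries (IsLocalRing.ResidueField A)) = aeval (grRes A hA M hℓM x) p :=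
  (aeval_algHom_apply (rmiKappa A hA M hℓM).val (rmiRho A hA M hℓM x) p).symm

/-- **(SM) in the `rmiRho` spelling** from the conclusion of `smq_main`. -/
theorem rmj_SM (M : ℕ) [NeZero M] {ℓ : ℕ} [Fact ℓ.Prime] (hℓM : ¬ ℓ ∣ M)
    (A : ValuationSubring Qb) (hA : A.LiesOverPrime ℓ) (t : ↥(modularFunctionFieldBar M)) (n : ℕ)
    (hsmq : ∃ (htV : t ∈ grO A hA M hℓM) (b : Fin n → ↥(modularFunctionFieldBar M))
      (hb : ∀ i, b i ∈ grO A hA M hℓM),
      (∀ i, (((Polynomial.aeval t : Qb[X] →ₐ[Qb] ↥(modularFunctionFieldBar M)) :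
          Qb[X] →+* ↥(modularFunctionFieldBar M)).comp
            (Polynomial.mapRingHom A.subtype)).IsIntegralElem (b i)) ∧
      (∀ g : Fin n → (IsLocalRing.ResidueField A)[X],
        ∑ i, Polynomial.aeval (grRes A hA M hℓM ⟨t, htV⟩) (g i) *
          grRes A hA M hℓM ⟨b i, hb i⟩ = 0 → ∀ i, g i = 0) ∧
      (∀ y : ↥(grO A hA M hℓM),
        ((Polynomial.aeval (grRes A hA M hℓM ⟨t, htV⟩) :
          (IsLocalRing.ResidueField A)[X] →ₐ[IsLocalRing.ResidueField A]
            LaurentSeries (IsLocalRing.ResidueField A)) :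
          (IsLocalRing.ResidueField A)[X] →+*
            LaurentSeries (IsLocalRing.ResidueField A)).IsIntegralElem
              (grRes A hA M hℓM y) →
        ∃ g : Fin n → (IsLocalRing.ResidueField A)[X],
          grRes A hA M hℓM y = ∑ i, Polynomial.aeval (grRes A hA M hℓM ⟨t, htV⟩) (g i) *
            grRes A hA M hℓM ⟨b i, hb i⟩)) :
    ∃ htV : t ∈ grO A hA M hℓM,
      RmiSM A (grO A hA M hℓM) (rmiRho A hA M hℓM) t htV n := by
  obtain ⟨htV, b, hb, hint, hli, hspan⟩ := hsmq
  have hsum : ∀ g : Fin n → (IsLocalRing.ResidueField A)[X],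
      ((∑ i, aeval (rmiRho A hA M hℓM ⟨t, htV⟩) (g i) * rmiRho A hA M hℓM ⟨b i, hb i⟩ :
        ↥(rmiKappa A hA M hℓM)) : LaurentSeries (IsLocalRing.ResidueField A)) =
      ∑ i, aeval (grRes A hA M hℓM ⟨t, htV⟩) (g i) * grRes A hA M hℓM ⟨b i, hb i⟩ := by
    intro g
    rw [AddSubmonoidClass.coe_finsetSum]
    refine Finset.sum_congr rfl fun i _ => ?_
    rw [MulMemClass.coe_mul, rmj_coe_aeval, rmiRho_coe]
  refine ⟨htV, fun i => ⟨b i, hb i⟩, fun i => (rmiInt_iff A t (b i)).mpr (hint i), ?_, ?_⟩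
  · intro g hg
    apply hli g
    rw [← hsum g, hg]
    rfl
  · intro y hy
    obtain ⟨x, rfl⟩ := rmiRho_surjective A hA M hℓM y
    have hx : ((Polynomial.aeval (grRes A hA M hℓM ⟨t, htV⟩) :
        (IsLocalRing.ResidueField A)[X] →ₐ[IsLocalRing.ResidueField A]
          LaurentSeries (IsLocalRing.ResidueField A)) :
        (IsLocalRing.ResidueField A)[X] →+*
          LaurentSeries (IsLocalRing.ResidueField A)).IsIntegralElem
            (grRes A hA M hℓM x) := by
      obtain ⟨p, hp, hpx⟩ := hy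
      refine ⟨p, hp, ?_⟩
      have h1 := Polynomial.hom_eval₂ p
        ((aeval (rmiRho A hA M hℓM ⟨t, htV⟩) :
          (IsLocalRing.ResidueField A)[X] →ₐ[IsLocalRing.ResidueField A]
            ↥(rmiKappa A hA M hℓM)) :
          (IsLocalRing.ResidueField A)[X] →+* ↥(rmiKappa A hA M hℓM))
        ((rmiKappa A hA M hℓM).val : ↥(rmiKappa A hA M hℓM) →+*
          LaurentSeries (IsLocalRing.ResidueField A)) (rmiRho A hA M hℓM x)
      rw [hpx, map_zero] at h1
      have h2 : (((rmiKappa A hA M hℓM).val : ↥(rmiKappa A hA M hℓM) →+*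
          LaurentSeries (IsLocalRing.ResidueField A))).comp
          ((aeval (rmiRho A hA M hℓM ⟨t, htV⟩) :
            (IsLocalRing.ResidueField A)[X] →ₐ[IsLocalRing.ResidueField A]
              ↥(rmiKappa A hA M hℓM)) :
            (IsLocalRing.ResidueField A)[X] →+* ↥(rmiKappa A hA M hℓM)) =
          ((Polynomial.aeval (grRes A hA M hℓM ⟨t, htV⟩) :
            (IsLocalRing.ResidueField A)[X] →ₐ[IsLocalRing.ResidueField A]
              LaurentSeries (IsLocalRing.ResidueField A)) :
            (IsLocalRing.ResidueField A)[X] →+*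
              LaurentSeries (IsLocalRing.ResidueField A)) :=
        RingHom.ext fun q => rmj_coe_aeval A hA M hℓM ⟨t, htV⟩ q
      rw [h2] at h1
      exact h1.symm
    obtain ⟨g, hg⟩ := hspan x hx
    refine ⟨g, Subtype.ext ?_⟩
    rw [hsum g, ← hg]
    rfl

end Fermat.Agent.S37
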